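import Mathlib
import Fermat.Agent.H05_Frob

set_option autoImplicit false

/-!
# Valuations attached to places of `ℚ̄` and inertia
-/

namespace Fermat.Agent.H09

open scoped Pointwise
open Fermat.Agent.H05

section

variable {L : Type*} [Field L] [CharZero L]

theorem mem_of_smul_eq {A : ValuationSubring L} {σ : L ≃ₐ[ℚ] L} (hσ : σ • A = A) (z : L) :
    σ z ∈ A ↔ z ∈ A := by
  constructor
  · intro h
    rw [← hσ, ValuationSubring.mem_pointwise_smul_iff_inv_smul_mem] at h
    have : σ⁻¹ • σ z = z := by
      change σ⁻¹ (σ z) = z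
      exact σ.symm_apply_apply z
    rwa [this] at h
  · intro h
    rw [← hσ]
    exact ValuationSubring.smul_mem_pointwise_smul σ z A h

theorem val_le_iff {A : ValuationSubring L} {σ : L ≃ₐ[ℚ] L} (hσ : σ • A = A) (a b : L) :
    A.valuation (σ a) ≤ A.valuation (σ b) ↔ A.valuation a ≤ A.valuation b := by
  by_cases hb : b = 0
  · subst hb
    simp
  have hb' : σ b ≠ 0 := by simpa using hb
  have e1 : A.valuation (σ a) ≤ A.valuation (σ b) ↔ A.valuation (σ a / σ b) ≤ 1 := by
    rw [map_div₀]
    rw [div_le_one₀ (zero_lt_iff.mpr ((Valuation.ne_zero_iff _).mpr hb'))]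
  have e2 : A.valuation a ≤ A.valuation b ↔ A.valuation (a / b) ≤ 1 := by
    rw [map_div₀]
    rw [div_le_one₀ (zero_lt_iff.mpr ((Valuation.ne_zero_iff _).mpr hb))]
  rw [e1, e2, A.valuation_le_one_iff, A.valuation_le_one_iff, ← map_div₀, mem_of_smul_eq hσ]

/-- Elements of the decomposition group preserve the valuation. -/
theorem val_apply_eq [Algebra.IsAlgebraic ℚ L] {A : ValuationSubring L} {σ : L ≃ₐ[ℚ] L}
    (hσ : σ • A = A) (z : L) : A.valuation (σ z) = A.valuation z := by
  -- the orbit of z is finite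
  obtain ⟨n, hn, hz⟩ : ∃ n : ℕ, 0 < n ∧ (σ ^ n) z = z := by
    have hfin : (Set.range (fun n : ℕ => (σ ^ n) z)).Finite := by
      apply ((minpoly ℚ z).rootSet_finite L).subset
      rintro _ ⟨n, rfl⟩
      have hz : IsIntegral ℚ z := (Algebra.IsAlgebraic.isAlgebraic z).isIntegral
      rw [Polynomial.mem_rootSet_of_ne (minpoly.ne_zero hz)]
      change Polynomial.aeval ((σ ^ n) z) (minpoly ℚ z) = 0
      rw [Polynomial.aeval_algHom_apply (σ ^ n : L ≃ₐ[ℚ] L) z, minpoly.aeval, map_zero]
    have hninj : ¬ Function.Injective (fun n : ℕ => (σ ^ n) z) := by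
      intro hinj
      exact Set.infinite_range_of_injective hinj hfin
    rw [Function.Injective] at hninj
    push Not at hninj
    obtain ⟨i, j, hij, hne⟩ := hninj
    wlog hlt : i < j generalizing i j
    · exact this j i hij.symm (Ne.symm hne) (by omega)
    refine ⟨j - i, by omega, ?_⟩
    apply (σ ^ i).injective
    have : (σ ^ i) ((σ ^ (j - i)) z) = (σ ^ j) z := by
      rw [← AlgEquiv.mul_apply, ← pow_add, show i + (j - i) = j by omega]
    rw [this]
    exact hij.symm
  rcases lt_trichotomy (A.valuation (σ z)) (A.valuation z) with h | h | h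
  · exfalso
    have hmono : ∀ k : ℕ, A.valuation ((σ ^ (k + 1)) z) < A.valuation z := by
      intro k
      induction k with
      | zero => simpa using h
      | succ k ih =>
        have h1 : A.valuation (σ ((σ ^ (k + 1)) z)) < A.valuation (σ z) := by
          rw [← not_le, val_le_iff hσ, not_le]
          exact ih
        rw [pow_succ', AlgEquiv.mul_apply]
        exact h1.trans h
    have := hmono (n - 1)
    rw [show n - 1 + 1 = n by omega, hz] at this
    exact lt_irrefl _ this
  · exact h
  · exfalso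
    have hmono : ∀ k : ℕ, A.valuation z < A.valuation ((σ ^ (k + 1)) z) := by
      intro k
      induction k with
      | zero => simpa using h
      | succ k ih =>
        have h1 : A.valuation (σ z) < A.valuation (σ ((σ ^ (k + 1)) z)) := by
          rw [← not_le, val_le_iff hσ, not_le]
          exact ih
        rw [pow_succ', AlgEquiv.mul_apply]
        exact h.trans h1
    have := hmono (n - 1)
    rw [show n - 1 + 1 = n by omega, hz] at this
    exact lt_irrefl _ this

theorem smul_eq_of_inertia {A : ValuationSubring L} {σ : L ≃ₐ[ℚ] L}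
    (hσ : σ ∈ A.inertiaSubgroupIn ℚ) : σ • A = A :=
  ((mem_inertiaSubgroupIn_iff A σ).mp hσ).1

theorem val_sub_lt_one_of_inertia {A : ValuationSubring L} {σ : L ≃ₐ[ℚ] L}
    (hσ : σ ∈ A.inertiaSubgroupIn ℚ) {z : L} (hz : A.valuation z ≤ 1) :
    A.valuation (σ z - z) < 1 := by
  obtain ⟨h1, h2⟩ := (mem_inertiaSubgroupIn_iff A σ).mp hσ
  rw [A.valuation_le_one_iff] at hz
  have h3 := h2 (IsLocalRing.residue A ⟨z, hz⟩)
  have h4 : IsLocalRing.residue A (⟨σ z, (mem_of_smul_eq h1 z).mpr hz⟩ : A) =
      IsLocalRing.residue A ⟨z, hz⟩ := h3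
  rw [← sub_eq_zero, ← map_sub, IsLocalRing.residue_eq_zero_iff] at h4
  have h5 := (ValuationSubring.valuation_lt_one_iff A _).mp h4
  exact h5

theorem val_natCast_lt_one {A : ValuationSubring L} {p : ℕ} (hA : A.LiesOverPrime p) :
    A.valuation (p : L) < 1 := by
  have : (p : L) ∈ A.nonunits := hA
  rwa [ValuationSubring.mem_nonunits_iff] at this

theorem val_intCast_le_one (A : ValuationSubring L) (c : ℤ) : A.valuation (c : L) ≤ 1 := by
  rw [A.valuation_le_one_iff]
  exact intCast_mem A c

theorem val_intCast_eq_one {A : ValuationSubring L} {p : ℕ} (hp : p.Prime)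
    (hA : A.LiesOverPrime p) {c : ℤ} (hc : ¬ (p : ℤ) ∣ c) : A.valuation (c : L) = 1 := by
  have h := natCast_not_mem_nonunits hp hA hc
  rw [ValuationSubring.mem_nonunits_iff, not_lt] at h
  exact le_antisymm (val_intCast_le_one A c) h

theorem val_intCast_lt_one {A : ValuationSubring L} {p : ℕ}
    (hA : A.LiesOverPrime p) {c : ℤ} (hc : (p : ℤ) ∣ c) : A.valuation (c : L) < 1 := by
  obtain ⟨d, rfl⟩ := hc
  push_cast
  rw [map_mul]
  exact mul_lt_one_of_lt_of_le (val_natCast_lt_one hA) (val_intCast_le_one A d)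

theorem val_intCast_lt_one_iff {A : ValuationSubring L} {p : ℕ} (hp : p.Prime)
    (hA : A.LiesOverPrime p) {c : ℤ} : A.valuation (c : L) < 1 ↔ (p : ℤ) ∣ c := by
  constructor
  · intro h
    by_contra hc
    rw [val_intCast_eq_one hp hA hc] at h
    exact lt_irrefl _ h
  · exact val_intCast_lt_one hA

end

end Fermat.Agent.H09
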