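import Mathlib
import Fermat.Agent.H08.Congruence

set_option autoImplicit false

/-!
# Points near a node

`W : y² + a₁xy = x³ + a₂x² + a₆` (i.e. `a₃ = a₄ = 0`) over a valued field, with `v a₆ < 1`:
the reduction is singular at the origin.  Write `u = y - αx`, `w = y - βx` with
`α + β = -a₁`, `αβ = -a₂`.  If two points `P, P'` reduce to the node and `v u = v u'`,
`v w = v w'`, then `P' - P` does not reduce to the node.
-/

namespace Fermat.Agent.H09

open WeierstrassCurve WeierstrassCurve.Affine WeierstrassCurve.Affine.Point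
open Fermat.Agent.H08

universe u w

variable {F : Type u} [Field F] {Γ₀ : Type w} [LinearOrderedCommGroupWithZero Γ₀]

/-- `P` does not reduce to a point with `x = 0`. -/
def InE0 (v : Valuation F Γ₀) {W : WeierstrassCurve.Affine F} (P : W.Point) : Prop :=
  P = 0 ∨ 1 ≤ v (px P)

section

variable {v : Valuation F Γ₀} {W : WeierstrassCurve.Affine F}

theorem InE0.zero : InE0 v (0 : W.Point) := Or.inl rfl

theorem InE0.neg {P : W.Point} (h : InE0 v P) : InE0 v (-P) := by
  rcases h with rfl | h
  · exact Or.inl neg_zero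
  · exact Or.inr (by rwa [px_neg])

theorem InE1.inE0 {P : W.Point} (h : InE1 v P) : InE0 v P := by
  rcases h with rfl | h
  · exact InE0.zero
  · exact Or.inr h.le

theorem InE0.px_ne {P : W.Point} (h : InE0 v P) (hP : P ≠ 0) : px P ≠ 0 := by
  rcases h with rfl | h
  · exact absurd rfl hP
  · intro h0
    rw [h0, _root_.map_zero] at h
    exact absurd h (by simp)

theorem InE0.v_inv_le {P : W.Point} (h : InE0 v P) : v ((px P)⁻¹) ≤ 1 := by
  rcases h with rfl | h
  · simp
  · rw [map_inv₀]
    exact inv_le_one_of_one_le₀ h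

theorem inE0_of_v_inv_le {P : W.Point} (h0 : P ≠ 0 → px P ≠ 0) (h : v ((px P)⁻¹) ≤ 1) :
    InE0 v P := by
  by_cases hP : P = 0
  · exact Or.inl hP
  · right
    have hx := h0 hP
    rw [map_inv₀] at h
    have hv : v (px P) ≠ 0 := (Valuation.ne_zero_iff v).mpr hx
    exact (inv_le_one₀ (zero_lt_iff.mpr hv)).mp h

/-- if sum and product of two elements are integral, so is each -/
theorem v_le_one_of_sum_prod {x y : F} (hs : v (x + y) ≤ 1) (hp : v (x * y) ≤ 1) : v x ≤ 1 := by
  by_contra hx
  push Not at hx
  have hx0 : x ≠ 0 := fun h => by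
    rw [h, _root_.map_zero] at hx; exact absurd hx (by simp)
  have hxi : v x⁻¹ < 1 := by rw [map_inv₀]; exact inv_lt_one_of_one_lt₀ hx
  have h1 : v ((x + y) - x * y * x⁻¹) ≤ 1 :=
    v_sub_le_one hs (v_mul_le_one hp hxi.le)
  have h2 : (x + y) - x * y * x⁻¹ = x := by field_simp; ring
  rw [h2] at h1
  exact absurd hx (not_lt.mpr h1)

end

section

variable [DecidableEq F] {v : Valuation F Γ₀} {W : WeierstrassCurve.Affine F}

/-- If the reduction is singular at `x = 0`, then `E₀` is closed under addition. -/
theorem InE0.add (hW : IsIntegralFor v W) (h4 : v W.b₄ < 1) (h6 : v W.b₆ < 1) (h8 : v W.b₈ < 1)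
    {P Q : W.Point} (hP : InE0 v P) (hQ : InE0 v Q) : InE0 v (P + Q) := by
  have g1 := hP.v_inv_le
  have g2 := hQ.v_inv_le
  set γ := (px P)⁻¹ with hγ
  set η := (px Q)⁻¹ with hη
  have hD : v (DD W γ η) = 1 := by
    have e : DD W γ η = 1 - (W.b₄ * (γ * η) + W.b₆ * (γ * η * (γ + η)) +
        W.b₈ * (γ ^ 2 * η ^ 2)) := by
      simp only [DD]; ring
    rw [e]
    apply v_one_sub
    have h12 : v (γ * η) ≤ 1 := v_mul_le_one g1 g2
    refine v_add_lt_one (v_add_lt_one ?_ ?_) ?_
    · exact v_mul_lt_one_left h4 h12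
    · exact v_mul_lt_one_left h6 (v_mul_le_one h12 (v_add_le_one g1 g2))
    · exact v_mul_lt_one_left h8 (v_mul_le_one (v_pow_le_one g1 2) (v_pow_le_one g2 2))
  have hD0 : DD W γ η ≠ 0 := by
    intro h; rw [h, _root_.map_zero] at hD; exact zero_ne_one hD
  obtain ⟨h1, h2, h3⟩ := uniform_formula hP.px_ne hQ.px_ne hD0
  apply inE0_of_v_inv_le h1
  apply v_le_one_of_sum_prod (y := (px (P - Q))⁻¹)
  · have hN : v (NN W γ η) ≤ 1 := by
      simp only [NN]
      refine v_add_le_one (v_add_le_one (v_add_le_one ?_ ?_) ?_) ?_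
      · exact v_mul_le_one (v_ofNat_le_one v 2) (v_add_le_one g1 g2)
      · exact v_mul_le_one hW.b₂ (v_mul_le_one g1 g2)
      · exact v_mul_le_one h4.le (v_mul_le_one (v_mul_le_one g1 g2) (v_add_le_one g1 g2))
      · exact v_mul_le_one h6.le (v_mul_le_one (v_pow_le_one g1 2) (v_pow_le_one g2 2))
    rw [← h2, map_mul, hD, mul_one] at hN
    exact hN
  · have : v ((γ - η) ^ 2) ≤ 1 := v_pow_le_one (v_sub_le_one g1 g2) 2
    rw [← h3, map_mul, hD, mul_one] at this
    exact this

theorem InE0.nsmul (hW : IsIntegralFor v W) (h4 : v W.b₄ < 1) (h6 : v W.b₆ < 1)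
    (h8 : v W.b₈ < 1) {P : W.Point} (hP : InE0 v P) (n : ℕ) : InE0 v (n • P) := by
  induction n with
  | zero => rw [zero_smul]; exact InE0.zero
  | succ n ih => rw [succ_nsmul]; exact ih.add hW h4 h6 h8 hP

/-- Data of the two tangent directions at the node `(0,0)` -/
structure NodeSlopes (v : Valuation F Γ₀) (W : WeierstrassCurve.Affine F) (α β : F) : Prop where
  a₃ : W.a₃ = 0
  a₄ : W.a₄ = 0
  a₆ : W.a₆ ≠ 0
  sum : α + β = -W.a₁
  prod : α * β = -W.a₂
  diff : v (β - α) = 1
  hα : v α ≤ 1
  hβ : v β ≤ 1

omit [DecidableEq F] in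
theorem NodeSlopes.mul_eq {α β : F} (h : NodeSlopes v W α β) {P : W.Point} (hP : P ≠ 0) :
    (py P - α * px P) * (py P - β * px P) = px P ^ 3 + W.a₆ := by
  have e := eqn_of_ne_zero hP
  rw [h.a₃, h.a₄] at e
  linear_combination e - px P * py P * h.sum + px P ^ 2 * h.prod

/-- **Component lemma.** -/
theorem component_lemma {α β : F} (h : NodeSlopes v W α β) {P P' : W.Point} (hP : P ≠ 0)
    (hP' : P' ≠ 0) (hx : v (px P) < 1) (hy : v (py P) < 1) (hx' : v (px P') < 1)
    (hu : v (py P' - α * px P') = v (py P - α * px P))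
    (hw : v (py P' - β * px P') = v (py P - β * px P)) : InE0 v (P' - P) := by
  set x := px P with hxdef
  set y := py P with hydef
  set x' := px P' with hxdef'
  set y' := py P' with hydef'
  set δ := β - α with hδ
  set u := y - α * x with hudef
  set w := y - β * x with hwdef
  set u' := y' - α * x' with hudef'
  set w' := y' - β * x' with hwdef'
  have huw : u * w = x ^ 3 + W.a₆ := h.mul_eq hP
  have huw' : u' * w' = x' ^ 3 + W.a₆ := h.mul_eq hP'
  have hδ1 : v δ = 1 := h.diff
  have hδ0 : δ ≠ 0 := by
    intro h0; rw [h0, _root_.map_zero] at hδ1; exact zero_ne_one hδ1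
  have ex : δ * x = u - w := by simp only [hδ, hudef, hwdef]; ring
  have ex' : δ * x' = u' - w' := by simp only [hδ, hudef', hwdef']; ring
  -- the maximum of `v u`, `v w`
  obtain ⟨m, hm⟩ : ∃ m, m = max (v u) (v w) := ⟨_, rfl⟩
  have hum : v u ≤ m := hm ▸ le_max_left _ _
  have hwm : v w ≤ m := hm ▸ le_max_right _ _
  have hvx : v x ≤ m := by
    have : v (δ * x) ≤ m := by rw [ex]; exact v.map_sub_le hum hwm
    rwa [map_mul, hδ1, one_mul] at this
  have hvx' : v x' ≤ m := by
    have : v (δ * x') ≤ m := by rw [ex']; exact v.map_sub_le (hu ▸ hum) (hw ▸ hwm)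
    rwa [map_mul, hδ1, one_mul] at this
  have hm1 : m < 1 := by
    rw [hm]
    apply max_lt
    · exact v_sub_lt_one hy (v_mul_lt_one_right h.hα hx)
    · exact v_sub_lt_one hy (v_mul_lt_one_right h.hβ hx)
  have hm0 : 0 < m := by
    rw [zero_lt_iff]
    intro h0
    rw [h0] at hum hwm hvx
    have hu0 : u = 0 := (Valuation.zero_iff v).mp (le_antisymm hum zero_le)
    have hx0 : x = 0 := (Valuation.zero_iff v).mp (le_antisymm hvx zero_le)
    rw [hu0, hx0] at huw
    exact h.a₆ (by linear_combination -huw)
  have hmm : m * m < m := by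
    calc m * m < 1 * m := by
          exact mul_lt_mul_of_pos_right hm1 hm0
      _ = m := one_mul m
  have hsq : ∀ a b : F, v a ≤ m → v b ≤ m → v (a * b) < m := by
    intro a b ha hb
    rw [map_mul]
    exact (mul_le_mul' ha hb).trans_lt hmm
  by_cases hxx : x = x'
  · -- P' = ± P
    rcases (px_eq_iff hP' hP).mp hxx.symm with hPP | hPP
    · rw [hPP, sub_self]; exact InE0.zero
    · rw [hPP]
      have : -P - P = -(P + P) := by abel
      rw [this]
      apply InE0.neg
      by_cases h2 : P + P = 0
      · exact Or.inl h2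
      right
      have hd := px_double hP h2
      -- v u = v w = m
      have hy'' : y' = -y - W.a₁ * x := by
        rw [hydef', hPP, py_neg hP, h.a₃]; ring
      have hu'w : u' = -w := by
        rw [hudef', hwdef, hy'', ← hxx]
        linear_combination (-x) * h.sum
      have hvuw : v u = v w := by
        rw [← hu, hu'w, Valuation.map_neg]
      have hvu : v u = m := by rw [hm, hvuw, max_self]
      have hvw : v w = m := by rw [← hvuw, hvu]
      have hsum : v (u + w) ≤ m := v.map_add_le hum hwm
      have hsm : u + w = 2 * y + W.a₁ * x := by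
        simp only [hudef, hwdef]; linear_combination (-x) * h.sum
      have hp : (u + w) ^ 2 = 4 * x ^ 3 + (W.a₁ ^ 2 + 4 * W.a₂) * x ^ 2 + 4 * W.a₆ := by
        have e := eqn_of_ne_zero hP
        rw [h.a₃, h.a₄, ← hxdef, ← hydef] at e
        rw [hsm]
        linear_combination 4 * e
      have hb2 : δ ^ 2 = W.a₁ ^ 2 + 4 * W.a₂ := by
        simp only [hδ]
        linear_combination (α + β - W.a₁) * h.sum - 4 * h.prod
      have e1 : px (P + P) * (u + w) ^ 2 =
          (3 * x ^ 2 + δ * u) * (3 * x ^ 2 - δ * w) - 2 * x * (u + w) ^ 2 := by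
        have hpsi : 4 * px P ^ 3 + W.b₂ * px P ^ 2 + 2 * W.b₄ * px P + W.b₆ = (u + w) ^ 2 := by
          simp only [b₂, b₄, b₆, h.a₃, h.a₄]
          rw [← hxdef, hp]
          ring
        rw [hpsi] at hd
        rw [hd]
        simp only [b₄, b₆, b₈, h.a₃, h.a₄]
        rw [← hxdef]
        linear_combination 3 * x ^ 2 * δ * ex + δ ^ 2 * huw + 2 * x * hp +
          (W.a₆ - 2 * x ^ 3) * hb2
      have v3 : v (3 * x ^ 2) < m := by
        rw [map_mul, sq]
        calc v 3 * v (x * x) ≤ 1 * v (x * x) := mul_le_mul_left (v_ofNat_le_one v 3) _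
          _ = v (x * x) := one_mul _
          _ < m := hsq x x hvx hvx
      have va : v (3 * x ^ 2 + δ * u) = m := by
        have e : v (δ * u) = m := by rw [map_mul, hδ1, one_mul, hvu]
        rw [v.map_add_eq_of_lt_right (by rw [e]; exact v3), e]
      have vb : v (3 * x ^ 2 - δ * w) = m := by
        have e : v (δ * w) = m := by rw [map_mul, hδ1, one_mul, hvw]
        rw [v.map_sub_eq_of_lt_right (by rw [e]; exact v3), e]
      have vsq : v ((u + w) ^ 2) ≤ m * m := by
        rw [map_pow, sq]; exact mul_le_mul' hsum hsum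
      have vmain : v (px (P + P) * (u + w) ^ 2) = m * m := by
        rw [e1]
        have e : v ((3 * x ^ 2 + δ * u) * (3 * x ^ 2 - δ * w)) = m * m := by
          rw [map_mul, va, vb]
        rw [v.map_sub_eq_of_lt_left, e]
        rw [e]
        have : v (2 * x) < 1 := v_mul_lt_one_right (v_ofNat_le_one v 2) hx
        rw [map_mul]
        calc v (2 * x) * v ((u + w) ^ 2) ≤ v (2 * x) * (m * m) := mul_le_mul_right vsq _
          _ < 1 * (m * m) := mul_lt_mul_of_pos_right this (mul_pos hm0 hm0)
          _ = m * m := one_mul _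
      rw [map_mul] at vmain
      by_contra hc
      push Not at hc
      have : v (px (P + P)) * v ((u + w) ^ 2) < m * m := by
        calc v (px (P + P)) * v ((u + w) ^ 2) ≤ v (px (P + P)) * (m * m) :=
              mul_le_mul_right vsq _
          _ < 1 * (m * m) := mul_lt_mul_of_pos_right hc (mul_pos hm0 hm0)
          _ = m * m := one_mul _
      exact absurd vmain (ne_of_lt this)
  · -- P' ≠ ± P
    have hne : px P' ≠ px P := fun e => hxx e.symm
    obtain ⟨ℓ, hℓ, hpx⟩ := px_sub_of_px_ne hP' hP hne
    rw [← hxdef, ← hxdef'] at hℓ hpx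
    rw [← hydef, ← hydef', h.a₃] at hℓ
    set S := u' + w with hS
    set R := u + w' with hR
    have hSR : δ * (x' - x) = S - R := by rw [mul_sub, ex, ex']; ring
    set g := x ^ 2 + x * x' + x' ^ 2 with hg
    have r1 : S * (δ * u + g) = R * (δ * u' + g) := by
      have : S * u - R * u' = (x - x') * g := by
        simp only [hS, hR, hg]
        linear_combination huw - huw'
      linear_combination δ * this + g * hSR
    have r2 : S * (δ * w' - g) = R * (δ * w - g) := by
      have : S * w' - R * w = (x' - x) * g := by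
        simp only [hS, hR, hg]
        linear_combination huw' - huw
      linear_combination δ * this - g * hSR
    have vg : v g < m :=
      v.map_add_lt (v.map_add_lt (by rw [sq]; exact hsq x x hvx hvx) (hsq x x' hvx hvx'))
        (by rw [sq]; exact hsq x' x' hvx' hvx')
    have hvSR : v S = v R := by
      rcases le_total (v w) (v u) with hcase | hcase
      · have hvu : v u = m := by rw [hm, max_eq_left hcase]
        have e1 : v (δ * u + g) = m := by
          have e : v (δ * u) = m := by rw [map_mul, hδ1, one_mul, hvu]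
          rw [v.map_add_eq_of_lt_left (by rw [e]; exact vg), e]
        have e2 : v (δ * u' + g) = m := by
          have e : v (δ * u') = m := by rw [map_mul, hδ1, one_mul, hu, hvu]
          rw [v.map_add_eq_of_lt_left (by rw [e]; exact vg), e]
        have := congrArg v r1
        rw [map_mul, map_mul, e1, e2] at this
        exact mul_right_cancel₀ hm0.ne' this
      · have hvw : v w = m := by rw [hm, max_eq_right hcase]
        have e1 : v (δ * w - g) = m := by
          have e : v (δ * w) = m := by rw [map_mul, hδ1, one_mul, hvw]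
          rw [v.map_sub_eq_of_lt_left (by rw [e]; exact vg), e]
        have e2 : v (δ * w' - g) = m := by
          have e : v (δ * w') = m := by rw [map_mul, hδ1, one_mul, hw, hvw]
          rw [v.map_sub_eq_of_lt_left (by rw [e]; exact vg), e]
        have := congrArg v r2
        rw [map_mul, map_mul, e1, e2] at this
        exact mul_right_cancel₀ hm0.ne' this
    have hd0 : x' - x ≠ 0 := sub_ne_zero.mpr (fun e => hxx e.symm)
    have hS0 : v S ≠ 0 := by
      intro h0
      have hR0 : v R = 0 := by rw [← hvSR, h0]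
      rw [Valuation.zero_iff] at h0 hR0
      rw [h0, hR0, sub_zero] at hSR
      exact hd0 ((mul_eq_zero.mp hSR).resolve_left hδ0)
    have hvd : v (x' - x) ≤ v S := by
      have : v (δ * (x' - x)) ≤ v S := by
        rw [hSR]
        exact v.map_sub_le le_rfl hvSR.ge
      rwa [map_mul, hδ1, one_mul] at this
    have hmain : px (P' - P) * (x' - x) ^ 2 = S * R - (x + x') * (x' - x) ^ 2 := by
      rw [hpx]
      have hS' : S = (ℓ - α) * (x' - x) := by
        simp only [hS, hudef', hwdef]
        linear_combination (-1 : F) * hℓ - x * h.sum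
      have hR' : R = (ℓ - β) * (x' - x) := by
        simp only [hR, hudef, hwdef']
        linear_combination (-1 : F) * hℓ - x * h.sum
      rw [hS', hR']
      linear_combination (x' - x) ^ 2 * (ℓ * h.sum - h.prod)
    right
    have vSS : 0 < v S * v S := mul_pos (zero_lt_iff.mpr hS0) (zero_lt_iff.mpr hS0)
    have vsq : v ((x' - x) ^ 2) ≤ v S * v S := by
      rw [map_pow, sq]; exact mul_le_mul' hvd hvd
    have vmain : v (px (P' - P) * (x' - x) ^ 2) = v S * v S := by
      rw [hmain]
      have e : v (S * R) = v S * v S := by rw [map_mul, ← hvSR]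
      rw [v.map_sub_eq_of_lt_left, e]
      rw [e, map_mul]
      have : v (x + x') < 1 := v_add_lt_one hx hx'
      calc v (x + x') * v ((x' - x) ^ 2) ≤ v (x + x') * (v S * v S) := mul_le_mul_right vsq _
        _ < 1 * (v S * v S) := mul_lt_mul_of_pos_right this vSS
        _ = v S * v S := one_mul _
    rw [map_mul] at vmain
    by_contra hc
    push Not at hc
    have : v (px (P' - P)) * v ((x' - x) ^ 2) < v S * v S := by
      calc v (px (P' - P)) * v ((x' - x) ^ 2) ≤ v (px (P' - P)) * (v S * v S) :=
            mul_le_mul_right vsq _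
        _ < 1 * (v S * v S) := mul_lt_mul_of_pos_right hc vSS
        _ = v S * v S := one_mul _
    exact absurd vmain (ne_of_lt this)

end

end Fermat.Agent.H09
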