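import Mathlib
import Fermat.Agent.H08.Kummer

set_option autoImplicit false

/-!
# Translation of Weierstrass equations
-/

namespace Fermat.Agent.H09

open WeierstrassCurve WeierstrassCurve.Affine WeierstrassCurve.Affine.Point
open Fermat.Agent.H08

universe u

variable {F : Type u} [Field F]

/-- The curve obtained by `x = x' + r`, `y = y' + t`. -/
def shiftCurve (W : WeierstrassCurve.Affine F) (r t : F) : WeierstrassCurve.Affine F where
  a₁ := W.a₁
  a₂ := W.a₂ + 3 * r
  a₃ := W.a₃ + r * W.a₁ + 2 * t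
  a₄ := W.a₄ + 2 * r * W.a₂ - t * W.a₁ + 3 * r ^ 2
  a₆ := W.a₆ + r * W.a₄ + r ^ 2 * W.a₂ + r ^ 3 - t * W.a₃ - t ^ 2 - r * t * W.a₁

section

variable {W : WeierstrassCurve.Affine F} {r t : F}

theorem shift_equation {x y : F} :
    (shiftCurve W r t).Equation (x - r) (y - t) ↔ W.Equation x y := by
  rw [equation_iff', equation_iff']
  simp only [shiftCurve]
  constructor
  · intro h
    rw [← h]; ring
  · intro h
    rw [← h]; ring

theorem shift_nonsingular {x y : F} :
    (shiftCurve W r t).Nonsingular (x - r) (y - t) ↔ W.Nonsingular x y := by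
  rw [nonsingular_iff', nonsingular_iff', shift_equation]
  simp only [shiftCurve]
  have e1 : W.a₁ * (y - t) - (3 * (x - r) ^ 2 + 2 * (W.a₂ + 3 * r) * (x - r) +
      (W.a₄ + 2 * r * W.a₂ - t * W.a₁ + 3 * r ^ 2)) =
      W.a₁ * y - (3 * x ^ 2 + 2 * W.a₂ * x + W.a₄) := by ring
  have e2 : 2 * (y - t) + W.a₁ * (x - r) + (W.a₃ + r * W.a₁ + 2 * t) =
      2 * y + W.a₁ * x + W.a₃ := by ring
  rw [e1, e2]

theorem shift_negY (x y : F) :
    (shiftCurve W r t).negY (x - r) (y - t) = W.negY x y - t := by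
  simp only [negY, shiftCurve]; ring

theorem shift_slope [DecidableEq F] (x₁ x₂ y₁ y₂ : F) :
    (shiftCurve W r t).slope (x₁ - r) (x₂ - r) (y₁ - t) (y₂ - t) = W.slope x₁ x₂ y₁ y₂ := by
  rw [Affine.slope, Affine.slope, shift_negY, shift_negY]
  have e1 : (x₁ - r = x₂ - r) = (x₁ = x₂) := by rw [sub_left_inj]
  have e2 : (y₁ - t = W.negY x₂ y₂ - t) = (y₁ = W.negY x₂ y₂) := by rw [sub_left_inj]
  simp only [e1, e2]
  have e3 : 3 * (x₁ - r) ^ 2 + 2 * (shiftCurve W r t).a₂ * (x₁ - r) + (shiftCurve W r t).a₄ -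
      (shiftCurve W r t).a₁ * (y₁ - t) = 3 * x₁ ^ 2 + 2 * W.a₂ * x₁ + W.a₄ - W.a₁ * y₁ := by
    simp only [shiftCurve]; ring
  rw [e3, sub_sub_sub_cancel_right, sub_sub_sub_cancel_right, sub_sub_sub_cancel_right]

theorem shift_addX (x₁ x₂ ℓ : F) :
    (shiftCurve W r t).addX (x₁ - r) (x₂ - r) ℓ = W.addX x₁ x₂ ℓ - r := by
  simp only [addX, shiftCurve]; ring

theorem shift_addY (x₁ x₂ y₁ ℓ : F) :
    (shiftCurve W r t).addY (x₁ - r) (x₂ - r) (y₁ - t) ℓ = W.addY x₁ x₂ y₁ ℓ - t := by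
  rw [addY, addY, shift_addX]
  have : (shiftCurve W r t).negAddY (x₁ - r) (x₂ - r) (y₁ - t) ℓ =
      W.negAddY x₁ x₂ y₁ ℓ - t := by
    rw [negAddY, negAddY, shift_addX]; ring
  rw [this, shift_negY]

/-- The map on points induced by translation. -/
def shiftPt (W : WeierstrassCurve.Affine F) (r t : F) : W.Point → (shiftCurve W r t).Point
  | .zero => .zero
  | .some x y h => .some (x - r) (y - t) (shift_nonsingular.mpr h)

@[simp] theorem shiftPt_zero : shiftPt W r t 0 = 0 := rfl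

@[simp] theorem shiftPt_some {x y : F} (h : W.Nonsingular x y) :
    shiftPt W r t (.some x y h) = .some (x - r) (y - t) (shift_nonsingular.mpr h) := rfl

theorem shiftPt_eq_zero {P : W.Point} : shiftPt W r t P = 0 ↔ P = 0 := by
  rcases P with _ | ⟨x, y, h⟩
  · exact ⟨fun _ => rfl, fun _ => rfl⟩
  · constructor
    · intro h'; exact absurd h' (some_ne_zero _)
    · intro h'; exact absurd h' (some_ne_zero _)

theorem px_shiftPt {P : W.Point} (hP : P ≠ 0) : px (shiftPt W r t P) = px P - r := by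
  rcases P with _ | ⟨x, y, h⟩
  · exact absurd rfl hP
  · rfl

theorem py_shiftPt {P : W.Point} (hP : P ≠ 0) : py (shiftPt W r t P) = py P - t := by
  rcases P with _ | ⟨x, y, h⟩
  · exact absurd rfl hP
  · rfl

theorem shiftPt_add [DecidableEq F] (P Q : W.Point) :
    shiftPt W r t (P + Q) = shiftPt W r t P + shiftPt W r t Q := by
  rcases P with _ | ⟨x₁, y₁, h₁⟩
  · change shiftPt W r t (0 + Q) = 0 + shiftPt W r t Q
    rw [zero_add, zero_add]
  rcases Q with _ | ⟨x₂, y₂, h₂⟩
  · change shiftPt W r t (_ + 0) = _ + 0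
    rw [add_zero, add_zero]
  by_cases hxy : x₁ = x₂ ∧ y₁ = W.negY x₂ y₂
  · rw [add_of_Y_eq hxy.1 hxy.2, shiftPt_zero, shiftPt_some, shiftPt_some,
      add_of_Y_eq (by rw [hxy.1]) (by rw [shift_negY, ← hxy.2])]
  · have hxy' : ¬(x₁ - r = x₂ - r ∧ y₁ - t = (shiftCurve W r t).negY (x₂ - r) (y₂ - t)) := by
      rw [shift_negY, sub_left_inj, sub_left_inj]
      exact hxy
    rw [add_some hxy, shiftPt_some, shiftPt_some, shiftPt_some, add_some hxy']
    simp only [some.injEq]
    constructor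
    · rw [shift_slope, shift_addX]
    · rw [shift_slope, shift_addY]

/-- Translation as a group homomorphism. -/
def shiftHom [DecidableEq F] (W : WeierstrassCurve.Affine F) (r t : F) :
    W.Point →+ (shiftCurve W r t).Point where
  toFun := shiftPt W r t
  map_zero' := rfl
  map_add' := shiftPt_add

@[simp] theorem shiftHom_apply [DecidableEq F] (P : W.Point) :
    shiftHom W r t P = shiftPt W r t P := rfl

end

end Fermat.Agent.H09
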