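import Mathlib
import Fermat.Agent.H09.Node
import Fermat.Agent.H09.Shift
import Fermat.Agent.H09.Inertia
import Fermat.Prelude.Def_FLTPrelim_GaloisRep

set_option autoImplicit false

/-!
# Multiplicative reduction: `σ P - P ∈ E₀` for inertia
-/

namespace Fermat.Agent.H09

open WeierstrassCurve WeierstrassCurve.Affine WeierstrassCurve.Affine.Point
open Fermat.Agent.H08

universe u w

section

variable {F : Type u} [Field F] {Γ₀ : Type w} [LinearOrderedCommGroupWithZero Γ₀]

/-- exact node data for a curve with multiplicative reduction -/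
structure NodeData (v : Valuation F Γ₀) (W : WeierstrassCurve.Affine F) (r t α β : F) : Prop where
  int : IsIntegralFor v W
  hr : v r ≤ 1
  ht : v t ≤ 1
  slopes : NodeSlopes v (shiftCurve W r t) α β
  a₆ : v (shiftCurve W r t).a₆ < 1

variable {v : Valuation F Γ₀} {W : WeierstrassCurve.Affine F} {r t α β : F}

theorem NodeData.int_shift (h : NodeData v W r t α β) : IsIntegralFor v (shiftCurve W r t) where
  h₁ := h.int.h₁
  h₂ := by
    simp only [shiftCurve]
    exact v_add_le_one h.int.h₂ (v_mul_le_one (v_ofNat_le_one v 3) h.hr)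
  h₃ := by rw [h.slopes.a₃, _root_.map_zero]; exact zero_le_one
  h₄ := by rw [h.slopes.a₄, _root_.map_zero]; exact zero_le_one
  h₆ := h.a₆.le

theorem NodeData.b₄ (h : NodeData v W r t α β) : v (shiftCurve W r t).b₄ < 1 := by
  rw [WeierstrassCurve.b₄, h.slopes.a₃, h.slopes.a₄]
  simp

theorem NodeData.b₆ (h : NodeData v W r t α β) : v (shiftCurve W r t).b₆ < 1 := by
  rw [WeierstrassCurve.b₆, h.slopes.a₃]
  have : (0 : F) ^ 2 + 4 * (shiftCurve W r t).a₆ = 4 * (shiftCurve W r t).a₆ := by ring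
  rw [this]
  exact v_mul_lt_one_right (v_ofNat_le_one v 4) h.a₆

theorem NodeData.b₈ (h : NodeData v W r t α β) : v (shiftCurve W r t).b₈ < 1 := by
  rw [WeierstrassCurve.b₈, h.slopes.a₃, h.slopes.a₄]
  have : (shiftCurve W r t).a₁ ^ 2 * (shiftCurve W r t).a₆ +
      4 * (shiftCurve W r t).a₂ * (shiftCurve W r t).a₆ -
      (shiftCurve W r t).a₁ * 0 * 0 + (shiftCurve W r t).a₂ * 0 ^ 2 - 0 ^ 2 =
      (shiftCurve W r t).b₂ * (shiftCurve W r t).a₆ := by
    rw [WeierstrassCurve.b₂]; ring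
  rw [this]
  exact v_mul_lt_one_right h.int_shift.b₂ h.a₆

/-- `P ∈ E₀`: the point does not reduce to the node. -/
def NodeE0 (v : Valuation F Γ₀) (r t : F) (P : W.Point) : Prop := InE0 v (shiftPt W r t P)

theorem nodeE0_iff {P : W.Point} (hP : P ≠ 0) : NodeE0 v r t P ↔ 1 ≤ v (px P - r) := by
  unfold NodeE0 InE0
  rw [px_shiftPt hP]
  constructor
  · rintro (h | h)
    · exact absurd (shiftPt_eq_zero.mp h) hP
    · exact h
  · exact Or.inr

theorem NodeE0.zero : NodeE0 v r t (0 : W.Point) := InE0.zero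

theorem NodeE0.neg {P : W.Point} (hP : NodeE0 v r t P) : NodeE0 v r t (-P) := by
  by_cases h0 : P = 0
  · subst h0; rw [Point.neg_zero]; exact NodeE0.zero
  · have h0' : -P ≠ 0 := by
      intro h; apply h0
      have := congrArg (fun Q => -Q) h
      simpa using this
    rw [nodeE0_iff h0'] 
    rw [nodeE0_iff h0] at hP
    rwa [px_neg]

theorem NodeE0.add [DecidableEq F] (h : NodeData v W r t α β) {P Q : W.Point}
    (hP : NodeE0 v r t P) (hQ : NodeE0 v r t Q) : NodeE0 v r t (P + Q) := by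
  unfold NodeE0 at *
  rw [shiftPt_add]
  exact hP.add h.int_shift h.b₄ h.b₆ h.b₈ hQ

theorem NodeE0.nsmul [DecidableEq F] (h : NodeData v W r t α β) {P : W.Point}
    (hP : NodeE0 v r t P) (n : ℕ) : NodeE0 v r t (n • P) := by
  induction n with
  | zero => rw [zero_smul]; exact NodeE0.zero
  | succ n ih => rw [succ_nsmul]; exact NodeE0.add h ih hP

/-- `E₁ ⊆ E₀` -/
theorem InE1.nodeE0 (h : NodeData v W r t α β) {P : W.Point} (hP : InE1 v P) :
    NodeE0 v r t P := by
  by_cases h0 : P = 0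
  · subst h0; exact NodeE0.zero
  rw [nodeE0_iff h0]
  rcases hP with h1 | h1
  · exact absurd h1 h0
  · have : v (px P - r) = v (px P) := v.map_sub_eq_of_lt_left (lt_of_le_of_lt h.hr h1)
    rw [this]; exact h1.le

/-- points of `E₀` with integral coordinates have nonsingular reduction -/
theorem NodeE0.nonsingularRed (h : NodeData v W r t α β) {P : W.Point} (h0 : P ≠ 0)
    (hP : NodeE0 v r t P) (hPx : v (px P) ≤ 1) : NonsingularRed v P := by
  rw [nodeE0_iff h0] at hP
  have hx1 : v (px P - r) = 1 := le_antisymm (v_sub_le_one hPx h.hr) hP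
  have hPy := val_py_le_one h.int hPx
  set W' := shiftCurve W r t with hW'
  have hs0 : shiftPt W r t P ≠ 0 := fun h' => h0 (shiftPt_eq_zero.mp h')
  have e1 := phi2_eq (W := W') hs0
  have ex : px (shiftPt W r t P) = px P - r := px_shiftPt h0
  have ey : py (shiftPt W r t P) = py P - t := py_shiftPt h0
  have epsi : psi2 (shiftPt W r t P) = psi2 P := by
    unfold psi2
    rw [ex, ey]
    simp only [shiftCurve]; ring
  have ephi : phiX (shiftPt W r t P) = phiX P := by
    unfold phiX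
    rw [ex, ey]
    simp only [shiftCurve]; ring
  rw [epsi, ephi, ex] at e1
  -- the left side is a unit
  have hL : v ((px P - r) ^ 4 - W'.b₄ * (px P - r) ^ 2 - 2 * W'.b₆ * (px P - r) - W'.b₈) = 1 := by
    have e : (px P - r) ^ 4 - W'.b₄ * (px P - r) ^ 2 - 2 * W'.b₆ * (px P - r) - W'.b₈ =
        (px P - r) ^ 4 - (W'.b₄ * (px P - r) ^ 2 + 2 * W'.b₆ * (px P - r) + W'.b₈) := by ring
    have h4 : v ((px P - r) ^ 4) = 1 := by rw [map_pow, hx1, one_pow]
    rw [e, v.map_sub_eq_of_lt_left, h4]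
    rw [h4]
    refine v_add_lt_one (v_add_lt_one ?_ ?_) h.b₈
    · exact v_mul_lt_one_left h.b₄ (v_pow_le_one hx1.le 2)
    · exact v_mul_lt_one_left (v_mul_lt_one_right (v_ofNat_le_one v 2) h.b₆) hx1.le
  unfold NonsingularRed
  have hpsi_le : v (psi2 P) ≤ 1 := by
    unfold psi2
    exact v_add_le_one (v_add_le_one (v_mul_le_one (v_ofNat_le_one v 2) hPy)
      (v_mul_le_one h.int.h₁ hPx)) h.int.h₃
  have hphi_le : v (phiX P) ≤ 1 := by
    unfold phiX
    exact v_sub_le_one (v_add_le_one (v_add_le_one (v_mul_le_one (v_ofNat_le_one v 3)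
      (v_pow_le_one hPx 2)) (v_mul_le_one (v_mul_le_one (v_ofNat_le_one v 2) h.int.h₂) hPx))
      h.int.h₄) (v_mul_le_one h.int.h₁ hPy)
  by_contra hcon
  push Not at hcon
  have l1 : v (psi2 P) < 1 := lt_of_le_of_ne hpsi_le hcon.1
  have l2 : v (phiX P) < 1 := lt_of_le_of_ne hphi_le hcon.2
  rw [e1] at hL
  have : v (phiX P ^ 2 + W'.a₁ * phiX P * psi2 P - (W'.a₂ + 2 * (px P - r)) * psi2 P ^ 2) < 1 := by
    refine v_sub_lt_one (v_add_lt_one ?_ ?_) ?_
    · exact v_pow_lt_one l2 two_ne_zero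
    · exact v_mul_lt_one_right (v_mul_le_one h.int_shift.h₁ hphi_le) l1
    · exact v_mul_lt_one_right (v_add_le_one h.int_shift.h₂
        (v_mul_le_one (v_ofNat_le_one v 2) hx1.le)) (v_pow_lt_one l1 two_ne_zero)
  rw [hL] at this
  exact lt_irrefl _ this


/-- an element satisfying `x² + a x + b = 0` with `a, b` integral is integral -/
theorem v_le_one_of_quadratic {x a b : F} (ha : v a ≤ 1) (hb : v b ≤ 1)
    (h : x ^ 2 + a * x + b = 0) : v x ≤ 1 := by
  by_contra hx
  push Not at hx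
  have hx0 : x ≠ 0 := fun h => by
    rw [h, _root_.map_zero] at hx; exact absurd hx (by simp)
  have hxi : v x⁻¹ < 1 := by rw [map_inv₀]; exact inv_lt_one_of_one_lt₀ hx
  have h1 : v (-(a * x⁻¹ + b * (x⁻¹ * x⁻¹))) < 1 := by
    rw [Valuation.map_neg]
    exact v_add_lt_one (v_mul_lt_one_right ha hxi)
      (v_mul_lt_one_right hb (v_mul_lt_one_left hxi hxi.le))
  have h2 : -(a * x⁻¹ + b * (x⁻¹ * x⁻¹)) = 1 := by
    field_simp
    linear_combination (-1 : F) * h
  rw [h2, map_one] at h1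
  exact lt_irrefl _ h1

theorem eq_one_of_sq {x : F} (h : v x ^ 2 = 1) : v x = 1 := by
  rcases lt_trichotomy (v x) 1 with h1 | h1 | h1
  · have := pow_lt_one₀ zero_le h1 two_ne_zero
    rw [h] at this; exact absurd this (lt_irrefl _)
  · exact h1
  · have := one_lt_pow₀ h1 two_ne_zero
    rw [h] at this; exact absurd this (lt_irrefl _)

section exist

variable [IsAlgClosed F] [CharZero F]

theorem exists_root_quadratic {a b c : F} (ha : a ≠ 0) : ∃ x : F, a * x ^ 2 + b * x + c = 0 := by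
  obtain ⟨z, hz⟩ : ∃ z : F, b ^ 2 - 4 * a * c = z * z := by
    obtain ⟨z, hz⟩ := IsAlgClosed.exists_pow_nat_eq (b ^ 2 - 4 * a * c) (n := 2) (by norm_num)
    exact ⟨z, by rw [← hz]; ring⟩
  refine ⟨(-b + z) / (2 * a), ?_⟩
  have h2 : (2 : F) ≠ 0 := two_ne_zero
  field_simp
  linear_combination (-1 : F) * hz

/-- existence of the slopes and integrality, given the critical point -/
theorem exists_slopes (hW : IsIntegralFor v W) (hΔ0 : W.Δ ≠ 0) (hc : v W.c₄ = 1)
    (hr : v r ≤ 1) (ht : v t ≤ 1) (hcrit : 6 * r ^ 2 + W.b₂ * r + W.b₄ = 0)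
    (ht0 : W.a₃ + r * W.a₁ + 2 * t = 0) (h6 : v (shiftCurve W r t).a₆ < 1) :
    ∃ α β, NodeData v W r t α β := by
  have h4 : W.a₄ + 2 * r * W.a₂ - t * W.a₁ + 3 * r ^ 2 = 0 := by
    have h2 : (2 : F) ≠ 0 := two_ne_zero
    apply mul_left_cancel₀ h2
    simp only [b₂, b₄] at hcrit
    linear_combination hcrit - W.a₁ * ht0
  have hb2 : (W.b₂ + 12 * r) ^ 2 = W.c₄ := by
    rw [c₄]
    linear_combination 24 * hcrit
  have vb2 : v (W.b₂ + 12 * r) = 1 := by
    apply eq_one_of_sq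
    rw [← map_pow, hb2, hc]
  obtain ⟨α, hα⟩ := exists_root_quadratic (a := (1 : F)) (b := W.a₁) (c := -(W.a₂ + 3 * r))
    one_ne_zero
  have hα' : α ^ 2 + W.a₁ * α + (-(W.a₂ + 3 * r)) = 0 := by linear_combination hα
  have hβ' : (-W.a₁ - α) ^ 2 + W.a₁ * (-W.a₁ - α) + (-(W.a₂ + 3 * r)) = 0 := by
    linear_combination hα
  have hint2 : v (-(W.a₂ + 3 * r)) ≤ 1 :=
    v_neg_le_one (v_add_le_one hW.h₂ (v_mul_le_one (v_ofNat_le_one v 3) hr))
  refine ⟨α, -W.a₁ - α, hW, hr, ht, ⟨?_, ?_, ?_, ?_, ?_, ?_, ?_, ?_⟩, h6⟩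
  · exact ht0
  · exact h4
  · intro h0
    apply hΔ0
    have e : W.Δ = (shiftCurve W r t).Δ := by
      simp only [shiftCurve, WeierstrassCurve.Δ, b₂, b₄, b₆, b₈]; ring
    rw [e, WeierstrassCurve.Δ, b₈, b₄, b₆, h0]
    have e3 : (shiftCurve W r t).a₃ = 0 := ht0
    have e4 : (shiftCurve W r t).a₄ = 0 := h4
    rw [e3, e4]; ring
  · simp only [shiftCurve]; ring
  · simp only [shiftCurve]; linear_combination (-1 : F) * hα
  · apply eq_one_of_sq
    rw [← map_pow]
    have : (-W.a₁ - α - α) ^ 2 = W.b₂ + 12 * r := by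
      rw [b₂]; linear_combination 4 * hα
    rw [this, vb2]
  · exact v_le_one_of_quadratic hW.h₁ hint2 hα'
  · exact v_le_one_of_quadratic hW.h₁ hint2 hβ'

omit [IsAlgClosed F] in
theorem aux_second_critical {r t r' t' : F} (hcrit : 6 * r ^ 2 + W.b₂ * r + W.b₄ = 0)
    (hr' : 6 * r' = 6 * r - (W.b₂ + 12 * r)) (ht0 : W.a₃ + r * W.a₁ + 2 * t = 0)
    (ht0' : W.a₃ + r' * W.a₁ + 2 * t' = 0) :
    432 * (shiftCurve W r' t').a₆ = (W.b₂ + 12 * r) ^ 3 + 432 * (shiftCurve W r t).a₆ := by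
  have h6 : (6 : F) ≠ 0 := by norm_num
  have hr'' : r' = r - (W.b₂ + 12 * r) / 6 := by
    field_simp; linear_combination hr'
  have e1 : ∀ a b : F, 4 * (shiftCurve W a b).a₆ = W.b₆ + 2 * a * W.b₄ + a ^ 2 * W.b₂ + 4 * a ^ 3 -
      (W.a₃ + a * W.a₁ + 2 * b) ^ 2 := by
    intro a b
    simp only [shiftCurve, b₂, b₄, b₆]; ring
  have f1 := e1 r t
  have f2 := e1 r' t'
  rw [ht0] at f1
  rw [ht0', hr''] at f2
  rw [hr'']
  linear_combination 108 * f2 - 108 * f1 - 36 * (W.b₂ + 12 * r) * hcrit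

theorem exists_nodeData (hW : IsIntegralFor v W) (hΔ0 : W.Δ ≠ 0) (hΔ : v W.Δ < 1)
    (hc : v W.c₄ = 1) : ∃ r t α β, NodeData v W r t α β := by
  have h2 : (2 : F) ≠ 0 := two_ne_zero
  have h6 : (6 : F) ≠ 0 := by norm_num
  have hv6le : v (6 : F) ≤ 1 := v_ofNat_le_one v 6
  -- discriminant in terms of the critical point
  have hdisc : ∀ r t : F, 6 * r ^ 2 + W.b₂ * r + W.b₄ = 0 → W.a₃ + r * W.a₁ + 2 * t = 0 →
      W.Δ = -((shiftCurve W r t).a₆ * ((W.b₂ + 12 * r) ^ 3 + 432 * (shiftCurve W r t).a₆)) := by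
    intro r t hcrit ht0
    have h4 : W.a₄ + 2 * r * W.a₂ - t * W.a₁ + 3 * r ^ 2 = 0 := by
      apply mul_left_cancel₀ h2
      simp only [b₂, b₄] at hcrit
      linear_combination hcrit - W.a₁ * ht0
    have e : W.Δ = (shiftCurve W r t).Δ := by
      simp only [shiftCurve, WeierstrassCurve.Δ, b₂, b₄, b₆, b₈]; ring
    have e3 : (shiftCurve W r t).a₃ = 0 := ht0
    have e4 : (shiftCurve W r t).a₄ = 0 := h4
    have e2 : W.b₂ + 12 * r = (shiftCurve W r t).b₂ := by
      simp only [shiftCurve, b₂]; ring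
    rw [e, e2, WeierstrassCurve.Δ, b₈, b₄, b₆, e3, e4, b₂]
    ring
  rcases eq_or_lt_of_le hv6le with hv6 | hv6
  · -- residue characteristic prime to 6
    have hv2 : v (2 : F) = 1 := by
      have h3le : v (3 : F) ≤ 1 := v_ofNat_le_one v 3
      have h2le : v (2 : F) ≤ 1 := v_ofNat_le_one v 2
      have : v (2 : F) * v (3 : F) = 1 := by
        rw [← map_mul]; norm_num; exact hv6
      refine le_antisymm h2le ?_
      rw [← this]
      exact (mul_le_mul_right h3le _).trans_eq (mul_one _)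
    have hv6i : v (6 : F)⁻¹ ≤ 1 := by rw [map_inv₀, hv6, inv_one]
    -- all critical points are integral
    have hint : ∀ r : F, 6 * r ^ 2 + W.b₂ * r + W.b₄ = 0 → v r ≤ 1 := by
      intro r hcrit
      apply v_le_one_of_quadratic (a := (6 : F)⁻¹ * W.b₂) (b := (6 : F)⁻¹ * W.b₄)
        (v_mul_le_one hv6i hW.b₂) (v_mul_le_one hv6i hW.b₄)
      field_simp
      linear_combination hcrit
    have hintt : ∀ r : F, v r ≤ 1 → v (-(W.a₃ + r * W.a₁) / 2) ≤ 1 := by
      intro r hr
      rw [map_div₀, hv2, div_one]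
      exact v_neg_le_one (v_add_le_one hW.h₃ (v_mul_le_one hr hW.h₁))
    obtain ⟨r, hcrit⟩ := exists_root_quadratic (a := (6 : F)) (b := W.b₂) (c := W.b₄) h6
    have hr := hint r hcrit
    set t := -(W.a₃ + r * W.a₁) / 2 with ht
    have ht0 : W.a₃ + r * W.a₁ + 2 * t = 0 := by rw [ht]; field_simp; ring
    have ht1 := hintt r hr
    have hD := hdisc r t hcrit ht0
    by_cases ha6 : v (shiftCurve W r t).a₆ < 1
    · obtain ⟨α, β, h⟩ := exists_slopes hW hΔ0 hc hr ht1 hcrit ht0 ha6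
      exact ⟨r, t, α, β, h⟩
    · push Not at ha6
      -- use the other critical point
      have hsmall : v ((W.b₂ + 12 * r) ^ 3 + 432 * (shiftCurve W r t).a₆) < 1 := by
        by_contra hcon
        push Not at hcon
        rw [hD, Valuation.map_neg, map_mul] at hΔ
        exact absurd hΔ (not_lt.mpr (one_le_mul ha6 hcon))
      set r' := r - (W.b₂ + 12 * r) / 6 with hr'
      have hcrit' : 6 * r' ^ 2 + W.b₂ * r' + W.b₄ = 0 := by
        rw [hr']; field_simp; linear_combination 6 * hcrit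
      have hr1 := hint r' hcrit'
      set t' := -(W.a₃ + r' * W.a₁) / 2 with ht'
      have ht0' : W.a₃ + r' * W.a₁ + 2 * t' = 0 := by rw [ht']; field_simp; ring
      have ht1' := hintt r' hr1
      have ha6' : 432 * (shiftCurve W r' t').a₆ =
          (W.b₂ + 12 * r) ^ 3 + 432 * (shiftCurve W r t).a₆ := by
        exact aux_second_critical hcrit (by rw [hr']; field_simp) ht0 ht0'
      have h432 : v (432 : F) = 1 := by
        have : (432 : F) = 6 * 6 * 6 * 2 := by norm_num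
        rw [this, map_mul, map_mul, map_mul, hv6, hv2]; simp
      have ha6'' : v (shiftCurve W r' t').a₆ < 1 := by
        rw [← ha6', map_mul, h432, one_mul] at hsmall
        exact hsmall
      obtain ⟨α, β, h⟩ := exists_slopes hW hΔ0 hc hr1 ht1' hcrit' ht0' ha6''
      exact ⟨r', t', α, β, h⟩
  · -- residue characteristic 2 or 3
    have hv24 : v (24 : F) < 1 := by
      have : (24 : F) = 6 * 4 := by norm_num
      rw [this]; exact v_mul_lt_one_left hv6 (v_ofNat_le_one v 4)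
    have hvb2 : v W.b₂ = 1 := by
      apply eq_one_of_sq
      rw [← map_pow]
      have : W.b₂ ^ 2 = W.c₄ + 24 * W.b₄ := by rw [c₄]; ring
      rw [this, v.map_add_eq_of_lt_left, hc]
      rw [hc]; exact v_mul_lt_one_left hv24 hW.b₄
    -- an integral critical point
    obtain ⟨r, hcrit, hr⟩ : ∃ r : F, 6 * r ^ 2 + W.b₂ * r + W.b₄ = 0 ∧ v r ≤ 1 := by
      obtain ⟨r₀, h₀⟩ := exists_root_quadratic (a := (6 : F)) (b := W.b₂) (c := W.b₄) h6
      by_cases hr₀ : v r₀ ≤ 1
      · exact ⟨r₀, h₀, hr₀⟩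
      · push Not at hr₀
        have hr₀0 : r₀ ≠ 0 := by
          intro h; rw [h, _root_.map_zero] at hr₀; exact absurd hr₀ (by simp)
        have hi : v r₀⁻¹ < 1 := by rw [map_inv₀]; exact inv_lt_one_of_one_lt₀ hr₀
        have h60 : v (6 * r₀) = 1 := by
          have e : 6 * r₀ = -(W.b₂ + W.b₄ * r₀⁻¹) := by
            field_simp
            linear_combination h₀
          rw [e, Valuation.map_neg, v.map_add_eq_of_lt_left, hvb2]
          rw [hvb2]; exact v_mul_lt_one_right hW.b₄ hi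
        refine ⟨W.b₄ / (6 * r₀), ?_, ?_⟩
        · field_simp
          linear_combination W.b₄ * h₀
        · rw [map_div₀, h60, div_one]; exact hW.b₄
    have hunit : v (6 * r + W.b₂) = 1 := by
      rw [v.map_add_eq_of_lt_right, hvb2]
      rw [hvb2]; exact v_mul_lt_one_left hv6 hr
    set t := -(W.a₃ + r * W.a₁) / 2 with ht
    have ht0 : W.a₃ + r * W.a₁ + 2 * t = 0 := by rw [ht]; field_simp; ring
    have ht1 : v t ≤ 1 := by
      have e : (6 * r + W.b₂) * t = -(3 * r * W.a₃ + 2 * W.a₂ * W.a₃ - W.a₁ * W.a₄) := by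
        apply mul_left_cancel₀ h2
        simp only [b₂, b₄] at hcrit ⊢
        linear_combination (6 * r + (W.a₁ ^ 2 + 4 * W.a₂)) * ht0 - W.a₁ * hcrit
      have e2 : v ((6 * r + W.b₂) * t) ≤ 1 := by
        rw [e]
        refine v_neg_le_one (v_sub_le_one (v_add_le_one ?_ ?_) ?_)
        · exact v_mul_le_one (v_mul_le_one (v_ofNat_le_one v 3) hr) hW.h₃
        · exact v_mul_le_one (v_mul_le_one (v_ofNat_le_one v 2) hW.h₂) hW.h₃
        · exact v_mul_le_one hW.h₁ hW.h₄
      rwa [map_mul, hunit, one_mul] at e2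
    have ha6le : v (shiftCurve W r t).a₆ ≤ 1 := by
      simp only [shiftCurve]
      refine v_sub_le_one (v_sub_le_one (v_sub_le_one (v_add_le_one (v_add_le_one
        (v_add_le_one hW.h₆ (v_mul_le_one hr hW.h₄)) (v_mul_le_one (v_pow_le_one hr 2) hW.h₂))
        (v_pow_le_one hr 3)) (v_mul_le_one ht1 hW.h₃)) (v_pow_le_one ht1 2))
        (v_mul_le_one (v_mul_le_one hr ht1) hW.h₁)
    have hD := hdisc r t hcrit ht0
    have hu : v ((W.b₂ + 12 * r) ^ 3 + 432 * (shiftCurve W r t).a₆) = 1 := by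
      have h1 : v ((W.b₂ + 12 * r) ^ 3) = 1 := by
        have : v (W.b₂ + 12 * r) = 1 := by
          rw [v.map_add_eq_of_lt_left, hvb2]
          rw [hvb2]
          have : (12 : F) = 6 * 2 := by norm_num
          rw [this]
          exact v_mul_lt_one_left (v_mul_lt_one_left hv6 (v_ofNat_le_one v 2)) hr
        rw [map_pow, this, one_pow]
      rw [v.map_add_eq_of_lt_left, h1]
      rw [h1]
      have : (432 : F) = 6 * 72 := by norm_num
      rw [this]
      exact v_mul_lt_one_left (v_mul_lt_one_left hv6 (v_ofNat_le_one v 72)) ha6le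
    have ha6 : v (shiftCurve W r t).a₆ < 1 := by
      rw [hD, Valuation.map_neg, map_mul, hu, mul_one] at hΔ
      exact hΔ
    obtain ⟨α, β, h⟩ := exists_slopes hW hΔ0 hc hr ht1 hcrit ht0 ha6
    exact ⟨r, t, α, β, h⟩

end exist

end

end Fermat.Agent.H09
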