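import Mathlib
import Fermat.Agent.H09.NodeExists
import Fermat.Prelude.Def_FLTPrelim_Ramification

set_option autoImplicit false

/-!
# Inertia acting on points: good and multiplicative reduction
-/

namespace Fermat.Agent.H09

open WeierstrassCurve WeierstrassCurve.Affine WeierstrassCurve.Affine.Point
open Fermat.Agent.H08
open scoped Pointwise

section

variable {L : Type*} [Field L] [DecidableEq L] [CharZero L] {W₀ : WeierstrassCurve.Affine ℚ}

theorem px_smul (σ : L ≃ₐ[ℚ] L) (P : (W₀⁄L).Point) : px (σ • P) = σ (px P) := by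
  rcases P with _ | ⟨x, y, h⟩
  · change (0 : L) = σ 0
    rw [_root_.map_zero]
  · rfl

theorem py_smul (σ : L ≃ₐ[ℚ] L) (P : (W₀⁄L).Point) : py (σ • P) = σ (py P) := by
  rcases P with _ | ⟨x, y, h⟩
  · change (0 : L) = σ 0
    rw [_root_.map_zero]
  · rfl

theorem smul_zero_pt (σ : L ≃ₐ[ℚ] L) : σ • (0 : (W₀⁄L).Point) = 0 := rfl

theorem smul_ne_zero' (σ : L ≃ₐ[ℚ] L) {P : (W₀⁄L).Point} (hP : P ≠ 0) : σ • P ≠ 0 := by
  rcases P with _ | ⟨x, y, h⟩
  · exact absurd rfl hP
  · intro h'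
    exact Point.some_ne_zero _ (show Point.some (W' := (W₀⁄L)) _ _ _ = 0 from h')

omit [DecidableEq L] in
theorem map_a₁ (σ : L ≃ₐ[ℚ] L) : σ (W₀⁄L).a₁ = (W₀⁄L).a₁ := σ.commutes _
omit [DecidableEq L] in
theorem map_a₂ (σ : L ≃ₐ[ℚ] L) : σ (W₀⁄L).a₂ = (W₀⁄L).a₂ := σ.commutes _
omit [DecidableEq L] in
theorem map_a₃ (σ : L ≃ₐ[ℚ] L) : σ (W₀⁄L).a₃ = (W₀⁄L).a₃ := σ.commutes _
omit [DecidableEq L] in
theorem map_a₄ (σ : L ≃ₐ[ℚ] L) : σ (W₀⁄L).a₄ = (W₀⁄L).a₄ := σ.commutes _
omit [DecidableEq L] in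
theorem map_a₆ (σ : L ≃ₐ[ℚ] L) : σ (W₀⁄L).a₆ = (W₀⁄L).a₆ := σ.commutes _

theorem inE1_smul [Algebra.IsAlgebraic ℚ L] {A : ValuationSubring L} {σ : L ≃ₐ[ℚ] L}
    (hσ : σ • A = A) {P : (W₀⁄L).Point} (h : InE1 A.valuation P) : InE1 A.valuation (σ • P) := by
  rcases h with rfl | h
  · left; rfl
  · right; rwa [px_smul, val_apply_eq hσ]

/-- inertia moves points with nonsingular reduction only inside the kernel of reduction -/
theorem inE1_smul_sub_of_nonsingularRed [Algebra.IsAlgebraic ℚ L] {A : ValuationSubring L}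
    {σ : L ≃ₐ[ℚ] L} (hW : IsIntegralFor A.valuation (W₀⁄L)) (hσ : σ ∈ A.inertiaSubgroupIn ℚ)
    {P : (W₀⁄L).Point} (hns : A.valuation (px P) ≤ 1 → P ≠ 0 → NonsingularRed A.valuation P) :
    InE1 A.valuation (σ • P - P) := by
  have hσA := smul_eq_of_inertia hσ
  by_cases h0 : P = 0
  · subst h0; rw [smul_zero_pt, sub_zero]; exact InE1.zero
  by_cases hx : A.valuation (px P) ≤ 1
  · have hy := val_py_le_one hW hx
    have hx' : A.valuation (px P - px (σ • P)) < 1 := by
      rw [px_smul, ← neg_sub, Valuation.map_neg]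
      exact val_sub_lt_one_of_inertia hσ hx
    have hy' : A.valuation (py P - py (σ • P)) < 1 := by
      rw [py_smul, ← neg_sub, Valuation.map_neg]
      exact val_sub_lt_one_of_inertia hσ hy
    have := inE1_sub_of_congr hW h0 (smul_ne_zero' σ h0) hx hx' hy' (hns hx h0)
    have h2 := this.neg
    rwa [neg_sub] at h2
  · push Not at hx
    exact InE1.sub hW (inE1_smul hσA (Or.inr hx)) (Or.inr hx)

/-- good reduction: all points have nonsingular reduction -/
theorem nonsingularRed_of_Δ {Γ₀ : Type*} [LinearOrderedCommGroupWithZero Γ₀]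
    {F : Type*} [Field F] {v : Valuation F Γ₀} {W : WeierstrassCurve.Affine F}
    (hW : IsIntegralFor v W) (hΔ : v W.Δ = 1) {P : W.Point} (h0 : P ≠ 0) (hx : v (px P) ≤ 1) :
    NonsingularRed v P := by
  have hy := val_py_le_one hW hx
  have hpsi_le : v (psi2 P) ≤ 1 := by
    unfold psi2
    exact v_add_le_one (v_add_le_one (v_mul_le_one (v_ofNat_le_one v 2) hy)
      (v_mul_le_one hW.h₁ hx)) hW.h₃
  have hphi_le : v (phiX P) ≤ 1 := by
    unfold phiX
    exact v_sub_le_one (v_add_le_one (v_add_le_one (v_mul_le_one (v_ofNat_le_one v 3)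
      (v_pow_le_one hx 2)) (v_mul_le_one (v_mul_le_one (v_ofNat_le_one v 2) hW.h₂) hx))
      hW.h₄) (v_mul_le_one hW.h₁ hy)
  unfold NonsingularRed
  by_contra hcon
  push Not at hcon
  have l1 : v (psi2 P) < 1 := lt_of_le_of_ne hpsi_le hcon.1
  have l2 : v (phiX P) < 1 := lt_of_le_of_ne hphi_le hcon.2
  have e1 := phi2_eq h0
  have e2 := psi2_sq h0
  have key : W.Δ = -((48 * px P ^ 2 + 8 * W.b₂ * px P - W.b₂ ^ 2 + 32 * W.b₄) *
      (px P ^ 4 - W.b₄ * px P ^ 2 - 2 * W.b₆ * px P - W.b₈) -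
      (12 * px P ^ 3 - W.b₂ * px P ^ 2 - 10 * W.b₄ * px P + W.b₂ * W.b₄ - 27 * W.b₆) *
      (4 * px P ^ 3 + W.b₂ * px P ^ 2 + 2 * W.b₄ * px P + W.b₆)) := by
    simp only [WeierstrassCurve.Δ, b₂, b₄, b₆, b₈]; ring
  rw [e1, ← e2] at key
  have : v W.Δ < 1 := by
    rw [key]
    refine v_neg_lt_one (v_sub_lt_one ?_ ?_)
    · apply v_mul_lt_one_right
      · refine v_add_le_one (v_sub_le_one (v_add_le_one ?_ ?_) ?_) ?_
        · exact v_mul_le_one (v_ofNat_le_one v 48) (v_pow_le_one hx 2)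
        · exact v_mul_le_one (v_mul_le_one (v_ofNat_le_one v 8) hW.b₂) hx
        · exact v_pow_le_one hW.b₂ 2
        · exact v_mul_le_one (v_ofNat_le_one v 32) hW.b₄
      · refine v_sub_lt_one (v_add_lt_one ?_ ?_) ?_
        · exact v_pow_lt_one l2 two_ne_zero
        · exact v_mul_lt_one_right (v_mul_le_one hW.h₁ hphi_le) l1
        · exact v_mul_lt_one_right (v_add_le_one hW.h₂
            (v_mul_le_one (v_ofNat_le_one v 2) hx)) (v_pow_lt_one l1 two_ne_zero)
    · apply v_mul_lt_one_right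
      · refine v_sub_le_one (v_add_le_one (v_sub_le_one (v_sub_le_one ?_ ?_) ?_) ?_) ?_
        · exact v_mul_le_one (v_ofNat_le_one v 12) (v_pow_le_one hx 3)
        · exact v_mul_le_one hW.b₂ (v_pow_le_one hx 2)
        · exact v_mul_le_one (v_mul_le_one (v_ofNat_le_one v 10) hW.b₄) hx
        · exact v_mul_le_one hW.b₂ hW.b₄
        · exact v_mul_le_one (v_ofNat_le_one v 27) hW.b₆
      · exact v_pow_lt_one l1 two_ne_zero
  rw [hΔ] at this
  exact lt_irrefl _ this

/-- **Good reduction**: `σ P - P ∈ E₁` for inertia. -/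
theorem inE1_smul_sub_of_good [Algebra.IsAlgebraic ℚ L] {A : ValuationSubring L}
    {σ : L ≃ₐ[ℚ] L} (hW : IsIntegralFor A.valuation (W₀⁄L)) (hΔ : A.valuation (W₀⁄L).Δ = 1)
    (hσ : σ ∈ A.inertiaSubgroupIn ℚ) (P : (W₀⁄L).Point) :
    InE1 A.valuation (σ • P - P) :=
  inE1_smul_sub_of_nonsingularRed hW hσ (fun hx h0 => nonsingularRed_of_Δ hW hΔ h0 hx)

variable {r t α β : L}

theorem node_fixed {A : ValuationSubring L} {σ : L ≃ₐ[ℚ] L} (hσ : σ ∈ A.inertiaSubgroupIn ℚ)
    (h : NodeData A.valuation (W₀⁄L) r t α β) : σ r = r ∧ σ t = t ∧ σ α = α ∧ σ β = β := by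
  have h3 : (W₀⁄L).a₃ + r * (W₀⁄L).a₁ + 2 * t = 0 := h.slopes.a₃
  have h4 : (W₀⁄L).a₄ + 2 * r * (W₀⁄L).a₂ - t * (W₀⁄L).a₁ + 3 * r ^ 2 = 0 := h.slopes.a₄
  have hs : α + β = -(W₀⁄L).a₁ := h.slopes.sum
  have hp : α * β = -((W₀⁄L).a₂ + 3 * r) := h.slopes.prod
  have hd := h.slopes.diff
  have hcrit : 6 * r ^ 2 + ((W₀⁄L).a₁ ^ 2 + 4 * (W₀⁄L).a₂) * r +
      (2 * (W₀⁄L).a₄ + (W₀⁄L).a₁ * (W₀⁄L).a₃) = 0 := by
    linear_combination 2 * h4 + (W₀⁄L).a₁ * h3
  have hcrit' := congrArg σ hcrit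
  simp only [map_add, map_mul, map_pow, map_a₁, map_a₂, map_a₃, map_a₄, _root_.map_zero,
    map_ofNat] at hcrit'
  have hr : σ r = r := by
    by_contra hne
    have h1 : 6 * (σ r + r) + ((W₀⁄L).a₁ ^ 2 + 4 * (W₀⁄L).a₂) = 0 := by
      apply mul_left_cancel₀ (sub_ne_zero.mpr hne)
      linear_combination hcrit' - hcrit
    have h2 : (β - α) ^ 2 = -(6 * (σ r - r)) := by
      linear_combination (α + β - (W₀⁄L).a₁) * hs - 4 * hp + h1
    have h5 : A.valuation ((β - α) ^ 2) < 1 := by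
      rw [h2]
      exact v_neg_lt_one (v_mul_lt_one_right (v_ofNat_le_one _ 6)
        (val_sub_lt_one_of_inertia hσ h.hr))
    rw [map_pow, hd, one_pow] at h5
    exact lt_irrefl _ h5
  have ht : σ t = t := by
    have h3' := congrArg σ h3
    simp only [map_add, map_mul, map_a₁, map_a₃, _root_.map_zero, map_ofNat, hr] at h3'
    have h2 : (2 : L) ≠ 0 := two_ne_zero
    apply mul_left_cancel₀ h2
    linear_combination h3' - h3
  have hα : σ α = α := by
    have e : α ^ 2 + (W₀⁄L).a₁ * α - ((W₀⁄L).a₂ + 3 * r) = 0 := by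
      linear_combination α * hs - hp
    have e' := congrArg σ e
    simp only [map_add, map_sub, map_mul, map_pow, map_a₁, map_a₂, _root_.map_zero,
      map_ofNat, hr] at e'
    by_contra hne
    have h1 : σ α - β = 0 := by
      apply mul_left_cancel₀ (sub_ne_zero.mpr hne)
      linear_combination e' - σ α * hs + hp
    have h2 : β - α = σ α - α := by linear_combination -h1
    rw [h2] at hd
    have := val_sub_lt_one_of_inertia hσ h.slopes.hα
    rw [hd] at this
    exact lt_irrefl _ this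
  refine ⟨hr, ht, hα, ?_⟩
  have hs' := congrArg σ hs
  simp only [map_add, map_neg, map_a₁, hα] at hs'
  linear_combination hs' - hs

/-- **Multiplicative reduction**: inertia acts trivially on `E/E₀`. -/
theorem nodeE0_smul_sub [Algebra.IsAlgebraic ℚ L] {A : ValuationSubring L} {σ : L ≃ₐ[ℚ] L}
    (hσ : σ ∈ A.inertiaSubgroupIn ℚ) (h : NodeData A.valuation (W₀⁄L) r t α β)
    (P : (W₀⁄L).Point) : NodeE0 A.valuation r t (σ • P - P) := by
  obtain ⟨hr, ht, hα, hβ⟩ := node_fixed hσ h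
  have hσA := smul_eq_of_inertia hσ
  by_cases h0 : P = 0
  · subst h0; rw [smul_zero_pt, sub_zero]; exact NodeE0.zero
  have h0' := smul_ne_zero' σ h0
  have hval : A.valuation (px (σ • P) - r) = A.valuation (px P - r) := by
    rw [px_smul, show σ (px P) - r = σ (px P - r) by rw [map_sub, hr], val_apply_eq hσA]
  by_cases hE : NodeE0 A.valuation r t P
  · have hE' : NodeE0 A.valuation r t (σ • P) := by
      rw [nodeE0_iff h0', hval, ← nodeE0_iff (t := t) h0]; exact hE
    rw [sub_eq_add_neg]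
    exact NodeE0.add h hE' hE.neg
  · rw [nodeE0_iff h0, not_le] at hE
    set W' := shiftCurve (W₀⁄L) r t with hW'
    have hs0 : shiftPt (W₀⁄L) r t P ≠ 0 := fun h' => h0 (shiftPt_eq_zero.mp h')
    have hs0' : shiftPt (W₀⁄L) r t (σ • P) ≠ 0 := fun h' => h0' (shiftPt_eq_zero.mp h')
    have ex : px (shiftPt (W₀⁄L) r t P) = px P - r := px_shiftPt h0
    have ey : py (shiftPt (W₀⁄L) r t P) = py P - t := py_shiftPt h0
    have ex' : px (shiftPt (W₀⁄L) r t (σ • P)) = σ (px P - r) := by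
      rw [px_shiftPt h0', px_smul, map_sub, hr]
    have ey' : py (shiftPt (W₀⁄L) r t (σ • P)) = σ (py P - t) := by
      rw [py_shiftPt h0', py_smul, map_sub, ht]
    have hy : A.valuation (py P - t) < 1 := by
      have e := eqn_of_ne_zero hs0
      rw [ex, ey, h.slopes.a₃, h.slopes.a₄] at e
      have e2 : (py P - t) * ((py P - t) + W'.a₁ * (px P - r)) =
          (px P - r) ^ 3 + W'.a₂ * (px P - r) ^ 2 + W'.a₆ := by
        linear_combination e
      have hR : A.valuation ((px P - r) ^ 3 + W'.a₂ * (px P - r) ^ 2 + W'.a₆) < 1 :=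
        v_add_lt_one (v_add_lt_one (v_pow_lt_one hE (by norm_num))
          (v_mul_lt_one_right h.int_shift.h₂ (v_pow_lt_one hE two_ne_zero))) h.a₆
      by_contra hcon
      push Not at hcon
      have h5 : A.valuation ((py P - t) + W'.a₁ * (px P - r)) = A.valuation (py P - t) := by
        apply Valuation.map_add_eq_of_lt_left
        exact lt_of_lt_of_le (v_mul_lt_one_right h.int_shift.h₁ hE) hcon
      rw [← e2, map_mul, h5] at hR
      exact absurd hR (not_lt.mpr (one_le_mul hcon hcon))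
    unfold NodeE0
    rw [sub_eq_add_neg, shiftPt_add]
    have hneg : shiftPt (W₀⁄L) r t (-P) = - shiftPt (W₀⁄L) r t P := by
      have := _root_.map_neg (shiftHom (W₀⁄L) r t) P
      exact this
    rw [hneg, ← sub_eq_add_neg]
    apply component_lemma h.slopes hs0 hs0'
    · rw [ex]; exact hE
    · rw [ey]; exact hy
    · rw [ex', val_apply_eq hσA]; exact hE
    · rw [ex', ey', ex, ey]
      have : σ (py P - t) - α * σ (px P - r) = σ ((py P - t) - α * (px P - r)) := by
        rw [map_sub σ (py P - t), map_mul, hα]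
      rw [this, val_apply_eq hσA]
    · rw [ex', ey', ex, ey]
      have : σ (py P - t) - β * σ (px P - r) = σ ((py P - t) - β * (px P - r)) := by
        rw [map_sub σ (py P - t), map_mul, hβ]
      rw [this, val_apply_eq hσA]

/-- Inertia moves points of `E₀` only inside `E₁`. -/
theorem inE1_smul_sub_of_nodeE0 [Algebra.IsAlgebraic ℚ L] {A : ValuationSubring L}
    {σ : L ≃ₐ[ℚ] L} (hσ : σ ∈ A.inertiaSubgroupIn ℚ)
    (h : NodeData A.valuation (W₀⁄L) r t α β) {P : (W₀⁄L).Point}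
    (hP : NodeE0 A.valuation r t P) : InE1 A.valuation (σ • P - P) :=
  inE1_smul_sub_of_nonsingularRed h.int hσ
    (fun hx h0 => NodeE0.nonsingularRed h h0 hP hx)

end

end Fermat.Agent.H09
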