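import Mathlib

set_option autoImplicit false

/-!
# The elliptic relation for `normEDS`

For every commutative ring and all `b c d`, the sequence `U = normEDS b c d` satisfies
`U (p+q) * U (p-q) = U (p+1) * U (p-1) * U q ^ 2 - U (q+1) * U (q-1) * U p ^ 2`.
-/

namespace Fermat.Agent.H09

/-- The elliptic relation with third parameter `1`. -/
def EllRel {L : Type*} [CommRing L] (U : ℤ → L) (p q : ℤ) : Prop :=
  U (p + q) * U (p - q) = U (p + 1) * U (p - 1) * U q ^ 2 - U (q + 1) * U (q - 1) * U p ^ 2

section Field

variable {L : Type*} [Field L] (U : ℤ → L) (b c d : L)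

theorem ellRel_of_field (h0 : U 0 = 0) (h1 : U 1 = 1) (h2 : U 2 = b) (h3 : U 3 = c)
    (h4 : U 4 = d * b)
    (hodd : ∀ m : ℤ, U (2 * m + 1) = U (m + 2) * U m ^ 3 - U (m - 1) * U (m + 1) ^ 3)
    (heven : ∀ m : ℤ, U (2 * m) * b =
      U (m - 1) ^ 2 * U m * U (m + 2) - U (m - 2) * U m * U (m + 1) ^ 2)
    (hne : ∀ n : ℤ, 0 < n → U n ≠ 0) :
    ∀ (s : ℕ) (p q : ℤ), 1 ≤ q → q ≤ p → p + q = s → EllRel U p q := by
  intro s
  induction s using Nat.strong_induction_on with
  | _ s ih =>
    -- f n = U (n+1) U (n-1) / U n ^ 2
    set f : ℤ → L := fun n => U (n + 1) * U (n - 1) / U n ^ 2 with hf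
    have hfd : ∀ p q : ℤ, 1 ≤ q → q ≤ p → EllRel U p q →
        f p - f q = U (p + q) * U (p - q) / (U p ^ 2 * U q ^ 2) := by
      intro p q hq hpq h
      have hp0 := hne p (by omega)
      have hq0 := hne q (by omega)
      unfold EllRel at h
      rw [h]
      simp only [hf]
      field_simp
    have hrf : ∀ p q : ℤ, 1 ≤ q → q ≤ p →
        f p - f q = U (p + q) * U (p - q) / (U p ^ 2 * U q ^ 2) → EllRel U p q := by
      intro p q hq hpq h
      have hp0 := hne p (by omega)
      have hq0 := hne q (by omega)
      unfold EllRel
      simp only [hf] at h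
      field_simp at h
      linear_combination (-1 : L) * h
    have hf1 : f 1 = 0 := by simp [hf, h0]
    have hfne : ∀ n : ℤ, 2 ≤ n → f n ≠ 0 := by
      intro n hn
      simp only [hf]
      exact div_ne_zero (mul_ne_zero (hne _ (by omega)) (hne _ (by omega)))
        (pow_ne_zero _ (hne _ (by omega)))
    have hb : b ≠ 0 := by rw [← h2]; exact hne 2 (by norm_num)
    have hc : c ≠ 0 := by rw [← h3]; exact hne 3 (by norm_num)
    have hf2 : f 2 = c / b ^ 2 := by
      simp only [hf]; norm_num [h2, h3, h1]
    have hf3 : f 3 = d * b ^ 2 / c ^ 2 := by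
      simp only [hf]; norm_num [h2, h3, h4]; ring
    -- Somos-4 in terms of f
    have hS4 : ∀ m : ℤ, 2 ≤ m → m + 2 < s → f m ^ 2 * (f (m + 1) * f (m - 1)) = b ^ 2 * f m - c := by
      intro m hm hms
      have h := ih (m + 2).toNat (by omega) m 2 (by norm_num) hm (by omega)
      unfold EllRel at h
      norm_num at h
      rw [h2, h3, h1] at h
      have e1 := hne m (by omega)
      have e2 := hne (m + 1) (by omega)
      have e3 := hne (m - 1) (by omega)
      simp only [hf]
      rw [show m + 1 + 1 = m + 2 by ring, show m + 1 - 1 = m by ring,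
        show m - 1 + 1 = m by ring, show m - 1 - 1 = m - 2 by ring]
      field_simp
      linear_combination h
    have hSum : ∀ k : ℕ, (k : ℤ) + 4 < s →
        c * (f (k + 2) ^ 2 * (f (k + 2 + 1) + f (k + 2 - 1))) =
          (d + b ^ 4) * f (k + 2) - c * b ^ 2 := by
      intro k
      induction k with
      | zero =>
        intro _
        norm_num
        rw [hf1, hf2, hf3]
        field_simp
        ring
      | succ k ihk =>
        intro hk
        have e := ihk (by push_cast at hk ⊢; omega)
        have s1 := hS4 (k + 2) (by omega) (by push_cast at hk ⊢; omega)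
        have s2 := hS4 (k + 3) (by omega) (by push_cast at hk ⊢; omega)
        have n1 := hfne (k + 2) (by omega)
        push_cast
        rw [show (k : ℤ) + 2 + 1 = k + 3 by ring] at e s1
        rw [show (k : ℤ) + 3 + 1 = k + 4 by ring, show (k : ℤ) + 3 - 1 = k + 2 by ring] at s2
        rw [show (k : ℤ) + 1 + 2 = k + 3 by ring, show (k : ℤ) + 3 + 1 = k + 4 by ring,
          show (k : ℤ) + 3 - 1 = k + 2 by ring]
        apply mul_left_cancel₀ n1
        linear_combination c * s2 + f (k + 3) * e - c * s1
    have hSum' : ∀ m : ℤ, 2 ≤ m → m + 2 < s →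
        c * (f m ^ 2 * (f (m + 1) + f (m - 1))) = (d + b ^ 4) * f m - c * b ^ 2 := by
      intro m hm hms
      have := hSum (m - 2).toNat (by omega)
      rw [show (((m - 2).toNat : ℕ) : ℤ) = m - 2 by omega, show m - 2 + 2 = m by ring] at this
      exact this
    have hSS : ∀ m n : ℤ, 2 ≤ m → m + 2 < s → 2 ≤ n → n + 2 < s →
        f m ^ 2 * ((f (m + 1) - f n) * (f (m - 1) - f n)) =
          f n ^ 2 * ((f (n + 1) - f m) * (f (n - 1) - f m)) := by
      intro m n hm hms hn hns
      apply mul_left_cancel₀ hc
      linear_combination c * hS4 m hm hms - f n * hSum' m hm hms - c * hS4 n hn hns +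
        f m * hSum' n hn hns
    -- inner induction on the difference
    have main : ∀ (t : ℕ) (p q : ℤ), 1 ≤ q → q ≤ p → p + q = s → p - q = t → EllRel U p q := by
      intro t
      induction t using Nat.strong_induction_on with
      | _ t iht =>
        intro p q hq hpq hs ht
        rcases Nat.lt_or_ge t 3 with ht3 | ht3
        · interval_cases t
          · -- p = q
            have : p = q := by push_cast at ht; omega
            subst this
            unfold EllRel
            rw [sub_self, h0]; ring
          · have : p = q + 1 := by push_cast at ht; omega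
            subst this
            unfold EllRel
            have := hodd q
            rw [show q + 1 + q = 2 * q + 1 by ring, show q + 1 - q = 1 by ring, h1, this,
              show q + 1 + 1 = q + 2 by ring, show q + 1 - 1 = q by ring]
            ring
          · have : p = q + 2 := by push_cast at ht; omega
            subst this
            unfold EllRel
            have := heven (q + 1)
            rw [show q + 2 + q = 2 * (q + 1) by ring, show q + 2 - q = 2 by ring, h2, this,
              show q + 1 + 2 = q + 3 by ring, show q + 1 - 1 = q by ring,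
              show q + 2 + 1 = q + 3 by ring, show q + 2 - 1 = q + 1 by ring,
              show q + 1 - 2 = q - 1 by ring, show q + 1 + 1 = q + 2 by ring]
            ring
        · rcases eq_or_lt_of_le hq with hq1 | hq1
          · subst hq1
            unfold EllRel
            norm_num [h0, h1]
          · obtain ⟨m, rfl⟩ : ∃ m, p = m + 1 := ⟨p - 1, by ring⟩
            have hin := iht (t - 2) (by omega) m (q + 1) (by omega) (by omega) (by omega)
              (by omega)
            have g1 := hfd m (q + 1) (by omega) (by omega) hin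
            have g2 := hfd m (q - 1) (by omega) (by omega)
              (ih (m + (q - 1)).toNat (by omega) m (q - 1) (by omega) (by omega) (by omega))
            have g3 := hfd (m - 1) q (by omega) (by omega)
              (ih (m - 1 + q).toNat (by omega) (m - 1) q (by omega) (by omega) (by omega))
            have hSS' := hSS m q (by omega) (by omega) (by omega) (by omega)
            apply hrf (m + 1) q (by omega) (by omega)
            have n1 := hne (m - 1 + q) (by omega)
            have n2 := hne (m - 1 - q) (by omega)
            have n3 := hne (m - 1) (by omega)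
            have n4 := hne m (by omega)
            have n5 := hne (m + 1) (by omega)
            have n6 := hne q (by omega)
            have n7 := hne (q + 1) (by omega)
            have n8 := hne (q - 1) (by omega)
            have g3ne : f (m - 1) - f q ≠ 0 := by
              rw [g3]
              positivity
            have fmne := hfne m (by omega)
            have : f (m + 1) - f q =
                f q ^ 2 * ((f (q + 1) - f m) * (f (q - 1) - f m)) /
                  (f m ^ 2 * (f (m - 1) - f q)) := by
              field_simp
              linear_combination hSS'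
            rw [this, g3, show f (q + 1) - f m = -(f m - f (q + 1)) by ring, g1,
              show f (q - 1) - f m = -(f m - f (q - 1)) by ring, g2]
            simp only [hf]
            rw [show m + (q + 1) = m + 1 + q by ring, show m - (q + 1) = m - 1 - q by ring,
              show m + (q - 1) = m - 1 + q by ring, show m - (q - 1) = m + 1 - q by ring]
            field_simp
    intro p q hq hpq hs
    exact main (p - q).toNat p q hq hpq hs (by omega)

end Field

section Universal

open MvPolynomial

/-- `normEDS 2 3 2` is the identity sequence -/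
theorem normEDS_two_three_two (n : ℕ) : normEDS (2 : ℤ) 3 2 n = n := by
  induction n using normEDSRec' with
  | zero => simp
  | one => simp
  | two => simp
  | three => simp
  | four => simp
  | even m ih =>
    have h := normEDS_even (2 : ℤ) 3 2 ((m : ℤ) + 3)
    have a1 := ih (m + 2) (by omega)
    have a2 := ih (m + 3) (by omega)
    have a3 := ih (m + 5) (by omega)
    have a4 := ih (m + 1) (by omega)
    have a5 := ih (m + 4) (by omega)
    push_cast at a1 a2 a3 a4 a5 ⊢
    rw [show (m : ℤ) + 3 - 1 = m + 2 by ring, show (m : ℤ) + 3 + 2 = m + 5 by ring,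
      show (m : ℤ) + 3 - 2 = m + 1 by ring, show (m : ℤ) + 3 + 1 = m + 4 by ring,
      a1, a2, a3, a4, a5] at h
    have : normEDS (2 : ℤ) 3 2 (2 * (m + 3)) * 2 = (2 * (m + 3)) * 2 := by
      rw [h]; ring
    exact mul_right_cancel₀ two_ne_zero this
  | odd m ih =>
    have h := normEDS_odd (2 : ℤ) 3 2 ((m : ℤ) + 2)
    have a1 := ih (m + 2) (by omega)
    have a2 := ih (m + 3) (by omega)
    have a4 := ih (m + 1) (by omega)
    have a5 := ih (m + 4) (by omega)
    push_cast at a1 a2 a4 a5 ⊢
    rw [show (m : ℤ) + 2 - 1 = m + 1 by ring, show (m : ℤ) + 2 + 2 = m + 4 by ring,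
      show (m : ℤ) + 2 + 1 = m + 3 by ring,
      a1, a2, a4, a5] at h
    rw [h]; ring

theorem ellRel_symm {L : Type*} [CommRing L] {U : ℤ → L} (hU : ∀ n, U (-n) = - U n) {p q : ℤ}
    (h : EllRel U p q) : EllRel U q p := by
  unfold EllRel at *
  rw [show q + p = p + q by ring, show q - p = -(p - q) by ring, hU]
  linear_combination -h

theorem ellRel_neg_right {L : Type*} [CommRing L] {U : ℤ → L} (hU : ∀ n, U (-n) = - U n) {p q : ℤ}
    (h : EllRel U p q) : EllRel U p (-q) := by
  unfold EllRel at *
  rw [show p + -q = p - q by ring, show p - -q = p + q by ring, hU,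
    show -q + 1 = -(q - 1) by ring, show -q - 1 = -(q + 1) by ring, hU, hU]
  linear_combination h

theorem ellRel_neg_left {L : Type*} [CommRing L] {U : ℤ → L} (hU : ∀ n, U (-n) = - U n) {p q : ℤ}
    (h : EllRel U p q) : EllRel U (-p) q := by
  apply ellRel_symm hU
  apply ellRel_neg_right hU
  exact ellRel_symm hU h

/-- The elliptic relation for `normEDS` over an arbitrary commutative ring. -/
theorem ellRel_normEDS {R : Type*} [CommRing R] (b c d : R) (p q : ℤ) :
    EllRel (normEDS b c d) p q := by
  -- universal case
  let A := MvPolynomial (Fin 3) ℤ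
  let L := FractionRing A
  let B : A := X 0
  let C' : A := X 1
  let D : A := X 2
  have hneA : ∀ n : ℤ, 0 < n → normEDS B C' D n ≠ 0 := by
    intro n hn h
    let g : A →+* ℤ := (aeval ![(2 : ℤ), 3, 2] : A →ₐ[ℤ] ℤ).toRingHom
    have h2 : g (normEDS B C' D n) = 0 := by rw [h, map_zero]
    rw [map_normEDS] at h2
    have e1 : g B = 2 := aeval_X (R := ℤ) ![(2 : ℤ), 3, 2] 0
    have e2 : g C' = 3 := aeval_X (R := ℤ) ![(2 : ℤ), 3, 2] 1
    have e3 : g D = 2 := aeval_X (R := ℤ) ![(2 : ℤ), 3, 2] 2
    rw [e1, e2, e3] at h2
    have := normEDS_two_three_two n.toNat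
    rw [show ((n.toNat : ℕ) : ℤ) = n by omega, h2] at this
    omega
  let ι : A →+* L := algebraMap A L
  have hι : Function.Injective ι := IsFractionRing.injective A L
  have hneL : ∀ n : ℤ, 0 < n → normEDS (ι B) (ι C') (ι D) n ≠ 0 := by
    intro n hn
    rw [← map_normEDS]
    exact fun h => hneA n hn (hι (by rw [h, map_zero]))
  have hL : ∀ p q : ℤ, 1 ≤ q → q ≤ p → EllRel (normEDS (ι B) (ι C') (ι D)) p q := by
    intro p q hq hpq
    exact ellRel_of_field _ (ι B) (ι C') (ι D) (normEDS_zero ..) (normEDS_one ..)
      (normEDS_two ..) (normEDS_three ..) (normEDS_four ..)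
      (fun m => normEDS_odd ..) (fun m => normEDS_even ..) hneL (p + q).toNat p q hq hpq
      (by omega)
  have hodd : ∀ n, normEDS (ι B) (ι C') (ι D) (-n) = - normEDS (ι B) (ι C') (ι D) n :=
    fun n => normEDS_neg ..
  have hL' : ∀ p q : ℤ, EllRel (normEDS (ι B) (ι C') (ι D)) p q := by
    have h0 : ∀ p : ℤ, EllRel (normEDS (ι B) (ι C') (ι D)) p 0 := by
      intro p
      unfold EllRel
      simp
      ring
    have h1 : ∀ p q : ℤ, 1 ≤ q → 1 ≤ p → EllRel (normEDS (ι B) (ι C') (ι D)) p q := by
      intro p q hq hp
      rcases le_total q p with h | h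
      · exact hL p q hq h
      · exact ellRel_symm hodd (hL q p hp h)
    intro p q
    rcases lt_trichotomy p 0 with hp | hp | hp
    · obtain ⟨p', rfl⟩ : ∃ p', p = -p' := ⟨-p, by ring⟩
      apply ellRel_neg_left hodd
      rcases lt_trichotomy q 0 with hq | hq | hq
      · obtain ⟨q', rfl⟩ : ∃ q', q = -q' := ⟨-q, by ring⟩
        apply ellRel_neg_right hodd
        exact h1 p' q' (by omega) (by omega)
      · subst hq; exact h0 _
      · exact h1 p' q (by omega) (by omega)
    · subst hp; exact ellRel_symm hodd (h0 q)
    · rcases lt_trichotomy q 0 with hq | hq | hq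
      · obtain ⟨q', rfl⟩ : ∃ q', q = -q' := ⟨-q, by ring⟩
        apply ellRel_neg_right hodd
        exact h1 p q' (by omega) (by omega)
      · subst hq; exact h0 _
      · exact h1 p q (by omega) (by omega)
  have hA : EllRel (normEDS B C' D) p q := by
    have := hL' p q
    unfold EllRel at *
    apply hι
    simp only [map_mul, map_sub, map_pow, map_normEDS]
    exact this
  -- specialise
  let g : A →+* R := (aeval ![b, c, d] : A →ₐ[ℤ] R).toRingHom
  have e1 : g B = b := aeval_X (R := ℤ) ![b, c, d] 0
  have e2 : g C' = c := aeval_X (R := ℤ) ![b, c, d] 1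
  have e3 : g D = d := aeval_X (R := ℤ) ![b, c, d] 2
  unfold EllRel at *
  have h2 := congrArg g hA
  simp only [map_mul, map_sub, map_pow, map_normEDS, e1, e2, e3] at h2
  exact h2

end Universal

end Fermat.Agent.H09
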