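import Mathlib

set_option autoImplicit false

/-!
# Coordinates of points and Kummer type formulas
-/

open WeierstrassCurve WeierstrassCurve.Affine WeierstrassCurve.Affine.Point

namespace Fermat.Agent.H09

section

variable {F : Type*} [Field F] {W : WeierstrassCurve.Affine F}

/-- `x`-coordinate (junk `0` at infinity). -/
noncomputable def xc : W.Point → F
  | 0 => 0
  | Point.some x _ _ => x

/-- `y`-coordinate (junk `0` at infinity). -/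
noncomputable def yc : W.Point → F
  | 0 => 0
  | Point.some _ y _ => y

@[simp] theorem xc_zero : xc (0 : W.Point) = 0 := rfl
@[simp] theorem yc_zero : yc (0 : W.Point) = 0 := rfl
@[simp] theorem xc_some {x y : F} (h : W.Nonsingular x y) : xc (Point.some x y h) = x := rfl
@[simp] theorem yc_some {x y : F} (h : W.Nonsingular x y) : yc (Point.some x y h) = y := rfl

theorem xc_neg (P : W.Point) : xc (-P) = xc P := by
  rcases P with _ | ⟨x, y, h⟩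
  · rfl
  · rfl

theorem yc_neg {P : W.Point} (hP : P ≠ 0) : yc (-P) = -yc P - W.a₁ * xc P - W.a₃ := by
  rcases P with _ | ⟨x, y, h⟩
  · exact absurd rfl hP
  · rfl

theorem exists_of_ne_zero {P : W.Point} (hP : P ≠ 0) : ∃ h : W.Nonsingular (xc P) (yc P),
    P = Point.some (xc P) (yc P) h := by
  rcases P with _ | ⟨x, y, h⟩
  · exact absurd rfl hP
  · exact ⟨h, rfl⟩

theorem nonsing {P : W.Point} (hP : P ≠ 0) : W.Nonsingular (xc P) (yc P) :=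
  (exists_of_ne_zero hP).1

theorem equation_of_ne_zero {P : W.Point} (hP : P ≠ 0) :
    yc P ^ 2 + W.a₁ * xc P * yc P + W.a₃ * yc P =
      xc P ^ 3 + W.a₂ * xc P ^ 2 + W.a₄ * xc P + W.a₆ := by
  rw [← equation_iff]
  exact (nonsing hP).1

theorem ext_of_ne_zero {P Q : W.Point} (hP : P ≠ 0) (hQ : Q ≠ 0) (hx : xc P = xc Q)
    (hy : yc P = yc Q) : P = Q := by
  rcases P with _ | ⟨x, y, h⟩
  · exact absurd rfl hP
  rcases Q with _ | ⟨x', y', h'⟩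
  · exact absurd rfl hQ
  simp only [xc_some, yc_some] at hx hy
  subst hx hy
  rfl

theorem eq_or_eq_neg_of_xc_eq {P Q : W.Point} (hP : P ≠ 0) (hQ : Q ≠ 0) (hx : xc P = xc Q) :
    P = Q ∨ P = -Q := by
  rcases P with _ | ⟨x, y, h⟩
  · exact absurd rfl hP
  rcases Q with _ | ⟨x', y', h'⟩
  · exact absurd rfl hQ
  exact X_eq_iff.mp hx

end

section

variable {F : Type*} [Field F] [DecidableEq F] {W : WeierstrassCurve.Affine F}

theorem add_ne_zero_of_xc_ne {P Q : W.Point} (hx : xc P ≠ xc Q) :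
    P + Q ≠ 0 := by
  intro h
  have : P = -Q := eq_neg_of_add_eq_zero_left h
  exact hx (by rw [this, xc_neg])

theorem sub_ne_zero_of_xc_ne {P Q : W.Point} (hx : xc P ≠ xc Q) :
    P - Q ≠ 0 := by
  rw [sub_eq_add_neg]
  exact add_ne_zero_of_xc_ne (by rwa [xc_neg])

/-- coordinates of the sum, in slope form -/
theorem xc_add {P Q : W.Point} (hP : P ≠ 0) (hQ : Q ≠ 0) (hx : xc P ≠ xc Q) :
    xc (P + Q) = ((yc P - yc Q) / (xc P - xc Q)) ^ 2 + W.a₁ * ((yc P - yc Q) / (xc P - xc Q))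
      - W.a₂ - xc P - xc Q := by
  obtain ⟨h1, e1⟩ := exists_of_ne_zero hP
  obtain ⟨h2, e2⟩ := exists_of_ne_zero hQ
  rw [e1, e2, add_of_X_ne hx]
  simp only [xc_some, yc_some]
  rw [slope_of_X_ne hx, addX]

theorem yc_add {P Q : W.Point} (hP : P ≠ 0) (hQ : Q ≠ 0) (hx : xc P ≠ xc Q) :
    yc (P + Q) = -(((yc P - yc Q) / (xc P - xc Q)) * (xc (P + Q) - xc P) + yc P)
      - W.a₁ * xc (P + Q) - W.a₃ := by
  obtain ⟨h1, e1⟩ := exists_of_ne_zero hP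
  obtain ⟨h2, e2⟩ := exists_of_ne_zero hQ
  rw [e1, e2, add_of_X_ne hx]
  simp only [xc_some, yc_some]
  rw [slope_of_X_ne hx, addY, negAddY, negY]

/-- the difference, in slope form -/
theorem xc_sub {P Q : W.Point} (hP : P ≠ 0) (hQ : Q ≠ 0) (hx : xc P ≠ xc Q) :
    xc (P - Q) = ((yc P + yc Q + W.a₁ * xc Q + W.a₃) / (xc P - xc Q)) ^ 2 +
      W.a₁ * ((yc P + yc Q + W.a₁ * xc Q + W.a₃) / (xc P - xc Q))
      - W.a₂ - xc P - xc Q := by
  rw [sub_eq_add_neg, xc_add hP (neg_ne_zero.mpr hQ) (by rwa [xc_neg]), xc_neg, yc_neg hQ]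
  ring

/-- sum formula -/
theorem xc_add_add_xc_sub {P Q : W.Point} (hP : P ≠ 0) (hQ : Q ≠ 0) (hx : xc P ≠ xc Q) :
    (xc (P + Q) + xc (P - Q)) * (xc P - xc Q) ^ 2 =
      2 * xc P * xc Q * (xc P + xc Q) + W.b₂ * xc P * xc Q + W.b₄ * (xc P + xc Q) + W.b₆ := by
  rw [xc_add hP hQ hx, xc_sub hP hQ hx]
  have h1 := equation_of_ne_zero hP
  have h2 := equation_of_ne_zero hQ
  have hne : xc P - xc Q ≠ 0 := sub_ne_zero.mpr hx
  simp only [b₂, b₄, b₆]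
  field_simp
  linear_combination 2 * h1 + 2 * h2

/-- product formula -/
theorem xc_add_mul_xc_sub {P Q : W.Point} (hP : P ≠ 0) (hQ : Q ≠ 0) (hx : xc P ≠ xc Q) :
    (xc (P + Q) * xc (P - Q)) * (xc P - xc Q) ^ 2 =
      xc P ^ 2 * xc Q ^ 2 - W.b₄ * xc P * xc Q - W.b₆ * (xc P + xc Q) - W.b₈ := by
  rw [xc_add hP hQ hx, xc_sub hP hQ hx]
  have h1 := equation_of_ne_zero hP
  have h2 := equation_of_ne_zero hQ
  have hne : xc P - xc Q ≠ 0 := sub_ne_zero.mpr hx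
  simp only [b₄, b₆, b₈]
  field_simp
  set x := xc P
  set y := yc P
  set u := xc Q
  set v := yc Q
  have e1 : y ^ 2 + W.a₁ * x * y + W.a₃ * y - (x ^ 3 + W.a₂ * x ^ 2 + W.a₄ * x + W.a₆) = 0 := by
    linear_combination h1
  have e2 : v ^ 2 + W.a₁ * u * v + W.a₃ * v - (u ^ 3 + W.a₂ * u ^ 2 + W.a₄ * u + W.a₆) = 0 := by
    linear_combination h2
  linear_combination
    (2 * ((x ^ 3 + W.a₂ * x ^ 2 + W.a₄ * x + W.a₆) + (u ^ 3 + W.a₂ * u ^ 2 + W.a₄ * u + W.a₆)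
      - (W.a₂ + x + u) * (x - u) ^ 2) + (W.a₁ ^ 2 * u * x + W.a₁ * W.a₃ * (u + x) + W.a₃ ^ 2)
      + (y ^ 2 + W.a₁ * x * y + W.a₃ * y - (x ^ 3 + W.a₂ * x ^ 2 + W.a₄ * x + W.a₆))
      + (v ^ 2 + W.a₁ * u * v + W.a₃ * v - (u ^ 3 + W.a₂ * u ^ 2 + W.a₄ * u + W.a₆))
      - 4 * (u ^ 3 + W.a₂ * u ^ 2 + W.a₄ * u + W.a₆)
      - 4 * (v ^ 2 + W.a₁ * u * v + W.a₃ * v - (u ^ 3 + W.a₂ * u ^ 2 + W.a₄ * u + W.a₆))
      - (W.a₁ * u + W.a₃) ^ 2) * e1 +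
    (2 * ((x ^ 3 + W.a₂ * x ^ 2 + W.a₄ * x + W.a₆) + (u ^ 3 + W.a₂ * u ^ 2 + W.a₄ * u + W.a₆)
      - (W.a₂ + x + u) * (x - u) ^ 2) + (W.a₁ ^ 2 * u * x + W.a₁ * W.a₃ * (u + x) + W.a₃ ^ 2)
      + (y ^ 2 + W.a₁ * x * y + W.a₃ * y - (x ^ 3 + W.a₂ * x ^ 2 + W.a₄ * x + W.a₆))
      + (v ^ 2 + W.a₁ * u * v + W.a₃ * v - (u ^ 3 + W.a₂ * u ^ 2 + W.a₄ * u + W.a₆))
      - 4 * (x ^ 3 + W.a₂ * x ^ 2 + W.a₄ * x + W.a₆)
      - (W.a₁ * x + W.a₃) ^ 2) * e2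

/-- `ψ₂(P) = 2y + a₁x + a₃` -/
noncomputable def psi2 (P : W.Point) : F := 2 * yc P + W.a₁ * xc P + W.a₃

/-- value of `ψ₃` -/
noncomputable def psi3 (P : W.Point) : F :=
  3 * xc P ^ 4 + W.b₂ * xc P ^ 3 + 3 * W.b₄ * xc P ^ 2 + 3 * W.b₆ * xc P + W.b₈

/-- value of `ψ₄/ψ₂` -/
noncomputable def psi4 (P : W.Point) : F :=
  2 * xc P ^ 6 + W.b₂ * xc P ^ 5 + 5 * W.b₄ * xc P ^ 4 + 10 * W.b₆ * xc P ^ 3 +
    10 * W.b₈ * xc P ^ 2 + (W.b₂ * W.b₈ - W.b₄ * W.b₆) * xc P + (W.b₄ * W.b₈ - W.b₆ ^ 2)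

omit [DecidableEq F] in
theorem psi2_sq {P : W.Point} (hP : P ≠ 0) :
    psi2 P ^ 2 = 4 * xc P ^ 3 + W.b₂ * xc P ^ 2 + 2 * W.b₄ * xc P + W.b₆ := by
  have h := equation_of_ne_zero hP
  simp only [psi2, b₂, b₄, b₆]
  linear_combination 4 * h

omit [DecidableEq F] in
theorem psi4_eq {P : W.Point} (hP : P ≠ 0) :
    psi4 P = (6 * xc P ^ 2 + W.b₂ * xc P + W.b₄) * psi3 P - psi2 P ^ 4 := by
  have h : psi2 P ^ 4 = (psi2 P ^ 2) ^ 2 := by ring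
  rw [h, psi2_sq hP]
  simp only [psi4, psi3, b₂, b₄, b₆, b₈]
  ring

theorem add_self_eq_zero_iff {P : W.Point} (hP : P ≠ 0) : P + P = 0 ↔ psi2 P = 0 := by
  obtain ⟨h1, e1⟩ := exists_of_ne_zero hP
  constructor
  · intro h
    have h2 : P = -P := eq_neg_of_add_eq_zero_left h
    have h3 : yc P = yc (-P) := congrArg yc h2
    rw [yc_neg hP] at h3
    unfold psi2
    linear_combination h3
  · intro h
    unfold psi2 at h
    rw [e1]
    apply add_self_of_Y_eq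
    rw [negY]
    linear_combination h

/-- duplication formula -/
theorem xc_double {P : W.Point} (hP : P ≠ 0) (h2 : psi2 P ≠ 0) :
    (xc (P + P) - xc P) * psi2 P ^ 2 = - psi3 P := by
  obtain ⟨h1, e1⟩ := exists_of_ne_zero hP
  have hy : yc P ≠ W.negY (xc P) (yc P) := by
    intro h
    apply h2
    unfold psi2
    rw [negY] at h
    linear_combination h
  have e2 : xc (P + P) = ((3 * xc P ^ 2 + 2 * W.a₂ * xc P + W.a₄ - W.a₁ * yc P) / psi2 P) ^ 2 +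
      W.a₁ * ((3 * xc P ^ 2 + 2 * W.a₂ * xc P + W.a₄ - W.a₁ * yc P) / psi2 P) - W.a₂
        - xc P - xc P := by
    conv_lhs => rw [e1, add_self_of_Y_ne hy]
    rw [xc_some, slope_of_Y_ne rfl hy, addX, negY]
    have : yc P - (-yc P - W.a₁ * xc P - W.a₃) = psi2 P := by unfold psi2; ring
    rw [this]
  rw [e2]
  have h := equation_of_ne_zero hP
  field_simp
  unfold psi2 psi3
  simp only [b₂, b₄, b₆, b₈]
  linear_combination (-(W.a₁ ^ 2) - 12 * xc P - 4 * W.a₂) * h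

/-- key recursion for `z_k = x(kP) - x(P)`, product form -/
theorem key_prod {P Q : W.Point} (hP : P ≠ 0) (hQ : Q ≠ 0) (hx : xc P ≠ xc Q) :
    (xc (P + Q) - xc Q) * (xc (P - Q) - xc Q) * (xc P - xc Q) ^ 2 =
      -(psi3 Q + psi2 Q ^ 2 * (xc P - xc Q)) := by
  have e1 := xc_add_add_xc_sub hP hQ hx
  have e2 := xc_add_mul_xc_sub hP hQ hx
  rw [psi2_sq hQ]
  unfold psi3
  linear_combination e2 - xc Q * e1

/-- key recursion for `z_k = x(kP) - x(P)`, sum form -/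
theorem key_sum {P Q : W.Point} (hP : P ≠ 0) (hQ : Q ≠ 0) (hx : xc P ≠ xc Q) :
    ((xc (P + Q) - xc Q) + (xc (P - Q) - xc Q)) * (xc P - xc Q) ^ 2 =
      psi2 Q ^ 2 + (6 * xc Q ^ 2 + W.b₂ * xc Q + W.b₄) * (xc P - xc Q) := by
  have e1 := xc_add_add_xc_sub hP hQ hx
  rw [psi2_sq hQ]
  linear_combination e1

omit [DecidableEq F] in
/-- At a nonsingular 2-torsion point `ψ₃ ≠ 0`. -/
theorem psi3_ne_zero_of_psi2_eq_zero {P : W.Point} (hP : P ≠ 0) (h2 : psi2 P = 0) :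
    psi3 P ≠ 0 := by
  have hn := nonsing hP
  rw [nonsingular_iff'] at hn
  have h := equation_of_ne_zero hP
  have hX : W.a₁ * yc P - (3 * xc P ^ 2 + 2 * W.a₂ * xc P + W.a₄) ≠ 0 := by
    rcases hn.2 with h' | h'
    · exact h'
    · exact absurd h2 h'
  have : psi3 P = -(W.a₁ * yc P - (3 * xc P ^ 2 + 2 * W.a₂ * xc P + W.a₄)) ^ 2 := by
    unfold psi2 at h2
    unfold psi3
    simp only [b₂, b₄, b₆, b₈]
    linear_combination (-(W.a₁ ^ 2) - 12 * xc P - 4 * W.a₂) * h + 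
      (3 * xc P * (2 * yc P + W.a₁ * xc P + W.a₃) + W.a₂ * (2 * yc P + W.a₁ * xc P + W.a₃) +
        W.a₁ * (W.a₁ * yc P - (3 * xc P ^ 2 + 2 * W.a₂ * xc P + W.a₄))) * h2
  rw [this]
  exact neg_ne_zero.mpr (pow_ne_zero _ hX)

end

end Fermat.Agent.H09
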