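import Mathlib
import Fermat.Agent.H09.EDS
import Fermat.Agent.H09.Pt

set_option autoImplicit false

/-!
# Division polynomials detect torsion
-/

open WeierstrassCurve WeierstrassCurve.Affine WeierstrassCurve.Affine.Point

namespace Fermat.Agent.H09

section zeros

variable {K : Type*} [Field K] (b c d : K)

/-- zeros of a nondegenerate `normEDS` over a field, one direction -/
theorem dvd_of_normEDS_eq_zero {r : ℤ} (hr : 2 ≤ r) (hr0 : normEDS b c d r = 0)
    (hmin : ∀ k : ℤ, 1 ≤ k → k < r → normEDS b c d k ≠ 0)
    (hr1 : normEDS b c d (r + 1) ≠ 0) :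
    ∀ n : ℕ, normEDS b c d n = 0 → r ∣ n := by
  intro n
  induction n using Nat.strong_induction_on with
  | _ n ih =>
    intro hn
    rcases Nat.eq_zero_or_pos n with h0 | hpos
    · subst h0; simp
    by_cases hlt : (n : ℤ) < r
    · exact absurd hn (hmin n (by omega) hlt)
    push Not at hlt
    rcases eq_or_lt_of_le hlt with he | hgt
    · rw [he]
    have hrel := ellRel_normEDS b c d ((n : ℤ) - r) r
    unfold EllRel at hrel
    rw [show (n : ℤ) - r + r = n by ring, hn, hr0] at hrel
    have hr2 : normEDS b c d (r - 1) ≠ 0 := hmin _ (by omega) (by omega)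
    have h3 : normEDS b c d ((n : ℤ) - r) = 0 := by
      by_contra h
      have : normEDS b c d (r + 1) * normEDS b c d (r - 1) * normEDS b c d ((n : ℤ) - r) ^ 2 ≠ 0 :=
        mul_ne_zero (mul_ne_zero hr1 hr2) (pow_ne_zero _ h)
      apply this
      linear_combination hrel
    have h4 := ih ((n : ℤ) - r).toNat (by omega)
    rw [show ((((n : ℤ) - r).toNat : ℕ) : ℤ) = (n : ℤ) - r by omega] at h4
    have h5 := h4 h3
    have : (n : ℤ) = (n - r) + r := by ring
    rw [this]
    exact dvd_add h5 (dvd_refl r)

/-- if `U r = 0` with `r` minimal then `U (r+1) ≠ 0`, under nondegeneracy. -/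
theorem normEDS_succ_ne_zero {r : ℤ} (hr : 2 ≤ r) (hr0 : normEDS b c d r = 0)
    (hmin : ∀ k : ℤ, 1 ≤ k → k < r → normEDS b c d k ≠ 0)
    (hbc : b = 0 → c ≠ 0) (hcd : c = 0 → d ≠ 0) :
    normEDS b c d (r + 1) ≠ 0 := by
  intro h
  rcases eq_or_lt_of_le hr with h2 | h2
  · subst h2
    norm_num at h hr0
    exact hbc hr0 h
  have hrel := ellRel_normEDS b c d (r - 1) 2
  unfold EllRel at hrel
  rw [show r - 1 + 2 = r + 1 by ring, show r - 1 + 1 = r by ring, h, hr0] at hrel
  norm_num at hrel
  have h3 : normEDS b c d (r - 1) ≠ 0 := hmin _ (by omega) (by omega)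
  have hc : c = 0 := by
    rcases hrel with hrel | hrel
    · exact hrel
    · exact absurd hrel h3
  rcases eq_or_lt_of_le (show (3 : ℤ) ≤ r by omega) with h4 | h4
  · subst h4
    norm_num at h
    rcases h with h | h
    · exact hcd hc h
    · exact hmin 2 (by norm_num) (by norm_num) (by simpa using h)
  · exact hmin 3 (by norm_num) h4 (by simpa using hc)

/-- multiples of the rank of apparition are zeros -/
theorem normEDS_eq_zero_of_dvd {r : ℤ} (hr : 2 ≤ r) (hr0 : normEDS b c d r = 0)
    (hmin : ∀ k : ℤ, 1 ≤ k → k < r → normEDS b c d k ≠ 0)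
    (hr1 : normEDS b c d (r + 1) ≠ 0) :
    ∀ k : ℕ, normEDS b c d (k * r) = 0 := by
  intro k
  rcases eq_or_lt_of_le hr with h2 | h2
  · subst h2
    have hb : b = 0 := by simpa using hr0
    rw [normEDS, if_pos (by exact ⟨k, by ring⟩), hb, mul_zero]
  induction k using Nat.strong_induction_on with
  | _ k ih =>
    rcases Nat.lt_or_ge k 2 with hk | hk
    · interval_cases k
      · simp
      · simpa using hr0
    obtain ⟨j, rfl⟩ : ∃ j, k = j + 1 := ⟨k - 1, by omega⟩
    have hrel := ellRel_normEDS b c d ((j : ℤ) * r + 1) (r - 1)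
    unfold EllRel at hrel
    rw [show (j : ℤ) * r + 1 + (r - 1) = ((j + 1 : ℕ) : ℤ) * r by push_cast; ring,
      show (j : ℤ) * r + 1 - (r - 1) = ((j - 1) * r + 2 : ℤ) by ring,
      show (j : ℤ) * r + 1 - 1 = j * r by ring, ih j (by omega),
      show r - 1 + 1 = r by ring, hr0] at hrel
    have hne : normEDS b c d ((j - 1) * r + 2 : ℤ) ≠ 0 := by
      intro h
      have hpos : 0 ≤ ((j : ℤ) - 1) * r + 2 := by
        have : 0 ≤ ((j : ℤ) - 1) * r := mul_nonneg (by omega) (by omega)
        omega
      have h5 := dvd_of_normEDS_eq_zero b c d hr hr0 hmin hr1 (((j : ℤ) - 1) * r + 2).toNat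
      rw [show (((((j : ℤ) - 1) * r + 2).toNat : ℕ) : ℤ) = (j - 1) * r + 2 by omega] at h5
      have h6 : r ∣ 2 := (Int.dvd_add_right (Dvd.intro_left _ rfl)).mp (h5 h)
      have := Int.le_of_dvd (by norm_num) h6
      omega
    have : normEDS b c d (((j + 1 : ℕ) : ℤ) * r) * normEDS b c d ((j - 1) * r + 2 : ℤ) = 0 := by
      rw [hrel]; ring
    exact (mul_eq_zero.mp this).resolve_right hne

end zeros

section points

variable {F : Type*} [Field F] [DecidableEq F] {W : WeierstrassCurve.Affine F}

/-- The value of the `n`-th division polynomial at a point. -/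
noncomputable def psiv (P : W.Point) (n : ℤ) : F := normEDS (psi2 P) (psi3 P) (psi4 P) n

omit [DecidableEq F] in
theorem nondeg1 {P : W.Point} (hP : P ≠ 0) : psi2 P = 0 → psi3 P ≠ 0 :=
  fun h => psi3_ne_zero_of_psi2_eq_zero hP h

omit [DecidableEq F] in
theorem nondeg2 {P : W.Point} (hP : P ≠ 0) : psi3 P = 0 → psi4 P ≠ 0 := by
  intro h
  rw [psi4_eq hP, h, mul_zero, zero_sub]
  apply neg_ne_zero.mpr
  apply pow_ne_zero
  intro h2
  exact nondeg1 hP h2 h

theorem psiv_ne_zero_aux {P : W.Point} (hP : P ≠ 0) {r : ℕ}
    (hr : ∀ k : ℕ, 1 ≤ k → k < r → k • P ≠ 0) :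
    ∀ k : ℕ, 1 ≤ k → k < r → psiv P k ≠ 0 ∧
      (xc (k • P) - xc P) * psiv P k ^ 2 = - (psiv P (k + 1) * psiv P (k - 1)) := by
  intro k
  induction k using Nat.strong_induction_on with
  | _ k ih =>
    intro hk1 hkr
    rcases Nat.lt_or_ge k 4 with hk4 | hk4
    · have hpsi2 : 2 < r → psi2 P ≠ 0 := by
        intro h h'
        apply hr 2 (by norm_num) h
        rw [two_smul]
        exact (add_self_eq_zero_iff hP).mpr h'
      interval_cases k
      · unfold psiv; norm_num
      · have h2 := hpsi2 hkr
        refine ⟨by unfold psiv; simpa using h2, ?_⟩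
        rw [two_smul]
        unfold psiv
        norm_num
        exact xc_double hP h2
      · have h2 := hpsi2 (by omega)
        have e2 : (xc (P + P) - xc P) * psi2 P ^ 2 = - psi3 P := xc_double hP h2
        have n2 : P + P ≠ 0 := by rw [← two_smul ℕ]; exact hr 2 (by norm_num) (by omega)
        have n3 : P + P + P ≠ 0 := by
          have := hr 3 (by norm_num) (by omega)
          rwa [show (3 : ℕ) = 2 + 1 by norm_num, add_smul, two_smul, one_smul] at this
        have hx : xc (P + P) ≠ xc P := by
          intro h
          rcases eq_or_eq_neg_of_xc_eq n2 hP h with h' | h'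
          · apply hP
            simpa using h'
          · apply n3
            rw [h']; simp
        have h3 : psi3 P ≠ 0 := by
          intro h3
          rw [h3, _root_.neg_zero] at e2
          rcases mul_eq_zero.mp e2 with h' | h'
          · exact hx (sub_eq_zero.mp h')
          · exact h2 (pow_eq_zero_iff (two_ne_zero) |>.mp h')
        refine ⟨by unfold psiv; simpa using h3, ?_⟩
        have ks := key_sum n2 hP hx
        rw [add_sub_cancel_right, sub_self, add_zero] at ks
        rw [show (3 : ℕ) • P = P + P + P by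
          rw [show (3 : ℕ) = 2 + 1 by norm_num, add_smul, two_smul, one_smul]]
        unfold psiv
        norm_num
        rw [psi4_eq hP]
        have hz : xc (P + P) - xc P = - psi3 P / psi2 P ^ 2 := by
          rw [eq_div_iff (pow_ne_zero _ h2)]; exact e2
        rw [hz] at ks
        field_simp at ks
        linear_combination ks
    · obtain ⟨j, rfl⟩ : ∃ j, k = j + 1 := ⟨k - 1, by omega⟩
      have ih1 := ih j (by omega) (by omega) (by omega)
      have ih2 := ih (j - 1) (by omega) (by omega) (by omega)
      have nj : j • P ≠ 0 := hr j (by omega) (by omega)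
      have nj1 : (j + 1) • P ≠ 0 := hr (j + 1) (by omega) (by omega)
      have njm : (j - 1) • P ≠ 0 := hr (j - 1) (by omega) (by omega)
      have njm2 : (j - 2) • P ≠ 0 := hr (j - 2) (by omega) (by omega)
      have hx : xc (j • P) ≠ xc P := by
        intro h
        rcases eq_or_eq_neg_of_xc_eq nj hP h with h' | h'
        · apply njm
          have : (j - 1) • P + P = P := by
            rw [← succ_nsmul, show j - 1 + 1 = j by omega, h']
          simpa using this
        · apply nj1
          rw [succ_nsmul, h']; simp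
      have hx' : xc ((j - 1) • P) ≠ xc P := by
        intro h
        rcases eq_or_eq_neg_of_xc_eq njm hP h with h' | h'
        · apply njm2
          have : (j - 2) • P + P = P := by
            rw [← succ_nsmul, show j - 2 + 1 = j - 1 by omega, h']
          simpa using this
        · apply nj
          rw [show j = j - 1 + 1 by omega, succ_nsmul, h']; simp
      have kp := key_prod nj hP hx
      rw [← succ_nsmul, show j • P - P = (j - 1) • P by
        rw [sub_eq_iff_eq_add, ← succ_nsmul, show j - 1 + 1 = j by omega]] at kp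
      -- Somos-4
      have hrel := ellRel_normEDS (psi2 P) (psi3 P) (psi4 P) (j : ℤ) 2
      unfold EllRel at hrel
      rw [normEDS_two, show (2 : ℤ) + 1 = 3 by norm_num, normEDS_three,
        show (2 : ℤ) - 1 = 1 by norm_num, normEDS_one] at hrel
      change psiv P (j + 2) * psiv P (j - 2) = psiv P (j + 1) * psiv P (j - 1) * psi2 P ^ 2 -
        psi3 P * 1 * psiv P j ^ 2 at hrel
      have hU1 : psiv P ((j + 1 : ℕ) : ℤ) ≠ 0 := by
        intro h
        push_cast at h
        have := ih1.2
        rw [h, zero_mul, _root_.neg_zero] at this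
        rcases mul_eq_zero.mp this with h' | h'
        · exact hx (sub_eq_zero.mp h')
        · exact ih1.1 (pow_eq_zero_iff (two_ne_zero) |>.mp h')
      refine ⟨hU1, ?_⟩
      have e1 := ih1.2
      have e2 := ih2.2
      have u1 := ih1.1
      have u2 := ih2.1
      rw [show (((j - 1 : ℕ) : ℤ)) = (j : ℤ) - 1 by omega] at e2 u2
      rw [show (j : ℤ) - 1 + 1 = j by ring, show (j : ℤ) - 1 - 1 = j - 2 by ring] at e2
      push_cast at hU1 ⊢
      rw [show (j : ℤ) + 1 + 1 = j + 2 by ring, show (j : ℤ) + 1 - 1 = j by ring]
      -- notation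
      have z1 : xc (j • P) - xc P = -(psiv P (j + 1) * psiv P (j - 1)) / psiv P j ^ 2 := by
        rw [eq_div_iff (pow_ne_zero _ u1)]; exact e1
      have z2 : xc ((j - 1) • P) - xc P = -(psiv P j * psiv P (j - 2)) / psiv P (j - 1) ^ 2 := by
        rw [eq_div_iff (pow_ne_zero _ u2)]; exact e2
      have u3 : psiv P (j - 2) ≠ 0 := by
        intro h
        rw [h, mul_zero, _root_.neg_zero, zero_div] at z2
        exact hx' (sub_eq_zero.mp z2)
      rw [z1, z2] at kp
      field_simp at kp
      have kp' : (xc ((j + 1) • P) - xc P) * psiv P (j + 1) ^ 2 * psiv P (j - 2) =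
          - (psiv P (j + 2) * psiv P j) * psiv P (j - 2) := by
        linear_combination psiv P j * hrel - kp
      have := mul_right_cancel₀ u3 kp'
      linear_combination this

/-- Division polynomials detect torsion (any field, any characteristic, any Weierstrass curve,
nonsingular points): `n • P = 0 ↔ ψ_n(P) = 0`. -/
theorem smul_eq_zero_iff_psiv {P : W.Point} (hP : P ≠ 0) (n : ℕ) :
    n • P = 0 ↔ psiv P n = 0 := by
  rcases Nat.eq_zero_or_pos n with h0 | hpos
  · subst h0; simp [psiv]
  -- finite or infinite order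
  by_cases hfin : ∃ r : ℕ, 0 < r ∧ r • P = 0
  · -- minimal r
    classical
    obtain ⟨hr1, hr0⟩ := Nat.find_spec hfin
    set r := Nat.find hfin with hrdef
    have hmin : ∀ k : ℕ, 1 ≤ k → k < r → k • P ≠ 0 := by
      intro k hk hkr h
      exact Nat.find_min hfin hkr ⟨by omega, h⟩
    have hr2 : 2 ≤ r := by
      by_contra h
      have : r = 1 := by omega
      rw [this, one_smul] at hr0
      exact hP hr0
    have aux := psiv_ne_zero_aux hP hmin
    have hpr : psiv P (r : ℤ) = 0 := by
      rcases Nat.lt_or_ge r 3 with h3 | h3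
      · have : r = 2 := by omega
        rw [this, two_smul] at hr0
        rw [this]
        unfold psiv
        have := (add_self_eq_zero_iff hP).mp hr0
        simpa using this
      · have a := (aux (r - 1) (by omega) (by omega)).2
        have b := (aux (r - 2) (by omega) (by omega)).1
        have hx : xc ((r - 1) • P) = xc P := by
          have : (r - 1) • P = -P := by
            rw [eq_neg_iff_add_eq_zero, ← succ_nsmul, show r - 1 + 1 = r by omega, hr0]
          rw [this, xc_neg]
        rw [hx, sub_self, zero_mul, show (((r - 1 : ℕ) : ℤ)) + 1 = r by omega,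
          show (((r - 1 : ℕ) : ℤ)) - 1 = ((r - 2 : ℕ) : ℤ) by omega] at a
        have a' : psiv P r * psiv P ((r - 2 : ℕ) : ℤ) = 0 := by linear_combination a
        exact (mul_eq_zero.mp a').resolve_right b
    have hminU : ∀ k : ℤ, 1 ≤ k → k < (r : ℤ) → normEDS (psi2 P) (psi3 P) (psi4 P) k ≠ 0 := by
      intro k hk hkr
      have := (aux k.toNat (by omega) (by omega)).1
      rwa [show ((k.toNat : ℕ) : ℤ) = k by omega] at this
    have hsucc := normEDS_succ_ne_zero (psi2 P) (psi3 P) (psi4 P) (r := r) (by omega) hpr hminU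
      (nondeg1 hP) (nondeg2 hP)
    constructor
    · intro hn
      have hdvd : r ∣ n := by
        have h1 : n % r = 0 := by
          by_contra h
          have hlt : n % r < r := Nat.mod_lt _ (by omega)
          apply hmin (n % r) (by omega) hlt
          have h2 : n • P = (n % r) • P + (n / r * r) • P := by
            rw [← add_smul, show n % r + n / r * r = n by
              rw [Nat.mul_comm]; exact Nat.mod_add_div n r]
          rw [mul_smul, hr0, smul_zero, add_zero] at h2
          rw [← h2, hn]
        exact Nat.dvd_of_mod_eq_zero h1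
      obtain ⟨k, hk⟩ := hdvd
      have := normEDS_eq_zero_of_dvd (psi2 P) (psi3 P) (psi4 P) (r := r) (by omega) hpr hminU
        hsucc k
      unfold psiv
      rw [hk]
      push_cast
      rwa [mul_comm]
    · intro hn
      have := dvd_of_normEDS_eq_zero (psi2 P) (psi3 P) (psi4 P) (r := r) (by omega) hpr hminU
        hsucc n hn
      obtain ⟨k, hk⟩ := Int.natCast_dvd_natCast.mp this
      rw [hk, mul_comm, mul_smul, hr0, smul_zero]
  · push Not at hfin
    constructor
    · intro h; exact absurd h (hfin n hpos)
    · intro h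
      have := psiv_ne_zero_aux hP (r := n + 1) (fun k hk _ => hfin k (by omega)) n (by omega)
        (by omega)
      exact absurd h this.1

end points

end Fermat.Agent.H09
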