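import Mathlib
import Fermat.Agent.H09.Torsion

set_option autoImplicit false

/-!
# Counting torsion points with division polynomials
-/

open WeierstrassCurve WeierstrassCurve.Affine WeierstrassCurve.Affine.Point Polynomial

namespace Fermat.Agent.H09

section

variable {F : Type*} [Field F] {W : WeierstrassCurve.Affine F}

theorem psi2_sq_eq_eval {P : W.Point} (hP : P ≠ 0) :
    psi2 P ^ 2 = (W.Ψ₂Sq).eval (xc P) := by
  rw [psi2_sq hP, WeierstrassCurve.Ψ₂Sq]
  simp only [eval_add, eval_mul, eval_C, eval_pow, eval_X]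

theorem psi3_eq_eval (P : W.Point) : psi3 P = (W.Ψ₃).eval (xc P) := by
  simp [psi3, WeierstrassCurve.Ψ₃, eval_add, eval_mul, eval_C, eval_pow, eval_X]

theorem psi4_eq_eval (P : W.Point) : psi4 P = (W.preΨ₄).eval (xc P) := by
  simp [psi4, WeierstrassCurve.preΨ₄, eval_add, eval_mul, eval_C, eval_pow, eval_X]

theorem psiv_eq_eval {P : W.Point} (hP : P ≠ 0) (n : ℤ) :
    psiv P n = (W.preΨ n).eval (xc P) * if Even n then psi2 P else 1 := by
  unfold psiv normEDS WeierstrassCurve.preΨ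
  rw [← coe_evalRingHom, map_preNormEDS, map_pow, coe_evalRingHom, ← psi2_sq_eq_eval hP,
    ← psi3_eq_eval, ← psi4_eq_eval]
  congr 2
  ring

end

section

variable {F : Type*} [Field F] [DecidableEq F] {W : WeierstrassCurve.Affine F}

/-- for odd `n`, a nonzero point is killed by `n` iff its `x`-coordinate is a root of `preΨ' n`. -/
theorem smul_eq_zero_iff_eval {P : W.Point} (hP : P ≠ 0) {n : ℕ} (hn : Odd n) :
    n • P = 0 ↔ (W.preΨ' n).eval (xc P) = 0 := by
  rw [smul_eq_zero_iff_psiv hP, psiv_eq_eval hP, if_neg, mul_one, preΨ_ofNat]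
  rw [Int.even_coe_nat]
  exact Nat.not_even_iff_odd.mpr hn

theorem smul_eq_zero_iff_eval_ΨSq {P : W.Point} (hP : P ≠ 0) (n : ℕ) :
    n • P = 0 ↔ (W.ΨSq n).eval (xc P) = 0 := by
  rw [smul_eq_zero_iff_psiv hP, psiv_eq_eval hP, WeierstrassCurve.ΨSq, eval_mul, eval_pow]
  split_ifs with h
  · rw [← psi2_sq_eq_eval hP, ← mul_pow, pow_eq_zero_iff two_ne_zero]
  · simp

theorem finite_fiber (x : F) : {P : W.Point | P ≠ 0 ∧ xc P = x}.Finite ∧
    {P : W.Point | P ≠ 0 ∧ xc P = x}.ncard ≤ 2 := by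
  rcases Set.eq_empty_or_nonempty {P : W.Point | P ≠ 0 ∧ xc P = x} with h | ⟨P0, h0, hx⟩
  · rw [h]; simp
  · have hsub : {P : W.Point | P ≠ 0 ∧ xc P = x} ⊆ {P0, -P0} := by
      rintro P ⟨hP, hPx⟩
      rcases eq_or_eq_neg_of_xc_eq hP h0 (hPx.trans hx.symm) with h | h
      · left; exact h
      · right; exact h
    refine ⟨(Set.toFinite {P0, -P0}).subset hsub, ?_⟩
    exact (Set.ncard_le_ncard hsub (Set.toFinite _)).trans
      ((Set.ncard_insert_le _ _).trans (by rw [Set.ncard_singleton]))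

/-- `#E[n] ≤ n²` for odd `n` invertible in the field. -/
theorem card_torsion_le {n : ℕ} (hn : Odd n) (hnF : (n : F) ≠ 0) :
    {P : W.Point | n • P = 0}.Finite ∧ {P : W.Point | n • P = 0}.ncard ≤ n ^ 2 := by
  have hne : W.preΨ' n ≠ 0 := W.preΨ'_ne_zero hnF
  have hdeg : (W.preΨ' n).natDegree ≤ (n ^ 2 - 1) / 2 := by
    have := W.natDegree_preΨ'_le n
    rwa [if_neg (Nat.not_even_iff_odd.mpr hn)] at this
  set R := (W.preΨ' n).roots.toFinset with hR
  have hRc : R.card ≤ (n ^ 2 - 1) / 2 :=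
    (Multiset.toFinset_card_le _).trans ((W.preΨ' n).card_roots'.trans hdeg)
  have hsub : {P : W.Point | n • P = 0} ⊆
      insert 0 (⋃ x ∈ R, {P : W.Point | P ≠ 0 ∧ xc P = x}) := by
    intro P hP
    by_cases h0 : P = 0
    · left; exact h0
    · right
      have h1 := (smul_eq_zero_iff_eval h0 hn).mp hP
      simp only [Set.mem_iUnion]
      refine ⟨xc P, ?_, h0, rfl⟩
      rw [hR, Multiset.mem_toFinset, mem_roots hne]
      exact h1
  classical
  let T : F → Finset W.Point := fun x => (finite_fiber (W := W) x).1.toFinset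
  have hT : ∀ x, (T x).card ≤ 2 := by
    intro x
    have := (finite_fiber (W := W) x).2
    rwa [Set.ncard_eq_toFinset_card _ (finite_fiber (W := W) x).1] at this
  have hfin : (insert 0 (⋃ x ∈ R, {P : W.Point | P ≠ 0 ∧ xc P = x})) =
      ((insert 0 (R.biUnion T) : Finset W.Point) : Set W.Point) := by
    ext P
    simp [T]
  rw [hfin] at hsub
  refine ⟨(Finset.finite_toSet _).subset hsub, ?_⟩
  refine (Set.ncard_le_ncard hsub (Finset.finite_toSet _)).trans ?_
  rw [Set.ncard_coe_finset]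
  refine (Finset.card_insert_le _ _).trans ?_
  have h1 := Finset.card_biUnion_le_card_mul R T 2 (fun x _ => hT x)
  have h2 : R.card * 2 ≤ n ^ 2 - 1 :=
    (Nat.mul_le_mul_right 2 hRc).trans (Nat.div_mul_le_self _ _)
  have h3 : 1 ≤ n ^ 2 := Nat.one_le_pow _ _ hn.pos
  omega

omit [DecidableEq F] in
/-- lifting an `x`-coordinate to a point over an algebraically closed field -/
theorem exists_point_of_x [IsAlgClosed F] (hΔ : W.Δ ≠ 0) (x : F) :
    ∃ P : W.Point, P ≠ 0 ∧ xc P = x := by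
  obtain ⟨y, hy⟩ : ∃ y : F, y ^ 2 + (W.a₁ * x + W.a₃) * y -
      (x ^ 3 + W.a₂ * x ^ 2 + W.a₄ * x + W.a₆) = 0 := by
    let q : F[X] := X ^ 2 + C (W.a₁ * x + W.a₃) * X -
      C (x ^ 3 + W.a₂ * x ^ 2 + W.a₄ * x + W.a₆)
    have hq : q.degree ≠ 0 := by
      have : q.degree = 2 := by
        simp only [q]
        compute_degree!
      rw [this]; decide
    obtain ⟨y, hy⟩ := IsAlgClosed.exists_root q hq
    refine ⟨y, ?_⟩
    have := hy.eq_zero
    simpa [q] using this
  have heq : W.Equation x y := by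
    rw [equation_iff]; linear_combination hy
  have hns : W.Nonsingular x y := (equation_iff_nonsingular_of_Δ_ne_zero hΔ).mp heq
  exact ⟨Point.some x y hns, some_ne_zero hns, rfl⟩

/-- existence of nontrivial torsion points -/
theorem exists_torsion [IsAlgClosed F] (hΔ : W.Δ ≠ 0) {n : ℕ} (hn : Odd n) (hn3 : 3 ≤ n)
    (hnF : (n : F) ≠ 0) : ∃ P : W.Point, P ≠ 0 ∧ n • P = 0 := by
  have hdeg : 0 < (W.preΨ' n).natDegree := W.natDegree_preΨ'_pos (by omega) hnF
  obtain ⟨x, hx⟩ := IsAlgClosed.exists_root (W.preΨ' n)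
    (by rw [degree_eq_natDegree (W.preΨ'_ne_zero hnF)]; exact_mod_cast hdeg.ne')
  obtain ⟨P, hP, hPx⟩ := exists_point_of_x hΔ x
  refine ⟨P, hP, ?_⟩
  rw [smul_eq_zero_iff_eval hP hn, hPx]
  exact hx

end

end Fermat.Agent.H09
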