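import Mathlib
import Fermat.Agent.H09.TorsionCount
import Fermat.Agent.H09.NodeExists

set_option autoImplicit false

/-!
# Valuations of roots, and non-vanishing of division polynomials modulo a prime
-/

namespace Fermat.Agent.H09

open Polynomial WeierstrassCurve
open Fermat.Agent.H08

section Roots

variable {F : Type*} [Field F] {Γ₀ : Type*} [LinearOrderedCommGroupWithZero Γ₀]
  (v : Valuation F Γ₀)

theorem coeff_le_of_roots_ge (s : Multiset F) (hs : ∀ y ∈ s, 1 ≤ v y) (j : ℕ) :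
    v ((s.map (fun a => X - C a)).prod.coeff j) ≤ v ((s.map (fun a => X - C a)).prod.coeff 0) := by
  induction s using Multiset.induction_on generalizing j with
  | empty =>
    simp only [Multiset.map_zero, Multiset.prod_zero]
    rw [coeff_one, coeff_one, if_pos rfl]
    split_ifs <;> simp
  | cons y s ih =>
    have ih' := fun j => ih (fun a ha => hs a (Multiset.mem_cons_of_mem ha)) j
    have hy : 1 ≤ v y := hs y (Multiset.mem_cons_self _ _)
    simp only [Multiset.map_cons, Multiset.prod_cons]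
    set h := (s.map (fun a => X - C a)).prod with hh
    have e0 : ((X - C y) * h).coeff 0 = -(y * h.coeff 0) := by
      rw [sub_mul, coeff_sub, coeff_C_mul, coeff_X_mul_zero, zero_sub]
    rw [e0, Valuation.map_neg, map_mul]
    cases j with
    | zero => rw [e0, Valuation.map_neg, map_mul]
    | succ j =>
      rw [sub_mul, coeff_sub, coeff_C_mul, coeff_X_mul]
      refine (Valuation.map_sub _ _ _).trans (max_le ?_ ?_)
      · calc v (h.coeff j) ≤ 1 * v (h.coeff 0) := by rw [one_mul]; exact ih' j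
          _ ≤ v y * v (h.coeff 0) := mul_le_mul_left hy _
      · rw [map_mul]
        exact mul_le_mul_right (ih' _) _

theorem coeff_lt_of_roots_gt (s : Multiset F) (hs : ∀ y ∈ s, 1 < v y) :
    v ((s.map (fun a => X - C a)).prod.coeff 0) ≠ 0 ∧ ∀ j, 1 ≤ j →
    v ((s.map (fun a => X - C a)).prod.coeff j) < v ((s.map (fun a => X - C a)).prod.coeff 0) := by
  induction s using Multiset.induction_on with
  | empty =>
    simp only [Multiset.map_zero, Multiset.prod_zero]
    refine ⟨by simp, fun j hj => ?_⟩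
    rw [coeff_one, coeff_one, if_neg (by omega), if_pos rfl]
    simp
  | cons y s ih =>
    have ih' := ih (fun a ha => hs a (Multiset.mem_cons_of_mem ha))
    have hy : 1 < v y := hs y (Multiset.mem_cons_self _ _)
    simp only [Multiset.map_cons, Multiset.prod_cons]
    set h := (s.map (fun a => X - C a)).prod with hh
    have e0 : ((X - C y) * h).coeff 0 = -(y * h.coeff 0) := by
      rw [sub_mul, coeff_sub, coeff_C_mul, coeff_X_mul_zero, zero_sub]
    have hy0 : v y ≠ 0 := (zero_lt_one.trans hy).ne'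
    rw [e0, Valuation.map_neg, map_mul]
    refine ⟨mul_ne_zero hy0 ih'.1, fun j hj => ?_⟩
    obtain ⟨j, rfl⟩ : ∃ i, j = i + 1 := ⟨j - 1, by omega⟩
    rw [sub_mul, coeff_sub, coeff_C_mul, coeff_X_mul]
    refine lt_of_le_of_lt (Valuation.map_sub _ _ _) (max_lt ?_ ?_)
    · have h1 : v (h.coeff j) ≤ v (h.coeff 0) := by
        rcases Nat.eq_zero_or_pos j with h0 | h0
        · rw [h0]
        · exact (ih'.2 j h0).le
      calc v (h.coeff j) ≤ 1 * v (h.coeff 0) := by rw [one_mul]; exact h1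
          _ < v y * v (h.coeff 0) := mul_lt_mul_of_pos_right hy (zero_lt_iff.mpr ih'.1)
    · rw [map_mul]
      exact mul_lt_mul_of_pos_left (ih'.2 _ (by omega)) (zero_lt_iff.mpr hy0)

/-- If a polynomial has a unit coefficient, and constant coefficient in the maximal ideal, then it
has a root in the maximal ideal. -/
theorem exists_root_lt_one [IsAlgClosed F] {f : F[X]} {j : ℕ} (hj : v (f.coeff j) = 1)
    (h0 : v (f.coeff 0) < 1) : ∃ x : F, f.IsRoot x ∧ v x < 1 := by
  by_contra hcon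
  push Not at hcon
  have hf0 : f ≠ 0 := by
    rintro rfl
    simp at hj
  have hs := IsAlgClosed.splits f
  have e : f = C f.leadingCoeff * (f.roots.map (fun a => X - C a)).prod :=
    hs.eq_prod_roots
  have h1 := coeff_le_of_roots_ge v f.roots (fun y hy => hcon y (isRoot_of_mem_roots hy)) j
  have h2 : v (f.coeff j) ≤ v (f.coeff 0) := by
    rw [e, coeff_C_mul, coeff_C_mul, map_mul, map_mul]
    exact mul_le_mul_right h1 _
  rw [hj] at h2
  exact absurd h0 (not_lt.mpr h2)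

/-- If all the roots have valuation `> 1` then the constant coefficient dominates. -/
theorem coeff_lt_of_forall_root [IsAlgClosed F] {f : F[X]} (hf0 : f ≠ 0)
    (h : ∀ x : F, f.IsRoot x → 1 < v x) {j : ℕ} (hj : 1 ≤ j) : v (f.coeff j) < v (f.coeff 0) := by
  have hs := IsAlgClosed.splits f
  have e : f = C f.leadingCoeff * (f.roots.map (fun a => X - C a)).prod :=
    hs.eq_prod_roots
  have h1 := (coeff_lt_of_roots_gt v f.roots (fun y hy => h y (isRoot_of_mem_roots hy))).2 j hj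
  rw [e, coeff_C_mul, coeff_C_mul, map_mul, map_mul]
  exact mul_lt_mul_of_pos_left h1 (zero_lt_iff.mpr ((Valuation.ne_zero_iff _).mpr
    (leadingCoeff_ne_zero.mpr hf0)))

end Roots

section NonVanishing

variable {k : Type*} [Field k]

theorem preΨ'_eval (W : WeierstrassCurve k) (n : ℕ) (x : k) : (W.preΨ' n).eval x =
    preNormEDS' ((W.Ψ₂Sq.eval x) ^ 2) (W.Ψ₃.eval x) (W.preΨ₄.eval x) n := by
  unfold WeierstrassCurve.preΨ'
  rw [← coe_evalRingHom, map_preNormEDS', map_pow]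

theorem exists_simple_root [IsAlgClosed k] (h2 : (2 : k) ≠ 0) (W : WeierstrassCurve k)
    (hW : W.Δ ≠ 0 ∨ W.c₄ ≠ 0) : ∃ e : k, W.Ψ₂Sq.eval e = 0 ∧ W.Ψ₃.eval e ≠ 0 := by
  have h4 : (4 : k) ≠ 0 := by
    have : (4 : k) = 2 * 2 := by norm_num
    rw [this]; exact mul_ne_zero h2 h2
  have h16 : (16 : k) ≠ 0 := by
    have : (16 : k) = 4 * 4 := by norm_num
    rw [this]; exact mul_ne_zero h4 h4
  have ev2 : ∀ e : k, W.Ψ₂Sq.eval e = 4 * e ^ 3 + W.b₂ * e ^ 2 + 2 * W.b₄ * e + W.b₆ := by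
    intro e
    simp [WeierstrassCurve.Ψ₂Sq]
  have ev3 : ∀ e : k, W.Ψ₃.eval e =
      3 * e ^ 4 + W.b₂ * e ^ 3 + 3 * W.b₄ * e ^ 2 + 3 * W.b₆ * e + W.b₈ := by
    intro e
    simp [WeierstrassCurve.Ψ₃]
  have key : ∀ e : k, 16 * W.Ψ₃.eval e = 2 * W.Ψ₂Sq.eval e * (24 * e + 2 * W.b₂) -
      (12 * e ^ 2 + 2 * W.b₂ * e + 2 * W.b₄) ^ 2 := by
    intro e
    rw [ev2, ev3]
    linear_combination 4 * W.b_relation
  have hsimple : ∀ e : k, W.Ψ₂Sq.eval e = 0 → (12 * e ^ 2 + 2 * W.b₂ * e + 2 * W.b₄) ≠ 0 →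
      W.Ψ₃.eval e ≠ 0 := by
    intro e he hd h3
    have := key e
    rw [he, h3] at this
    apply hd
    have h5 : (12 * e ^ 2 + 2 * W.b₂ * e + 2 * W.b₄) ^ 2 = 0 := by linear_combination this
    exact pow_eq_zero_iff two_ne_zero |>.mp h5
  obtain ⟨e, he⟩ : ∃ e : k, W.Ψ₂Sq.eval e = 0 := by
    have hdeg : W.Ψ₂Sq.degree ≠ 0 := by
      have : W.Ψ₂Sq.natDegree = 3 := W.natDegree_Ψ₂Sq h4
      intro h
      have h' : W.Ψ₂Sq.natDegree = 0 := natDegree_eq_of_degree_eq_some h
      omega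
    exact IsAlgClosed.exists_root _ hdeg
  by_cases hd : (12 * e ^ 2 + 2 * W.b₂ * e + 2 * W.b₄) = 0
  · -- double root
    have he' := he
    rw [ev2] at he'
    have hΔ : W.Δ = 0 := by
      apply mul_left_cancel₀ h16
      have key2 : 16 * W.Δ = -((48 * e ^ 2 + 8 * W.b₂ * e - W.b₂ ^ 2 + 32 * W.b₄) *
          (12 * e ^ 2 + 2 * W.b₂ * e + 2 * W.b₄) ^ 2 +
          (-(48 * e ^ 2 + 8 * W.b₂ * e - W.b₂ ^ 2 + 32 * W.b₄) * (32 * e + 4 * W.b₂)
           - 16 * (12 * e ^ 3 - W.b₂ * e ^ 2 - 10 * W.b₄ * e + W.b₂ * W.b₄ - 27 * W.b₆)) *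
          (4 * e ^ 3 + W.b₂ * e ^ 2 + 2 * W.b₄ * e + W.b₆)) := by
        simp only [WeierstrassCurve.Δ, WeierstrassCurve.b₂, WeierstrassCurve.b₄,
          WeierstrassCurve.b₆, WeierstrassCurve.b₈]
        ring
      rw [key2, he', hd]; ring
    have hc : W.c₄ ≠ 0 := by
      rcases hW with h | h
      · exact absurd hΔ h
      · exact h
    set e₃ : k := -(W.b₂ / 4) - 2 * e with he₃
    have hb2 : W.b₂ = -4 * (2 * e + e₃) := by rw [he₃]; field_simp; ring
    have hb4 : W.b₄ = 2 * (e ^ 2 + 2 * e * e₃) := by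
      apply mul_left_cancel₀ h2
      rw [hb2] at hd
      linear_combination hd
    have hb6 : W.b₆ = -4 * e ^ 2 * e₃ := by
      rw [hb2, hb4] at he'
      linear_combination he'
    have hc4 : W.c₄ = 16 * (e - e₃) ^ 2 := by
      rw [WeierstrassCurve.c₄, hb2, hb4]; ring
    refine ⟨e₃, ?_, hsimple e₃ ?_ ?_⟩
    · rw [ev2, hb2, hb4, hb6]; ring
    · rw [ev2, hb2, hb4, hb6]; ring
    · rw [hb2, hb4]
      intro h
      apply hc
      rw [hc4]
      linear_combination 4 * h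
  · exact ⟨e, he, hsimple e he hd⟩

theorem preΨ'_ne_zero_of_closed [IsAlgClosed k] (h2 : (2 : k) ≠ 0) (W : WeierstrassCurve k)
    (hW : W.Δ ≠ 0 ∨ W.c₄ ≠ 0) {n : ℕ} (hn : Odd n) : W.preΨ' n ≠ 0 := by
  obtain ⟨e, he2, he3⟩ := exists_simple_root h2 W hW
  intro h0
  have h1 : (W.preΨ' n).eval e = 0 := by rw [h0, eval_zero]
  rw [preΨ'_eval, he2] at h1
  have h3 : normEDS (0 : k) (W.Ψ₃.eval e) (W.preΨ₄.eval e) n = 0 := by
    rw [normEDS, if_neg (by rw [Int.even_coe_nat]; exact Nat.not_even_iff_odd.mpr hn), mul_one,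
      preNormEDS_ofNat]
    have : (0 : k) ^ 4 = 0 ^ 2 := by norm_num
    rw [this]
    exact h1
  have h4 := dvd_of_normEDS_eq_zero (b := (0 : k)) (c := W.Ψ₃.eval e) (d := W.preΨ₄.eval e)
    (r := 2) le_rfl (by simp) (by
      intro k hk1 hk2
      obtain rfl : k = 1 := by omega
      simp) (by
      norm_num
      exact he3) n h3
  rw [← even_iff_two_dvd, Int.even_coe_nat] at h4
  exact (Nat.not_even_iff_odd.mpr hn) h4

theorem preΨ'_ne_zero_mod (h2 : (2 : k) ≠ 0) (W : WeierstrassCurve k)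
    (hW : W.Δ ≠ 0 ∨ W.c₄ ≠ 0) {n : ℕ} (hn : Odd n) : W.preΨ' n ≠ 0 := by
  intro h
  have h2' : (2 : AlgebraicClosure k) ≠ 0 := by
    have := (map_ne_zero (algebraMap k (AlgebraicClosure k))).mpr h2
    rwa [map_ofNat] at this
  refine preΨ'_ne_zero_of_closed h2' (W.map (algebraMap k (AlgebraicClosure k))) ?_ hn ?_
  · rcases hW with hW | hW
    · left; rw [map_Δ]; exact (_root_.map_ne_zero _).mpr hW
    · right; rw [map_c₄]; exact (_root_.map_ne_zero _).mpr hW
  · rw [map_preΨ', h, Polynomial.map_zero]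

end NonVanishing

end Fermat.Agent.H09
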