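import Mathlib
import Fermat.Agent.H09.RootLemma
import Fermat.Agent.H09.InertiaNode

set_option autoImplicit false

/-!
# Torsion points at a place above `p`
-/

namespace Fermat.Agent.H09

open Polynomial WeierstrassCurve WeierstrassCurve.Affine WeierstrassCurve.Affine.Point
open Fermat.Agent.H08

section

variable {F : Type*} [Field F] {W : WeierstrassCurve.Affine F}

theorem xc_eq_px (P : W.Point) : xc P = px P := by
  rcases P with _ | ⟨x, y, h⟩
  · rfl
  · rfl

end

section

variable {F : Type*} [Field F] {Γ₀ : Type*} [LinearOrderedCommGroupWithZero Γ₀]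

theorem preNormEDS'_val {v : Valuation F Γ₀} {b c d : F} (hb : v b < 1) (hc : v c < 1)
    (hd : v d < 1) (n : ℕ) :
    v (preNormEDS' b c d n) ≤ 1 ∧ (3 ≤ n → v (preNormEDS' b c d n) < 1) := by
  induction n using Nat.strong_induction_on with
  | _ n ih =>
    rcases Nat.lt_or_ge n 5 with hn | hn
    · interval_cases n
      · simp
      · simp
      · simp
      · rw [preNormEDS'_three]; exact ⟨hc.le, fun _ => hc⟩
      · rw [preNormEDS'_four]; exact ⟨hd.le, fun _ => hd⟩
    · rcases Nat.even_or_odd' n with ⟨k, rfl | rfl⟩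
      · obtain ⟨m, rfl⟩ : ∃ m, k = m + 3 := ⟨k - 3, by omega⟩
        have h2 := ih (m + 2) (by omega)
        have h3 := ih (m + 3) (by omega)
        have h5 := ih (m + 5) (by omega)
        have h1 := ih (m + 1) (by omega)
        have h4 := ih (m + 4) (by omega)
        have : v (preNormEDS' b c d (2 * (m + 3))) < 1 := by
          rw [preNormEDS'_even]
          refine v_sub_lt_one ?_ ?_
          · exact v_mul_lt_one_right (v_mul_le_one (v_pow_le_one h2.1 2) h3.1) (h5.2 (by omega))
          · exact v_mul_lt_one_right (v_mul_le_one h1.1 h3.1)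
              (v_pow_lt_one (h4.2 (by omega)) two_ne_zero)
        exact ⟨this.le, fun _ => this⟩
      · obtain ⟨m, rfl⟩ : ∃ m, k = m + 2 := ⟨k - 2, by omega⟩
        have h2 := ih (m + 2) (by omega)
        have h3 := ih (m + 3) (by omega)
        have h1 := ih (m + 1) (by omega)
        have h4 := ih (m + 4) (by omega)
        have : v (preNormEDS' b c d (2 * (m + 2) + 1)) < 1 := by
          rw [preNormEDS'_odd]
          refine v_sub_lt_one ?_ ?_
          · refine (v.map_mul _ _).trans_lt ?_
            have l1 : v (preNormEDS' b c d (m + 4) * preNormEDS' b c d (m + 2) ^ 3) < 1 := by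
              rw [mul_comm]
              exact v_mul_lt_one_right (v_pow_le_one h2.1 3) (h4.2 (by omega))
            have l2 : v (if Even m then b else 1) ≤ 1 := by
              split_ifs
              · exact hb.le
              · simp
            exact mul_lt_one_of_lt_of_le l1 l2
          · refine (v.map_mul _ _).trans_lt ?_
            have l1 : v (preNormEDS' b c d (m + 1) * preNormEDS' b c d (m + 3) ^ 3) < 1 := by
              exact v_mul_lt_one_right h1.1 (v_pow_lt_one (h3.2 (by omega)) (by norm_num))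
            have l2 : v (if Even m then 1 else b) ≤ 1 := by
              split_ifs
              · simp
              · exact hb.le
            exact mul_lt_one_of_lt_of_le l1 l2
        exact ⟨this.le, fun _ => this⟩

end

section

variable {F : Type*} [Field F] {A : ValuationSubring F}

theorem exists_integral_model {W : WeierstrassCurve F} (hW : IsIntegralFor A.valuation W) :
    ∃ W' : WeierstrassCurve A, W'.map (algebraMap A F) = W := by
  refine ⟨⟨⟨W.a₁, (A.valuation_le_one_iff _).mp hW.h₁⟩, ⟨W.a₂, (A.valuation_le_one_iff _).mp hW.h₂⟩,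
    ⟨W.a₃, (A.valuation_le_one_iff _).mp hW.h₃⟩, ⟨W.a₄, (A.valuation_le_one_iff _).mp hW.h₄⟩,
    ⟨W.a₆, (A.valuation_le_one_iff _).mp hW.h₆⟩⟩, ?_⟩
  ext <;> rfl

theorem residue_ne_zero_of_val {a : A} (ha : A.valuation (a : F) = 1) :
    IsLocalRing.residue A a ≠ 0 := by
  intro h
  rw [IsLocalRing.residue_eq_zero_iff] at h
  have := (ValuationSubring.valuation_lt_one_iff A _).mp h
  rw [ha] at this
  exact lt_irrefl _ this

theorem preΨ'_coeff_val {W : WeierstrassCurve F} (hW : IsIntegralFor A.valuation W)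
    (h2 : A.valuation (2 : F) = 1) (hred : A.valuation W.Δ = 1 ∨ A.valuation W.c₄ = 1)
    {n : ℕ} (hn : Odd n) :
    (∀ j, A.valuation ((W.preΨ' n).coeff j) ≤ 1) ∧
      ∃ j, A.valuation ((W.preΨ' n).coeff j) = 1 := by
  obtain ⟨W', rfl⟩ := exists_integral_model hW
  have hc : ∀ j, ((W'.map (algebraMap A F)).preΨ' n).coeff j = ((W'.preΨ' n).coeff j : F) := by
    intro j
    rw [map_preΨ', coeff_map]; rfl
  have hle : ∀ j, A.valuation (((W'.map (algebraMap A F)).preΨ' n).coeff j) ≤ 1 := by
    intro j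
    rw [hc, A.valuation_le_one_iff]
    exact ((W'.preΨ' n).coeff j).2
  refine ⟨hle, ?_⟩
  by_contra hcon
  push Not at hcon
  have hlt : ∀ j, A.valuation (((W'.map (algebraMap A F)).preΨ' n).coeff j) < 1 :=
    fun j => lt_of_le_of_ne (hle j) (hcon j)
  refine preΨ'_ne_zero_mod (k := IsLocalRing.ResidueField A) ?_
    (W'.map (IsLocalRing.residue A)) ?_ hn ?_
  · have : IsLocalRing.residue A (2 : A) ≠ 0 := residue_ne_zero_of_val (a := (2 : A)) h2
    rwa [map_ofNat] at this
  · rcases hred with h | h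
    · left
      rw [map_Δ] at h ⊢
      exact residue_ne_zero_of_val h
    · right
      rw [map_c₄] at h ⊢
      exact residue_ne_zero_of_val h
  · rw [map_preΨ']
    ext j
    rw [coeff_map, coeff_zero, IsLocalRing.residue_eq_zero_iff, ValuationSubring.valuation_lt_one_iff]
    have := hlt j
    rwa [hc] at this

variable [IsAlgClosed F] [DecidableEq F]

/-- **Multiplicative reduction**: there is an `n`-torsion point (`n` odd) which reduces to the
node. -/
theorem exists_torsion_not_nodeE0 {W : WeierstrassCurve.Affine F} {r t α β : F}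
    (h : NodeData A.valuation W r t α β) (hΔ0 : W.Δ ≠ 0)
    (h2 : A.valuation (2 : F) = 1) (hc₄ : A.valuation W.c₄ = 1) {n : ℕ} (hn : Odd n)
    (hn3 : 3 ≤ n) :
    ∃ P : W.Point, P ≠ 0 ∧ n • P = 0 ∧ ¬ NodeE0 A.valuation r t P := by
  set W' := shiftCurve W r t with hW'
  have hc' : A.valuation W'.c₄ = 1 := by
    have : W'.c₄ = W.c₄ := by
      simp only [hW', shiftCurve, WeierstrassCurve.c₄, b₂, b₄]; ring
    rw [this]; exact hc₄
  have h1 := preΨ'_coeff_val h.int_shift h2 (Or.inr hc') hn
  obtain ⟨j, hj⟩ := h1.2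
  have h0 : A.valuation ((W'.preΨ' n).coeff 0) < 1 := by
    rw [coeff_zero_eq_eval_zero, preΨ'_eval]
    refine (preNormEDS'_val ?_ ?_ ?_ n).2 hn3
    · have : W'.Ψ₂Sq.eval 0 = W'.b₆ := by simp [WeierstrassCurve.Ψ₂Sq]
      rw [this]
      exact v_pow_lt_one h.b₆ two_ne_zero
    · have : W'.Ψ₃.eval 0 = W'.b₈ := by simp [WeierstrassCurve.Ψ₃]
      rw [this]
      exact h.b₈
    · have : W'.preΨ₄.eval 0 = W'.b₄ * W'.b₈ - W'.b₆ ^ 2 := by simp [WeierstrassCurve.preΨ₄]
      rw [this]
      exact v_sub_lt_one (v_mul_lt_one_right h.b₄.le h.b₈) (v_pow_lt_one h.b₆ two_ne_zero)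
  obtain ⟨x, hx, hxv⟩ := exists_root_lt_one A.valuation hj h0
  obtain ⟨P, hP, hPx⟩ := exists_point_of_x hΔ0 (x + r)
  have hs : shiftPt W r t P ≠ 0 := fun h' => hP (shiftPt_eq_zero.mp h')
  have hsx : px (shiftPt W r t P) = x := by
    rw [px_shiftPt hP, ← xc_eq_px, hPx]; ring
  refine ⟨P, hP, ?_, ?_⟩
  · have h3 : n • (shiftPt W r t P) = 0 := by
      rw [smul_eq_zero_iff_eval hs hn, xc_eq_px, hsx]
      exact hx
    have h4 : shiftHom W r t (n • P) = 0 := by
      rw [map_nsmul]; exact h3
    exact shiftPt_eq_zero.mp h4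
  · rw [nodeE0_iff hP, not_le, ← xc_eq_px, hPx]
    rwa [add_sub_cancel_right]

end

end Fermat.Agent.H09
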