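import Mathlib
import Fermat.Agent.H09.AtP

set_option autoImplicit false

/-!
# Good reduction at `p`: not all `p`-torsion is in the kernel of reduction, in the reducible case
-/

namespace Fermat.Agent.H09

open Polynomial WeierstrassCurve WeierstrassCurve.Affine WeierstrassCurve.Affine.Point
open Fermat.Agent.H08
open Fermat.Agent.H05

section

variable {F : Type*} [Field F] [CharZero F] [IsAlgClosed F] [DecidableEq F]
  {A : ValuationSubring F}

omit [DecidableEq F] [IsAlgClosed F] in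
theorem isIntegralFor_of_int {W : WeierstrassCurve.Affine F} {W₁ : WeierstrassCurve ℤ}
    (hW₁ : W₁.map (Int.castRingHom F) = W) : IsIntegralFor A.valuation W := by
  subst hW₁
  exact ⟨val_intCast_le_one A _, val_intCast_le_one A _, val_intCast_le_one A _,
    val_intCast_le_one A _, val_intCast_le_one A _⟩

theorem val_px_pow_of_all_gt {W : WeierstrassCurve.Affine F} {W₁ : WeierstrassCurve ℤ}
    (hW₁ : W₁.map (Int.castRingHom F) = W) {p : ℕ} (hp : p.Prime) (hp3 : 3 ≤ p)
    (hA : A.LiesOverPrime p) (hΔ : A.valuation W.Δ = 1)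
    (hall : ∀ P : W.Point, P ≠ 0 → p • P = 0 → 1 < A.valuation (px P)) (P : W.Point)
    (hP : P ≠ 0) (hpP : p • P = 0) :
    A.valuation (px P) ^ ((p ^ 2 - 1) / 2) * A.valuation (p : F) = 1 := by
  have hodd : Odd p := hp.odd_of_ne_two (by omega)
  have hΔ0 : W.Δ ≠ 0 := by
    intro h; rw [h] at hΔ; simp at hΔ
  have hW : IsIntegralFor A.valuation W := isIntegralFor_of_int hW₁
  have hpF : (p : F) ≠ 0 := Nat.cast_ne_zero.mpr hp.ne_zero
  have h2 : A.valuation (2 : F) = 1 := by
    have := val_intCast_eq_one (c := 2) hp hA (by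
      intro h
      have h' : p ∣ 2 := by exact_mod_cast h
      have := Nat.le_of_dvd (by norm_num) h'
      omega)
    exact_mod_cast this
  set f := W.preΨ' p with hf
  have hf0 : f ≠ 0 := W.preΨ'_ne_zero hpF
  have hc : ∀ j, f.coeff j = (((W₁.preΨ' p).coeff j : ℤ) : F) := by
    intro j
    rw [hf, ← hW₁, map_preΨ', coeff_map]; rfl
  obtain ⟨hle, j₀, hj₀⟩ := preΨ'_coeff_val hW h2 (Or.inl hΔ) hodd
  rw [← hf] at hle hj₀
  have hroot : ∀ x : F, f.IsRoot x → 1 < A.valuation x := by
    intro x hx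
    obtain ⟨Q, hQ, hQx⟩ := exists_point_of_x hΔ0 x
    have := hall Q hQ (by rw [smul_eq_zero_iff_eval hQ hodd, hQx]; exact hx)
    rwa [← xc_eq_px, hQx] at this
  have hdom : ∀ j, 1 ≤ j → A.valuation (f.coeff j) < A.valuation (f.coeff 0) :=
    fun j hj => coeff_lt_of_forall_root A.valuation hf0 hroot hj
  have hc0 : A.valuation (f.coeff 0) = 1 := by
    rcases Nat.eq_zero_or_pos j₀ with h | h
    · rw [← h]; exact hj₀
    · have := hdom j₀ h
      rw [hj₀] at this
      exact absurd this (not_lt.mpr (hle 0))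
  have hcj : ∀ j, 1 ≤ j → A.valuation (f.coeff j) ≤ A.valuation (p : F) := by
    intro j hj
    have h1 := hdom j hj
    rw [hc0, hc, val_intCast_lt_one_iff hp hA] at h1
    obtain ⟨e, he⟩ := h1
    rw [hc, he]
    push_cast
    rw [map_mul]
    exact (mul_le_mul_right (val_intCast_le_one A e) _).trans_eq (mul_one _)
  set d := (p ^ 2 - 1) / 2 with hd
  have hdeg : f.natDegree = d := by
    have := W.natDegree_preΨ' hpF
    rwa [if_neg (Nat.not_even_iff_odd.mpr hodd)] at this
  have hlead : f.coeff d = p := by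
    have := W.coeff_preΨ' p
    rwa [if_neg (Nat.not_even_iff_odd.mpr hodd), if_neg (Nat.not_even_iff_odd.mpr hodd)] at this
  have hd1 : 1 ≤ d := by
    have : 9 ≤ p ^ 2 := by nlinarith
    omega
  set x := px P with hx
  have hx1 : 1 < A.valuation x := hall P hP hpP
  have heval : f.eval x = 0 := by
    rw [hx, ← xc_eq_px, hf, ← smul_eq_zero_iff_eval hP hodd]; exact hpP
  obtain ⟨d', hd'⟩ : ∃ d', d = d' + 1 := ⟨d - 1, by omega⟩
  rw [eval_eq_sum_range, hdeg, Finset.sum_range_succ, hd', Finset.sum_range_succ'] at heval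
  rw [← hd', hlead, pow_zero, mul_one] at heval
  have hv0 : A.valuation (p : F) ≠ 0 := (Valuation.ne_zero_iff _).mpr hpF
  have hS : A.valuation (∑ k ∈ Finset.range d', f.coeff (k + 1) * x ^ (k + 1)) <
      A.valuation ((p : F) * x ^ d) := by
    have hne : A.valuation ((p : F) * x ^ d) ≠ 0 := by
      rw [map_mul, map_pow]
      exact mul_ne_zero hv0 (pow_ne_zero _ (zero_lt_one.trans hx1).ne')
    apply Valuation.map_sum_lt _ hne
    intro k hk
    rw [Finset.mem_range] at hk
    rw [map_mul, map_mul, map_pow, map_pow]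
    have l1 := hcj (k + 1) (by omega)
    have l2 : A.valuation x ^ (k + 1) < A.valuation x ^ d := pow_lt_pow_right₀ hx1 (by omega)
    exact lt_of_le_of_lt (mul_le_mul_left l1 _) (mul_lt_mul_of_pos_left l2 (zero_lt_iff.mpr hv0))
  have e : (p : F) * x ^ d + ∑ k ∈ Finset.range d', f.coeff (k + 1) * x ^ (k + 1) =
      -f.coeff 0 := by
    linear_combination heval
  have e2 := congrArg A.valuation e
  rw [Valuation.map_add_eq_of_lt_left _ hS, Valuation.map_neg, hc0, map_mul, map_pow] at e2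
  rw [mul_comm]; exact e2

end

section

variable {F : Type*} [Field F] [CharZero F] {A : ValuationSubring F}

theorem val_intCast_eq_pow {p : ℕ} (hp : p.Prime) (hA : A.LiesOverPrime p) {c : ℤ} (hc : c ≠ 0) :
    ∃ k : ℕ, A.valuation (c : F) = A.valuation (p : F) ^ k := by
  have hfin : FiniteMultiplicity (p : ℤ) c := by
    rw [Int.finiteMultiplicity_iff]
    refine ⟨?_, hc⟩
    rw [Int.natAbs_natCast]
    exact hp.one_lt.ne'
  obtain ⟨m, hm, hnd⟩ := hfin.exists_eq_pow_mul_and_not_dvd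
  refine ⟨multiplicity (p : ℤ) c, ?_⟩
  conv_lhs => rw [hm]
  push_cast
  rw [map_mul, map_pow, val_intCast_eq_one hp hA hnd, mul_one]

theorem val_ratCast_eq_zpow {p : ℕ} (hp : p.Prime) (hA : A.LiesOverPrime p) {q : ℚ} (hq : q ≠ 0) :
    ∃ k : ℤ, A.valuation (q : F) = A.valuation (p : F) ^ k := by
  obtain ⟨a, ha⟩ := val_intCast_eq_pow (F := F) hp hA (Rat.num_ne_zero.mpr hq)
  obtain ⟨b, hb⟩ := val_intCast_eq_pow (F := F) (c := (q.den : ℤ)) hp hA
    (by exact_mod_cast q.den_ne_zero)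
  refine ⟨a - b, ?_⟩
  have hpF : (p : F) ≠ 0 := Nat.cast_ne_zero.mpr hp.ne_zero
  rw [Rat.cast_def, map_div₀, ha, zpow_sub₀ ((Valuation.ne_zero_iff _).mpr hpF), zpow_natCast,
    zpow_natCast]
  congr 1
  rw [← hb, Int.cast_natCast]

end

section

variable {L : Type*} [Field L] [CharZero L] [IsAlgClosed L] [DecidableEq L]
  [Algebra.IsAlgebraic ℚ L] {A : ValuationSubring L} {W₀ : WeierstrassCurve.Affine ℚ}

/-- **Good reduction at `p`**: if a set of `p - 1` nonzero `p`-torsion points is Galois stable,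
then not every nonzero `p`-torsion point is in the kernel of reduction. -/
theorem exists_torsion_not_E1 {W₁ : WeierstrassCurve ℤ}
    (hW₁ : W₁.map (Int.castRingHom L) = (W₀⁄L)) {p : ℕ} (hp : p.Prime) (hp5 : 5 ≤ p)
    (hA : A.LiesOverPrime p) (hΔ : A.valuation (W₀⁄L).Δ = 1)
    (S : Finset (W₀⁄L).Point) (hS0 : ∀ P ∈ S, P ≠ 0) (hSp : ∀ P ∈ S, p • P = 0)
    (hSσ : ∀ σ : L ≃ₐ[ℚ] L, ∀ P ∈ S, σ • P ∈ S) (hcard : S.card = p - 1) :
    ∃ P : (W₀⁄L).Point, P ≠ 0 ∧ p • P = 0 ∧ A.valuation (px P) ≤ 1 := by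
  by_contra hcon
  push Not at hcon
  have : IsGalois ℚ L := { to_normal := { splits' := fun x => IsAlgClosed.splits _ } }
  have hval := fun P hP0 hPp => val_px_pow_of_all_gt hW₁ hp (by omega) hA hΔ hcon P hP0 hPp
  set d := (p ^ 2 - 1) / 2 with hd
  have hpL : (p : L) ≠ 0 := Nat.cast_ne_zero.mpr hp.ne_zero
  have hv0 : A.valuation (p : L) ≠ 0 := (Valuation.ne_zero_iff _).mpr hpL
  have hv1 : A.valuation (p : L) < 1 := val_natCast_lt_one hA
  set c : L := ∏ P ∈ S, px P with hc
  have hcfix : ∀ σ : L ≃ₐ[ℚ] L, σ c = c := by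
    intro σ
    have hinj : Function.Injective (fun P : (W₀⁄L).Point => σ • P) := by
      intro P Q hPQ
      have : σ⁻¹ • σ • P = σ⁻¹ • σ • Q := congrArg (fun R => σ⁻¹ • R) hPQ
      rcases P with _ | ⟨x, y, h⟩ <;> rcases Q with _ | ⟨x', y', h'⟩
      · rfl
      · exact absurd hPQ.symm (smul_ne_zero' σ (some_ne_zero _))
      · exact absurd hPQ (smul_ne_zero' σ (some_ne_zero _))
      · have e1 := congrArg px hPQ
        have e2 := congrArg py hPQ
        simp only [px_smul, py_smul] at e1 e2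
        have e1' := σ.injective e1
        have e2' := σ.injective e2
        simp only [px_some, py_some] at e1' e2'
        subst e1' e2'
        rfl
    have himg : S.image (fun P => σ • P) = S := by
      apply Finset.eq_of_subset_of_card_le
      · intro Q hQ
        obtain ⟨P, hP, rfl⟩ := Finset.mem_image.mp hQ
        exact hSσ σ P hP
      · rw [Finset.card_image_of_injective _ hinj]
    rw [hc, map_prod]
    calc ∏ P ∈ S, σ (px P) = ∏ P ∈ S, px (σ • P) := by
          apply Finset.prod_congr rfl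
          intro P _
          rw [px_smul]
      _ = ∏ Q ∈ S.image (fun P => σ • P), px Q := by
          rw [Finset.prod_image (fun a _ b _ h => hinj h)]
      _ = ∏ P ∈ S, px P := by rw [himg]
  have hcbot := (InfiniteGalois.mem_bot_iff_fixed (k := ℚ) c).mpr hcfix
  obtain ⟨q, hq⟩ := IntermediateField.mem_bot.mp hcbot
  have hcd : A.valuation c ^ d * A.valuation (p : L) ^ (p - 1) = 1 := by
    rw [hc, map_prod, ← Finset.prod_pow, ← hcard, ← Finset.prod_const, ← Finset.prod_mul_distrib]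
    apply Finset.prod_eq_one
    intro P hP
    exact hval P (hS0 P hP) (hSp P hP)
  have hq0 : q ≠ 0 := by
    rintro rfl
    rw [_root_.map_zero] at hq
    rw [← hq, _root_.map_zero, zero_pow (by
      have : 25 ≤ p ^ 2 := by nlinarith
      omega), zero_mul] at hcd
    exact zero_ne_one hcd
  obtain ⟨k, hk⟩ := val_ratCast_eq_zpow (F := L) hp hA hq0
  have hcq : c = (q : L) := by rw [← hq]; simp
  rw [hcq, hk, ← zpow_natCast, ← zpow_natCast, ← zpow_mul, ← zpow_add₀ hv0] at hcd
  have hexp : k * (d : ℤ) + ((p - 1 : ℕ) : ℤ) = 0 := by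
    by_contra hne
    rcases lt_or_gt_of_ne hne with h | h
    · have := one_lt_zpow_of_neg₀ (zero_lt_iff.mpr hv0) hv1 h
      rw [hcd] at this
      exact lt_irrefl _ this
    · have := zpow_lt_one₀ (zero_lt_iff.mpr hv0) hv1 h
      rw [hcd] at this
      exact lt_irrefl _ this
  have hodd : Odd p := hp.odd_of_ne_two (by omega)
  have h2d : (2 : ℤ) * d = (p : ℤ) ^ 2 - 1 := by
    obtain ⟨m, hm⟩ := hodd
    have h1 : p ^ 2 - 1 = 2 * (2 * m ^ 2 + 2 * m) := by
      rw [hm]
      have : (2 * m + 1) ^ 2 = 2 * (2 * m ^ 2 + 2 * m) + 1 := by ring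
      omega
    have h2 : d = 2 * m ^ 2 + 2 * m := by rw [hd, h1]; omega
    rw [h2, hm]; push_cast; ring
  have hpc : ((p - 1 : ℕ) : ℤ) = (p : ℤ) - 1 := by
    rw [Nat.cast_sub (by omega)]; rfl
  rw [hpc] at hexp
  have h3 : (k * ((p : ℤ) + 1) + 2) * ((p : ℤ) - 1) = 0 := by
    linear_combination 2 * hexp - k * h2d
  have h4 : (p : ℤ) - 1 ≠ 0 := by
    have : (5 : ℤ) ≤ p := by exact_mod_cast hp5
    omega
  have h5 : k * ((p : ℤ) + 1) + 2 = 0 := by
    rcases mul_eq_zero.mp h3 with h | h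
    · exact h
    · exact absurd h h4
  have h6 : ((p : ℤ) + 1) ∣ 2 := ⟨-k, by linear_combination h5⟩
  have h7 := Int.le_of_dvd (by norm_num) h6
  have : (5 : ℤ) ≤ p := by exact_mod_cast hp5
  omega

end

end Fermat.Agent.H09
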