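import Mathlib
import Fermat.Agent.H05_Frob

set_option autoImplicit false
set_option linter.style.haveILetI false

/-!
# Minkowski: `Gal(ℚ̄/ℚ)` has no proper open normal subgroup containing all inertia groups
-/

namespace Fermat.Agent.H09

open scoped NumberField Pointwise
open Fermat.Agent.H05

/-- In a nontrivial Galois number field some prime has nontrivial inertia. -/
theorem exists_inertia_ne_one (F : Type*) [Field F] [NumberField F] [IsGalois ℚ F]
    (H : 1 < Module.finrank ℚ F) :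
    ∃ p : ℕ, p.Prime ∧ ∀ (P : Ideal (𝓞 F)) (_ : P.IsPrime), (p : 𝓞 F) ∈ P →
      ∃ τ : F ≃ₐ[ℚ] F, τ ≠ 1 ∧ ∀ x y : 𝓞 F, (y : F) = τ (x : F) → y - x ∈ P := by
  obtain ⟨p, hp, h⟩ := NumberField.exists_not_isUnramifiedAt_int_of_isGalois (K := F) (𝒪 := 𝓞 F) H
  refine ⟨p, hp, fun P hP hpP => ?_⟩
  have h1 := h P hP hpP
  letI : MulSemiringAction Gal(F/ℚ) (𝓞 F) := IsIntegralClosure.MulSemiringAction ℤ ℚ F (𝓞 F)
  haveI := IsGaloisGroup.of_isFractionRing Gal(F/ℚ) ℤ (𝓞 F) ℚ F
  haveI : PerfectField (P.under ℤ).ResidueField := inferInstance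
  rw [← Ideal.ramificationIdx_eq_one_iff,
    ← Ideal.ramificationIdxIn_eq_ramificationIdx (P.under ℤ) _ Gal(F/ℚ),
    ← Ideal.card_inertia_eq_ramificationIdxIn (G := Gal(F/ℚ)) (P.under ℤ) P] at h1
  have h2 : ∃ τ ∈ P.inertia Gal(F/ℚ), τ ≠ 1 := by
    by_contra hcon
    push Not at hcon
    apply h1
    rw [Nat.card_eq_one_iff_unique]
    exact ⟨⟨fun a b => Subtype.ext ((hcon _ a.2).trans (hcon _ b.2).symm)⟩, ⟨1⟩⟩
  obtain ⟨τ, hτ, hτ1⟩ := h2
  refine ⟨τ, hτ1, fun x y hxy => ?_⟩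
  have h3 := hτ x
  have h4 : τ • x = y := by
    apply NumberField.RingOfIntegers.ext
    rw [hxy]
    exact algebraMap_galRestrict_apply ℤ τ x
  rw [← h4]
  exact h3

/-- Lifting inertia modulo an open normal subgroup (here only closedness and normality of `H` are
used). -/
theorem exists_inertia_lift {L : Type*} [Field L] [CharZero L] [IsGalois ℚ L]
    {A : ValuationSubring L} {p : ℕ} (hp : p.Prime) (hA : A.LiesOverPrime p)
    (H : Subgroup (L ≃ₐ[ℚ] L)) [H.Normal] (hH : IsClosed (H : Set (L ≃ₐ[ℚ] L)))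
    (σ : L ≃ₐ[ℚ] L)
    (hσ : ∀ x : integralClosure ℤ L, (∀ h ∈ H, h • x = x) → σ • x - x ∈ center A) :
    ∃ h ∈ H, h * σ ∈ A.inertiaSubgroupIn ℚ := by
  classical
  haveI : Fact p.Prime := ⟨hp⟩
  let B := integralClosure ℤ L
  letI : TopologicalSpace B := ⊥
  haveI : DiscreteTopology B := ⟨rfl⟩
  haveI : ContinuousSMul (L ≃ₐ[ℚ] L) B := by
    rw [continuousSMul_iff_stabilizer_isOpen]
    intro x
    have h1 := stabilizer_isOpen_of_isIntegral (K := ℚ) (L := L) (x : L)
    convert h1 using 1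
    ext σ
    simp only [SetLike.mem_coe, MulAction.mem_stabilizer_iff, Subtype.ext_iff]
    rfl
  let B' : Subalgebra ℤ B := FixedPoints.subalgebra ℤ B H
  haveI : CompactSpace H := isCompact_iff_compactSpace.mp hH.isCompact
  haveI : ContinuousSMul H B := by
    constructor
    exact (continuous_smul (M := L ≃ₐ[ℚ] L) (X := B)).comp
      ((continuous_subtype_val.comp continuous_fst).prodMk continuous_snd)
  haveI : SMulCommClass H B' B := by
    constructor
    intro h b x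
    rw [Subalgebra.smul_def, Subalgebra.smul_def, smul_eq_mul, smul_eq_mul, smul_mul',
      b.2 h]
  haveI : Algebra.IsInvariant B' B H := by
    constructor
    intro b hb
    exact ⟨⟨b, hb⟩, rfl⟩
  have hB' : ∀ x : B, x ∈ B' ↔ ∀ h ∈ H, h • x = x := by
    intro x
    constructor
    · intro hx h hh
      exact hx ⟨h, hh⟩
    · intro hx h
      exact hx h h.2
  -- normality
  have hnorm : ∀ (g : L ≃ₐ[ℚ] L) (x : B), x ∈ B' → g • x ∈ B' := by
    intro g x hx
    rw [hB'] at hx ⊢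
    intro h hh
    have h1 : g⁻¹ * h * g ∈ H := by
      have := (inferInstance : H.Normal).conj_mem h hh g⁻¹
      simpa using this
    have h2 := hx _ h1
    calc h • g • x = g • ((g⁻¹ * h * g) • x) := by
          rw [← mul_smul, ← mul_smul]; congr 1; group
      _ = g • x := by rw [h2]
  let Q : Ideal B := center A
  -- step 1 : σ Q and Q have the same trace on B'
  have step1 : (σ • Q).under B' = Q.under B' := by
    ext ⟨x, hx⟩
    have hx' : σ⁻¹ • x ∈ B' := hnorm σ⁻¹ x hx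
    have h1 := hσ (σ⁻¹ • x) ((hB' _).mp hx')
    rw [smul_inv_smul] at h1
    change x ∈ σ • Q ↔ x ∈ Q
    rw [Ideal.mem_pointwise_smul_iff_inv_smul_mem]
    constructor
    · intro h
      have := add_mem h1 h
      simpa using this
    · intro h
      have := sub_mem h h1
      simpa using this
  obtain ⟨h₁, hh₁⟩ := Algebra.IsInvariant.exists_smul_of_under_eq_of_profinite
    (A := B') (B := B) (G := H) (σ • Q) Q step1
  have hQ1 : ((h₁ : L ≃ₐ[ℚ] L) * σ) • Q = Q := by
    rw [mul_smul]; exact hh₁.symm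
  set σ₁ : L ≃ₐ[ℚ] L := (h₁ : L ≃ₐ[ℚ] L) * σ with hσ₁
  have hfix : ∀ x : B, x ∈ B' → σ₁ • x - x ∈ Q := by
    intro x hx
    have h2 : (h₁ : L ≃ₐ[ℚ] L) • σ • x = σ • x := (hB' _).mp (hnorm σ x hx) _ h₁.2
    rw [hσ₁, mul_smul, h2]
    exact hσ x ((hB' _).mp hx)
  -- the automorphism of B/Q induced by σ₁
  let P' : Ideal B' := Q.under B'
  haveI : Q.LiesOver P' := ⟨rfl⟩
  have hQmem : ∀ x : B, x ∈ Q → σ₁ • x ∈ Q := by
    intro x hx
    rw [← hQ1]
    exact Ideal.smul_mem_pointwise_smul _ _ _ hx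
  have hQmem' : ∀ x : B, x ∈ Q → σ₁⁻¹ • x ∈ Q := by
    intro x hx
    rw [← hQ1, Ideal.mem_pointwise_smul_iff_inv_smul_mem] at hx
    exact hx
  let f : (B ⧸ Q) ≃ₐ[B' ⧸ P'] (B ⧸ Q) :=
    { toFun := Ideal.quotientMap Q (MulSemiringAction.toRingHom (L ≃ₐ[ℚ] L) B σ₁)
        (fun x hx => hQmem x hx)
      invFun := Ideal.quotientMap Q (MulSemiringAction.toRingHom (L ≃ₐ[ℚ] L) B σ₁⁻¹)
        (fun x hx => hQmem' x hx)
      left_inv := by
        intro x
        obtain ⟨x, rfl⟩ := Ideal.Quotient.mk_surjective x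
        simp only [Ideal.quotientMap_mk, MulSemiringAction.toRingHom_apply, inv_smul_smul]
      right_inv := by
        intro x
        obtain ⟨x, rfl⟩ := Ideal.Quotient.mk_surjective x
        simp only [Ideal.quotientMap_mk, MulSemiringAction.toRingHom_apply, smul_inv_smul]
      map_mul' := fun x y => map_mul _ x y
      map_add' := fun x y => map_add _ x y
      commutes' := by
        intro r
        obtain ⟨⟨r, hr⟩, rfl⟩ := Ideal.Quotient.mk_surjective r
        change Ideal.Quotient.mk Q (σ₁ • r) = Ideal.Quotient.mk Q r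
        rw [Ideal.Quotient.eq]
        exact hfix r hr }
  obtain ⟨⟨h₂, hh₂Q⟩, hh₂⟩ := Ideal.Quotient.stabilizerHom_surjective_of_profinite
    (A := B') (B := B) (G := H) P' Q f
  have key : ∀ x : B, (h₂ : L ≃ₐ[ℚ] L) • x - σ₁ • x ∈ Q := by
    intro x
    have h3 := AlgEquiv.congr_fun hh₂ (Ideal.Quotient.mk Q x)
    rw [Ideal.Quotient.stabilizerHom_apply] at h3
    have h4 : Ideal.Quotient.mk Q ((h₂ : L ≃ₐ[ℚ] L) • x) = Ideal.Quotient.mk Q (σ₁ • x) := h3
    rwa [Ideal.Quotient.eq] at h4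
  have hh₂Q' : (h₂ : L ≃ₐ[ℚ] L) • Q = Q := hh₂Q
  refine ⟨(h₂ : L ≃ₐ[ℚ] L)⁻¹ * h₁, mul_mem (inv_mem h₂.2) h₁.2, ?_⟩
  rw [mul_assoc, ← hσ₁]
  rw [mem_inertiaSubgroupIn_iff]
  have hA' : ((h₂ : L ≃ₐ[ℚ] L)⁻¹ * σ₁) • A = A := by
    apply eq_of_center_eq hp ((liesOverPrime_smul_iff _ A p).mpr hA)
    rw [center_smul, mul_smul]
    change (h₂ : L ≃ₐ[ℚ] L)⁻¹ • (σ₁ • Q) = Q
    rw [hQ1, inv_smul_eq_iff]
    exact hh₂Q'.symm
  refine ⟨hA', ?_⟩
  intro x
  obtain ⟨z, rfl⟩ := residue_toA_surjective hp hA x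
  have h5 : ((h₂ : L ≃ₐ[ℚ] L)⁻¹ * σ₁) • z - z ∈ center A := by
    have h6 := key z
    have h7 : (h₂ : L ≃ₐ[ℚ] L)⁻¹ • (σ₁ • z - (h₂ : L ≃ₐ[ℚ] L) • z) ∈ Q := by
      rw [← hh₂Q', Ideal.mem_pointwise_smul_iff_inv_smul_mem] at h6
      have := neg_mem h6
      rwa [← smul_neg, neg_sub] at this
    rwa [smul_sub, inv_smul_smul, ← mul_smul] at h7
  have h8 : IsLocalRing.residue A (toA A (((h₂ : L ≃ₐ[ℚ] L)⁻¹ * σ₁) • z)) =
      IsLocalRing.residue A (toA A z) := by
    rw [← sub_eq_zero, ← map_sub, ← map_sub, IsLocalRing.residue_eq_zero_iff]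
    exact h5
  exact h8

/-- **Minkowski**: an open normal subgroup of `Gal(L/ℚ)` containing all inertia subgroups is
everything. -/
theorem minkowski {L : Type*} [Field L] [CharZero L] [IsGalois ℚ L]
    (H : Subgroup (L ≃ₐ[ℚ] L)) [H.Normal] (hH : IsOpen (H : Set (L ≃ₐ[ℚ] L)))
    (hI : ∀ p : ℕ, p.Prime → ∀ A : ValuationSubring L, A.LiesOverPrime p →
      A.inertiaSubgroupIn ℚ ≤ H) : H = ⊤ := by
  classical
  have hcl : IsClosed (H : Set (L ≃ₐ[ℚ] L)) := H.isClosed_of_isOpen hH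
  let Hc : ClosedSubgroup (L ≃ₐ[ℚ] L) := ⟨H, hcl⟩
  let F : IntermediateField ℚ L := IntermediateField.fixedField H
  have hfix : F.fixingSubgroup = H := InfiniteGalois.fixingSubgroup_fixedField Hc
  haveI hfin : FiniteDimensional ℚ F := by
    rw [← InfiniteGalois.isOpen_iff_finite, hfix]
    exact hH
  have hgal0 : @IsGalois ℚ _ F _ (IntermediateField.algebra' F) := by
    rw [← InfiniteGalois.normal_iff_isGalois, hfix]
    infer_instance
  haveI hgal : IsGalois ℚ F := by
    convert hgal0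
    exact Subsingleton.elim _ _
  haveI : NumberField F := { to_charZero := inferInstance, to_finiteDimensional := hfin }
  rcases Nat.lt_or_ge 1 (Module.finrank ℚ F) with h1 | h1
  · exfalso
    obtain ⟨p, hp, hF⟩ := exists_inertia_ne_one F h1
    obtain ⟨A, hA⟩ := exists_liesOverPrime L hp
    let ι : 𝓞 F →+* integralClosure ℤ L :=
      { toFun := fun x => ⟨((x : F) : L), by
          have := x.2
          rw [mem_integralClosure_iff] at this ⊢
          exact this.map (F.val.restrictScalars ℤ)⟩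
        map_one' := rfl
        map_mul' := fun _ _ => rfl
        map_zero' := rfl
        map_add' := fun _ _ => rfl }
    obtain ⟨τ, hτ1, hτ⟩ := hF ((center A).comap ι) inferInstance (by
      rw [Ideal.mem_comap, map_natCast]
      exact natCast_mem_center hA)
    let σ : L ≃ₐ[ℚ] L := τ.liftNormal L
    have hσF : ∀ x : F, σ (x : L) = ((τ x : F) : L) := fun x => AlgEquiv.liftNormal_commutes τ L x
    obtain ⟨h, hhH, hh⟩ := exists_inertia_lift hp hA H hcl σ (by
      intro x hx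
      have hxF : (x : L) ∈ F := by
        rw [IntermediateField.mem_fixedField_iff]
        intro g hg
        exact congrArg Subtype.val (hx g hg)
      have hxint : IsIntegral ℤ (⟨(x : L), hxF⟩ : F) := by
        have h2 : IsIntegral ℤ (x : L) := x.2
        exact (isIntegral_algHom_iff (F.val.restrictScalars ℤ) F.val.injective).mp h2
      let x' : 𝓞 F := ⟨⟨(x : L), hxF⟩, hxint⟩
      let y' : 𝓞 F := ⟨τ ⟨(x : L), hxF⟩, hxint.map (τ.toAlgHom.restrictScalars ℤ)⟩
      have h3 := hτ x' y' rfl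
      rw [Ideal.mem_comap, map_sub] at h3
      have e1 : ι x' = x := rfl
      have e2 : ι y' = σ • x := Subtype.ext (hσF ⟨(x : L), hxF⟩).symm
      rwa [e1, e2] at h3)
    have h4 : h * σ ∈ H := hI p hp A hA hh
    have h5 : σ ∈ H := by
      have := mul_mem (inv_mem hhH) h4
      simpa using this
    apply hτ1
    ext x
    rw [← hσF x]
    rw [← hfix, IntermediateField.mem_fixingSubgroup_iff] at h5
    exact h5 x x.2
  · have h2 : Module.finrank ℚ F = 1 := le_antisymm h1 Module.finrank_pos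
    rw [IntermediateField.finrank_eq_one_iff] at h2
    rw [← hfix, h2]
    exact IntermediateField.fixingSubgroup_bot
end Fermat.Agent.H09
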