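import Mathlib
import Fermat.Agent.H09.GoodP
import Fermat.Agent.H09.Minkowski
import Fermat.Prelude.Def_FLTPrelim_Modularity

set_option autoImplicit false

/-!
# The mod `p` representation of a semistable curve over `ℚ` with a stable line `N`:
# either `N` has trivial action or `V / N` has trivial action.
-/

namespace Fermat.Agent.H09

open Polynomial WeierstrassCurve WeierstrassCurve.Affine WeierstrassCurve.Affine.Point
open Fermat.Agent.H08
open Fermat.Agent.H05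
open scoped Pointwise

section Conj

variable {L : Type*} [Field L] [CharZero L]

theorem mem_nonunits_smul_iff (g : L ≃ₐ[ℚ] L) (A : ValuationSubring L) (x : L) :
    x ∈ (g • A).nonunits ↔ g⁻¹ x ∈ A.nonunits := by
  rw [ValuationSubring.mem_nonunits_iff_or, ValuationSubring.mem_nonunits_iff_or,
    ValuationSubring.mem_pointwise_smul_iff_inv_smul_mem]
  have e : g⁻¹ • x⁻¹ = (g⁻¹ x)⁻¹ := map_inv₀ g⁻¹ x
  rw [e]
  have e2 : g⁻¹ x = 0 ↔ x = 0 := by simp
  rw [e2]

theorem mem_inertia_iff (A : ValuationSubring L) (σ : L ≃ₐ[ℚ] L) :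
    σ ∈ A.inertiaSubgroupIn ℚ ↔ σ • A = A ∧ ∀ z ∈ A, σ z - z ∈ A.nonunits := by
  constructor
  · intro h
    refine ⟨smul_eq_of_inertia h, fun z hz => ?_⟩
    rw [ValuationSubring.mem_nonunits_iff]
    exact val_sub_lt_one_of_inertia h ((A.valuation_le_one_iff _).mpr hz)
  · rintro ⟨h1, h2⟩
    rw [mem_inertiaSubgroupIn_iff]
    refine ⟨h1, fun x => ?_⟩
    obtain ⟨⟨z, hz⟩, rfl⟩ := IsLocalRing.residue_surjective x
    have h3 : (⟨σ, h1⟩ : A.decompositionSubgroup ℚ) • (IsLocalRing.residue A ⟨z, hz⟩) =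
        IsLocalRing.residue A ⟨σ z, (mem_of_smul_eq h1 z).mpr hz⟩ := rfl
    rw [h3, ← sub_eq_zero, ← map_sub, IsLocalRing.residue_eq_zero_iff,
      ValuationSubring.valuation_lt_one_iff]
    exact (ValuationSubring.mem_nonunits_iff _).mp (h2 z hz)

theorem inertia_conj {A : ValuationSubring L} {g σ : L ≃ₐ[ℚ] L}
    (h : σ ∈ (g • A).inertiaSubgroupIn ℚ) : g⁻¹ * σ * g ∈ A.inertiaSubgroupIn ℚ := by
  rw [mem_inertia_iff] at h ⊢
  obtain ⟨h1, h2⟩ := h
  refine ⟨?_, fun z hz => ?_⟩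
  · rw [mul_smul, mul_smul, h1, inv_smul_smul]
  · have h3 := h2 (g z) (ValuationSubring.smul_mem_pointwise_smul g z A hz)
    rw [mem_nonunits_smul_iff, map_sub] at h3
    have e1 : (g⁻¹ * σ * g) z = g⁻¹ (σ (g z)) := rfl
    have e2 : g⁻¹ (g z) = z := g.symm_apply_apply z
    rw [e2] at h3
    rw [e1]
    exact h3

end Conj

section Algebra

variable {k V : Type*} [Field k] [AddCommGroup V] [Module k V]

theorem alg_away {N F : Submodule k V} (hN : IsAtom N) (hN' : IsCoatom N) (s : V →+ V)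
    (h1 : ∀ x, s x - x ∈ F) (h2 : ∀ x ∈ F, s x = x) (hs : ∀ x ∈ N, s x ∈ N) :
    (∀ x ∈ N, s x = x) ∧ ∀ x, s x - x ∈ N := by
  by_cases hNF : N ≤ F
  · refine ⟨fun x hx => h2 x (hNF hx), fun x => ?_⟩
    by_cases hFN : F ≤ N
    · exact hFN (h1 x)
    · have hF : F = ⊤ := hN'.2 F (lt_of_le_not_ge hNF hFN)
      rw [h2 x (by rw [hF]; trivial), sub_self]
      exact zero_mem _
  · have hdisj : Disjoint N F := (hN.not_le_iff_disjoint).mp hNF
    have ha : ∀ x ∈ N, s x = x := by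
      intro x hx
      have : s x - x ∈ N ⊓ F := ⟨sub_mem (hs x hx) hx, h1 x⟩
      rw [hdisj.eq_bot, Submodule.mem_bot, sub_eq_zero] at this
      exact this
    refine ⟨ha, fun x => ?_⟩
    by_cases hFN : F ≤ N
    · exact hFN (h1 x)
    · have hlt : N < N ⊔ F := by
        refine lt_of_le_of_ne le_sup_left ?_
        intro h
        apply hFN
        rw [h]
        exact le_sup_right
      have htop := hN'.2 _ hlt
      have hx : x ∈ N ⊔ F := by rw [htop]; trivial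
      obtain ⟨y, hy, z, hz, rfl⟩ := Submodule.mem_sup.mp hx
      rw [map_add, ha y hy, h2 z hz, sub_self]
      exact zero_mem _

theorem alg_at {N F : Submodule k V} (hN : IsAtom N) (hN' : IsCoatom N) (hF : F ≠ ⊤) :
    F ≤ N ∨ Disjoint N F := by
  by_cases hNF : N ≤ F
  · left
    by_contra hFN
    exact hF (hN'.2 F (lt_of_le_not_ge hNF hFN))
  · right
    exact (hN.not_le_iff_disjoint).mp hNF

theorem atom_coatom [Module.Finite k V] (h2 : Module.finrank k V ≤ 2) {N : Submodule k V}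
    (hb : N ≠ ⊥) (ht : N ≠ ⊤) : IsAtom N ∧ IsCoatom N ∧ Module.finrank k N = 1 := by
  have h1 : 0 < Module.finrank k N := by
    rw [Nat.pos_iff_ne_zero]
    intro h
    exact hb (Submodule.finrank_eq_zero.mp h)
  have h3 : Module.finrank k N < Module.finrank k V := Submodule.finrank_lt ht
  have h4 : Module.finrank k N = 1 := by omega
  refine ⟨⟨hb, fun b hbN => ?_⟩, ⟨ht, fun b hNb => ?_⟩, h4⟩
  · have := Submodule.finrank_lt_finrank_of_lt hbN
    rw [h4, Nat.lt_one_iff] at this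
    exact Submodule.finrank_eq_zero.mp this
  · have := Submodule.finrank_lt_finrank_of_lt hNb
    apply Submodule.eq_top_of_finrank_eq
    have h5 := Submodule.finrank_le b
    omega

end Algebra

section Torsion

variable {L : Type*} [Field L] [CharZero L] [IsAlgClosed L] [DecidableEq L]
  {W₀ : WeierstrassCurve.Affine ℚ} {p : ℕ}

omit [IsAlgClosed L] in
theorem mem_torsion_iff {P : (W₀⁄L).Point} :
    P ∈ Submodule.torsionBy ℤ (W₀⁄L).Point (p : ℤ) ↔ p • P = 0 := by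
  rw [Submodule.mem_torsionBy_iff, natCast_zsmul]

omit [IsAlgClosed L] in
theorem finite_torsion (hp : p.Prime) (hp3 : 3 ≤ p) :
    Finite (Submodule.torsionBy ℤ (W₀⁄L).Point (p : ℤ)) ∧
    Nat.card (Submodule.torsionBy ℤ (W₀⁄L).Point (p : ℤ)) ≤ p ^ 2 := by
  have hodd : Odd p := hp.odd_of_ne_two (by omega)
  obtain ⟨h1, h2⟩ := card_torsion_le (W := (W₀⁄L)) hodd (Nat.cast_ne_zero.mpr hp.ne_zero)
  have e : (Submodule.torsionBy ℤ (W₀⁄L).Point (p : ℤ) : Set (W₀⁄L).Point) =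
      {P | p • P = 0} := by
    ext P
    exact mem_torsion_iff
  constructor
  · rw [← e] at h1
    exact h1.to_subtype
  · rw [← e] at h2
    exact h2

omit [IsAlgClosed L] in
theorem finrank_torsion [Fact p.Prime] (hp3 : 3 ≤ p) :
    Module.Finite (ZMod p) (Submodule.torsionBy ℤ (W₀⁄L).Point (p : ℤ)) ∧
    Module.finrank (ZMod p) (Submodule.torsionBy ℤ (W₀⁄L).Point (p : ℤ)) ≤ 2 := by
  have hp := (inferInstance : Fact p.Prime).out
  obtain ⟨h1, h2⟩ := finite_torsion (L := L) (W₀ := W₀) hp hp3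
  have hfin : Module.Finite (ZMod p) (Submodule.torsionBy ℤ (W₀⁄L).Point (p : ℤ)) :=
    Module.Finite.of_finite
  refine ⟨hfin, ?_⟩
  have h3 := Module.natCard_eq_pow_finrank (K := ZMod p)
    (V := Submodule.torsionBy ℤ (W₀⁄L).Point (p : ℤ))
  rw [Nat.card_zmod] at h3
  rw [h3] at h2
  exact (Nat.pow_le_pow_iff_right hp.one_lt).mp h2

end Torsion

section Places

variable {L : Type*} [Field L] [CharZero L] [IsAlgClosed L] [DecidableEq L]
  [Algebra.IsAlgebraic ℚ L] {W₀ : WeierstrassCurve.Affine ℚ} {p : ℕ}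

/-- the submodule of the `p`-torsion attached to a subgroup of points -/
noncomputable def pull (p : ℕ) (G : AddSubgroup (W₀⁄L).Point) :
    Submodule (ZMod p) (Submodule.torsionBy ℤ (W₀⁄L).Point (p : ℤ)) :=
  AddSubgroup.toZModSubmodule p
    (G.comap (Submodule.subtype (Submodule.torsionBy ℤ (W₀⁄L).Point (p : ℤ))).toAddMonoidHom)

omit [IsAlgClosed L] [Algebra.IsAlgebraic ℚ L] in
theorem mem_pull {G : AddSubgroup (W₀⁄L).Point}
    {x : Submodule.torsionBy ℤ (W₀⁄L).Point (p : ℤ)} : x ∈ pull p G ↔ (x : (W₀⁄L).Point) ∈ G :=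
  Iff.rfl

/-- `E₀` as a subgroup -/
def nodeE0Sub {A : ValuationSubring L} {r t α β : L}
    (h : NodeData A.valuation (W₀⁄L) r t α β) : AddSubgroup (W₀⁄L).Point where
  carrier := {P | NodeE0 A.valuation r t P}
  add_mem' := fun hP hQ => NodeE0.add h hP hQ
  zero_mem' := NodeE0.zero
  neg_mem' := fun hP => NodeE0.neg hP

/-- Galois action as an additive map -/
noncomputable def actHom (p : ℕ) (σ : L ≃ₐ[ℚ] L) :
    Submodule.torsionBy ℤ (W₀⁄L).Point (p : ℤ) →+ Submodule.torsionBy ℤ (W₀⁄L).Point (p : ℤ) :=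
  DistribSMul.toAddMonoidHom _ σ

omit [IsAlgClosed L] [Algebra.IsAlgebraic ℚ L] in
theorem actHom_apply (σ : L ≃ₐ[ℚ] L) (x : Submodule.torsionBy ℤ (W₀⁄L).Point (p : ℤ)) :
    actHom p σ x = σ • x := rfl

omit [IsAlgClosed L] [Algebra.IsAlgebraic ℚ L] in
theorem coe_smul_torsion (σ : L ≃ₐ[ℚ] L) (x : Submodule.torsionBy ℤ (W₀⁄L).Point (p : ℤ)) :
    ((σ • x : Submodule.torsionBy ℤ (W₀⁄L).Point (p : ℤ)) : (W₀⁄L).Point) =
      σ • (x : (W₀⁄L).Point) := rfl

omit [IsAlgClosed L] [DecidableEq L] [Algebra.IsAlgebraic ℚ L] in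
theorem semistable_cases {W₁ : WeierstrassCurve ℤ} (hW₁ : W₁.map (Int.castRingHom L) = (W₀⁄L))
    (hss : W₁.IsSemistableModel) {ℓ : ℕ} (hℓ : ℓ.Prime) {A : ValuationSubring L}
    (hA : A.LiesOverPrime ℓ) : A.valuation (W₀⁄L).Δ = 1 ∨
      (A.valuation (W₀⁄L).Δ < 1 ∧ A.valuation (W₀⁄L).c₄ = 1) := by
  rw [← hW₁, map_Δ, map_c₄]
  by_cases h : (ℓ : ℤ) ∣ W₁.Δ
  · right
    exact ⟨val_intCast_lt_one hA h, val_intCast_eq_one hℓ hA (hss ℓ hℓ h)⟩
  · left
    exact val_intCast_eq_one hℓ hA h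

/-- Inertia at `ℓ ≠ p`. -/
theorem inertia_away {W₁ : WeierstrassCurve ℤ} (hW₁ : W₁.map (Int.castRingHom L) = (W₀⁄L))
    (hΔ0 : W₁.Δ ≠ 0) (hss : W₁.IsSemistableModel) (hp : p.Prime) {ℓ : ℕ} (hℓ : ℓ.Prime)
    (hℓp : ℓ ≠ p) {A : ValuationSubring L} (hA : A.LiesOverPrime ℓ) {σ : L ≃ₐ[ℚ] L}
    (hσ : σ ∈ A.inertiaSubgroupIn ℚ) :
    ∃ F : Submodule (ZMod p) (Submodule.torsionBy ℤ (W₀⁄L).Point (p : ℤ)),
      (∀ x, actHom p σ x - x ∈ F) ∧ ∀ x ∈ F, actHom p σ x = x := by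
  have hW : IsIntegralFor A.valuation (W₀⁄L) := isIntegralFor_of_int hW₁
  have hvp : A.valuation (p : L) = 1 := by
    have := val_intCast_eq_one (c := (p : ℤ)) hℓ hA (by
      intro h
      have h' : ℓ ∣ p := by exact_mod_cast h
      exact hℓp ((Nat.prime_dvd_prime_iff_eq hℓ hp).mp h'))
    exact_mod_cast this
  rcases semistable_cases hW₁ hss hℓ hA with h | ⟨h1, h2⟩
  · have key : ∀ x : Submodule.torsionBy ℤ (W₀⁄L).Point (p : ℤ), actHom p σ x - x = 0 := by
      intro x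
      have h3 := inE1_smul_sub_of_good hW h hσ (x : (W₀⁄L).Point)
      have h4 : p • (σ • (x : (W₀⁄L).Point) - x) = 0 :=
        mem_torsion_iff.mp (actHom p σ x - x).2
      exact Subtype.ext (InE1.eq_zero_of_torsion hW h3 h4 hvp)
    refine ⟨⊥, fun x => ?_, fun x _ => sub_eq_zero.mp (key x)⟩
    rw [key]; exact zero_mem _
  · have hΔL : (W₀⁄L).Δ ≠ 0 := by
      rw [← hW₁, map_Δ]
      simpa using hΔ0
    obtain ⟨r, t, α, β, hN⟩ := exists_nodeData hW hΔL h1 h2
    refine ⟨pull p (nodeE0Sub hN), fun x => ?_, fun x hx => ?_⟩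
    · rw [mem_pull]
      exact nodeE0_smul_sub hσ hN (x : (W₀⁄L).Point)
    · have h3 := inE1_smul_sub_of_nodeE0 hσ hN (P := (x : (W₀⁄L).Point)) hx
      have h4 : p • (σ • (x : (W₀⁄L).Point) - x) = 0 :=
        mem_torsion_iff.mp (actHom p σ x - x).2
      exact sub_eq_zero.mp (Subtype.ext (InE1.eq_zero_of_torsion hW h3 h4 hvp))

/-- Inertia at `p`: `σ x - x ∈ F` with `F ≠ ⊤`. -/
theorem inertia_at {W₁ : WeierstrassCurve ℤ} (hW₁ : W₁.map (Int.castRingHom L) = (W₀⁄L))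
    (hΔ0 : W₁.Δ ≠ 0) (hss : W₁.IsSemistableModel) (hp : p.Prime) (hp5 : 5 ≤ p)
    {A : ValuationSubring L} (hA : A.LiesOverPrime p)
    (N : Submodule (ZMod p) (Submodule.torsionBy ℤ (W₀⁄L).Point (p : ℤ)))
    (hN : IsGaloisStable ℚ N) (hcard : Nat.card N = p) :
    ∃ F : Submodule (ZMod p) (Submodule.torsionBy ℤ (W₀⁄L).Point (p : ℤ)), F ≠ ⊤ ∧
      ∀ σ ∈ A.inertiaSubgroupIn ℚ, ∀ x, actHom p σ x - x ∈ F := by
  have hW : IsIntegralFor A.valuation (W₀⁄L) := isIntegralFor_of_int hW₁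
  have hodd : Odd p := hp.odd_of_ne_two (by omega)
  rcases semistable_cases hW₁ hss hp hA with h | ⟨h1, h2⟩
  · refine ⟨pull p (E1 A.valuation (W₀⁄L) hW), ?_, fun σ hσ x => ?_⟩
    · classical
      have hfin : Finite N := Nat.finite_of_card_ne_zero (by rw [hcard]; exact hp.ne_zero)
      have := Fintype.ofFinite N
      let ι : N ↪ (W₀⁄L).Point :=
        ⟨fun x => ((x : Submodule.torsionBy ℤ (W₀⁄L).Point (p : ℤ)) : (W₀⁄L).Point),
          fun a b hab => Subtype.ext (Subtype.ext hab)⟩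
      let S : Finset (W₀⁄L).Point := ((Finset.univ : Finset N).erase 0).map ι
      have hS : ∀ P, P ∈ S ↔ ∃ x : N, x ≠ 0 ∧
          ((x : Submodule.torsionBy ℤ (W₀⁄L).Point (p : ℤ)) : (W₀⁄L).Point) = P := by
        intro P
        simp only [S, Finset.mem_map, Finset.mem_erase, Finset.mem_univ, and_true]
        rfl
      obtain ⟨P, hP0, hPp, hPx⟩ := exists_torsion_not_E1 hW₁ hp hp5 hA h S
        (by
          intro P hP h0
          obtain ⟨x, hx, rfl⟩ := (hS P).mp hP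
          exact hx (Subtype.ext (Subtype.ext h0)))
        (by
          intro P hP
          obtain ⟨x, hx, rfl⟩ := (hS P).mp hP
          exact mem_torsion_iff.mp x.1.2)
        (by
          intro σ P hP
          obtain ⟨x, hx, rfl⟩ := (hS P).mp hP
          rw [hS]
          refine ⟨⟨σ • x.1, hN σ x.1 x.2⟩, ?_, rfl⟩
          intro h0
          apply hx
          have h3 : σ • x.1 = 0 := congrArg Subtype.val h0
          have h4 : σ • ((x : Submodule.torsionBy ℤ (W₀⁄L).Point (p : ℤ)) : (W₀⁄L).Point) = 0 :=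
            congrArg Subtype.val h3
          by_contra hne
          exact smul_ne_zero' σ (fun h5 => hne (Subtype.ext (Subtype.ext h5))) h4)
        (by
          rw [Finset.card_map, Finset.card_erase_of_mem (Finset.mem_univ _), Finset.card_univ,
            ← Nat.card_eq_fintype_card, hcard])
      intro htop
      have hmem : (⟨P, mem_torsion_iff.mpr hPp⟩ :
          Submodule.torsionBy ℤ (W₀⁄L).Point (p : ℤ)) ∈ pull p (E1 A.valuation (W₀⁄L) hW) := by
        rw [htop]; trivial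
      rw [mem_pull] at hmem
      rcases hmem with h3 | h3
      · exact hP0 h3
      · exact absurd h3 (not_lt.mpr hPx)
    · rw [mem_pull]
      exact inE1_smul_sub_of_good hW h hσ (x : (W₀⁄L).Point)
  · have hΔL : (W₀⁄L).Δ ≠ 0 := by
      rw [← hW₁, map_Δ]
      simpa using hΔ0
    obtain ⟨r, t, α, β, hNd⟩ := exists_nodeData hW hΔL h1 h2
    refine ⟨pull p (nodeE0Sub hNd), ?_, fun σ hσ x => ?_⟩
    · have hv2 : A.valuation (2 : L) = 1 := by
        have := val_intCast_eq_one (c := 2) hp hA (by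
          intro h
          have h' : p ∣ 2 := by exact_mod_cast h
          have := Nat.le_of_dvd (by norm_num) h'
          omega)
        exact_mod_cast this
      obtain ⟨P, hP0, hPp, hPE⟩ := exists_torsion_not_nodeE0 hNd hΔL hv2 h2 hodd (by omega)
      intro htop
      have hmem : (⟨P, mem_torsion_iff.mpr hPp⟩ :
          Submodule.torsionBy ℤ (W₀⁄L).Point (p : ℤ)) ∈ pull p (nodeE0Sub hNd) := by
        rw [htop]; trivial
      rw [mem_pull] at hmem
      exact hPE hmem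
    · rw [mem_pull]
      exact nodeE0_smul_sub hσ hNd (x : (W₀⁄L).Point)

end Places

section Main

variable {L : Type*} [Field L] [CharZero L] [IsAlgClosed L] [DecidableEq L]
  [Algebra.IsAlgebraic ℚ L] {W₀ : WeierstrassCurve.Affine ℚ} {p : ℕ}

section SmulLemmas

omit [IsAlgClosed L] [Algebra.IsAlgebraic ℚ L]

variable (σ τ : L ≃ₐ[ℚ] L) (x y : Submodule.torsionBy ℤ (W₀⁄L).Point (p : ℤ))

theorem tmul_smul : (σ * τ) • x = σ • (τ • x) :=
  mul_smul (α := L ≃ₐ[ℚ] L) (β := Submodule.torsionBy ℤ (W₀⁄L).Point (p : ℤ)) σ τ x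

theorem tone_smul : (1 : L ≃ₐ[ℚ] L) • x = x :=
  one_smul (L ≃ₐ[ℚ] L) (α := Submodule.torsionBy ℤ (W₀⁄L).Point (p : ℤ)) x

theorem tsmul_inv_smul : σ • (σ⁻¹ • x) = x :=
  smul_inv_smul (G := L ≃ₐ[ℚ] L) (α := Submodule.torsionBy ℤ (W₀⁄L).Point (p : ℤ)) σ x

theorem tinv_smul_smul : σ⁻¹ • (σ • x) = x :=
  inv_smul_smul (G := L ≃ₐ[ℚ] L) (α := Submodule.torsionBy ℤ (W₀⁄L).Point (p : ℤ)) σ x

theorem tsmul_sub : σ • (x - y) = σ • x - σ • y :=
  smul_sub (M := L ≃ₐ[ℚ] L) (A := Submodule.torsionBy ℤ (W₀⁄L).Point (p : ℤ)) σ x y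

theorem tsmul_zero : σ • (0 : Submodule.torsionBy ℤ (W₀⁄L).Point (p : ℤ)) = 0 :=
  smul_zero (M := L ≃ₐ[ℚ] L) (A := Submodule.torsionBy ℤ (W₀⁄L).Point (p : ℤ)) σ

theorem tinv_smul_eq_iff : σ⁻¹ • x = y ↔ x = σ • y :=
  inv_smul_eq_iff (G := L ≃ₐ[ℚ] L) (α := Submodule.torsionBy ℤ (W₀⁄L).Point (p : ℤ))

end SmulLemmas

/-- automorphisms acting trivially on `N` -/
def fixSub (N : Submodule (ZMod p) (Submodule.torsionBy ℤ (W₀⁄L).Point (p : ℤ))) :
    Subgroup (L ≃ₐ[ℚ] L) where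
  carrier := {σ | ∀ x ∈ N, σ • x = x}
  mul_mem' := by
    intro σ τ hσ hτ x hx
    rw [tmul_smul, hτ x hx, hσ x hx]
  one_mem' := fun x _ => tone_smul x
  inv_mem' := by
    intro σ hσ x hx
    rw [tinv_smul_eq_iff]
    exact (hσ x hx).symm

/-- automorphisms acting trivially on `V / N` -/
def cofixSub (N : Submodule (ZMod p) (Submodule.torsionBy ℤ (W₀⁄L).Point (p : ℤ)))
    (hN : IsGaloisStable ℚ N) : Subgroup (L ≃ₐ[ℚ] L) where
  carrier := {σ | ∀ x, σ • x - x ∈ N}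
  mul_mem' := by
    intro σ τ hσ hτ x
    have : (σ * τ) • x - x = σ • (τ • x - x) + (σ • x - x) := by
      rw [tmul_smul, tsmul_sub]; abel
    rw [this]
    exact add_mem (hN σ _ (hτ x)) (hσ x)
  one_mem' := by
    intro x
    rw [tone_smul, sub_self]; exact zero_mem _
  inv_mem' := by
    intro σ hσ x
    have : σ⁻¹ • x - x = -(σ⁻¹ • (σ • x - x)) := by
      rw [tsmul_sub, tinv_smul_smul]; abel
    rw [this]
    exact neg_mem (hN _ _ (hσ x))

omit [IsAlgClosed L] [Algebra.IsAlgebraic ℚ L] in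
theorem fixSub_normal (N : Submodule (ZMod p) (Submodule.torsionBy ℤ (W₀⁄L).Point (p : ℤ)))
    (hN : IsGaloisStable ℚ N) : (fixSub N).Normal := by
  constructor
  intro σ hσ g
  have hσ' : ∀ x ∈ N, σ • x = x := hσ
  change ∀ x ∈ N, (g * σ * g⁻¹) • x = x
  intro x hx
  rw [tmul_smul, tmul_smul, hσ' _ (hN g⁻¹ x hx), tsmul_inv_smul]

omit [IsAlgClosed L] [Algebra.IsAlgebraic ℚ L] in
theorem cofixSub_normal (N : Submodule (ZMod p) (Submodule.torsionBy ℤ (W₀⁄L).Point (p : ℤ)))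
    (hN : IsGaloisStable ℚ N) : (cofixSub N hN).Normal := by
  constructor
  intro σ hσ g x
  have : (g * σ * g⁻¹) • x - x = g • (σ • (g⁻¹ • x) - g⁻¹ • x) := by
    rw [tsmul_sub, tsmul_inv_smul, tmul_smul, tmul_smul]
  rw [this]
  exact hN g _ (hσ _)

omit [IsAlgClosed L] in
theorem exists_open_fix (hp : p.Prime) (hp3 : 3 ≤ p) : ∃ K : Subgroup (L ≃ₐ[ℚ] L),
    IsOpen (K : Set (L ≃ₐ[ℚ] L)) ∧
    ∀ σ ∈ K, ∀ x : Submodule.torsionBy ℤ (W₀⁄L).Point (p : ℤ), σ • x = x := by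
  obtain ⟨hfin, -⟩ := finite_torsion (L := L) (W₀ := W₀) hp hp3
  refine ⟨⨅ x : Submodule.torsionBy ℤ (W₀⁄L).Point (p : ℤ),
    MulAction.stabilizer (L ≃ₐ[ℚ] L) (px (x : (W₀⁄L).Point)) ⊓
      MulAction.stabilizer (L ≃ₐ[ℚ] L) (py (x : (W₀⁄L).Point)), ?_, ?_⟩
  · rw [Subgroup.coe_iInf]
    apply isOpen_iInter_of_finite
    intro x
    rw [Subgroup.coe_inf]
    exact (stabilizer_isOpen_of_isIntegral (K := ℚ) (L := L) _).inter
      (stabilizer_isOpen_of_isIntegral (K := ℚ) (L := L) _)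
  · intro σ hσ x
    rw [Subgroup.mem_iInf] at hσ
    obtain ⟨h1, h2⟩ := hσ x
    by_cases h0 : (x : (W₀⁄L).Point) = 0
    · have : x = 0 := Subtype.ext h0
      rw [this, tsmul_zero]
    · apply Subtype.ext
      rw [coe_smul_torsion]
      apply ext_of_ne_zero (smul_ne_zero' σ h0) h0
      · rw [xc_eq_px, xc_eq_px, px_smul]; exact h1
      · have e : ∀ P : (W₀⁄L).Point, yc P = py P := by
          intro P
          rcases P with _ | ⟨x, y, h⟩ <;> rfl
        rw [e, e, py_smul]; exact h2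

/-- The dichotomy for a stable line in the `p`-torsion of a semistable curve over `ℚ`. -/
theorem dichotomy [Fact p.Prime] {W₁ : WeierstrassCurve ℤ}
    (hW₁ : W₁.map (Int.castRingHom L) = (W₀⁄L))
    (hΔ0 : W₁.Δ ≠ 0) (hss : W₁.IsSemistableModel) (hp5 : 5 ≤ p)
    (N : Submodule (ZMod p) (Submodule.torsionBy ℤ (W₀⁄L).Point (p : ℤ)))
    (hN : IsGaloisStable ℚ N) (hb : N ≠ ⊥) (ht : N ≠ ⊤) :
    (∀ σ : L ≃ₐ[ℚ] L, ∀ x ∈ N, σ • x = x) ∨
      (∀ σ : L ≃ₐ[ℚ] L, ∀ x : Submodule.torsionBy ℤ (W₀⁄L).Point (p : ℤ), σ • x - x ∈ N) := by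
  have hp := (inferInstance : Fact p.Prime).out
  have hgal : IsGalois ℚ L := { to_normal := { splits' := fun x => IsAlgClosed.splits _ } }
  obtain ⟨hfin, hrank⟩ := finrank_torsion (L := L) (W₀ := W₀) (p := p) (by omega)
  obtain ⟨hatom, hcoatom, hrN⟩ := atom_coatom hrank hb ht
  have hcard : Nat.card N = p := by
    rw [Module.natCard_eq_pow_finrank (K := ZMod p), hrN, Nat.card_zmod, pow_one]
  obtain ⟨A₀, hA₀⟩ := exists_liesOverPrime L hp
  obtain ⟨F, hF, hI⟩ := inertia_at hW₁ hΔ0 hss hp hp5 hA₀ N hN hcard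
  obtain ⟨K, hKo, hK⟩ := exists_open_fix (L := L) (W₀ := W₀) hp (by omega)
  rcases alg_at hatom hcoatom hF with hFN | hdisj
  · right
    have hnorm := cofixSub_normal N hN
    have htop : cofixSub N hN = ⊤ := by
      apply minkowski
      · refine Subgroup.isOpen_mono (H₁ := K) ?_ hKo
        intro σ hσ x
        rw [hK σ hσ x, sub_self]; exact zero_mem _
      · intro ℓ hℓ A hA σ hσ
        by_cases hℓp : ℓ = p
        · subst hℓp
          obtain ⟨g, rfl⟩ := exists_smul_eq hℓ hA₀ hA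
          have hτ := inertia_conj hσ
          intro x
          have h1 := hFN (hI _ hτ (g⁻¹ • x))
          rw [actHom_apply] at h1
          have e : σ • x - x = g • ((g⁻¹ * σ * g) • (g⁻¹ • x) - g⁻¹ • x) := by
            rw [tsmul_sub, tsmul_inv_smul, tmul_smul, tmul_smul, tsmul_inv_smul, tsmul_inv_smul]
          rw [e]
          exact hN g _ h1
        · obtain ⟨F', h1, h2⟩ := inertia_away (p := p) hW₁ hΔ0 hss hp hℓ hℓp hA hσ
          exact (alg_away hatom hcoatom (actHom p σ) h1 h2 (fun x hx => hN σ x hx)).2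
    intro σ
    have : σ ∈ cofixSub N hN := by rw [htop]; trivial
    exact this
  · left
    have hnorm := fixSub_normal N hN
    have htop : fixSub N = ⊤ := by
      apply minkowski
      · refine Subgroup.isOpen_mono (H₁ := K) ?_ hKo
        intro σ hσ
        change ∀ x ∈ N, σ • x = x
        intro x _
        exact hK σ hσ x
      · intro ℓ hℓ A hA σ hσ
        by_cases hℓp : ℓ = p
        · subst hℓp
          obtain ⟨g, rfl⟩ := exists_smul_eq hℓ hA₀ hA
          have hτ := inertia_conj hσ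
          change ∀ x ∈ N, σ • x = x
          intro x hx
          have hgx : g⁻¹ • x ∈ N := hN g⁻¹ x hx
          have h1 : (g⁻¹ * σ * g) • (g⁻¹ • x) - g⁻¹ • x ∈ N ⊓ F :=
            ⟨sub_mem (hN _ _ hgx) hgx, hI _ hτ (g⁻¹ • x)⟩
          rw [hdisj.eq_bot, Submodule.mem_bot, sub_eq_zero, tmul_smul, tmul_smul, tsmul_inv_smul,
            tinv_smul_eq_iff, tsmul_inv_smul] at h1
          exact h1
        · obtain ⟨F', h1, h2⟩ := inertia_away (p := p) hW₁ hΔ0 hss hp hℓ hℓp hA hσ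
          have h3 := (alg_away hatom hcoatom (actHom p σ) h1 h2 (fun x hx => hN σ x hx)).1
          change ∀ x ∈ N, σ • x = x
          exact h3
    intro σ
    have h4 : σ ∈ (fixSub N : Set (L ≃ₐ[ℚ] L)) := by rw [htop]; trivial
    exact h4

end Main

end Fermat.Agent.H09
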