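import Fermat.Agent.H09.M2G

/-!
# Mazur's principle at `2` for arbitrary odd levels
-/

set_option autoImplicit false
set_option linter.style.haveILetI false
set_option linter.unusedSectionVars false
set_option maxSynthPendingDepth 3
set_option synthInstance.maxHeartbeats 400000

noncomputable section

attribute [-instance] HahnSeries.instModule HahnSeries.instSMul HahnSeries.instDistribMulAction
  HahnSeries.instSMulZeroClass

namespace Fermat.Agent.H09.M2

open H29 in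
attribute [local instance 10000] instLS instIF instIF2

open ModularCurve AlgebraicCurve Fermat.Agent.Igusa Fermat.Agent.Q Fermat.Agent.H11N
open Fermat.Agent.Ell Fermat.Agent.H12.LL

local notation "kk" => IsLocalRing.ResidueField
local notation "Qb" => AlgebraicClosure ℚ

attribute [local instance] H12.isAlgClosed_kk

variable {W : WeierstrassCurve ℤ} {p : ℕ} [hp : Fact p.Prime]

/-- **Mazur's principle at `2`** (no condition on the curve away from `2` and `p`; any odd level) -/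
theorem rm_odd_of (hΔ : W.Δ ≠ 0) (hirr : W.ModRepIsIrreducible p) (hp2 : p ≠ 2) {c : ℕ}
    (hc : ¬ p ∣ c)
    (hin : ∀ (M : ℕ) [NeZero M] (hM : Nat.Coprime 2 M), 3 ∣ M → Aux3 p M →
      ∀ A : ValuationSubring Qb, A.LiesOverPrime 2 → N2Core A M 2 hM p 1 c (M * 2))
    {M : ℕ} (h2M : ¬ 2 ∣ M) (haux : Aux3 p M) (hunr : UnrAt W p 2)
    (hmod : W.IsResiduallyModularOfLevel p (M * 2)) : W.IsResiduallyModularOfLevel p M := by
  have hM0 : M ≠ 0 := fun h => h2M (h ▸ dvd_zero 2)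
  haveI : NeZero M := ⟨hM0⟩
  haveI : Fact (Nat.Prime 3) := ⟨Nat.prime_three⟩
  have hM2 : Nat.Coprime 2 M := (Nat.Prime.coprime_iff_not_dvd Nat.prime_two).2 h2M
  set D := M * 3 * 2 * p * W.Δ.natAbs with hDdef
  have hD : D ≠ 0 := mul_ne_zero (mul_ne_zero (mul_ne_zero (mul_ne_zero hM0 three_ne_zero)
    two_ne_zero) hp.out.ne_zero) (Int.natAbs_ne_zero.2 hΔ)
  have hMD3 : M * 3 * 2 ∣ D := ⟨p * W.Δ.natAbs, by rw [hDdef]; ring⟩
  have hMD : M * 2 ∣ D := ⟨3 * p * W.Δ.natAbs, by rw [hDdef]; ring⟩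
  have h3D : 3 ∣ D := ⟨M * 2 * p * W.Δ.natAbs, by rw [hDdef]; ring⟩
  have hpD : p ∣ D := ⟨M * 3 * 2 * W.Δ.natAbs, by rw [hDdef]; ring⟩
  have hΔD : W.Δ.natAbs ∣ D := dvd_mul_left _ _
  by_cases h3 : 3 ∣ M
  · exact rm_of_core hΔ hirr hp2 hM2 (fun h => hp.out.one_lt.ne' (Nat.dvd_one.1 h)) hc hD hMD
      hpD hΔD
      (fun A hA => (hin M hM2 h3 haux A hA).mono hMD)
      (fun A hA => occIn_three hA hM2 h3 hp.out.ne_zero hMD) hunr hmod
  · have hsN : ¬ 3 ∣ M * 2 := by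
      intro h
      rcases (Nat.Prime.dvd_mul Nat.prime_three).1 h with h | h
      · exact h3 h
      · omega
    have hM32 : Nat.Coprime 2 (M * 3) := Nat.Coprime.mul_right hM2 (by norm_num)
    have hp4 : ¬ p ∣ 1 * (3 + 1) := by
      intro h
      have h1 : p ∣ 2 ^ 2 := by rwa [one_mul] at h
      exact hp2 ((Nat.prime_dvd_prime_iff_eq hp.out Nat.prime_two).1
        (hp.out.dvd_of_dvd_pow h1))
    refine rm_of_core hΔ hirr hp2 hM2 hp4 hc hD hMD hpD hΔD
      (fun A hA => N2Core.push (M := M) (r := 2) (s := 3) hA hM2 hM32 hsN hp.out.ne_zero h3D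
        ((hin (M * 3) hM32 (dvd_mul_left _ _) (fun h => ?_) A hA).mono hMD3))
      (fun A hA => occIn_nthree hA hM2 h3 hp.out hp2 hMD3) hunr hmod
    obtain ⟨r, hr, h1, h2⟩ := haux h
    exact ⟨r, hr, h1, h2.mul_right 3⟩

/-- **Mazur's principle at `2`, `p ≥ 5`**, any odd level -/
theorem rm_odd_five (hΔ : W.Δ ≠ 0) (hirr : W.ModRepIsIrreducible p) (hp2 : p ≠ 2) (hp3 : p ≠ 3)
    {M : ℕ} (h2M : ¬ 2 ∣ M) (hunr : UnrAt W p 2)
    (hmod : W.IsResiduallyModularOfLevel p (M * 2)) : W.IsResiduallyModularOfLevel p M :=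
  rm_odd_of hΔ hirr hp2 (c := 3)
    (fun h => hp3 ((Nat.prime_dvd_prime_iff_eq hp.out Nat.prime_three).1 h))
    (fun _ _ hM h3 _ _ hA => n2core_of_ordTwo hM h3 hA hp.out.ne_zero
      (ordTwo_three hM h3 hA hp.out.pos)) h2M (fun h => absurd h hp3) hunr hmod

omit hp in
/-- **Mazur's principle at `2`, `p = 3`**, any odd level with an auxiliary prime -/
theorem rm_odd_three [Fact (Nat.Prime 3)] (hΔ : W.Δ ≠ 0) (hirr : W.ModRepIsIrreducible 3)
    {M : ℕ} (h2M : ¬ 2 ∣ M) (haux : ∃ r : ℕ, r.Prime ∧ r % 3 = 2 ∧ r ∣ M) (hunr : UnrAt W 3 2)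
    (hmod : W.IsResiduallyModularOfLevel 3 (M * 2)) : W.IsResiduallyModularOfLevel 3 M :=
  rm_odd_of hΔ hirr (by norm_num) (c := 1) (by norm_num)
    (fun M _ hM h3 haux A hA => by
      obtain ⟨s, hs, hs3, hsM⟩ := haux rfl
      exact n2core_of_ordTwo hM h3 hA (by norm_num)
        (ordTwo_one hM h3 hs hs3 hsM hA (by norm_num))) h2M (fun _ => haux) hunr hmod

end Fermat.Agent.H09.M2
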