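import Mathlib
import Fermat.Agent.H09.AtP

set_option autoImplicit false

/-!
# The degenerate elliptic divisibility sequence and torsion in `E₀`
-/

namespace Fermat.Agent.H09

open Polynomial WeierstrassCurve WeierstrassCurve.Affine WeierstrassCurve.Affine.Point
open Fermat.Agent.H08

section

variable {k : Type*} [Field k]

theorem normEDS_degenerate {s l : k} (hs : s ≠ 0) (hl : l ≠ 0) (hδ : s ^ 2 - 1 ≠ 0)
    (h2 : s ^ 2 + 1 ≠ 0) (n : ℕ) :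
    normEDS (l ^ 3 * (s + s⁻¹)) (l ^ 8 * (s ^ 2 + 1 + (s⁻¹) ^ 2))
      (l ^ 12 * (s ^ 2 + (s⁻¹) ^ 2)) n =
      l ^ (n ^ 2) * l⁻¹ * ((s ^ n - (s ^ n)⁻¹) / (s - s⁻¹)) := by
  have hd : s - s⁻¹ ≠ 0 := by
    intro h
    apply hδ
    have : s * (s - s⁻¹) = s ^ 2 - 1 := by field_simp
    rw [← this, h, mul_zero]
  have hb : l ^ 3 * (s + s⁻¹) ≠ 0 := by
    apply mul_ne_zero (pow_ne_zero 3 hl)
    intro h
    apply h2
    have : s * (s + s⁻¹) = s ^ 2 + 1 := by field_simp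
    rw [← this, h, mul_zero]
  induction n using normEDSRec with
  | zero => simp
  | one => simp; field_simp
  | two =>
    rw [Nat.cast_ofNat, normEDS_two]
    field_simp
    ring
  | three =>
    rw [Nat.cast_ofNat, normEDS_three]
    field_simp
    ring
  | four =>
    rw [Nat.cast_ofNat, normEDS_four]
    field_simp
    ring
  | even m h1 h2' h3 h4 h5 =>
    apply mul_right_cancel₀ hb
    have e := normEDS_even (l ^ 3 * (s + s⁻¹)) (l ^ 8 * (s ^ 2 + 1 + (s⁻¹) ^ 2))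
      (l ^ 12 * (s ^ 2 + (s⁻¹) ^ 2)) ((m : ℤ) + 3)
    rw [show (m : ℤ) + 3 - 1 = ((m + 2 : ℕ) : ℤ) by push_cast; ring,
      show (m : ℤ) + 3 + 2 = ((m + 5 : ℕ) : ℤ) by push_cast; ring,
      show (m : ℤ) + 3 - 2 = ((m + 1 : ℕ) : ℤ) by push_cast; ring,
      show (m : ℤ) + 3 + 1 = ((m + 4 : ℕ) : ℤ) by push_cast; ring,
      show 2 * ((m : ℤ) + 3) = ((2 * (m + 3) : ℕ) : ℤ) by push_cast; ring,
      show (m : ℤ) + 3 = ((m + 3 : ℕ) : ℤ) by push_cast; ring, h1, h2', h3, h4, h5] at e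
    rw [e]
    have hM : s ^ m ≠ 0 := pow_ne_zero m hs
    have hA : l ^ (m ^ 2) ≠ 0 := pow_ne_zero _ hl
    have hB : l ^ m ≠ 0 := pow_ne_zero _ hl
    have p1 : s ^ (m + 1) = s ^ m * s := by ring
    have p2 : s ^ (m + 2) = s ^ m * s ^ 2 := by ring
    have p3 : s ^ (m + 3) = s ^ m * s ^ 3 := by ring
    have p4 : s ^ (m + 4) = s ^ m * s ^ 4 := by ring
    have p5 : s ^ (m + 5) = s ^ m * s ^ 5 := by ring
    have p6 : s ^ (2 * (m + 3)) = (s ^ m) ^ 2 * s ^ 6 := by ring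
    have q1 : l ^ ((m + 1) ^ 2) = l ^ (m ^ 2) * (l ^ m) ^ 2 * l := by ring
    have q2 : l ^ ((m + 2) ^ 2) = l ^ (m ^ 2) * (l ^ m) ^ 4 * l ^ 4 := by ring
    have q3 : l ^ ((m + 3) ^ 2) = l ^ (m ^ 2) * (l ^ m) ^ 6 * l ^ 9 := by ring
    have q4 : l ^ ((m + 4) ^ 2) = l ^ (m ^ 2) * (l ^ m) ^ 8 * l ^ 16 := by ring
    have q5 : l ^ ((m + 5) ^ 2) = l ^ (m ^ 2) * (l ^ m) ^ 10 * l ^ 25 := by ring
    have q6 : l ^ ((2 * (m + 3)) ^ 2) = (l ^ (m ^ 2)) ^ 4 * (l ^ m) ^ 24 * l ^ 36 := by ring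
    rw [p1, p2, p3, p4, p5, p6, q1, q2, q3, q4, q5, q6]
    generalize s ^ m = M at *
    generalize l ^ (m ^ 2) = A at *
    generalize l ^ m = B at *
    rw [div_eq_mul_inv, div_eq_mul_inv, div_eq_mul_inv, div_eq_mul_inv, div_eq_mul_inv,
      div_eq_mul_inv]
    have hdd : (s - s⁻¹)⁻¹ = s * (s ^ 2 - 1)⁻¹ := by
      rw [inv_eq_iff_eq_inv, mul_inv, inv_inv]; field_simp
    rw [hdd]
    field_simp
    ring
  | odd m h1 h2' h3 h4 =>
    have e := normEDS_odd (l ^ 3 * (s + s⁻¹)) (l ^ 8 * (s ^ 2 + 1 + (s⁻¹) ^ 2))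
      (l ^ 12 * (s ^ 2 + (s⁻¹) ^ 2)) ((m : ℤ) + 2)
    rw [show (m : ℤ) + 2 - 1 = ((m + 1 : ℕ) : ℤ) by push_cast; ring,
      show (m : ℤ) + 2 + 2 = ((m + 4 : ℕ) : ℤ) by push_cast; ring,
      show (m : ℤ) + 2 + 1 = ((m + 3 : ℕ) : ℤ) by push_cast; ring,
      show 2 * ((m : ℤ) + 2) + 1 = ((2 * (m + 2) + 1 : ℕ) : ℤ) by push_cast; ring,
      show (m : ℤ) + 2 = ((m + 2 : ℕ) : ℤ) by push_cast; ring, h1, h2', h3, h4] at e
    rw [e]
    have hM : s ^ m ≠ 0 := pow_ne_zero m hs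
    have hA : l ^ (m ^ 2) ≠ 0 := pow_ne_zero _ hl
    have hB : l ^ m ≠ 0 := pow_ne_zero _ hl
    have p1 : s ^ (m + 1) = s ^ m * s := by ring
    have p2 : s ^ (m + 2) = s ^ m * s ^ 2 := by ring
    have p3 : s ^ (m + 3) = s ^ m * s ^ 3 := by ring
    have p4 : s ^ (m + 4) = s ^ m * s ^ 4 := by ring
    have p6 : s ^ (2 * (m + 2) + 1) = (s ^ m) ^ 2 * s ^ 5 := by ring
    have q1 : l ^ ((m + 1) ^ 2) = l ^ (m ^ 2) * (l ^ m) ^ 2 * l := by ring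
    have q2 : l ^ ((m + 2) ^ 2) = l ^ (m ^ 2) * (l ^ m) ^ 4 * l ^ 4 := by ring
    have q3 : l ^ ((m + 3) ^ 2) = l ^ (m ^ 2) * (l ^ m) ^ 6 * l ^ 9 := by ring
    have q4 : l ^ ((m + 4) ^ 2) = l ^ (m ^ 2) * (l ^ m) ^ 8 * l ^ 16 := by ring
    have q6 : l ^ ((2 * (m + 2) + 1) ^ 2) = (l ^ (m ^ 2)) ^ 4 * (l ^ m) ^ 20 * l ^ 25 := by ring
    rw [p1, p2, p3, p4, p6, q1, q2, q3, q4, q6]
    generalize s ^ m = M at *
    generalize l ^ (m ^ 2) = A at *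
    generalize l ^ m = B at *
    rw [div_eq_mul_inv, div_eq_mul_inv, div_eq_mul_inv, div_eq_mul_inv, div_eq_mul_inv]
    have hdd : (s - s⁻¹)⁻¹ = s * (s ^ 2 - 1)⁻¹ := by
      rw [inv_eq_iff_eq_inv, mul_inv, inv_inv]; field_simp
    rw [hdd]
    field_simp
    ring

theorem preNormEDS'_degenerate {s l : k} (hs : s ≠ 0) (hl : l ≠ 0) (hδ : s ^ 2 - 1 ≠ 0)
    (h2 : s ^ 2 + 1 ≠ 0) {p : ℕ} (hp : Odd p) (hsp : s ^ p = 1) :
    preNormEDS' ((l ^ 3 * (s + s⁻¹)) ^ 4) (l ^ 8 * (s ^ 2 + 1 + (s⁻¹) ^ 2))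
      (l ^ 12 * (s ^ 2 + (s⁻¹) ^ 2)) p = 0 := by
  have h := normEDS_degenerate hs hl hδ h2 p
  rw [normEDS_ofNat, if_neg (Nat.not_even_iff_odd.mpr hp), mul_one, hsp, inv_one, sub_self,
    zero_div, mul_zero] at h
  exact h

end

section

variable {F : Type*} [Field F] [IsAlgClosed F] [CharZero F] [DecidableEq F]
  {A : ValuationSubring F}

omit [IsAlgClosed F] [CharZero F] [DecidableEq F] in
theorem preNormEDS'_congr {b c d b' c' d' : F} (hb : A.valuation b ≤ 1) (hc : A.valuation c ≤ 1)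
    (hd : A.valuation d ≤ 1) (hb' : A.valuation b' ≤ 1) (hc' : A.valuation c' ≤ 1)
    (hd' : A.valuation d' ≤ 1) (eb : A.valuation (b - b') < 1) (ec : A.valuation (c - c') < 1)
    (ed : A.valuation (d - d') < 1) (n : ℕ) :
    A.valuation (preNormEDS' b c d n - preNormEDS' b' c' d' n) < 1 := by
  rw [A.valuation_le_one_iff] at hb hc hd hb' hc' hd'
  have key : ∀ (x y : F) (hx : x ∈ A) (hy : y ∈ A), A.valuation (x - y) < 1 →
      IsLocalRing.residue A ⟨x, hx⟩ = IsLocalRing.residue A ⟨y, hy⟩ := by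
    intro x y hx hy h
    rw [← sub_eq_zero, ← map_sub, IsLocalRing.residue_eq_zero_iff,
      ValuationSubring.valuation_lt_one_iff]
    exact h
  have e1 := key b b' hb hb' eb
  have e2 := key c c' hc hc' ec
  have e3 := key d d' hd hd' ed
  have h1 := map_preNormEDS' (b := (⟨b, hb⟩ : A)) (c := ⟨c, hc⟩) (d := ⟨d, hd⟩)
    (f := A.subtype) n
  have h2 := map_preNormEDS' (b := (⟨b', hb'⟩ : A)) (c := ⟨c', hc'⟩) (d := ⟨d', hd'⟩)
    (f := A.subtype) n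
  have h3 := map_preNormEDS' (b := (⟨b, hb⟩ : A)) (c := ⟨c, hc⟩) (d := ⟨d, hd⟩)
    (f := IsLocalRing.residue A) n
  have h4 := map_preNormEDS' (b := (⟨b', hb'⟩ : A)) (c := ⟨c', hc'⟩) (d := ⟨d', hd'⟩)
    (f := IsLocalRing.residue A) n
  rw [e1, e2, e3, ← h4, ← sub_eq_zero, ← map_sub, IsLocalRing.residue_eq_zero_iff,
    ValuationSubring.valuation_lt_one_iff] at h3
  have e5 : preNormEDS' b c d n - preNormEDS' b' c' d' n =
      ((preNormEDS' (⟨b, hb⟩ : A) ⟨c, hc⟩ ⟨d, hd⟩ n - preNormEDS' ⟨b', hb'⟩ ⟨c', hc'⟩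
        ⟨d', hd'⟩ n : A) : F) := by
    rw [AddSubgroupClass.coe_sub]
    congr 1
    · exact h1.symm
    · exact h2.symm
  rw [e5]
  exact h3

omit [DecidableEq F] in
theorem exists_root_of_unity {p : ℕ} (hp : p.Prime) (hp3 : 3 ≤ p)
    (hvp : A.valuation (p : F) = 1) :
    ∃ s : F, s ^ p = 1 ∧ A.valuation s = 1 ∧ A.valuation (s ^ 2 - 1) = 1 ∧ s ^ 2 + 1 ≠ 0 := by
  obtain ⟨s, hs⟩ : ∃ s : F, (∑ i ∈ Finset.range p, (X : F[X]) ^ i).IsRoot s := by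
    apply IsAlgClosed.exists_root
    intro h
    have hcyc : (∑ i ∈ Finset.range p, (X : F[X]) ^ i) = cyclotomic p F := by
      haveI : Fact p.Prime := ⟨hp⟩
      rw [cyclotomic_prime]
    rw [hcyc, degree_cyclotomic, Nat.totient_prime hp] at h
    have h' : ((p - 1 : ℕ) : WithBot ℕ) = ((0 : ℕ) : WithBot ℕ) := h
    have : p - 1 = 0 := by exact_mod_cast h'
    omega
  have hsum : ∑ i ∈ Finset.range p, s ^ i = 0 := by
    have := hs
    rw [IsRoot.def, eval_finset_sum] at this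
    simpa using this
  have hsp : s ^ p = 1 := by
    have := geom_sum_mul s p
    rw [hsum, zero_mul] at this
    exact (sub_eq_zero.mp this.symm)
  have hv1 : A.valuation s = 1 := by
    have : A.valuation s ^ p = 1 := by rw [← map_pow, hsp, map_one]
    exact (pow_eq_one_iff_of_nonneg (zero_le) hp.ne_zero).mp this
  have hp0 : (p : F) ≠ 0 := Nat.cast_ne_zero.mpr hp.ne_zero
  have hs1 : s ≠ 1 := by
    rintro rfl
    simp at hsum
    exact hp.ne_zero hsum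
  have hodd : Odd p := hp.odd_of_ne_two (by omega)
  obtain ⟨j, hj⟩ := hodd
  have hs2 : s ^ 2 ≠ 1 := by
    intro h
    apply hs1
    have : s ^ p = s := by rw [hj, pow_succ, pow_mul, h, one_pow, one_mul]
    rw [← this, hsp]
  refine ⟨s, hsp, hv1, ?_, ?_⟩
  · have hle : A.valuation (s ^ 2 - 1) ≤ 1 := by
      refine v_sub_le_one ?_ (by simp)
      rw [map_pow, hv1, one_pow]
    refine le_antisymm hle ?_
    by_contra hlt
    push Not at hlt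
    set u := s ^ 2 with hu
    have hup : u ^ p = 1 := by rw [hu, ← pow_mul, mul_comm, pow_mul, hsp, one_pow]
    have husum : ∑ i ∈ Finset.range p, u ^ i = 0 := by
      have := geom_sum_mul u p
      rw [hup, sub_self] at this
      rcases mul_eq_zero.mp this with h | h
      · exact h
      · exact absurd (sub_eq_zero.mp h) hs2
    have hvu : A.valuation u = 1 := by rw [hu, map_pow, hv1, one_pow]
    have hui : ∀ i : ℕ, A.valuation (u ^ i - 1) < 1 := by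
      intro i
      have := geom_sum_mul u i
      rw [← this]
      apply v_mul_lt_one_right _ hlt
      apply Valuation.map_sum_le
      intro j _
      rw [map_pow, hvu, one_pow]
    have hps : (p : F) = -∑ i ∈ Finset.range p, (u ^ i - 1) := by
      rw [Finset.sum_sub_distrib, husum]
      simp
    have : A.valuation (p : F) < 1 := by
      rw [hps, Valuation.map_neg]
      exact Valuation.map_sum_lt _ one_ne_zero (fun i _ => hui i)
    rw [hvp] at this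
    exact lt_irrefl _ this
  · intro h
    have h4 : s ^ 4 = 1 := by
      have : s ^ 2 = -1 := by linear_combination h
      calc s ^ 4 = (s ^ 2) ^ 2 := by ring
        _ = 1 := by rw [this]; ring
    rcases Nat.even_or_odd' j with ⟨i, hi | hi⟩
    · apply hs1
      have : s ^ p = s := by
        rw [hj, hi, show 2 * (2 * i) + 1 = 4 * i + 1 by ring, pow_succ, pow_mul, h4, one_pow,
          one_mul]
      rw [← this, hsp]
    · have h3 : s ^ 3 = 1 := by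
        have : s ^ p = s ^ 3 := by
          rw [hj, hi, show 2 * (2 * i + 1) + 1 = 4 * i + 3 by ring, pow_add, pow_mul, h4, one_pow,
            one_mul]
        rw [← this, hsp]
      apply hs1
      calc s = s ^ 4 * (s ^ 3)⁻¹ := by
            have : s ≠ 0 := by rintro rfl; simp at h
            field_simp
        _ = 1 := by rw [h3, h4]; simp

/-- **Multiplicative reduction away from `p`**: there is a nonzero `p`-torsion point in `E₀`. -/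
theorem exists_torsion_nodeE0 {W : WeierstrassCurve.Affine F} {r t α β : F}
    (h : NodeData A.valuation W r t α β) (hΔ0 : W.Δ ≠ 0) (hc₄ : A.valuation W.c₄ = 1)
    {p : ℕ} (hp : p.Prime) (hp3 : 3 ≤ p) (hvp : A.valuation (p : F) = 1) :
    ∃ P : W.Point, P ≠ 0 ∧ p • P = 0 ∧ NodeE0 A.valuation r t P := by
  have hodd : Odd p := hp.odd_of_ne_two (by omega)
  obtain ⟨s, hsp, hvs, hvs2, hs21⟩ := exists_root_of_unity hp hp3 hvp
  have hs0 : s ≠ 0 := by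
    rintro rfl
    rw [_root_.map_zero] at hvs
    exact zero_ne_one hvs
  have hs2 : s ^ 2 - 1 ≠ 0 := by
    intro h0
    rw [h0, _root_.map_zero] at hvs2
    exact zero_ne_one hvs2
  set W' := shiftCurve W r t with hW'
  have e₃ : W'.a₃ = 0 := h.slopes.a₃
  have e₄ : W'.a₄ = 0 := h.slopes.a₄
  have hb₄ : W'.b₄ = 0 := by rw [WeierstrassCurve.b₄, e₃, e₄]; ring
  have hb₂ : A.valuation W'.b₂ = 1 := by
    have hc' : W'.c₄ = W.c₄ := by
      simp only [hW', shiftCurve, WeierstrassCurve.c₄, b₂, b₄]; ring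
    have : W'.b₂ ^ 2 = W.c₄ := by
      rw [← hc', WeierstrassCurve.c₄, hb₄]; ring
    apply eq_one_of_sq
    rw [← map_pow, this, hc₄]
  have hb₂0 : W'.b₂ ≠ 0 := by
    intro h0
    rw [h0, _root_.map_zero] at hb₂
    exact zero_ne_one hb₂
  set x₀ : F := W'.b₂ * (s / (s ^ 2 - 1)) ^ 2 with hx₀
  have hvx : A.valuation x₀ = 1 := by
    rw [hx₀, map_mul, map_pow, map_div₀, hb₂, hvs, hvs2]; simp
  have hx0 : x₀ ≠ 0 := by
    intro h0
    rw [h0, _root_.map_zero] at hvx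
    exact zero_ne_one hvx
  obtain ⟨l, hl⟩ := IsAlgClosed.exists_pow_nat_eq x₀ (n := 2) (by norm_num)
  have hl0 : l ≠ 0 := by
    rintro rfl
    apply hx0
    rw [← hl]; ring
  have hvl : A.valuation l = 1 := by
    apply eq_one_of_sq
    rw [← map_pow, hl, hvx]
  have hbx : W'.b₂ = x₀ * (s - s⁻¹) ^ 2 := by
    rw [hx₀]; field_simp
  have hvsi : A.valuation s⁻¹ = 1 := by rw [map_inv₀, hvs, inv_one]
  -- the curve shifted at x₀
  set W'' := shiftCurve W (r + x₀) t with hW''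
  have hint'' : IsIntegralFor A.valuation W'' := by
    have hr'' : A.valuation (r + x₀) ≤ 1 := v_add_le_one h.hr hvx.le
    have h₁ := h.int.h₁
    have h₂ := h.int.h₂
    have h₃ := h.int.h₃
    have h₄ := h.int.h₄
    have h₆ := h.int.h₆
    have ht := h.ht
    refine ⟨h₁, ?_, ?_, ?_, ?_⟩
    · exact v_add_le_one h₂ (v_mul_le_one (v_ofNat_le_one _ 3) hr'')
    · exact v_add_le_one (v_add_le_one h₃ (v_mul_le_one hr'' h₁))
        (v_mul_le_one (v_ofNat_le_one _ 2) ht)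
    · exact v_add_le_one (v_sub_le_one (v_add_le_one h₄ (v_mul_le_one (v_mul_le_one
        (v_ofNat_le_one _ 2) hr'') h₂)) (v_mul_le_one ht h₁)) (v_mul_le_one (v_ofNat_le_one _ 3)
        (v_pow_le_one hr'' 2))
    · exact v_sub_le_one (v_sub_le_one (v_sub_le_one (v_add_le_one (v_add_le_one (v_add_le_one h₆
        (v_mul_le_one hr'' h₄)) (v_mul_le_one (v_pow_le_one hr'' 2) h₂)) (v_pow_le_one hr'' 3))
        (v_mul_le_one ht h₃)) (v_pow_le_one ht 2)) (v_mul_le_one (v_mul_le_one hr'' ht) h₁)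
  have q6 : W''.b₆ = 4 * x₀ ^ 3 + W'.b₂ * x₀ ^ 2 + W'.b₆ := by
    have : W''.b₆ = 4 * x₀ ^ 3 + W'.b₂ * x₀ ^ 2 + 2 * W'.b₄ * x₀ + W'.b₆ := by
      simp only [hW'', hW', shiftCurve, b₂, b₄, b₆]; ring
    rw [this, hb₄]; ring
  have q8 : W''.b₈ = 3 * x₀ ^ 4 + W'.b₂ * x₀ ^ 3 + 3 * W'.b₆ * x₀ + W'.b₈ := by
    have : W''.b₈ = 3 * x₀ ^ 4 + W'.b₂ * x₀ ^ 3 + 3 * W'.b₄ * x₀ ^ 2 + 3 * W'.b₆ * x₀ +
        W'.b₈ := by
      simp only [hW'', hW', shiftCurve, b₂, b₄, b₆, b₈]; ring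
    rw [this, hb₄]; ring
  have q48 : W''.b₄ * W''.b₈ - W''.b₆ ^ 2 = 2 * x₀ ^ 6 + W'.b₂ * x₀ ^ 5 + 10 * W'.b₆ * x₀ ^ 3 +
      10 * W'.b₈ * x₀ ^ 2 + W'.b₂ * W'.b₈ * x₀ - W'.b₆ ^ 2 := by
    have : W''.b₄ * W''.b₈ - W''.b₆ ^ 2 = 2 * x₀ ^ 6 + W'.b₂ * x₀ ^ 5 + 5 * W'.b₄ * x₀ ^ 4 +
        10 * W'.b₆ * x₀ ^ 3 + 10 * W'.b₈ * x₀ ^ 2 + (W'.b₂ * W'.b₈ - W'.b₄ * W'.b₆) * x₀ +
        (W'.b₄ * W'.b₈ - W'.b₆ ^ 2) := by
      simp only [hW'', hW', shiftCurve, b₂, b₄, b₆, b₈]; ring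
    rw [this, hb₄]; ring
  have v6 : A.valuation W'.b₆ < 1 := h.b₆
  have v8 : A.valuation W'.b₈ < 1 := h.b₈
  have hvx' := hvx.le
  have sq_s : A.valuation (s ^ 2) ≤ 1 := v_pow_le_one hvs.le 2
  have sq_si : A.valuation (s⁻¹ ^ 2) ≤ 1 := v_pow_le_one hvsi.le 2
  have m1 : A.valuation ((l ^ 3 * (s + s⁻¹)) ^ 2 - W''.b₆) < 1 := by
    have : (l ^ 3 * (s + s⁻¹)) ^ 2 - W''.b₆ = - W'.b₆ := by
      rw [q6, hbx]
      have e1 : (l ^ 3 * (s + s⁻¹)) ^ 2 = x₀ ^ 3 * (s + s⁻¹) ^ 2 := by rw [← hl]; ring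
      rw [e1]
      have e2 : s * s⁻¹ = 1 := mul_inv_cancel₀ hs0
      linear_combination (4 * x₀ ^ 3) * e2
    rw [this]; exact v_neg_lt_one v6
  have m2 : A.valuation (l ^ 8 * (s ^ 2 + 1 + s⁻¹ ^ 2) - W''.b₈) < 1 := by
    have : l ^ 8 * (s ^ 2 + 1 + s⁻¹ ^ 2) - W''.b₈ = -(3 * W'.b₆ * x₀ + W'.b₈) := by
      rw [q8, hbx]
      have e1 : l ^ 8 * (s ^ 2 + 1 + s⁻¹ ^ 2) = x₀ ^ 4 * (s ^ 2 + 1 + s⁻¹ ^ 2) := by
        rw [← hl]; ring
      rw [e1]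
      have e2 : s * s⁻¹ = 1 := mul_inv_cancel₀ hs0
      linear_combination (2 * x₀ ^ 4) * e2
    rw [this]
    refine v_neg_lt_one (v_add_lt_one ?_ v8)
    rw [mul_comm]
    exact v_mul_lt_one_right hvx' (v_mul_lt_one_right (v_ofNat_le_one _ 3) v6)
  have m3 : A.valuation (l ^ 12 * (s ^ 2 + s⁻¹ ^ 2) - (W''.b₄ * W''.b₈ - W''.b₆ ^ 2)) < 1 := by
    have : l ^ 12 * (s ^ 2 + s⁻¹ ^ 2) - (W''.b₄ * W''.b₈ - W''.b₆ ^ 2) =
        -(10 * x₀ ^ 3 * W'.b₆ + 10 * x₀ ^ 2 * W'.b₈ + W'.b₂ * x₀ * W'.b₈ - W'.b₆ ^ 2) := by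
      rw [q48]
      have e1 : l ^ 12 * (s ^ 2 + s⁻¹ ^ 2) = x₀ ^ 6 * (s ^ 2 + s⁻¹ ^ 2) := by
        rw [← hl]; ring
      rw [e1]
      have e2 : s * s⁻¹ = 1 := mul_inv_cancel₀ hs0
      have e3 : x₀ ^ 5 * W'.b₂ = x₀ ^ 6 * (s - s⁻¹) ^ 2 := by rw [hbx]; ring
      linear_combination (2 * x₀ ^ 6) * e2 - e3
    rw [this]
    have hb₂' := hb₂.le
    refine v_neg_lt_one (v_sub_lt_one (v_add_lt_one (v_add_lt_one ?_ ?_) ?_) ?_)
    · exact v_mul_lt_one_right (v_mul_le_one (v_ofNat_le_one _ 10) (v_pow_le_one hvx' 3)) v6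
    · exact v_mul_lt_one_right (v_mul_le_one (v_ofNat_le_one _ 10) (v_pow_le_one hvx' 2)) v8
    · exact v_mul_lt_one_right (v_mul_le_one hb₂' hvx') v8
    · exact v_pow_lt_one v6 two_ne_zero
  have i1 : A.valuation (l ^ 3 * (s + s⁻¹)) ≤ 1 :=
    v_mul_le_one (v_pow_le_one hvl.le 3) (v_add_le_one hvs.le hvsi.le)
  have i2 : A.valuation (l ^ 8 * (s ^ 2 + 1 + s⁻¹ ^ 2)) ≤ 1 :=
    v_mul_le_one (v_pow_le_one hvl.le 8) (v_add_le_one (v_add_le_one sq_s (by simp)) sq_si)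
  have i3 : A.valuation (l ^ 12 * (s ^ 2 + s⁻¹ ^ 2)) ≤ 1 :=
    v_mul_le_one (v_pow_le_one hvl.le 12) (v_add_le_one sq_s sq_si)
  have g0 : A.valuation ((W''.preΨ' p).coeff 0) < 1 := by
    rw [coeff_zero_eq_eval_zero, preΨ'_eval]
    have z1 : W''.Ψ₂Sq.eval 0 = W''.b₆ := by simp [WeierstrassCurve.Ψ₂Sq]
    have z2 : W''.Ψ₃.eval 0 = W''.b₈ := by simp [WeierstrassCurve.Ψ₃]
    have z3 : W''.preΨ₄.eval 0 = W''.b₄ * W''.b₈ - W''.b₆ ^ 2 := by
      simp [WeierstrassCurve.preΨ₄]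
    rw [z1, z2, z3]
    have hdeg := preNormEDS'_degenerate hs0 hl0 hs2 hs21 hodd hsp
    have i4 : A.valuation W''.b₆ ≤ 1 := hint''.b₆
    have i5 : A.valuation W''.b₈ ≤ 1 := hint''.b₈
    have i6 : A.valuation (W''.b₄ * W''.b₈ - W''.b₆ ^ 2) ≤ 1 :=
      v_sub_le_one (v_mul_le_one hint''.b₄ i5) (v_pow_le_one i4 2)
    have m1' : A.valuation ((l ^ 3 * (s + s⁻¹)) ^ 4 - W''.b₆ ^ 2) < 1 := by
      have : (l ^ 3 * (s + s⁻¹)) ^ 4 - W''.b₆ ^ 2 =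
          ((l ^ 3 * (s + s⁻¹)) ^ 2 + W''.b₆) * ((l ^ 3 * (s + s⁻¹)) ^ 2 - W''.b₆) := by ring
      rw [this]
      exact v_mul_lt_one_right (v_add_le_one (v_pow_le_one i1 2) i4) m1
    have hcongr := preNormEDS'_congr (A := A) (v_pow_le_one i1 4) i2 i3 (v_pow_le_one i4 2) i5 i6
      m1' m2 m3 p
    rw [hdeg, zero_sub, Valuation.map_neg] at hcongr
    exact hcongr
  have hlead : A.valuation ((W''.preΨ' p).coeff ((p ^ 2 - 1) / 2)) = 1 := by
    have := W''.coeff_preΨ' p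
    rw [if_neg (Nat.not_even_iff_odd.mpr hodd), if_neg (Nat.not_even_iff_odd.mpr hodd)] at this
    rw [this]; exact hvp
  obtain ⟨x, hx, hxv⟩ := exists_root_lt_one A.valuation hlead g0
  obtain ⟨P, hP, hPx⟩ := exists_point_of_x hΔ0 (x + (r + x₀))
  have hsP : shiftPt W (r + x₀) t P ≠ 0 := fun h' => hP (shiftPt_eq_zero.mp h')
  have hsx : px (shiftPt W (r + x₀) t P) = x := by
    rw [px_shiftPt hP, ← xc_eq_px, hPx]; ring
  refine ⟨P, hP, ?_, ?_⟩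
  · have h3 : p • (shiftPt W (r + x₀) t P) = 0 := by
      rw [smul_eq_zero_iff_eval hsP hodd, xc_eq_px, hsx]
      exact hx
    have h4 : shiftHom W (r + x₀) t (p • P) = 0 := by
      rw [map_nsmul]; exact h3
    exact shiftPt_eq_zero.mp h4
  · rw [nodeE0_iff hP, ← xc_eq_px, hPx]
    have : x + (r + x₀) - r = x₀ + x := by ring
    rw [this, Valuation.map_add_eq_of_lt_left, hvx]
    rw [hvx]; exact hxv

end

end Fermat.Agent.H09
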