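import Mathlib
import Fermat.Agent.H09.Dichotomy

set_option autoImplicit false

/-!
# The character `E₀ / E₁ → k^*` for multiplicative reduction
-/

namespace Fermat.Agent.H09

open Polynomial WeierstrassCurve WeierstrassCurve.Affine WeierstrassCurve.Affine.Point
open Fermat.Agent.H08

section Line

variable {F : Type*} [Field F] [DecidableEq F] {W : WeierstrassCurve.Affine F}

/-- The line through `P`, `Q`, `-(P+Q)`. -/
theorem exists_line {P Q : W.Point} (hP : P ≠ 0) (hQ : Q ≠ 0) (hPQ : P + Q ≠ 0) :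
    ∃ ℓ ν : F, py P = ℓ * px P + ν ∧ py Q = ℓ * px Q + ν ∧
      py (-(P + Q)) = ℓ * px (P + Q) + ν ∧
      px P + px Q + px (P + Q) = ℓ ^ 2 + W.a₁ * ℓ - W.a₂ ∧
      px P * px Q + px P * px (P + Q) + px Q * px (P + Q) =
        W.a₄ - 2 * ℓ * ν - W.a₁ * ν - W.a₃ * ℓ ∧
      px P * px Q * px (P + Q) = ν ^ 2 + W.a₃ * ν - W.a₆ := by
  obtain ⟨x₁, y₁, h₁, rfl⟩ := exists_eq_some hP
  obtain ⟨x₂, y₂, h₂, rfl⟩ := exists_eq_some hQ
  have hxy : ¬(x₁ = x₂ ∧ y₁ = W.negY x₂ y₂) := fun h => hPQ (add_of_Y_eq h.1 h.2)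
  rw [add_some hxy]
  set ℓ := W.slope x₁ x₂ y₁ y₂ with hℓ
  have hpoly := addPolynomial_slope h₁.1 h₂.1 hxy
  rw [← hℓ, addPolynomial_eq, neg_inj, Cubic.prod_X_sub_C_eq, Cubic.toPoly_injective] at hpoly
  have hc := congrArg Cubic.c hpoly
  have hd := congrArg Cubic.d hpoly
  simp only at hc hd
  refine ⟨ℓ, y₁ - ℓ * x₁, ?_, ?_, ?_, ?_, ?_, ?_⟩
  · simp only [px_some, py_some]; ring
  · simp only [px_some, py_some]
    by_cases hx : x₁ = x₂
    · subst hx
      have hy : y₁ ≠ W.negY x₁ y₂ := fun h => hxy ⟨rfl, h⟩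
      have := Y_eq_of_Y_ne h₁.1 h₂.1 rfl hy
      rw [← this]; ring
    · have hs : ℓ = (y₁ - y₂) / (x₁ - x₂) := slope_of_X_ne hx
      have hd' : x₁ - x₂ ≠ 0 := sub_ne_zero.mpr hx
      rw [eq_div_iff hd'] at hs
      linear_combination hs
  · change W.negY _ (W.addY x₁ x₂ y₁ ℓ) = ℓ * W.addX x₁ x₂ ℓ + (y₁ - ℓ * x₁)
    rw [addY, negY_negY, negAddY]; ring
  · simp only [px_some, addX]; ring
  · simp only [px_some]
    linear_combination -hc
  · simp only [px_some]
    linear_combination hd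

end Line

section Slopes

variable {F : Type*} [Field F] [DecidableEq F] {Γ₀ : Type*} [LinearOrderedCommGroupWithZero Γ₀]
  {v : Valuation F Γ₀} {W : WeierstrassCurve.Affine F} {α β : F}

omit [DecidableEq F] in
theorem pow_inj {a b : Γ₀} {n : ℕ} (hn : n ≠ 0) (h : a ^ n = b ^ n) : a = b :=
  (pow_left_inj₀ zero_le zero_le hn).mp h

omit [DecidableEq F] in
/-- In `E₀`, the two linear forms have the same valuation `w`, and `w² = v(x)³`. -/
theorem NodeSlopes.val_eq (h : NodeSlopes v W α β) (h6 : v W.a₆ < 1) {P : W.Point} (hP : P ≠ 0)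
    (hx : 1 ≤ v (px P)) : v (py P - α * px P) = v (py P - β * px P) ∧
      v (py P - β * px P) ^ 2 = v (px P) ^ 3 := by
  have e := h.mul_eq hP
  have hx3 : v (px P ^ 3 + W.a₆) = v (px P) ^ 3 := by
    rw [Valuation.map_add_eq_of_lt_left, map_pow]
    rw [map_pow]
    exact lt_of_lt_of_le h6 (one_le_pow₀ hx)
  have e2 := congrArg v e
  rw [map_mul, hx3] at e2
  set a := v (py P - α * px P) with ha
  set b := v (py P - β * px P) with hb
  have hdiff : v ((py P - α * px P) - (py P - β * px P)) = v (px P) := by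
    have : (py P - α * px P) - (py P - β * px P) = (β - α) * px P := by ring
    rw [this, map_mul, h.diff, one_mul]
  have hpos : 0 < v (px P) := lt_of_lt_of_le zero_lt_one hx
  have h23 : v (px P) ^ 2 ≤ v (px P) ^ 3 := pow_le_pow_right₀ hx (by norm_num)
  have hab : a = b := by
    rcases lt_trichotomy a b with hlt | heq | hlt
    · exfalso
      rw [Valuation.map_sub_eq_of_lt_right _ hlt] at hdiff
      have : a * b < v (px P) ^ 2 := by
        rw [← hb] at hdiff
        rw [hdiff, pow_two]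
        rw [hdiff] at hlt
        exact mul_lt_mul_of_pos_right hlt hpos
      rw [e2] at this
      exact absurd this (not_lt.mpr h23)
    · exact heq
    · exfalso
      rw [Valuation.map_sub_eq_of_lt_left _ hlt] at hdiff
      have : a * b < v (px P) ^ 2 := by
        rw [← ha] at hdiff
        rw [hdiff, pow_two]
        rw [hdiff] at hlt
        exact mul_lt_mul_of_pos_left hlt hpos
      rw [e2] at this
      exact absurd this (not_lt.mpr h23)
  refine ⟨hab, ?_⟩
  rw [pow_two, ← e2, hab]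

/-- the function `u = (y - α x)/(y - β x)` -/
def uFun (α β : F) (P : W.Point) : F :=
  if P = 0 then 1 else (py P - α * px P) / (py P - β * px P)

theorem uFun_zero : uFun α β (0 : W.Point) = 1 := if_pos rfl

theorem uFun_of_ne {P : W.Point} (hP : P ≠ 0) :
    uFun α β P = (py P - α * px P) / (py P - β * px P) := if_neg hP

theorem val_uFun (h : NodeSlopes v W α β) (h6 : v W.a₆ < 1) {P : W.Point} (hP : InE0 v P) :
    v (uFun α β P) = 1 := by
  by_cases h0 : P = 0
  · subst h0; rw [uFun_zero]; simp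
  · have hx : 1 ≤ v (px P) := by
      rcases hP with h1 | h1
      · exact absurd h1 h0
      · exact h1
    obtain ⟨e1, e2⟩ := h.val_eq h6 h0 hx
    rw [uFun_of_ne h0, map_div₀, e1, div_self]
    intro h3
    rw [h3] at e2
    have : v (px P) ^ 3 = 0 := by rw [← e2]; simp
    have := pow_eq_zero_iff (by norm_num : (3 : ℕ) ≠ 0) |>.mp this
    rw [this] at hx
    exact absurd hx (by simp)

theorem uFun_neg (h : NodeSlopes v W α β) (P : W.Point) : uFun α β (-P) = (uFun α β P)⁻¹ := by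
  by_cases h0 : P = 0
  · subst h0; rw [Point.neg_zero, uFun_zero, inv_one]
  · have h0' : -P ≠ 0 := fun h' => h0 (by
      have := congrArg (fun Q => -Q) h'
      simpa using this)
    rw [uFun_of_ne h0, uFun_of_ne h0', px_neg, py_neg h0, h.a₃, inv_div]
    have e1 : -py P - W.a₁ * px P - 0 - α * px P = -(py P - β * px P) := by
      linear_combination (-px P) * h.sum
    have e2 : -py P - W.a₁ * px P - 0 - β * px P = -(py P - α * px P) := by
      linear_combination (-px P) * h.sum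
    rw [e1, e2, neg_div_neg_eq]

/-- three collinear points of `E₀` -/
theorem uFun_collinear (h : NodeSlopes v W α β) (h6 : v W.a₆ < 1) {P Q : W.Point}
    (hP : InE0 v P) (hQ : InE0 v Q) (hPQ : InE0 v (P + Q)) (hP0 : P ≠ 0) (hQ0 : Q ≠ 0)
    (hPQ0 : P + Q ≠ 0) :
    v (uFun α β P * uFun α β Q * uFun α β (-(P + Q)) - 1) < 1 := by
  obtain ⟨ℓ, ν, y1, y2, y3, s1, s2, s3⟩ := exists_line hP0 hQ0 hPQ0
  rw [h.a₄, h.a₃] at s2
  rw [h.a₃] at s3
  have hR0 : -(P + Q) ≠ 0 := fun h' => hPQ0 (by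
    have := congrArg (fun Q => -Q) h'
    simpa using this)
  have x1 : 1 ≤ v (px P) := hP.resolve_left hP0
  have x2 : 1 ≤ v (px Q) := hQ.resolve_left hQ0
  have x3 : 1 ≤ v (px (P + Q)) := hPQ.resolve_left hPQ0
  set a := px P
  set b := px Q
  set c := px (P + Q)
  have hAB : ∀ γ γ' : F, γ + γ' = -W.a₁ → γ * γ' = -W.a₂ →
      (py P - γ * a) * (py Q - γ * b) * (py (-(P + Q)) - γ * c) = ν ^ 3 - W.a₆ * (ℓ - γ) ^ 3 := by
    intro γ γ' hs hp
    have hγ : γ ^ 2 + W.a₁ * γ - W.a₂ = 0 := by linear_combination γ * hs - hp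
    rw [y1, y2, y3]
    have e : (ℓ * a + ν - γ * a) * (ℓ * b + ν - γ * b) * (ℓ * c + ν - γ * c) =
        (ℓ - γ) ^ 3 * (a * b * c) + (ℓ - γ) ^ 2 * ν * (a * b + a * c + b * c) +
        (ℓ - γ) * ν ^ 2 * (a + b + c) + ν ^ 3 := by ring
    rw [e, s1, s2, s3]
    linear_combination (ℓ - γ) * ν ^ 2 * hγ
  have hα' := hAB α β h.sum h.prod
  have hβ' := hAB β α (by rw [add_comm]; exact h.sum) (by rw [mul_comm]; exact h.prod)
  -- valuations of ν and ℓ
  have v6 := h6
  have hprod1 : 1 ≤ v (a * b * c) := by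
    rw [map_mul, map_mul]
    exact one_le_mul (one_le_mul x1 x2) x3
  have hν2 : v ν ^ 2 = v (a * b * c) := by
    have e : ν ^ 2 = a * b * c + W.a₆ := by rw [s3]; ring
    rw [← map_pow, e, Valuation.map_add_eq_of_lt_left]
    exact lt_of_lt_of_le v6 hprod1
  have hν1 : 1 ≤ v ν := by
    by_contra hlt
    push Not at hlt
    have : v ν ^ 2 < 1 := pow_lt_one₀ zero_le hlt two_ne_zero
    rw [hν2] at this
    exact absurd this (not_lt.mpr hprod1)
  have hℓ : ∀ γ γ' : F, γ + γ' = -W.a₁ → γ * γ' = -W.a₂ → v γ ≤ 1 → v γ' ≤ 1 →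
      v (ℓ - γ) ≤ v ν := by
    intro γ γ' hs hp hγ hγ'
    by_contra hlt
    push Not at hlt
    have e : (ℓ - γ) * (ℓ - γ') = a + b + c := by
      rw [s1]; linear_combination (-ℓ) * hs + hp
    have h1 : 1 < v (ℓ - γ) := lt_of_le_of_lt hν1 hlt
    have h2 : v (ℓ - γ') = v (ℓ - γ) := by
      have : ℓ - γ' = (ℓ - γ) + (γ - γ') := by ring
      rw [this, Valuation.map_add_eq_of_lt_left]
      exact lt_of_le_of_lt (v_sub_le_one hγ hγ') h1
    have h3 : v (a + b + c) = v (ℓ - γ) ^ 2 := by rw [← e, map_mul, h2, pow_two]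
    have h4 : v (a + b + c) ≤ v (a * b * c) := by
      have ha : v a ≤ v (a * b * c) := by
        rw [map_mul, map_mul, mul_assoc]
        exact (mul_one _).symm.le.trans (mul_le_mul_right (one_le_mul x2 x3) _)
      have hb : v b ≤ v (a * b * c) := by
        rw [map_mul, map_mul, mul_assoc, mul_left_comm]
        exact (mul_one _).symm.le.trans (mul_le_mul_right (one_le_mul x1 x3) _)
      have hc : v c ≤ v (a * b * c) := by
        rw [map_mul, map_mul, mul_comm]
        exact (mul_one _).symm.le.trans (mul_le_mul_right (one_le_mul x1 x2) _)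
      exact (Valuation.map_add _ _ _).trans (max_le ((Valuation.map_add _ _ _).trans
        (max_le ha hb)) hc)
    rw [h3, ← hν2] at h4
    have h5 : v ν ^ 2 < v (ℓ - γ) ^ 2 := pow_lt_pow_left₀ hlt zero_le two_ne_zero
    exact absurd h4 (not_le.mpr h5)
  have l1 := hℓ α β h.sum h.prod h.hα h.hβ
  have l2 := hℓ β α (by rw [add_comm]; exact h.sum) (by rw [mul_comm]; exact h.prod) h.hβ h.hα
  have hνpos : 0 < v ν := lt_of_lt_of_le zero_lt_one hν1
  have hbound : ∀ z : F, v z ≤ v ν → v (W.a₆ * z ^ 3) < v (ν ^ 3) := by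
    intro z hz
    rw [map_mul, map_pow, map_pow]
    calc v W.a₆ * v z ^ 3 ≤ v W.a₆ * v ν ^ 3 := mul_le_mul_right (pow_le_pow_left₀ zero_le hz 3) _
      _ < 1 * v ν ^ 3 := mul_lt_mul_of_pos_right v6 (pow_pos hνpos 3)
      _ = v ν ^ 3 := one_mul _
  have hvB : v (ν ^ 3 - W.a₆ * (ℓ - β) ^ 3) = v (ν ^ 3) :=
    Valuation.map_sub_eq_of_lt_left _ (hbound _ l2)
  have hB0 : ν ^ 3 - W.a₆ * (ℓ - β) ^ 3 ≠ 0 := by
    intro h0
    rw [h0, _root_.map_zero, map_pow] at hvB
    exact (pow_pos hνpos 3).ne hvB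
  have e : uFun α β P * uFun α β Q * uFun α β (-(P + Q)) - 1 =
      (W.a₆ * (ℓ - β) ^ 3 - W.a₆ * (ℓ - α) ^ 3) / (ν ^ 3 - W.a₆ * (ℓ - β) ^ 3) := by
    rw [uFun_of_ne hP0, uFun_of_ne hQ0, uFun_of_ne hR0, px_neg, div_mul_div_comm,
      div_mul_div_comm, hα', hβ', div_sub_one hB0]
    congr 1
    ring
  rw [e, map_div₀, hvB, div_lt_one₀ (by rw [map_pow]; exact pow_pos hνpos 3)]
  exact lt_of_le_of_lt (Valuation.map_sub _ _ _) (max_lt (hbound _ l2) (hbound _ l1))

/-- multiplicativity modulo the maximal ideal -/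
theorem uFun_add (h : NodeSlopes v W α β) (h6 : v W.a₆ < 1) {P Q : W.Point}
    (hP : InE0 v P) (hQ : InE0 v Q) (hPQ : InE0 v (P + Q)) :
    v (uFun α β (P + Q) - uFun α β P * uFun α β Q) < 1 := by
  by_cases hP0 : P = 0
  · subst hP0; rw [zero_add, uFun_zero, one_mul, sub_self]; simp
  by_cases hQ0 : Q = 0
  · subst hQ0; rw [add_zero, uFun_zero, mul_one, sub_self]; simp
  have hneg : ∀ R : W.Point, InE0 v R → uFun α β R ≠ 0 := by
    intro R hR h0
    have := val_uFun h h6 hR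
    rw [h0, _root_.map_zero] at this
    exact zero_ne_one this
  by_cases hPQ0 : P + Q = 0
  · have : Q = -P := by rw [← sub_eq_zero, sub_neg_eq_add, add_comm]; exact hPQ0
    rw [hPQ0, uFun_zero, this, uFun_neg h, mul_inv_cancel₀ (hneg P hP), sub_self]; simp
  · have h1 := uFun_collinear h h6 hP hQ hPQ hP0 hQ0 hPQ0
    rw [uFun_neg h] at h1
    have e : uFun α β (P + Q) - uFun α β P * uFun α β Q =
        -(uFun α β (P + Q) * (uFun α β P * uFun α β Q * (uFun α β (P + Q))⁻¹ - 1)) := by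
      have := hneg _ hPQ
      field_simp
      ring
    rw [e, Valuation.map_neg, map_mul, val_uFun h h6 hPQ, one_mul]
    exact h1

/-- the kernel of `u` is `E₁` -/
theorem inE1_of_uFun (h : NodeSlopes v W α β) (h6 : v W.a₆ < 1) {P : W.Point}
    (hP : InE0 v P) (hu : v (uFun α β P - 1) < 1) : InE1 v P := by
  by_cases hP0 : P = 0
  · exact Or.inl hP0
  right
  have x1 : 1 ≤ v (px P) := hP.resolve_left hP0
  obtain ⟨e1, e2⟩ := h.val_eq h6 hP0 x1
  have hxpos : 0 < v (px P) := lt_of_lt_of_le zero_lt_one x1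
  have hb0 : v (py P - β * px P) ≠ 0 := by
    intro h0
    rw [h0] at e2
    have : v (px P) ^ 3 = 0 := by rw [← e2]; simp
    exact hxpos.ne' (pow_eq_zero_iff (by norm_num : (3 : ℕ) ≠ 0) |>.mp this)
  have hb0' : py P - β * px P ≠ 0 := fun h0 => hb0 (by rw [h0, _root_.map_zero])
  have e : uFun α β P - 1 = (β - α) * px P / (py P - β * px P) := by
    rw [uFun_of_ne hP0, div_sub_one hb0']
    congr 1
    ring
  rw [e, map_div₀, map_mul, h.diff, one_mul, div_lt_one₀ (zero_lt_iff.mpr hb0)] at hu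
  by_contra hle
  push Not at hle
  have hx1 : v (px P) = 1 := le_antisymm hle x1
  rw [hx1] at hu e2
  have : v (py P - β * px P) = 1 := by
    apply pow_inj two_ne_zero
    rw [e2]; simp
  rw [this] at hu
  exact lt_irrefl _ hu

theorem uFun_nsmul (h : NodeSlopes v W α β) (hW : IsIntegralFor v W) (h6 : v W.a₆ < 1)
    (h4' : v W.b₄ < 1) (h6' : v W.b₆ < 1) (h8' : v W.b₈ < 1) {P : W.Point}
    (hP : InE0 v P) (n : ℕ) : v (uFun α β (n • P) - uFun α β P ^ n) < 1 := by
  induction n with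
  | zero => rw [zero_smul, uFun_zero, pow_zero, sub_self]; simp
  | succ n ih =>
    have hn := InE0.nsmul hW h4' h6' h8' hP n
    have hn1 := InE0.nsmul hW h4' h6' h8' hP (n + 1)
    rw [succ_nsmul] at hn1 ⊢
    have h1 := uFun_add h h6 hn hP hn1
    have e : uFun α β (n • P + P) - uFun α β P ^ (n + 1) =
        (uFun α β (n • P + P) - uFun α β (n • P) * uFun α β P) +
        uFun α β P * (uFun α β (n • P) - uFun α β P ^ n) := by ring
    rw [e]
    refine v_add_lt_one h1 (v_mul_lt_one_right (val_uFun h h6 hP).le ih)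

end Slopes

end Fermat.Agent.H09
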