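import Mathlib
import Fermat.Agent.H09.UChar
import Fermat.Agent.H09.DegEDS
import Fermat.Prelude.Def_EllipticCurve_FrobeniusTrace
import Fermat.Prelude.Def_FLTPrelim_CofixedLine

set_option autoImplicit false

/-!
# Frobenius elements and multiplicative reduction
-/

namespace Fermat.Agent.H09

open Polynomial WeierstrassCurve WeierstrassCurve.Affine WeierstrassCurve.Affine.Point
open Fermat.Agent.H08 Fermat.Agent.H05
open scoped Pointwise

section

variable {L : Type*} [Field L] [CharZero L] {A : ValuationSubring L}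

theorem frob_smul_eq {σ : L ≃ₐ[ℚ] L} {ℓ : ℕ} (hσ : A.IsFrobeniusAt σ ℓ) : σ • A = A :=
  hσ.mem_decompositionSubgroup

theorem frob_val_sub {σ : L ≃ₐ[ℚ] L} {ℓ : ℕ} (hσ : A.IsFrobeniusAt σ ℓ) {z : L}
    (hz : A.valuation z ≤ 1) : A.valuation (σ z - z ^ ℓ) < 1 := by
  obtain ⟨h1, h2⟩ := hσ
  rw [A.valuation_le_one_iff] at hz
  have h3 := h2 (IsLocalRing.residue A ⟨z, hz⟩)
  have h4 : IsLocalRing.residue A (⟨σ z, (mem_of_smul_eq h1 z).mpr hz⟩ : A) =
      IsLocalRing.residue A ⟨z, hz⟩ ^ ℓ := h3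
  rw [← map_pow, ← sub_eq_zero, ← map_sub, IsLocalRing.residue_eq_zero_iff] at h4
  exact (ValuationSubring.valuation_lt_one_iff A _).mp h4

variable [Algebra.IsAlgebraic ℚ L] {W₀ : WeierstrassCurve.Affine ℚ} {r t α β : L}

theorem node_fixed_decomp {σ : L ≃ₐ[ℚ] L} (hσ : σ • A = A)
    (h : NodeData A.valuation (W₀⁄L) r t α β) : σ r = r ∧ σ t = t := by
  have hva : ∀ z : L, A.valuation (σ z) = A.valuation z := fun z => val_apply_eq hσ z
  set W' := shiftCurve (W₀⁄L) r t with hW'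
  have e3 : (W₀⁄L).a₃ + r * (W₀⁄L).a₁ + 2 * t = 0 := h.slopes.a₃
  have e4 : (W₀⁄L).a₄ + 2 * r * (W₀⁄L).a₂ - t * (W₀⁄L).a₁ + 3 * r ^ 2 = 0 := h.slopes.a₄
  have e3' := congrArg σ e3
  have e4' := congrArg σ e4
  simp only [map_add, map_sub, map_mul, map_pow, map_a₁, map_a₂, map_a₃, map_a₄,
    _root_.map_zero, map_ofNat] at e3' e4'
  have ha₁ : W'.a₁ = (W₀⁄L).a₁ := rfl
  have ha₂ : W'.a₂ = (W₀⁄L).a₂ + 3 * r := rfl
  have hb₂v : A.valuation (W'.b₂) = 1 := by
    have : W'.b₂ = (β - α) ^ 2 := by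
      have h1 : α + β = -W'.a₁ := h.slopes.sum
      have h2 : α * β = -W'.a₂ := h.slopes.prod
      rw [WeierstrassCurve.b₂]
      linear_combination (W'.a₁ - α - β) * h1 + 4 * h2
    rw [this, map_pow, h.slopes.diff, one_pow]
  have hb₂ : W'.b₂ = (W₀⁄L).a₁ ^ 2 + 4 * ((W₀⁄L).a₂ + 3 * r) := by
    rw [WeierstrassCurve.b₂, ha₁, ha₂]
  set δ := σ r - r with hδ
  set ε := σ t - t with hε
  have h3 : δ * (W₀⁄L).a₁ + 2 * ε = 0 := by rw [hδ, hε]; linear_combination e3' - e3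
  have h4 : 2 * δ * ((W₀⁄L).a₂ + 3 * r) - ε * (W₀⁄L).a₁ + 3 * δ ^ 2 = 0 := by
    rw [hδ, hε]; linear_combination e4' - e4
  have hkey : δ * (W'.b₂ + 6 * δ) = 0 := by
    rw [hb₂]; linear_combination 2 * h4 + (W₀⁄L).a₁ * h3
  have hδ0 : δ = 0 := by
    rcases mul_eq_zero.mp hkey with h0 | h0
    · exact h0
    exfalso
    have h6δ : A.valuation (6 * δ) = 1 := by
      have : 6 * δ = -W'.b₂ := by linear_combination h0
      rw [this, Valuation.map_neg, hb₂v]
    have hr := h.hr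
    have hδle : A.valuation δ ≤ 1 := by
      rw [hδ]; exact v_sub_le_one (by rw [hva]; exact hr) hr
    have h6 : A.valuation (6 : L) = 1 := by
      refine le_antisymm (v_ofNat_le_one _ 6) ?_
      by_contra hlt
      push Not at hlt
      have : A.valuation (6 * δ) < 1 := by
        rw [mul_comm]; exact v_mul_lt_one_right hδle hlt
      rw [h6δ] at this
      exact lt_irrefl _ this
    have hδ1 : A.valuation δ = 1 := by
      rw [map_mul, h6, one_mul] at h6δ; exact h6δ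
    have ha6 : A.valuation W'.a₆ < 1 := h.a₆
    have hσa6 : A.valuation (σ W'.a₆) < 1 := by rw [hva]; exact ha6
    have e6 : 12 * (σ W'.a₆ - W'.a₆) = δ ^ 2 * W'.b₂ := by
      have hexp : W'.a₆ = (W₀⁄L).a₆ + r * (W₀⁄L).a₄ + r ^ 2 * (W₀⁄L).a₂ + r ^ 3 -
        t * (W₀⁄L).a₃ - t ^ 2 - r * t * (W₀⁄L).a₁ := rfl
      have hexp' := congrArg σ hexp
      simp only [map_add, map_sub, map_mul, map_pow, map_a₁, map_a₂, map_a₃, map_a₄,
        map_a₆] at hexp'
      have hr' : σ r = r + δ := by rw [hδ]; ring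
      have ht' : σ t = t + ε := by rw [hε]; ring
      have hexp2 : σ W'.a₆ - W'.a₆ = δ ^ 2 * ((W₀⁄L).a₂ + 3 * r) + δ ^ 3 - ε ^ 2 -
          δ * ε * (W₀⁄L).a₁ := by
        rw [hexp', hexp, hr', ht']
        linear_combination δ * e4 - ε * e3
      rw [hexp2]
      have h2ε : ε = -(δ * (W₀⁄L).a₁) / 2 := by
        rw [eq_div_iff two_ne_zero]; linear_combination h3
      have h6' : δ = -W'.b₂ / 6 := by
        rw [eq_div_iff (by norm_num)]; linear_combination h0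
      rw [h2ε]
      have : 12 * (δ ^ 2 * ((W₀⁄L).a₂ + 3 * r) + δ ^ 3 - (-(δ * (W₀⁄L).a₁) / 2) ^ 2 -
          δ * (-(δ * (W₀⁄L).a₁) / 2) * (W₀⁄L).a₁) =
          δ ^ 2 * (3 * W'.b₂ + 12 * δ) := by rw [hb₂]; ring
      rw [this]
      linear_combination 2 * δ ^ 2 * h0
    have : A.valuation (δ ^ 2 * W'.b₂) < 1 := by
      rw [← e6]
      exact v_mul_lt_one_right (v_ofNat_le_one _ 12) (v_sub_lt_one hσa6 ha6)
    rw [map_mul, map_pow, hδ1, hb₂v] at this
    simp at this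
  have hε0 : ε = 0 := by
    rw [hδ0, zero_mul, zero_add] at h3
    exact (mul_eq_zero.mp h3).resolve_left two_ne_zero
  exact ⟨sub_eq_zero.mp hδ0, sub_eq_zero.mp hε0⟩

theorem slopes_decomp {σ : L ≃ₐ[ℚ] L} (hσ : σ • A = A)
    (h : NodeData A.valuation (W₀⁄L) r t α β) : σ (σ α) = α ∧ σ (σ β) = β := by
  obtain ⟨hr, -⟩ := node_fixed_decomp hσ h
  have hs : α + β = -(W₀⁄L).a₁ := h.slopes.sum
  have hp : α * β = -((W₀⁄L).a₂ + 3 * r) := h.slopes.prod
  have hs' := congrArg σ hs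
  have hp' := congrArg σ hp
  simp only [map_add, map_neg, map_mul, map_a₁, map_a₂, map_ofNat, hr] at hs' hp'
  have e : (σ α - α) * (σ α - β) = 0 := by
    linear_combination (-σ α) * hs + hp + (σ α) * hs' - hp'
  rcases mul_eq_zero.mp e with h1 | h1
  · have hα : σ α = α := sub_eq_zero.mp h1
    have hβ : σ β = β := by linear_combination hs' - hs - hα
    rw [hα, hα, hβ, hβ]; exact ⟨rfl, rfl⟩
  · have hα : σ α = β := sub_eq_zero.mp h1
    have hβ : σ β = α := by linear_combination hs' - hs - hα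
    rw [hα, hβ, hα]; exact ⟨rfl, rfl⟩

variable [DecidableEq L]

theorem nodeE0_smul {σ : L ≃ₐ[ℚ] L} (hσ : σ • A = A)
    (h : NodeData A.valuation (W₀⁄L) r t α β) {P : (W₀⁄L).Point}
    (hP : NodeE0 A.valuation r t P) : NodeE0 A.valuation r t (σ • P) := by
  by_cases h0 : P = 0
  · subst h0; rw [smul_zero_pt]; exact NodeE0.zero
  · rw [nodeE0_iff (smul_ne_zero' σ h0), px_smul]
    rw [nodeE0_iff h0] at hP
    have : σ (px P) - r = σ (px P - r) := by
      rw [map_sub, (node_fixed_decomp hσ h).1]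
    rw [this, val_apply_eq hσ]
    exact hP

/-- A `p`-torsion point of `E₀` fixed by a Frobenius element at `ℓ ≠ p`: then `p ∣ ℓ² - 1`. -/
theorem dvd_of_frob_fixed {ℓ : ℕ} (hℓ : ℓ.Prime) {σ : L ≃ₐ[ℚ] L}
    (hσ : A.IsFrobeniusAt σ ℓ) (h : NodeData A.valuation (W₀⁄L) r t α β) {p : ℕ} (hp : p.Prime)
    (hvp : A.valuation (p : L) = 1) {P : (W₀⁄L).Point} (hP0 : P ≠ 0) (hpP : p • P = 0)
    (hPE : NodeE0 A.valuation r t P) (hfix : σ • P = P) : p ∣ ℓ ^ 2 - 1 := by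
  have hσA := frob_smul_eq hσ
  obtain ⟨hr, ht⟩ := node_fixed_decomp hσA h
  obtain ⟨hα, hβ⟩ := slopes_decomp hσA h
  set Q := shiftPt (W₀⁄L) r t P with hQ
  have hQ0 : Q ≠ 0 := fun h' => hP0 (shiftPt_eq_zero.mp h')
  have hQE : InE0 A.valuation Q := hPE
  have hxQ : px Q = px P - r := px_shiftPt hP0
  have hyQ : py Q = py P - t := py_shiftPt hP0
  set u := uFun α β Q with hu
  have hvu : A.valuation u = 1 := val_uFun h.slopes h.a₆ hQE
  have hσx : σ (px P) = px P := by rw [← px_smul, hfix]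
  have hσy : σ (py P) = py P := by rw [← py_smul, hfix]
  have hσu : σ (σ u) = u := by
    rw [hu, uFun_of_ne hQ0, hxQ, hyQ]
    simp only [map_div₀, map_sub, map_mul, hσx, hσy, hr, ht, hα, hβ]
  have h1 : A.valuation (σ u - u ^ ℓ) < 1 := frob_val_sub hσ hvu.le
  have h2 : A.valuation (u - u ^ (ℓ ^ 2)) < 1 := by
    have hvσu : A.valuation (σ u) = 1 := by rw [val_apply_eq hσA, hvu]
    have h3 : A.valuation (σ (σ u) - (σ u) ^ ℓ) < 1 := frob_val_sub hσ hvσu.le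
    rw [hσu] at h3
    have h4 : A.valuation ((σ u) ^ ℓ - (u ^ ℓ) ^ ℓ) < 1 := by
      obtain ⟨c, hc⟩ : ∃ c, (σ u) ^ ℓ - (u ^ ℓ) ^ ℓ = c * (σ u - u ^ ℓ) ∧ A.valuation c ≤ 1 := by
        refine ⟨∑ i ∈ Finset.range ℓ, (σ u) ^ i * (u ^ ℓ) ^ (ℓ - 1 - i), ?_, ?_⟩
        · rw [Commute.geom_sum₂_mul (Commute.all _ _)]
        · apply Valuation.map_sum_le
          intro i _
          rw [map_mul, map_pow, map_pow, map_pow, hvσu, hvu]; simp
      rw [hc.1]
      exact v_mul_lt_one_right hc.2 h1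
    have e : u - u ^ (ℓ ^ 2) = (u - (σ u) ^ ℓ) + ((σ u) ^ ℓ - (u ^ ℓ) ^ ℓ) := by
      rw [← pow_mul, ← pow_two]; ring
    rw [e]
    exact v_add_lt_one h3 h4
  have hℓ2 : 1 ≤ ℓ ^ 2 := Nat.one_le_pow _ _ hℓ.pos
  have h5 : A.valuation (u ^ (ℓ ^ 2 - 1) - 1) < 1 := by
    have e : u - u ^ (ℓ ^ 2) = -(u * (u ^ (ℓ ^ 2 - 1) - 1)) := by
      have : u ^ (ℓ ^ 2) = u * u ^ (ℓ ^ 2 - 1) := by
        rw [← pow_succ']; congr 1; omega
      rw [this]; ring
    rw [e, Valuation.map_neg, map_mul, hvu, one_mul] at h2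
    exact h2
  have h6 : A.valuation (u ^ p - 1) < 1 := by
    have := uFun_nsmul h.slopes h.int_shift h.a₆ h.b₄ h.b₆ h.b₈ hQE p
    have hpQ : p • Q = 0 := by
      have : shiftHom (W₀⁄L) r t (p • P) = 0 := by rw [hpP, _root_.map_zero]
      rw [map_nsmul] at this
      exact this
    rw [hpQ, uFun_zero] at this
    rw [← neg_sub, Valuation.map_neg]
    exact this
  by_contra hnd
  have hmem : u ∈ A := (A.valuation_le_one_iff _).mp hvu.le
  set ū := IsLocalRing.residue A ⟨u, hmem⟩ with hū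
  have hres : ∀ n : ℕ, A.valuation (u ^ n - 1) < 1 → ū ^ n = 1 := by
    intro n hn
    rw [hū, ← map_pow, ← sub_eq_zero, ← map_one (IsLocalRing.residue A), ← map_sub,
      IsLocalRing.residue_eq_zero_iff, ValuationSubring.valuation_lt_one_iff]
    exact hn
  have g1 := hres _ h5
  have g2 := hres _ h6
  have hcop : Nat.gcd p (ℓ ^ 2 - 1) = 1 := (Nat.Prime.coprime_iff_not_dvd hp).mpr hnd
  have g3 : ū = 1 := by
    have g4 : orderOf ū ∣ Nat.gcd p (ℓ ^ 2 - 1) :=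
      Nat.dvd_gcd (orderOf_dvd_of_pow_eq_one g2) (orderOf_dvd_of_pow_eq_one g1)
    rw [hcop, Nat.dvd_one, orderOf_eq_one_iff] at g4
    exact g4
  have g5 : A.valuation (u - 1) < 1 := by
    rw [← map_one (IsLocalRing.residue A), hū, ← sub_eq_zero, ← map_sub,
      IsLocalRing.residue_eq_zero_iff, ValuationSubring.valuation_lt_one_iff] at g3
    exact g3
  have g6 : InE1 A.valuation Q := inE1_of_uFun h.slopes h.a₆ hQE g5
  have g7 : InE1 A.valuation P := by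
    right
    have hxQ1 : 1 < A.valuation (px Q) := g6.resolve_left hQ0
    have : px P = px Q + r := by rw [hxQ]; ring
    rw [this, Valuation.map_add_eq_of_lt_left]
    · exact hxQ1
    · exact lt_of_le_of_lt h.hr hxQ1
  exact hP0 (InE1.eq_zero_of_torsion h.int g7 hpP hvp)

end

end Fermat.Agent.H09
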