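import Mathlib
import Fermat.Agent.H09.Node

set_option autoImplicit false

/-!
# The "tent map": valuations of `x`-coordinates of multiples of a point reducing to a node
-/

namespace Fermat.Agent.H09

open WeierstrassCurve WeierstrassCurve.Affine WeierstrassCurve.Affine.Point
open Fermat.Agent.H08
open WithZero

section Val

variable {F : Type*} [Field F] {v : Valuation F ℤᵐ⁰} {x y : F} {a b n m : ℤ}

/-- valuation exactly `n` -/
def Vn (v : Valuation F ℤᵐ⁰) (n : ℤ) (x : F) : Prop := v x = exp (-n)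

/-- valuation at least `n` -/
def Dn (v : Valuation F ℤᵐ⁰) (n : ℤ) (x : F) : Prop := v x ≤ exp (-n)

theorem Vn.toD (h : Vn v n x) : Dn v n x := le_of_eq h

theorem Vn.ne_zero (h : Vn v n x) : x ≠ 0 := by
  rintro rfl
  unfold Vn at h
  rw [_root_.map_zero] at h
  exact exp_ne_zero h.symm

theorem exists_Vn (hx : x ≠ 0) : ∃ n : ℤ, Vn v n x :=
  ⟨-log (v x), by unfold Vn; rw [neg_neg, exp_log ((Valuation.ne_zero_iff _).mpr hx)]⟩

theorem Vn.mul (hx : Vn v a x) (hy : Vn v b y) : Vn v (a + b) (x * y) := by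
  unfold Vn at *
  rw [map_mul, hx, hy, ← exp_add]; congr 1; ring

theorem Dn.mul (hx : Dn v a x) (hy : Dn v b y) : Dn v (a + b) (x * y) := by
  unfold Dn at *
  rw [map_mul, show -(a + b) = -a + -b by ring, exp_add]
  exact mul_le_mul' hx hy

theorem Vn.neg (hx : Vn v a x) : Vn v a (-x) := by
  unfold Vn at *; rwa [Valuation.map_neg]

theorem Dn.neg (hx : Dn v a x) : Dn v a (-x) := by
  unfold Dn at *; rwa [Valuation.map_neg]

theorem Dn.add (hx : Dn v a x) (hy : Dn v a y) : Dn v a (x + y) :=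
  (Valuation.map_add v x y).trans (max_le hx hy)

theorem Dn.mono (hx : Dn v a x) (h : b ≤ a) : Dn v b x :=
  hx.trans (exp_le_exp.mpr (by omega))

theorem Vn.add (hx : Vn v a x) (hy : Dn v b y) (h : a < b) : Vn v a (x + y) := by
  unfold Vn at *
  rw [Valuation.map_add_eq_of_lt_left, hx]
  rw [hx]
  exact lt_of_le_of_lt hy (exp_lt_exp.mpr (by omega))

theorem Vn.add' (hx : Dn v b x) (hy : Vn v a y) (h : a < b) : Vn v a (x + y) := by
  rw [add_comm]; exact hy.add hx h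

theorem Vn.unique (h : Vn v a x) (h' : Vn v b x) : a = b := by
  unfold Vn at *
  rw [h] at h'
  have := exp_injective h'
  omega

theorem Vn.le_of_D (h : Vn v a x) (h' : Dn v b x) : b ≤ a := by
  unfold Vn Dn at *
  rw [h, exp_le_exp] at h'
  omega

theorem Vn.sq (h : Vn v a x) : Vn v (2 * a) (x ^ 2) := by
  rw [pow_two, two_mul]; exact h.mul h

theorem Dn.sq (h : Dn v a x) : Dn v (2 * a) (x ^ 2) := by
  rw [pow_two, two_mul]; exact h.mul h

theorem Vn.of_mul (h : Vn v n (x * y)) (hx : Vn v a x) : Vn v (n - a) y := by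
  have hy : y ≠ 0 := fun h0 => h.ne_zero (by rw [h0, mul_zero])
  obtain ⟨b, hb⟩ := exists_Vn (v := v) hy
  have := (hx.mul hb).unique h
  rwa [← this, add_sub_cancel_left]

theorem Vn.exists_of_mul_left (h : Vn v n (x * y)) : ∃ a, Vn v a x :=
  exists_Vn (fun h0 => h.ne_zero (by rw [h0, zero_mul]))

end Val

/-- congruence up to sign modulo `2m` -/
def PM (m x y : ℤ) : Prop := 2 * m ∣ x - y ∨ 2 * m ∣ x + y

theorem PM.symm {m x y : ℤ} (h : PM m x y) : PM m y x := by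
  rcases h with ⟨k, h⟩ | ⟨k, h⟩
  · left; exact ⟨-k, by linear_combination -h⟩
  · right; exact ⟨k, by linear_combination h⟩

theorem PM.trans {m x y z : ℤ} (h : PM m x y) (h' : PM m y z) : PM m x z := by
  rcases h with ⟨k, h⟩ | ⟨k, h⟩ <;> rcases h' with ⟨k', h'⟩ | ⟨k', h'⟩
  · left; exact ⟨k + k', by linear_combination h + h'⟩
  · right; exact ⟨k + k', by linear_combination h + h'⟩
  · right; exact ⟨k - k', by linear_combination h - h'⟩
  · left; exact ⟨k - k', by linear_combination h - h'⟩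

section Step

variable {F : Type*} [Field F] {v : Valuation F ℤᵐ⁰} {X X' Y Z a₂ a₄ : F} {m t t' a b : ℤ}

theorem Dn_ofNat (n : ℕ) : Dn v 0 (n : F) := by
  unfold Dn
  rw [_root_.neg_zero, exp_zero]
  exact v_natCast_le_one v n

theorem Vn_b₂ (h2 : Dn v 1 (2 : F)) (ha₂ : Dn v 0 a₂) (hs : Dn v 0 (X + X')) :
    Vn v 0 (2 * (X + X') + (1 + 4 * a₂)) := by
  have h1 : Vn v 0 (1 : F) := by unfold Vn; simp
  have e : 2 * (X + X') + (1 + 4 * a₂) = 1 + (2 * (X + X') + 2 * (2 * a₂)) := by ring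
  rw [e]
  apply h1.add (b := 1) _ (by norm_num)
  apply Dn.add
  · exact (h2.mul hs).mono (by norm_num)
  · exact (h2.mul ((h2.mul ha₂).mono (b := 0) (by norm_num))).mono (by norm_num)

theorem tent_lt (h2 : Dn v 1 (2 : F)) (ha₂ : Dn v 0 a₂) (ha₄ : Vn v m a₄) (ht : Vn v t X)
    (ht' : Vn v t' X') (ha : Vn v a Y) (hb : Vn v b Z) (t1 : 1 ≤ t) (t2 : t' ≤ m - 1)
    (a2 : a ≤ m - 1) (b2 : b ≤ m - 1) (hlt : t < t')
    (hsum : (Y + Z) * (X - X') ^ 2 = X * X' * (2 * (X + X') + (1 + 4 * a₂)) +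
      2 * a₄ * (X + X'))
    (hprod : Y * Z * (X - X') ^ 2 = (X * X' - a₄) ^ 2) :
    (a = t' - t ∧ (b = t + t' ∨ b = 2 * m - t - t')) ∨
    (b = t' - t ∧ (a = t + t' ∨ a = 2 * m - t - t')) := by
  have hsub : Vn v t (X - X') := by rw [sub_eq_add_neg]; exact ht.add ht'.toD.neg hlt
  have hadd : Vn v t (X + X') := ht.add ht'.toD hlt
  have hsub2 := hsub.sq
  have hR1 : Vn v (t + t' + 0) (X * X' * (2 * (X + X') + (1 + 4 * a₂))) :=
    (ht.mul ht').mul (Vn_b₂ h2 ha₂ (hadd.toD.mono (by omega)))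
  have hR2 : Dn v (1 + m + t) (2 * a₄ * (X + X')) := (h2.mul ha₄.toD).mul hadd.toD
  have hR := hR1.add hR2 (by omega)
  rw [← hsum, mul_comm] at hR
  have hS := hR.of_mul hsub2
  have hPl : Vn v (a + b + 2 * t) (Y * Z * (X - X') ^ 2) := (ha.mul hb).mul hsub2
  rw [hprod] at hPl
  have c1 : t + t' < m → a + b + 2 * t = 2 * (t + t') := by
    intro h
    have h3 : Vn v (t + t') (X * X' - a₄) := by
      rw [sub_eq_add_neg]; exact (ht.mul ht').add ha₄.toD.neg h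
    exact hPl.unique h3.sq
  have c2 : m < t + t' → a + b + 2 * t = 2 * m := by
    intro h
    have h3 : Vn v m (X * X' - a₄) := by
      rw [sub_eq_add_neg]; exact Vn.add' (ht.mul ht').toD ha₄.neg h
    exact hPl.unique h3.sq
  have c3 : t + t' = m → 2 * m ≤ a + b + 2 * t := by
    intro h
    have h3 : Dn v m (X * X' - a₄) := by
      rw [sub_eq_add_neg]
      exact ((ht.mul ht').toD.mono (by omega)).add ha₄.toD.neg
    exact hPl.le_of_D h3.sq
  have d1 : a < b → a = t + t' + 0 - 2 * t := fun h => (ha.add hb.toD h).unique hS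
  have d2 : b < a → b = t + t' + 0 - 2 * t := fun h => (Vn.add' ha.toD hb h).unique hS
  have d3 : a = b → a ≤ t + t' + 0 - 2 * t := by
    intro h
    subst h
    exact hS.le_of_D (ha.toD.add hb.toD)
  rcases lt_trichotomy (t + t') m with h | h | h
  · have := c1 h; omega
  · have := c3 h; omega
  · have := c2 h; omega

theorem tent_step (h2 : Dn v 1 (2 : F)) (ha₂ : Dn v 0 a₂) (ha₄ : Vn v m a₄) (ht : Vn v t X)
    (ht' : Vn v t' X') (ha : Vn v a Y) (hb : Vn v b Z) (t1 : 1 ≤ t) (t2 : t ≤ m - 1)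
    (t1' : 1 ≤ t') (t2' : t' ≤ m - 1) (a1 : 1 ≤ a)
    (a2 : a ≤ m - 1) (b1 : 1 ≤ b) (b2 : b ≤ m - 1) (hne : X ≠ X')
    (hsum : (Y + Z) * (X - X') ^ 2 = X * X' * (2 * (X + X') + (1 + 4 * a₂)) +
      2 * a₄ * (X + X'))
    (hprod : Y * Z * (X - X') ^ 2 = (X * X' - a₄) ^ 2) :
    (PM m a (t - t') ∧ PM m b (t + t')) ∨ (PM m b (t - t') ∧ PM m a (t + t')) := by
  rcases lt_trichotomy t t' with h | h | h
  · rcases tent_lt h2 ha₂ ha₄ ht ht' ha hb t1 t2' a2 b2 h hsum hprod with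
      ⟨h1, h3 | h3⟩ | ⟨h1, h3 | h3⟩
    · left; exact ⟨Or.inr ⟨0, by omega⟩, Or.inl ⟨0, by omega⟩⟩
    · left; exact ⟨Or.inr ⟨0, by omega⟩, Or.inr ⟨1, by omega⟩⟩
    · right; exact ⟨Or.inr ⟨0, by omega⟩, Or.inl ⟨0, by omega⟩⟩
    · right; exact ⟨Or.inr ⟨0, by omega⟩, Or.inr ⟨1, by omega⟩⟩
  · exfalso
    subst h
    obtain ⟨s, hs⟩ := exists_Vn (v := v) (sub_ne_zero.mpr hne)
    have hs' : t ≤ s := hs.le_of_D (by rw [sub_eq_add_neg]; exact ht.toD.add ht'.toD.neg)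
    have hadd : Dn v t (X + X') := ht.toD.add ht'.toD
    have hR1 : Vn v (t + t + 0) (X * X' * (2 * (X + X') + (1 + 4 * a₂))) :=
      (ht.mul ht').mul (Vn_b₂ h2 ha₂ (hadd.mono (by omega)))
    have hR2 : Dn v (1 + m + t) (2 * a₄ * (X + X')) := (h2.mul ha₄.toD).mul hadd
    have hR := hR1.add hR2 (by omega)
    rw [← hsum, mul_comm] at hR
    have hS := hR.of_mul hs.sq
    have h3 : Dn v 1 (Y + Z) := (ha.toD.mono a1).add (hb.toD.mono b1)
    have := hS.le_of_D h3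
    omega
  · have hsum' : (Y + Z) * (X' - X) ^ 2 = X' * X * (2 * (X' + X) + (1 + 4 * a₂)) +
      2 * a₄ * (X' + X) := by linear_combination hsum
    have hprod' : Y * Z * (X' - X) ^ 2 = (X' * X - a₄) ^ 2 := by linear_combination hprod
    rcases tent_lt h2 ha₂ ha₄ ht' ht ha hb t1' t2 a2 b2 h hsum' hprod' with
      ⟨h1, h3 | h3⟩ | ⟨h1, h3 | h3⟩
    · left; exact ⟨Or.inl ⟨0, by omega⟩, Or.inl ⟨0, by omega⟩⟩
    · left; exact ⟨Or.inl ⟨0, by omega⟩, Or.inr ⟨1, by omega⟩⟩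
    · right; exact ⟨Or.inl ⟨0, by omega⟩, Or.inl ⟨0, by omega⟩⟩
    · right; exact ⟨Or.inl ⟨0, by omega⟩, Or.inr ⟨1, by omega⟩⟩

/-- duplication -/
theorem tent_double (h2 : Dn v 1 (2 : F)) (ha₂ : Dn v 0 a₂) (ha₄ : Vn v m a₄) (ht : Vn v t X)
    (ha : Vn v a Y) (t1 : 1 ≤ t) (t2 : t ≤ m - 1) (a2 : a ≤ m - 1)
    (hd : Y * (4 * X ^ 3 + (1 + 4 * a₂) * X ^ 2 + 4 * a₄ * X) = (X ^ 2 - a₄) ^ 2) :
    PM m a (2 * t) := by
  have h4 : Dn v 0 (4 : F) := by exact_mod_cast Dn_ofNat (v := v) 4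
  have hden : Vn v (2 * t + 0) (4 * X ^ 3 + (1 + 4 * a₂) * X ^ 2 + 4 * a₄ * X) := by
    have e : 4 * X ^ 3 + (1 + 4 * a₂) * X ^ 2 + 4 * a₄ * X =
      X ^ 2 * (2 * (X + X) + (1 + 4 * a₂)) + 4 * a₄ * X := by ring
    rw [e]
    refine (ht.sq.mul (Vn_b₂ h2 ha₂ ((ht.toD.mono (by omega)).add (ht.toD.mono (by omega))))).add
      (b := 0 + m + t) ?_ (by omega)
    exact (h4.mul ha₄.toD).mul ht.toD
  have hl := ha.mul hden
  rw [hd] at hl
  rcases lt_trichotomy (2 * t) m with h | h | h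
  · have h3 : Vn v (2 * t) (X ^ 2 - a₄) := by
      rw [sub_eq_add_neg]; exact ht.sq.add ha₄.toD.neg h
    have := hl.unique h3.sq
    left; exact ⟨0, by omega⟩
  · exfalso
    have h3 : Dn v m (X ^ 2 - a₄) := by
      rw [sub_eq_add_neg]
      exact (ht.sq.toD.mono (by omega)).add ha₄.toD.neg
    have := hl.le_of_D h3.sq
    omega
  · have h3 : Vn v m (X ^ 2 - a₄) := by
      rw [sub_eq_add_neg]; exact Vn.add' ht.sq.toD ha₄.neg h
    have := hl.unique h3.sq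
    right; exact ⟨1, by omega⟩

/-- duplication of a point with `v(x) ≥ m`. -/
theorem tent_double_ge (h2 : Dn v 1 (2 : F)) (ha₂ : Dn v 0 a₂) (ha₄ : Vn v m a₄) (hm : 1 ≤ m)
    (ht : Dn v m X)
    (hd : Y * (4 * X ^ 3 + (1 + 4 * a₂) * X ^ 2 + 4 * a₄ * X) = (X ^ 2 - a₄) ^ 2) :
    ¬ Dn v 1 Y := by
  intro hY
  have h4 : Dn v 0 (4 : F) := by exact_mod_cast Dn_ofNat (v := v) 4
  have h3 : Vn v m (X ^ 2 - a₄) := by
    rw [sub_eq_add_neg]; exact Vn.add' ht.sq ha₄.neg (by omega)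
  have hden : Dn v (2 * m) (4 * X ^ 3 + (1 + 4 * a₂) * X ^ 2 + 4 * a₄ * X) := by
    have e : 4 * X ^ 3 + (1 + 4 * a₂) * X ^ 2 + 4 * a₄ * X =
      X ^ 2 * (2 * (X + X) + (1 + 4 * a₂)) + 4 * a₄ * X := by ring
    rw [e]
    apply Dn.add
    · exact (ht.sq.mul (Vn_b₂ h2 ha₂ ((ht.mono (by omega)).add (ht.mono (by omega)))).toD).mono
        (by omega)
    · exact ((h4.mul ha₄.toD).mul ht).mono (by omega)
  have h5 := hY.mul hden
  rw [hd] at h5
  have := h3.sq.le_of_D h5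
  omega

end Step

end Fermat.Agent.H09
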