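import Mathlib
import Fermat.Agent.H09.Tent

set_option autoImplicit false

/-!
# No rational point of order `p` on `y² + xy = x³ + a₂x² + a₄x` when `p ∤ 2 v₂(a₄)`
-/

namespace Fermat.Agent.H09

open WeierstrassCurve WeierstrassCurve.Affine WeierstrassCurve.Affine.Point
open Fermat.Agent.H08
open WithZero

section

variable {F : Type*} [Field F] {v : Valuation F ℤᵐ⁰}

theorem Dn_one_of_lt {x : F} (h : v x < 1) : Dn v 1 x := by
  by_cases hx : x = 0
  · subst hx; unfold Dn; rw [_root_.map_zero]; exact zero_le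
  · obtain ⟨n, hn⟩ := exists_Vn (v := v) hx
    have h1 := hn
    unfold Vn at h1
    rw [h1, ← exp_zero, exp_lt_exp] at h
    exact hn.toD.mono (by omega)

theorem lt_one_of_Dn {x : F} (h : Dn v 1 x) : v x < 1 := by
  refine lt_of_le_of_lt h ?_
  rw [← exp_zero, exp_lt_exp]; norm_num

theorem Dn_zero_iff {x : F} : Dn v 0 x ↔ v x ≤ 1 := by
  unfold Dn; rw [_root_.neg_zero, exp_zero]

end

section

variable {F : Type*} [Field F] [DecidableEq F] {v : Valuation F ℤᵐ⁰}
  {W : WeierstrassCurve.Affine F} {m : ℤ} {p : ℕ}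

omit [DecidableEq F] in
theorem b_values (ha₁ : W.a₁ = 1) (ha₃ : W.a₃ = 0) (ha₆ : W.a₆ = 0) :
    W.b₂ = 1 + 4 * W.a₂ ∧ W.b₄ = 2 * W.a₄ ∧ W.b₆ = 0 ∧ W.b₈ = -W.a₄ ^ 2 := by
  refine ⟨?_, ?_, ?_, ?_⟩
  · rw [WeierstrassCurve.b₂, ha₁]; ring
  · rw [WeierstrassCurve.b₄, ha₁, ha₃]; ring
  · rw [WeierstrassCurve.b₆, ha₃, ha₆]; ring
  · rw [WeierstrassCurve.b₈, ha₁, ha₃, ha₆]; ring

theorem nsmul_ne_zero_of_prime (hp : p.Prime) {P : W.Point} (hP : P ≠ 0) (hpP : p • P = 0)
    {k : ℕ} (hk : ¬ p ∣ k) : k • P ≠ 0 := by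
  have : Fact p.Prime := ⟨hp⟩
  intro h
  apply hk
  rw [← addOrderOf_eq_prime hpP hP]
  exact addOrderOf_dvd_iff_nsmul_eq_zero.mpr h

theorem inE0_of_nsmul (hW : IsIntegralFor v W) (h4 : v W.b₄ < 1) (h6 : v W.b₆ < 1)
    (h8 : v W.b₈ < 1) (hp : p.Prime) {P : W.Point} (hpP : p • P = 0)
    {k : ℕ} (hk : ¬ p ∣ k) (h : InE0 v (k • P)) : InE0 v P := by
  obtain ⟨j, -, hj⟩ := Nat.exists_mul_mod_eq_one_of_coprime
    ((Nat.Prime.coprime_iff_not_dvd hp).mpr hk).symm hp.one_lt
  have h1 := InE0.nsmul hW h4 h6 h8 h j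
  have h2 : j • (k • P) = P := by
    rw [← mul_smul, mul_comm j k, ← Nat.div_add_mod (k * j) p, hj, add_smul, one_smul,
      mul_comm p, mul_smul, hpP, smul_zero, zero_add]
  rwa [h2] at h1

/-- No point of order `p` reduces to the node, when `p ∤ 2m`. -/
theorem inE0_of_torsion (h2 : Dn v 1 (2 : F)) (ha₁ : W.a₁ = 1) (ha₃ : W.a₃ = 0)
    (ha₆ : W.a₆ = 0) (ha₂ : Dn v 0 W.a₂) (ha₄ : Vn v m W.a₄) (hm : 1 ≤ m) (hp : p.Prime)
    (hp5 : 5 ≤ p) (hpm : ¬ (p : ℤ) ∣ m) {P : W.Point} (hP : P ≠ 0) (hpP : p • P = 0) :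
    InE0 v P := by
  obtain ⟨eb₂, eb₄, eb₆, eb₈⟩ := b_values ha₁ ha₃ ha₆
  have hW : IsIntegralFor v W := by
    refine ⟨?_, ?_, ?_, ?_, ?_⟩
    · rw [ha₁]; simp
    · exact Dn_zero_iff.mp ha₂
    · rw [ha₃]; simp
    · exact Dn_zero_iff.mp (ha₄.toD.mono (by omega))
    · rw [ha₆]; simp
  have hv4 : v W.b₄ < 1 := by
    rw [eb₄]; exact lt_one_of_Dn ((h2.mul ha₄.toD).mono (by omega))
  have hv6 : v W.b₆ < 1 := by rw [eb₆]; simp
  have hv8 : v W.b₈ < 1 := by
    rw [eb₈, Valuation.map_neg]; exact lt_one_of_Dn (ha₄.sq.toD.mono (by omega))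
  have hk0 : ∀ k : ℕ, ¬ p ∣ k → k • P ≠ 0 := fun k hk => nsmul_ne_zero_of_prime hp hP hpP hk
  by_contra hcon
  -- lower bounds
  have hD1 : ∀ k : ℕ, ¬ p ∣ k → Dn v 1 (px (k • P)) := by
    intro k hk
    apply Dn_one_of_lt
    by_contra h
    push Not at h
    exact hcon (inE0_of_nsmul hW hv4 hv6 hv8 hp hpP hk (Or.inr h))
  have hpodd : ¬ p ∣ 2 := by
    intro h
    have := Nat.le_of_dvd (by norm_num) h
    omega
  have hdbl : ∀ k : ℕ, ¬ p ∣ k → px ((2 * k) • P) * (4 * px (k • P) ^ 3 +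
      (1 + 4 * W.a₂) * px (k • P) ^ 2 + 4 * W.a₄ * px (k • P)) =
      (px (k • P) ^ 2 - W.a₄) ^ 2 := by
    intro k hk
    have h2k : ¬ p ∣ 2 * k := by
      intro h
      rcases (Nat.Prime.dvd_mul hp).mp h with h | h
      · exact hpodd h
      · exact hk h
    have e : k • P + k • P = (2 * k) • P := by rw [two_mul, add_smul]
    have h := px_double (hk0 k hk) (by rw [e]; exact hk0 _ h2k)
    rw [e, eb₂, eb₄, eb₆, eb₈] at h
    linear_combination h
  have hT : ∀ k : ℕ, ∃ t : ℤ, ¬ p ∣ k → Vn v t (px (k • P)) ∧ 1 ≤ t ∧ t ≤ m - 1 := by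
    intro k
    by_cases hk : p ∣ k
    · exact ⟨0, fun h => absurd hk h⟩
    have h2k : ¬ p ∣ 2 * k := by
      intro h
      rcases (Nat.Prime.dvd_mul hp).mp h with h | h
      · exact hpodd h
      · exact hk h
    have hnd : ¬ Dn v m (px (k • P)) := fun h =>
      tent_double_ge h2 ha₂ ha₄ hm h (hdbl k hk) (hD1 _ h2k)
    have hne : px (k • P) ≠ 0 := by
      intro h
      apply hnd
      rw [h]; unfold Dn; rw [_root_.map_zero]; exact zero_le
    obtain ⟨t, ht⟩ := exists_Vn (v := v) hne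
    refine ⟨t, fun _ => ⟨ht, ht.le_of_D (hD1 k hk), ?_⟩⟩
    by_contra hlt
    exact hnd (ht.toD.mono (by omega))
  choose T hT using hT
  have hlt : ∀ k : ℕ, 1 ≤ k → k < p → ¬ p ∣ k := by
    intro k h1 h2 h
    have := Nat.le_of_dvd h1 h
    omega
  have h1P : (1 : ℕ) • P = P := one_smul ℕ P
  obtain ⟨V1, l1, u1⟩ := hT 1 (hlt 1 le_rfl (by omega))
  rw [h1P] at V1
  -- the main induction
  have main : ∀ k : ℕ, 1 ≤ k → k < p → PM m (T k) (k * T 1) := by
    intro k
    induction k using Nat.strong_induction_on with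
    | _ k ih =>
      intro hk1 hkp
      rcases Nat.lt_or_ge k 3 with hk3 | hk3
      · interval_cases k
        · left; exact ⟨0, by push_cast; ring⟩
        · obtain ⟨V2, l2, u2⟩ := hT 2 (hlt 2 (by norm_num) hkp)
          have hd := hdbl 1 (hlt 1 le_rfl (by omega))
          rw [h1P, mul_one] at hd
          have := tent_double h2 ha₂ ha₄ V1 V2 l1 u1 u2 hd
          push_cast
          exact this
      · obtain ⟨j, rfl⟩ : ∃ j, k = j + 2 := ⟨k - 2, by omega⟩
        -- j + 2 from j + 1 and j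
        obtain ⟨Va, la, ua⟩ := hT (j + 2) (hlt _ (by omega) (by omega))
        obtain ⟨Vt, lt', ut⟩ := hT (j + 1) (hlt _ (by omega) (by omega))
        obtain ⟨Vb, lb, ub⟩ := hT j (hlt _ (by omega) (by omega))
        have hj1 := hk0 (j + 1) (hlt _ (by omega) (by omega))
        have e1 : (j + 1) • P + P = (j + 2) • P := (succ_nsmul P (j + 1)).symm
        have e2 : (j + 1) • P - P = j • P := by rw [succ_nsmul, add_sub_cancel_right]
        have hne : px ((j + 1) • P) ≠ px P := by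
          intro h
          rcases (px_eq_iff hj1 hP).mp h with h | h
          · have : j • P = 0 := by rw [← e2, h, sub_self]
            exact hk0 j (hlt _ (by omega) (by omega)) this
          · have : (j + 2) • P = 0 := by rw [← e1, h, neg_add_cancel]
            exact hk0 (j + 2) (hlt _ (by omega) (by omega)) this
        have hsum := px_add_sub_sum hj1 hP hne
        have hprod := px_add_sub_prod hj1 hP hne
        rw [e1, e2, eb₂, eb₄, eb₆] at hsum
        rw [e1, e2, eb₄, eb₆, eb₈] at hprod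
        have hstep := tent_step h2 ha₂ ha₄ Vt V1 Va Vb lt' ut l1 u1 la ua lb ub hne
          (by linear_combination hsum) (by linear_combination hprod)
        have ih1 := ih (j + 1) (by omega) (by omega) (by omega)
        have ih0 := ih j (by omega) (by omega) (by omega)
        push_cast at ih1 ih0 ⊢
        have hcases : (PM m (T (j + 1) - T 1) (j * T 1) ∧
              PM m (T (j + 1) + T 1) ((j + 2) * T 1)) ∨
            (PM m (T (j + 1) - T 1) ((j + 2) * T 1) ∧ PM m (T (j + 1) + T 1) (j * T 1)) := by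
          rcases ih1 with ⟨c, hc⟩ | ⟨c, hc⟩
          · left
            exact ⟨Or.inl ⟨c, by linear_combination hc⟩, Or.inl ⟨c, by linear_combination hc⟩⟩
          · right
            exact ⟨Or.inr ⟨c, by linear_combination hc⟩, Or.inr ⟨c, by linear_combination hc⟩⟩
        have hfin : PM m (T (j + 2)) ((j + 2) * T 1) ∨
            (PM m (T (j + 2)) (j * T 1) ∧ PM m (T j) ((j + 2) * T 1)) := by
          rcases hstep with ⟨s1, s2⟩ | ⟨s1, s2⟩ <;> rcases hcases with ⟨c1, c2⟩ | ⟨c1, c2⟩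
          · right; exact ⟨s1.trans c1, s2.trans c2⟩
          · left; exact s1.trans c1
          · left; exact s2.trans c2
          · right; exact ⟨s2.trans c2, s1.trans c1⟩
        rcases hfin with h | ⟨h1, h3⟩
        · exact h
        · exact (h1.trans ih0.symm).trans h3
  -- conclusion
  have hoddp : Odd p := hp.odd_of_ne_two (by omega)
  obtain ⟨j, hj⟩ := hoddp
  obtain ⟨Va, -, -⟩ := hT j (hlt _ (by omega) (by omega))
  obtain ⟨Vb, -, -⟩ := hT (j + 1) (hlt _ (by omega) (by omega))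
  have hneg : (j + 1) • P = -(j • P) := by
    rw [eq_neg_iff_add_eq_zero, ← add_smul, show j + 1 + j = p by omega, hpP]
  rw [hneg, px_neg] at Vb
  have hTeq := Va.unique Vb
  have m1 := main j (by omega) (by omega)
  have m2 := main (j + 1) (by omega) (by omega)
  rw [← hTeq] at m2
  have m3 := m1.symm.trans m2
  push_cast at m3
  have hdvd : 2 * m ∣ T 1 := by
    rcases m3 with ⟨c, hc⟩ | ⟨c, hc⟩
    · exact ⟨-c, by linear_combination -hc⟩
    · have h3 : 2 * m ∣ (p : ℤ) * T 1 := ⟨c, by rw [hj]; push_cast; linear_combination hc⟩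
      have hpint := Nat.prime_iff_prime_int.mp hp
      have hcop : IsCoprime (2 * m) (p : ℤ) := by
        rw [isCoprime_comm, hpint.coprime_iff_not_dvd]
        intro h
        rcases hpint.dvd_or_dvd h with h | h
        · exact hpodd (by exact_mod_cast h)
        · exact hpm h
      exact hcop.dvd_of_dvd_mul_left h3
  have := Int.le_of_dvd (by omega) hdvd
  omega

end

section Rational

local notation "v₂" => Rat.padicValuation 2

theorem rat_cases {q : ℚ} (hq : v₂ q ≤ 1) : v₂ q < 1 ∨ v₂ (q - 1) < 1 := by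
  by_contra hcon
  push Not at hcon
  obtain ⟨h1, h2⟩ := hcon
  have hden : ¬ 2 ∣ q.den := Rat.padicValuation_le_one_iff.mp hq
  have hd : v₂ ((q.den : ℤ) : ℚ) = 1 := by
    rw [Rat.padicValuation_cast, Int.padicValuation_eq_one_iff]
    exact_mod_cast hden
  have e1 : q * ((q.den : ℤ) : ℚ) = ((q.num : ℤ) : ℚ) := by
    push_cast
    exact Rat.mul_den_eq_num q
  have e2 : (q - 1) * ((q.den : ℤ) : ℚ) = ((q.num - q.den : ℤ) : ℚ) := by
    rw [sub_mul, e1]; push_cast; ring
  have n1 : ¬ (2 : ℤ) ∣ q.num := by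
    intro h
    have := (Int.padicValuation_lt_one_iff (p := 2) (x := q.num)).mpr (by exact_mod_cast h)
    rw [← Rat.padicValuation_cast, ← e1, map_mul, hd, mul_one] at this
    exact absurd h1 (not_le.mpr this)
  have n2 : ¬ (2 : ℤ) ∣ q.num - q.den := by
    intro h
    have := (Int.padicValuation_lt_one_iff (p := 2) (x := q.num - q.den)).mpr
      (by exact_mod_cast h)
    rw [← Rat.padicValuation_cast, ← e2, map_mul, hd, mul_one] at this
    exact absurd h2 (not_le.mpr this)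
  have n3 : ¬ (2 : ℤ) ∣ (q.den : ℤ) := by exact_mod_cast hden
  omega

/-- A curve `y² + xy = x³ + a₂x² + a₄x` over `ℚ`, with `a₂` integral at `2` and
`m = v₂(a₄) > 0`, has no rational point of order `p ≥ 5` if `p ∤ m`. -/
theorem no_rational_torsion {W : WeierstrassCurve.Affine ℚ} {m : ℤ} {p : ℕ}
    (ha₁ : W.a₁ = 1) (ha₃ : W.a₃ = 0)
    (ha₆ : W.a₆ = 0) (ha₂ : Dn v₂ 0 W.a₂) (ha₄ : Vn v₂ m W.a₄) (hm : 1 ≤ m) (hp : p.Prime)
    (hp5 : 5 ≤ p) (hpm : ¬ (p : ℤ) ∣ m) {P : W.Point} (hP : P ≠ 0) (hpP : p • P = 0) :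
    False := by
  have h2 : Dn v₂ 1 (2 : ℚ) := by
    have := Rat.padicValuation_self 2
    unfold Dn
    exact_mod_cast this.le
  have hW : IsIntegralFor v₂ W := by
    refine ⟨?_, ?_, ?_, ?_, ?_⟩
    · rw [ha₁]; simp
    · exact Dn_zero_iff.mp ha₂
    · rw [ha₃]; simp
    · exact Dn_zero_iff.mp (ha₄.toD.mono (by omega))
    · rw [ha₆]; simp
  have hvp : v₂ (p : ℚ) = 1 := by
    have : Int.padicValuation 2 (p : ℤ) = 1 := by
      rw [Int.padicValuation_eq_one_iff]
      intro h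
      have h' : 2 ∣ p := by exact_mod_cast h
      have := (Nat.prime_dvd_prime_iff_eq Nat.prime_two hp).mp h'
      omega
    rw [← Rat.padicValuation_cast] at this
    exact_mod_cast this
  have hk0 : ∀ k : ℕ, ¬ p ∣ k → k • P ≠ 0 := fun k hk => nsmul_ne_zero_of_prime hp hP hpP hk
  have hkp : ∀ k : ℕ, p • (k • P) = 0 := by
    intro k
    rw [← mul_smul, mul_comm, mul_smul, hpP, nsmul_zero]
  have hx : ∀ k : ℕ, ¬ p ∣ k → v₂ (px (k • P)) = 1 := by
    intro k hk
    refine le_antisymm (val_px_le_one_of_torsion hW (hkp k) hvp) ?_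
    rcases inE0_of_torsion h2 ha₁ ha₃ ha₆ ha₂ ha₄ hm hp hp5 hpm (hk0 k hk) (hkp k) with h | h
    · exact absurd h (hk0 k hk)
    · exact h
  have hx1 : ∀ k : ℕ, ¬ p ∣ k → v₂ (px (k • P) - 1) < 1 := by
    intro k hk
    rcases rat_cases (hx k hk).le with h | h
    · rw [hx k hk] at h; exact absurd h (lt_irrefl _)
    · exact h
  have hy : ∀ k : ℕ, ¬ p ∣ k → v₂ (py (k • P)) ≤ 1 := fun k hk =>
    val_py_le_one hW (hx k hk).le
  have same : ∀ k l : ℕ, ¬ p ∣ k → ¬ p ∣ l →
      (v₂ (py (k • P)) < 1 ↔ v₂ (py (l • P)) < 1) → k • P = l • P := by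
    intro k l hk hl hkl
    have hxx : v₂ (px (k • P) - px (l • P)) < 1 := by
      have : px (k • P) - px (l • P) = (px (k • P) - 1) - (px (l • P) - 1) := by ring
      rw [this]; exact v_sub_lt_one (hx1 k hk) (hx1 l hl)
    have hyy : v₂ (py (k • P) - py (l • P)) < 1 := by
      by_cases h : v₂ (py (k • P)) < 1
      · exact v_sub_lt_one h (hkl.mp h)
      · have h' : ¬ v₂ (py (l • P)) < 1 := fun h3 => h (hkl.mpr h3)
        have g1 := (rat_cases (hy k hk)).resolve_left h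
        have g2 := (rat_cases (hy l hl)).resolve_left h'
        have : py (k • P) - py (l • P) = (py (k • P) - 1) - (py (l • P) - 1) := by ring
        rw [this]; exact v_sub_lt_one g1 g2
    have hns : NonsingularRed v₂ (k • P) := by
      left
      unfold psi2
      rw [ha₁, ha₃, add_zero, one_mul, add_comm, Valuation.map_add_eq_of_lt_left, hx k hk]
      rw [hx k hk]
      exact lt_one_of_Dn ((h2.mul (Dn_zero_iff.mpr (hy k hk))).mono (by norm_num))
    have h3 := inE1_sub_of_congr hW (hk0 k hk) (hk0 l hl) (hx k hk).le hxx hyy hns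
    have h4 : p • (k • P - l • P) = 0 := by rw [nsmul_sub, hkp, hkp, sub_zero]
    exact sub_eq_zero.mp (InE1.eq_zero_of_torsion hW h3 h4 hvp)
  have d1 : ¬ p ∣ 1 := fun h => by have := Nat.le_of_dvd (by norm_num) h; omega
  have d2 : ¬ p ∣ 2 := fun h => by have := Nat.le_of_dvd (by norm_num) h; omega
  have d3 : ¬ p ∣ 3 := fun h => by have := Nat.le_of_dvd (by norm_num) h; omega
  have c12 : (1 : ℕ) • P = (2 : ℕ) • P → False := by
    intro h
    apply hk0 1 d1
    have : (2 : ℕ) • P - (1 : ℕ) • P = (1 : ℕ) • P := by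
      rw [two_smul, one_smul, add_sub_cancel_right]
    rw [← this, h, sub_self]
  have c23 : (2 : ℕ) • P = (3 : ℕ) • P → False := by
    intro h
    apply hk0 1 d1
    have : (3 : ℕ) • P - (2 : ℕ) • P = (1 : ℕ) • P := by
      rw [show (3 : ℕ) = 1 + 2 by norm_num, add_smul, add_sub_cancel_right]
    rw [← this, h, sub_self]
  have c13 : (1 : ℕ) • P = (3 : ℕ) • P → False := by
    intro h
    apply hk0 2 d2
    have : (3 : ℕ) • P - (1 : ℕ) • P = (2 : ℕ) • P := by
      rw [show (3 : ℕ) = 2 + 1 by norm_num, add_smul, add_sub_cancel_right]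
    rw [← this, h, sub_self]
  by_cases h1 : v₂ (py ((1 : ℕ) • P)) < 1 <;> by_cases h2' : v₂ (py ((2 : ℕ) • P)) < 1 <;>
    by_cases h3 : v₂ (py ((3 : ℕ) • P)) < 1
  · exact c12 (same 1 2 d1 d2 (iff_of_true h1 h2'))
  · exact c12 (same 1 2 d1 d2 (iff_of_true h1 h2'))
  · exact c13 (same 1 3 d1 d3 (iff_of_true h1 h3))
  · exact c23 (same 2 3 d2 d3 (iff_of_false h2' h3))
  · exact c23 (same 2 3 d2 d3 (iff_of_true h2' h3))
  · exact c13 (same 1 3 d1 d3 (iff_of_false h1 h3))
  · exact c12 (same 1 2 d1 d2 (iff_of_false h1 h2'))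
  · exact c12 (same 1 2 d1 d2 (iff_of_false h1 h2'))

end Rational

end Fermat.Agent.H09
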