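import Mathlib
import Fermat.Agent.H09.Dichotomy
import Fermat.Agent.H09.TwoAdic
import Fermat.Agent.H26_FreyBasics
import Fermat.Prelude.Def_FLTPrelim_CofixedLine

set_option autoImplicit false

/-!
# The Frey curve has no rational point of order `p`
-/

namespace Fermat.Agent.H09

open WeierstrassCurve WeierstrassCurve.Affine WeierstrassCurve.Affine.Point
open Fermat.Agent.H08
open WithZero

section Descent

variable {L : Type*} [Field L] [CharZero L] [DecidableEq L] [IsGalois ℚ L]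
  {W₀ : WeierstrassCurve.Affine ℚ}

/-- A Galois invariant torsion point comes from a rational torsion point. -/
theorem exists_rational_point {P₀ : (W₀⁄L).Point} (h0 : P₀ ≠ 0)
    (hσ : ∀ σ : L ≃ₐ[ℚ] L, σ • P₀ = P₀) {n : ℕ} (hn : n • P₀ = 0) :
    ∃ P : (W₀⁄ℚ).Point, P ≠ 0 ∧ n • P = 0 := by
  have hx : ∀ σ : L ≃ₐ[ℚ] L, σ (px P₀) = px P₀ := by
    intro σ; rw [← px_smul, hσ]
  have hy : ∀ σ : L ≃ₐ[ℚ] L, σ (py P₀) = py P₀ := by
    intro σ; rw [← py_smul, hσ]
  obtain ⟨x, hx'⟩ := IntermediateField.mem_bot.mp ((InfiniteGalois.mem_bot_iff_fixed _).mpr hx)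
  obtain ⟨y, hy'⟩ := IntermediateField.mem_bot.mp ((InfiniteGalois.mem_bot_iff_fixed _).mpr hy)
  obtain ⟨X, Y, h, rfl⟩ := exists_eq_some h0
  rw [px_some] at hx'
  rw [py_some] at hy'
  subst hx' hy'
  have hinj : Function.Injective (Algebra.ofId ℚ L) := (algebraMap ℚ L).injective
  have h' : (W₀⁄ℚ).Nonsingular x y := (W₀.baseChange_nonsingular hinj x y).mp h
  refine ⟨Point.some x y h', some_ne_zero _, ?_⟩
  have hmap : Point.map (W' := W₀) (Algebra.ofId ℚ L) (Point.some x y h') =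
      Point.some _ _ h := rfl
  apply Point.map_injective (W' := W₀) (Algebra.ofId ℚ L)
  rw [map_nsmul, hmap, hn, Point.map_zero]

end Descent

section Frey

theorem Vn.pow {F : Type*} [Field F] {v : Valuation F ℤᵐ⁰} {a : ℤ} {x : F} (h : Vn v a x)
    (k : ℕ) : Vn v (k * a) (x ^ k) := by
  induction k with
  | zero => unfold Vn; simp
  | succ k ih =>
    rw [pow_succ]
    have := ih.mul h
    push_cast
    rwa [show ((k : ℤ) + 1) * a = k * a + a by ring]

local notation "v₂" => Rat.padicValuation 2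

theorem frey_a₄ (P : FreyPackage) : ∃ m : ℤ, Vn v₂ m P.freyCurve.a₄ ∧ 1 ≤ m ∧
    ¬ (P.p : ℤ) ∣ m := by
  have hV2 : Vn v₂ 1 (2 : ℚ) := by
    have := Rat.padicValuation_self 2
    unfold Vn
    exact_mod_cast this
  have hVa : Vn v₂ 0 (P.a : ℚ) := by
    unfold Vn
    rw [_root_.neg_zero, exp_zero, Rat.padicValuation_cast, Int.padicValuation_eq_one_iff]
    intro h
    have h4 : (P.a : ZMod 4) = 3 := P.ha4
    obtain ⟨c, hc⟩ := h
    have h5 : (((2 : ℕ) : ℤ) * c : ℤ) = (3 : ZMod 4) := by rw [← hc]; exact h4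
    have h6 : ((4 : ℕ) : ℤ) ∣ ((2 : ℕ) : ℤ) * c - 3 := by
      rw [← ZMod.intCast_zmod_eq_zero_iff_dvd]
      push_cast at h5 ⊢
      rw [h5]; ring
    push_cast at h6
    omega
  obtain ⟨e, he⟩ := exists_Vn (v := v₂) (x := (P.b : ℚ)) (Int.cast_ne_zero.mpr P.hb0)
  have he1 : 1 ≤ e := by
    apply he.le_of_D
    apply Dn_one_of_lt
    rw [Rat.padicValuation_cast, Int.padicValuation_lt_one_iff]
    exact_mod_cast Fermat.Agent.H26.two_dvd_b P
  have h16 : Vn v₂ 4 (16 : ℚ) := by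
    have := hV2.pow 4
    norm_num at this
    exact this
  have hprod : Vn v₂ (P.p * e) ((16 : ℚ) * P.freyCurve.a₄) := by
    have h1 := ((hVa.pow P.p).mul (he.pow P.p)).neg
    rw [mul_zero, zero_add] at h1
    have e1 : (16 : ℚ) * P.freyCurve.a₄ = -((P.a : ℚ) ^ P.p * (P.b : ℚ) ^ P.p) := by
      change (16 : ℚ) * (-((P.a : ℚ) ^ P.p) * ((P.b : ℚ) ^ P.p) / 16) = _
      ring
    rw [e1]
    exact h1
  refine ⟨P.p * e - 4, hprod.of_mul h16, ?_, ?_⟩
  · have h5 : (5 : ℤ) ≤ P.p := by exact_mod_cast P.hp5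
    nlinarith
  · intro h
    have h1 : (P.p : ℤ) ∣ 4 := by
      have := dvd_sub (Dvd.intro e rfl : (P.p : ℤ) ∣ P.p * e) h
      rwa [sub_sub_cancel] at this
    have h2 := Int.le_of_dvd (by norm_num) h1
    have h5 : (5 : ℤ) ≤ P.p := by exact_mod_cast P.hp5
    omega

/-- The Frey curve has no rational point of order `p`. -/
theorem frey_no_rational_torsion (P : FreyPackage) {Q : (P.freyCurve⁄ℚ).Point} (hQ : Q ≠ 0)
    (hpQ : P.p • Q = 0) : False := by
  obtain ⟨m, h1, h2, h3⟩ := frey_a₄ P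
  refine no_rational_torsion (W := (P.freyCurve⁄ℚ)) (m := m) (p := P.p) ?_ ?_ ?_ ?_ ?_ h2
    P.pp P.hp5 h3 hQ hpQ
  · rfl
  · rfl
  · rfl
  · rw [Dn_zero_iff]
    have h4 : (P.freyCurve⁄ℚ).a₂ = ((P.freyCurveInt.a₂ : ℤ) : ℚ) := by
      change P.freyCurve.a₂ = _
      rw [← Fermat.Agent.H26.freyCurveInt_map]; rfl
    rw [h4, Rat.padicValuation_cast]
    exact Int.padicValuation_le_one 2 _
  · exact h1

end Frey

section Final

theorem frey_map_int (P : FreyPackage) (L : Type*) [Field L] [CharZero L] :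
    P.freyCurveInt.map (Int.castRingHom L) = (P.freyCurve⁄L) := by
  change _ = P.freyCurve.map (algebraMap ℚ L)
  rw [← Fermat.Agent.H26.freyCurveInt_map, WeierstrassCurve.map_map]
  congr 1
  exact RingHom.ext_int _ _

/-- **S13** -/
theorem frey_cofixed (P : FreyPackage)
    (hred : ¬ GaloisRepIsIrreducible (K := AlgebraicClosure ℚ) ℚ P.freyCurve P.p) :
    HasGaloisStableCofixedLine (K := AlgebraicClosure ℚ) ℚ P.freyCurve P.p := by
  classical
  have hfact : Fact P.p.Prime := ⟨P.pp⟩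
  have hp5 := P.hp5
  have hmap := frey_map_int P (AlgebraicClosure ℚ)
  have hgal : IsGalois ℚ (AlgebraicClosure ℚ) :=
    { to_normal := { splits' := fun x => IsAlgClosed.splits _ } }
  have hΔ : (P.freyCurve⁄(AlgebraicClosure ℚ)).Δ ≠ 0 := by
    rw [← hmap, map_Δ]
    simpa using Fermat.Agent.H26.freyCurveInt_Δ_ne_zero P
  have hnt : Nontrivial
      (Submodule.torsionBy ℤ (P.freyCurve⁄(AlgebraicClosure ℚ)).Point (P.p : ℤ)) := by
    obtain ⟨Q, hQ, hpQ⟩ := exists_torsion (W := (P.freyCurve⁄(AlgebraicClosure ℚ))) hΔ P.hp_odd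
      (by omega) (Nat.cast_ne_zero.mpr P.hp0)
    exact ⟨⟨⟨Q, mem_torsion_iff.mpr hpQ⟩, 0, fun h => hQ (congrArg Subtype.val h)⟩⟩
  have hex : ∃ N : Submodule (ZMod P.p)
      (Submodule.torsionBy ℤ (P.freyCurve⁄(AlgebraicClosure ℚ)).Point (P.p : ℤ)),
      IsGaloisStable ℚ N ∧ N ≠ ⊥ ∧ N ≠ ⊤ := by
    by_contra hcon
    apply hred
    refine ⟨hnt, fun N hN => ?_⟩
    by_contra h
    push Not at h
    exact hcon ⟨N, hN, h.1, h.2⟩
  obtain ⟨N, hN, hb, ht⟩ := hex
  rcases dichotomy hmap (Fermat.Agent.H26.freyCurveInt_Δ_ne_zero P)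
    (Fermat.Agent.H26.freyCurveInt_isSemistableModel P) hp5 N hN hb ht with h | h
  · exfalso
    obtain ⟨x, hxN, hx0⟩ := (Submodule.ne_bot_iff N).mp hb
    have h0 : (x : (P.freyCurve⁄(AlgebraicClosure ℚ)).Point) ≠ 0 :=
      fun h' => hx0 (Subtype.ext h')
    obtain ⟨Q, hQ, hpQ⟩ := exists_rational_point h0
      (fun σ => congrArg Subtype.val (h σ x hxN)) (mem_torsion_iff.mp x.2)
    exact frey_no_rational_torsion P hQ hpQ
  · exact ⟨N, hN, hb, ht, h⟩

end Final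

end Fermat.Agent.H09
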