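import Mathlib
import Fermat.Agent.H02F.LocalDef
import Fermat.Agent.H51.QbarGalois
import Fermat.Agent.CC.GQ

set_option autoImplicit false
set_option linter.style.haveILetI false
set_option linter.unusedSectionVars false

/-! Equivariant functions on a finite Galois module. -/

noncomputable section

namespace Fermat.Agent.H09

open Fermat.Agent.H02F (Qb GQ)

section Conj

variable {M : Type*} [AddCommGroup M] (act : GQ →* AddMonoid.End M)

/-- the conjugation action on functions -/
def cj (σ : GQ) (φ : M → Qb) : M → Qb := fun m => σ (φ (act σ⁻¹ m))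

theorem cj_apply (σ : GQ) (φ : M → Qb) (m : M) : cj act σ φ m = σ (φ (act σ⁻¹ m)) := rfl

theorem act_mul (σ τ : GQ) (m : M) : act (σ * τ) m = act σ (act τ m) := by
  rw [map_mul]; rfl

theorem act_one (m : M) : act 1 m = m := by
  rw [map_one]; rfl

theorem act_inv_act (σ : GQ) (m : M) : act σ⁻¹ (act σ m) = m := by
  rw [← act_mul, inv_mul_cancel, act_one]

theorem act_act_inv (σ : GQ) (m : M) : act σ (act σ⁻¹ m) = m := by
  rw [← act_mul, mul_inv_cancel, act_one]

@[simp] theorem cj_one (φ : M → Qb) : cj act 1 φ = φ := by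
  ext m; rw [cj_apply, inv_one, act_one]; rfl

theorem cj_mul (σ τ : GQ) (φ : M → Qb) : cj act (σ * τ) φ = cj act σ (cj act τ φ) := by
  ext m
  rw [cj_apply, cj_apply, cj_apply, mul_inv_rev, act_mul]
  rfl

theorem cj_add (σ : GQ) (φ ψ : M → Qb) : cj act σ (φ + ψ) = cj act σ φ + cj act σ ψ := by
  ext m; exact map_add σ _ _

theorem cj_sub (σ : GQ) (φ ψ : M → Qb) : cj act σ (φ - ψ) = cj act σ φ - cj act σ ψ := by
  ext m; exact map_sub σ _ _

theorem cj_zero (σ : GQ) : cj act σ (0 : M → Qb) = 0 := by
  ext m; exact map_zero σ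

theorem cj_sum {ι : Type*} (σ : GQ) (s : Finset ι) (φ : ι → M → Qb) :
    cj act σ (∑ i ∈ s, φ i) = ∑ i ∈ s, cj act σ (φ i) := by
  ext m
  rw [cj_apply, Finset.sum_apply, map_sum, Finset.sum_apply]
  rfl

theorem cj_smul (σ : GQ) (c : Qb) (φ : M → Qb) : cj act σ (c • φ) = σ c • cj act σ φ := by
  ext m
  rw [cj_apply, Pi.smul_apply, Pi.smul_apply, smul_eq_mul, smul_eq_mul, map_mul]
  rfl

theorem cj_mul_fun (σ : GQ) (φ ψ : M → Qb) : cj act σ (φ * ψ) = cj act σ φ * cj act σ ψ := by
  ext m; exact map_mul σ _ _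

theorem cj_eq_self_iff (σ : GQ) (φ : M → Qb) :
    cj act σ φ = φ ↔ ∀ m, φ (act σ m) = σ (φ m) := by
  constructor
  · intro h m
    have h1 := congrFun h (act σ m)
    rw [cj_apply, act_inv_act] at h1
    exact h1.symm
  · intro h
    ext m
    rw [cj_apply, ← h, act_act_inv]

/-- the stabiliser of a function -/
def cstab (φ : M → Qb) : Subgroup GQ where
  carrier := {σ | cj act σ φ = φ}
  mul_mem' {σ τ} hσ hτ := by
    change cj act (σ * τ) φ = φ
    rw [cj_mul, hτ, hσ]
  one_mem' := cj_one act φ
  inv_mem' {σ} hσ := by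
    change cj act σ⁻¹ φ = φ
    have hσ' : cj act σ φ = φ := hσ
    conv_lhs => rw [← hσ']
    rw [← cj_mul, inv_mul_cancel, cj_one]

theorem mem_cstab {φ : M → Qb} {σ : GQ} : σ ∈ cstab act φ ↔ cj act σ φ = φ := Iff.rfl

/-- the module is killed by an open subgroup -/
def OpenKer : Prop := ∃ E : IntermediateField ℚ Qb, FiniteDimensional ℚ E ∧
  ∀ σ ∈ E.fixingSubgroup, act σ = 1

variable {act}

/-- an open normal subgroup fixing a given function and given numbers -/
theorem exists_normal_fix [Finite M] (hact : OpenKer act) (φ : M → Qb) (s : Finset Qb) :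
    ∃ U : Subgroup GQ, U.Normal ∧ CC.lev.isOpen U ∧ U ≤ cstab act φ ∧
      (∀ σ ∈ U, ∀ x ∈ s, σ x = x) ∧ ∀ σ ∈ U, act σ = 1 := by
  classical
  haveI := Fermat.Agent.H51.isGalois_Qbar
  obtain ⟨E, hE, hEact⟩ := hact
  let S : Set Qb := Set.range φ ∪ s
  have hS : S.Finite := (Set.finite_range φ).union s.finite_toSet
  haveI : FiniteDimensional ℚ (IntermediateField.adjoin ℚ S) := by
    haveI : Finite S := hS
    apply IntermediateField.finiteDimensional_adjoin
    intro x _
    exact Algebra.IsIntegral.isIntegral x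
  obtain ⟨U, hUn, hUo, hU⟩ := CC.lev.nor
    (E ⊔ IntermediateField.adjoin ℚ S : IntermediateField ℚ Qb).fixingSubgroup
    ⟨_, inferInstance, le_rfl⟩
  have h1 : ∀ σ ∈ U, act σ = 1 := fun σ hσ =>
    hEact σ (IntermediateField.fixingSubgroup_antitone le_sup_left (hU hσ))
  have h2 : ∀ σ ∈ U, ∀ x ∈ S, σ x = x := by
    intro σ hσ x hx
    have h3 := IntermediateField.fixingSubgroup_antitone le_sup_right (hU hσ)
    rw [IntermediateField.mem_fixingSubgroup_iff] at h3
    exact h3 x (IntermediateField.subset_adjoin ℚ S hx)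
  refine ⟨U, hUn, hUo, fun σ hσ => ?_, fun σ hσ x hx => h2 σ hσ x (Or.inr hx), h1⟩
  rw [mem_cstab, cj_eq_self_iff]
  intro m
  rw [h1 σ hσ, h2 σ hσ (φ m) (Or.inl ⟨m, rfl⟩)]
  rfl

end Conj

section Span

variable {M : Type*} [AddCommGroup M] {act : GQ →* AddMonoid.End M}

/-- linear independence over `ℚ` of equivariant functions implies independence over `ℚ̄` -/
theorem linearIndependent_of_equiv {ι : Type*} {v : ι → M → Qb}
    (hv : ∀ i σ, cj act σ (v i) = v i) (h : LinearIndependent ℚ v) : LinearIndependent Qb v := by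
  classical
  rw [linearIndependent_iff']
  intro s
  induction s using Finset.induction_on with
  | empty => intro c _ i hi; exact absurd hi (Finset.notMem_empty i)
  | insert a s ha ih =>
    intro c hc
    by_cases hca : c a = 0
    · rw [Finset.sum_insert ha, hca, zero_smul, zero_add] at hc
      intro i hi
      rcases Finset.mem_insert.mp hi with rfl | hi
      · exact hca
      · exact ih c hc i hi
    · exfalso
      rw [Finset.sum_insert ha] at hc
      have h1 : v a + ∑ i ∈ s, (c i / c a) • v i = 0 := by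
        have h2 := congrArg (fun f => (c a)⁻¹ • f) hc
        simp only [smul_add, smul_zero, Finset.smul_sum, smul_smul] at h2
        rw [inv_mul_cancel₀ hca, one_smul] at h2
        rw [← h2]
        congr 1
        refine Finset.sum_congr rfl fun i _ => ?_
        rw [div_eq_inv_mul]
      have h3 : ∀ i ∈ s, ∀ σ : GQ, σ (c i / c a) = c i / c a := by
        intro i hi σ
        have h4 := congrArg (cj act σ) h1
        rw [cj_add, cj_sum, cj_zero, hv] at h4
        simp_rw [cj_smul, hv] at h4
        have h5 : ∑ i ∈ s, (σ (c i / c a) - c i / c a) • v i = 0 := by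
          simp_rw [sub_smul]
          rw [Finset.sum_sub_distrib]
          rw [← add_left_cancel_iff (a := v a), ← add_sub_assoc, h4, add_zero, zero_sub,
            ← sub_eq_zero, sub_eq_add_neg, ← neg_add, add_comm, h1, neg_zero]
        exact sub_eq_zero.mp (ih _ h5 i hi)
      have h6 : ∀ i, ∃ q : ℚ, i ∈ s → algebraMap ℚ Qb q = c i / c a := by
        intro i
        by_cases hi : i ∈ s
        · obtain ⟨q, hq⟩ := H51.rational_of_fixed (h3 i hi)
          exact ⟨q, fun _ => hq⟩
        · exact ⟨0, fun h => absurd h hi⟩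
      choose q hq using h6
      rw [linearIndependent_iff'] at h
      have h7 := h (insert a s) (fun i => if i = a then 1 else q i) (by
        rw [Finset.sum_insert ha, if_pos rfl, one_smul, ← h1]
        congr 1
        refine Finset.sum_congr rfl fun i hi => ?_
        rw [if_neg (by rintro rfl; exact ha hi), ← hq i hi]
        ext m
        rw [Pi.smul_apply, Pi.smul_apply, Algebra.smul_def, smul_eq_mul]) a
        (Finset.mem_insert_self a s)
      rw [if_pos rfl] at h7
      exact one_ne_zero h7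

/-- every embedding of a subfield extends to an automorphism -/
theorem exists_lift (E : IntermediateField ℚ Qb) (τ : E →ₐ[ℚ] Qb) :
    ∃ σ : GQ, ∀ x : E, σ (x : Qb) = τ x := by
  haveI := Fermat.Agent.H51.isGalois_Qbar
  haveI : Normal ℚ Qb := inferInstance
  let f : Qb →ₐ[ℚ] Qb := τ.liftNormal Qb
  have hf : ∀ x : E, f (x : Qb) = τ x := fun x => AlgHom.liftNormal_commutes τ Qb x
  have hb : Function.Bijective f := AlgHom.normal_bijective ℚ Qb Qb f
  exact ⟨AlgEquiv.ofBijective f hb, hf⟩

/-- **Galois descent**: equivariant functions span all functions. -/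
theorem span_equiv [Finite M] (hact : OpenKer act) :
    Submodule.span Qb {φ : M → Qb | ∀ σ, cj act σ φ = φ} = ⊤ := by
  classical
  have := Fintype.ofFinite M
  obtain ⟨E, hE, hEact⟩ := hact
  choose lift hlift using exists_lift E
  haveI : Fintype (E →ₐ[ℚ] Qb) := Fintype.ofFinite _
  have hag : ∀ σ τ : GQ, (∀ x : E, σ (x : Qb) = τ x) → act σ = act τ := by
    intro σ τ h
    have h1 : τ⁻¹ * σ ∈ E.fixingSubgroup := by
      rw [IntermediateField.mem_fixingSubgroup_iff]
      intro x hx
      change τ⁻¹ (σ x) = x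
      rw [h ⟨x, hx⟩]
      exact τ.symm_apply_apply x
    have h2 : act σ = act τ * act (τ⁻¹ * σ) := by rw [← map_mul, mul_inv_cancel_left]
    rw [h2, hEact _ h1, mul_one]
  let T : M → E → M → Qb := fun m e => ∑ τ : E →ₐ[ℚ] Qb, τ e • Pi.single (act (lift τ) m) 1
  have hT : ∀ m e σ, cj act σ (T m e) = T m e := by
    intro m e σ
    change cj act σ (∑ τ : E →ₐ[ℚ] Qb, τ e • Pi.single (act (lift τ) m) 1) = _
    rw [cj_sum]
    let ε : (E →ₐ[ℚ] Qb) ≃ (E →ₐ[ℚ] Qb) :=
      { toFun := fun τ => (σ : Qb →ₐ[ℚ] Qb).comp τ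
        invFun := fun τ => ((σ⁻¹ : GQ) : Qb →ₐ[ℚ] Qb).comp τ
        left_inv := fun τ => AlgHom.ext fun x => σ.symm_apply_apply (τ x)
        right_inv := fun τ => AlgHom.ext fun x => σ.apply_symm_apply (τ x) }
    refine Fintype.sum_equiv ε _ _ fun τ => ?_
    rw [cj_smul]
    have h1 : ε τ e = σ (τ e) := rfl
    rw [h1]
    congr 1
    have h2 : act (lift (ε τ)) = act (σ * lift τ) := by
      apply hag
      intro x
      rw [hlift]
      change σ (τ x) = σ (lift τ x)
      rw [hlift]
    rw [h2, act_mul]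
    ext x
    rw [cj_apply, Pi.single_apply, Pi.single_apply]
    by_cases hx : x = act σ (act (lift τ) m)
    · rw [if_pos hx, if_pos (by rw [hx, act_inv_act]), map_one]
    · rw [if_neg hx, if_neg (by
        intro h
        apply hx
        rw [← h, act_act_inv]), map_zero]
  by_contra hcon
  obtain ⟨f, hf0, hf⟩ := Submodule.exists_le_ker_of_lt_top _ (lt_top_iff_ne_top.mpr hcon)
  apply hf0
  apply LinearMap.pi_ext'
  intro m
  ext
  rw [LinearMap.comp_apply, LinearMap.zero_comp, LinearMap.zero_apply]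
  have h1 : ∀ e : E, ∑ τ : E →ₐ[ℚ] Qb, f (Pi.single (act (lift τ) m) 1) • τ e = 0 := by
    intro e
    have h2 : f (T m e) = 0 := by
      have := hf (Submodule.subset_span (show T m e ∈ {φ : M → Qb | ∀ σ, cj act σ φ = φ} from
        hT m e))
      exact this
    change f (∑ τ : E →ₐ[ℚ] Qb, τ e • Pi.single (act (lift τ) m) 1) = 0 at h2
    rw [map_sum] at h2
    rw [← h2]
    refine Finset.sum_congr rfl fun τ _ => ?_
    rw [map_smul, smul_eq_mul, smul_eq_mul, mul_comm]
  have h3 := Fintype.linearIndependent_iff.mp (linearIndependent_toLinearMap ℚ E Qb)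
    (fun τ => f (Pi.single (act (lift τ) m) 1)) (by
      ext e
      rw [LinearMap.sum_apply]
      exact h1 e) E.val
  have h4 : act (lift E.val) = act 1 := hag _ _ fun x => by rw [hlift]; rfl
  rw [h4, act_one] at h3
  exact h3

/-- a basis of the space of functions consisting of equivariant functions -/
theorem exists_basis_equiv [Finite M] (hact : OpenKer act) :
    ∃ (n : ℕ) (v : Module.Basis (Fin n) Qb (M → Qb)), ∀ i σ, cj act σ (v i) = v i := by
  classical
  have := Fintype.ofFinite M
  obtain ⟨b, hb, hspan, hli⟩ := exists_linearIndependent Qb {φ : M → Qb | ∀ σ, cj act σ φ = φ}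
  rw [span_equiv hact] at hspan
  let v : Module.Basis b Qb (M → Qb) := Module.Basis.mk hli (by
    rw [Subtype.range_coe, hspan])
  haveI : Finite b := Module.Finite.finite_basis v
  haveI := Fintype.ofFinite b
  let e : b ≃ Fin (Fintype.card b) := Fintype.equivFin b
  refine ⟨_, v.reindex e, fun i σ => ?_⟩
  rw [Module.Basis.reindex_apply, Module.Basis.mk_apply]
  exact hb (e.symm i).2 σ

end Span

end Fermat.Agent.H09
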