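import Mathlib
import Fermat.Agent.H09.DescA
import Fermat.Agent.H25.DecGen
import Fermat.Agent.H12.InertiaVal
import Fermat.Agent.H05_Cyclo

set_option autoImplicit false
set_option linter.style.haveILetI false
set_option linter.unusedSectionVars false

/-! Descent from the inertia group to the decomposition group. -/

noncomputable section

namespace Fermat.Agent.H09

open Fermat.Agent.H02F (Qb GQ LocalHopf)
open Fermat.Agent.H05 (exists_isFrobeniusAt)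
open scoped Pointwise

theorem isOpen_of_lev {N : Subgroup GQ} (h : CC.lev.isOpen N) : IsOpen (N : Set GQ) := by
  have hg := Fermat.Agent.H51.isGalois_Qbar
  obtain ⟨L, hL, hLN⟩ := h
  exact Subgroup.isOpen_mono hLN (IntermediateField.fixingSubgroup_isOpen L)

section Frob

variable {M : Type*} [AddCommGroup M] [Finite M] {act : GQ →* AddMonoid.End M}
  {A : ValuationSubring Qb} {ℓ : ℕ}

theorem frob_pow_root (hℓ : ℓ.Prime) (hA : A.LiesOverPrime ℓ) {F : GQ}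
    (hF : A.IsFrobeniusAt F ℓ) {n : ℕ} (hn : ¬ ℓ ∣ n) {ζ : Qb} (hζ : ζ ^ n = 1) (i : ℕ) :
    (F ^ i) ζ = ζ ^ ℓ ^ i := by
  induction i with
  | zero => rw [pow_zero, pow_zero, pow_one]; rfl
  | succ i ih =>
    rw [pow_succ', AlgEquiv.mul_apply, ih, map_pow,
      H05.IsFrobeniusAt.apply_rootOfUnity hℓ hA hn hF hζ, ← pow_mul, ← pow_succ']

/-- generation of decomposition groups -/
theorem dec_le_of (hℓ : ℓ.Prime) (hA : A.LiesOverPrime ℓ) {F : GQ}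
    (hF : A.IsFrobeniusAt F ℓ) {S U : Subgroup GQ} (hU : U.Normal) (hUo : CC.lev.isOpen U)
    (hUS : U ≤ S) (hFS : F ∈ S) (hIS : A.inertiaSubgroupIn ℚ ≤ S) :
    A.decompositionSubgroup ℚ ≤ S := by
  haveI := Fermat.Agent.H51.isGalois_Qbar
  intro d hd
  obtain ⟨n, h, hh, σ, hσ, e⟩ := H25.exists_decomp hℓ hA hF hd U (isOpen_of_lev hUo)
  rw [e]
  exact S.mul_mem (S.pow_mem hFS n) (S.mul_mem (hUS hh) (hIS hσ))

theorem inertia_conj_pow {F : GQ} (hF : F ∈ A.decompositionSubgroup ℚ) {τ : GQ}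
    (hτ : τ ∈ A.inertiaSubgroupIn ℚ) (i : ℕ) :
    (F ^ i)⁻¹ * τ * F ^ i ∈ A.inertiaSubgroupIn ℚ := by
  have h1 : F ^ i • A = A := (A.decompositionSubgroup ℚ).pow_mem hF i
  exact inertia_conj (A := A) (g := F ^ i) (σ := τ) (by rw [h1]; exact hτ)

theorem cj_mem {𝓗 : Subalgebra A (M → Qb)} (h : LocalHopf A act 𝓗) {σ : GQ}
    (hσ : σ ∈ A.decompositionSubgroup ℚ) {φ : M → Qb} (hφ : φ ∈ 𝓗) : cj act σ φ ∈ 𝓗 :=
  h.stab σ hσ φ hφ

theorem exists_geom_sum {n : ℕ} {w : Qb} (hw : w ^ n = 1) :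
    ∑ j ∈ Finset.range n, w ^ j = if w = 1 then (n : Qb) else 0 := by
  split_ifs with h
  · subst h; simp
  · have h1 := mul_geom_sum w n
    rw [hw, sub_self] at h1
    exact (mul_eq_zero.mp h1).resolve_left (sub_ne_zero.mpr h)

theorem inv_natCast_mem (hℓ : ℓ.Prime) (hA : A.LiesOverPrime ℓ) {n : ℕ} (hn : ¬ ℓ ∣ n) :
    (n : Qb)⁻¹ ∈ A := by
  have h1 := H05.natCast_not_mem_nonunits (c := (n : ℤ)) hℓ hA (by exact_mod_cast hn)
  rw [ValuationSubring.mem_nonunits_iff, not_lt] at h1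
  rw [← A.valuation_le_one_iff, map_inv₀]
  apply inv_le_one_of_one_le₀
  simpa using h1

theorem mem_span_dec (hact : OpenKer act) (hℓ : ℓ.Prime) (hA : A.LiesOverPrime ℓ)
    {𝓗 : Subalgebra A (M → Qb)} (h : LocalHopf A act 𝓗) {ψ : M → Qb} (hψ : ψ ∈ 𝓗)
    (hI : ∀ σ ∈ A.inertiaSubgroupIn ℚ, cj act σ ψ = ψ) :
    ψ ∈ Submodule.span A {χ : M → Qb | χ ∈ 𝓗 ∧
      ∀ σ ∈ A.decompositionSubgroup ℚ, cj act σ χ = χ} := by
  classical
  haveI := Fermat.Agent.H51.isGalois_Qbar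
  obtain ⟨F, hF⟩ := exists_isFrobeniusAt (L := Qb) hℓ hA
  have hFD : F ∈ A.decompositionSubgroup ℚ := hF.mem_decompositionSubgroup
  obtain ⟨U₁, -, hU₁o, hU₁, -, -⟩ := exists_normal_fix hact ψ ∅
  haveI := CC.lev.fin U₁ hU₁o
  obtain ⟨f, hf, -, hfU⟩ := Subgroup.exists_pow_mem_of_index_ne_zero
    (Subgroup.FiniteIndex.index_ne_zero (H := U₁)) F
  set n := ℓ ^ f - 1 with hn
  have h1f : 1 < ℓ ^ f := Nat.one_lt_pow hf.ne' hℓ.one_lt
  have hn0 : 0 < n := by omega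
  have hℓn : ¬ ℓ ∣ n := by
    intro hd
    have h2 : ℓ ∣ ℓ ^ f := dvd_pow_self ℓ hf.ne'
    have h3 : ℓ ∣ 1 := by
      have := Nat.dvd_sub h2 hd
      rwa [hn, Nat.sub_sub_self h1f.le] at this
    exact hℓ.one_lt.ne' (Nat.dvd_one.mp h3)
  haveI : NeZero (n : Qb) := ⟨by exact_mod_cast hn0.ne'⟩
  obtain ⟨ζ, hζ⟩ := HasEnoughRootsOfUnity.exists_primitiveRoot Qb n
  have hζn := hζ.pow_eq_one
  have hζ0 : ζ ≠ 0 := hζ.ne_zero hn0.ne'
  have hζA : ζ ∈ A := by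
    have hint : IsIntegral ℤ ζ := hζ.isIntegral hn0
    exact H05.mem_of_isIntegral A hint
  have hζiA : ζ⁻¹ ∈ A := by
    have hint : IsIntegral ℤ ζ⁻¹ := hζ.inv.isIntegral hn0
    exact H05.mem_of_isIntegral A hint
  obtain ⟨U, hUn, hUo, hUψ, hUζ, -⟩ := exists_normal_fix hact ψ {ζ}
  -- the averages
  set T : ℕ → M → Qb := fun j => ∑ i ∈ Finset.range f, cj act (F ^ i) (ζ ^ j • ψ) with hTdef
  have hζψ : ∀ j, ζ ^ j • ψ ∈ 𝓗 := by
    intro j
    have := 𝓗.smul_mem hψ (⟨ζ, hζA⟩ ^ j : A)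
    exact this
  have hT : ∀ j, T j ∈ 𝓗 := fun j => 𝓗.sum_mem fun i _ =>
    cj_mem h ((A.decompositionSubgroup ℚ).pow_mem hFD i) (hζψ j)
  -- `ζ ^ j ψ` is fixed by inertia, by `U` and by `F ^ f`
  have hfixI : ∀ j, ∀ τ ∈ A.inertiaSubgroupIn ℚ, cj act τ (ζ ^ j • ψ) = ζ ^ j • ψ := by
    intro j τ hτ
    rw [cj_smul, map_pow, H05.inertia_apply_rootOfUnity hℓ hA hℓn hτ hζn, hI τ hτ]
  have hfixU : ∀ j, ∀ τ ∈ U, cj act τ (ζ ^ j • ψ) = ζ ^ j • ψ := by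
    intro j τ hτ
    rw [cj_smul, map_pow, hUζ τ hτ ζ (Finset.mem_singleton_self ζ), (mem_cstab act).mp (hUψ hτ)]
  have hfixF : ∀ j, cj act (F ^ f) (ζ ^ j • ψ) = ζ ^ j • ψ := by
    intro j
    have h2 : ζ ^ ℓ ^ f = ζ := by
      have : ℓ ^ f = n + 1 := by omega
      rw [this, pow_succ, hζn, one_mul]
    rw [cj_smul, map_pow, frob_pow_root hℓ hA hF hℓn hζn, h2, (mem_cstab act).mp (hU₁ hfU)]
  have hTD : ∀ j, A.decompositionSubgroup ℚ ≤ cstab act (T j) := by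
    intro j
    refine dec_le_of hℓ hA hF hUn hUo ?_ ?_ ?_
    · intro τ hτ
      rw [mem_cstab, hTdef, cj_sum]
      refine Finset.sum_congr rfl fun i _ => ?_
      have e1 : τ * F ^ i = F ^ i * ((F ^ i)⁻¹ * τ * F ^ i) := by group
      rw [← cj_mul, e1, cj_mul, hfixU j]
      have := hUn.conj_mem τ hτ (F ^ i)⁻¹
      rwa [inv_inv] at this
    · rw [mem_cstab, hTdef, cj_sum]
      have e1 : ∀ i ∈ Finset.range f, cj act F (cj act (F ^ i) (ζ ^ j • ψ)) =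
          cj act (F ^ (i + 1)) (ζ ^ j • ψ) := by
        intro i _
        rw [← cj_mul, ← pow_succ']
      rw [Finset.sum_congr rfl e1]
      have e2 := Finset.sum_range_succ' (fun i => cj act (F ^ i) (ζ ^ j • ψ)) f
      have e3 := Finset.sum_range_succ (fun i => cj act (F ^ i) (ζ ^ j • ψ)) f
      rw [e2, hfixF, pow_zero, cj_one] at e3
      exact add_right_cancel e3
    · intro τ hτ
      rw [mem_cstab, hTdef, cj_sum]
      refine Finset.sum_congr rfl fun i _ => ?_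
      have e1 : τ * F ^ i = F ^ i * ((F ^ i)⁻¹ * τ * F ^ i) := by group
      rw [← cj_mul, e1, cj_mul, hfixI j]
      exact inertia_conj_pow hFD hτ i
  -- inversion
  have hnA : (n : Qb)⁻¹ ∈ A := inv_natCast_mem hℓ hA hℓn
  have key : ψ = ∑ j ∈ Finset.range n, ((n : Qb)⁻¹ * ζ⁻¹ ^ j) • T j := by
    have e1 : ∀ j ∈ Finset.range n, ((n : Qb)⁻¹ * ζ⁻¹ ^ j) • T j =
        ∑ i ∈ Finset.range f, ((n : Qb)⁻¹ * (ζ⁻¹ * ζ ^ ℓ ^ i) ^ j) • cj act (F ^ i) ψ := by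
      intro j _
      rw [hTdef, Finset.smul_sum]
      refine Finset.sum_congr rfl fun i _ => ?_
      rw [cj_smul, map_pow, frob_pow_root hℓ hA hF hℓn hζn, smul_smul, mul_pow, mul_assoc]
    rw [Finset.sum_congr rfl e1, Finset.sum_comm]
    have e2 : ∀ i ∈ Finset.range f, ∑ j ∈ Finset.range n,
        ((n : Qb)⁻¹ * (ζ⁻¹ * ζ ^ ℓ ^ i) ^ j) • cj act (F ^ i) ψ =
        if i = 0 then ψ else 0 := by
      intro i hi
      have hw : (ζ⁻¹ * ζ ^ ℓ ^ i) ^ n = 1 := by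
        rw [mul_pow, inv_pow, hζn, inv_one, one_mul, ← pow_mul, mul_comm, pow_mul, hζn, one_pow]
      rw [← Finset.sum_smul, ← Finset.mul_sum, exists_geom_sum hw]
      by_cases hi0 : i = 0
      · subst hi0
        rw [if_pos rfl, pow_zero, pow_zero, pow_one, inv_mul_cancel₀ hζ0, if_pos rfl,
          inv_mul_cancel₀ (NeZero.ne _), one_smul, cj_one]
      · rw [if_neg hi0, if_neg, mul_zero, zero_smul]
        intro hw1
        have h3 : ζ ^ ℓ ^ i = ζ := by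
          have := congrArg (fun t => ζ * t) hw1
          simp only [mul_one] at this
          rwa [mul_inv_cancel_left₀ hζ0] at this
        have h4 : 1 < ℓ ^ i := Nat.one_lt_pow hi0 hℓ.one_lt
        have h5 : ζ ^ (ℓ ^ i - 1) = 1 := by
          have h6 : ζ ^ (ℓ ^ i - 1) * ζ = 1 * ζ := by
            rw [← pow_succ, Nat.sub_add_cancel h4.le, h3, one_mul]
          exact mul_right_cancel₀ hζ0 h6
        have h7 := (hζ.pow_eq_one_iff_dvd _).mp h5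
        have h8 : ℓ ^ i < ℓ ^ f := Nat.pow_lt_pow_right hℓ.one_lt (Finset.mem_range.mp hi)
        have h9 := Nat.le_of_dvd (by omega) h7
        omega
    rw [Finset.sum_congr rfl e2, Finset.sum_ite_eq', if_pos (Finset.mem_range.mpr hf)]
  rw [key]
  refine Submodule.sum_mem _ fun j _ => ?_
  have hc : (n : Qb)⁻¹ * ζ⁻¹ ^ j ∈ A := A.mul_mem _ _ hnA (pow_mem hζiA j)
  exact Submodule.smul_mem _ (⟨_, hc⟩ : A) (Submodule.subset_span ⟨hT j, fun σ hσ =>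
    (mem_cstab act).mp (hTD j hσ)⟩)

end Frob

section Dense

variable {A : ValuationSubring Qb} {ℓ : ℕ}

/-- elements of `A` fixed by the decomposition group are congruent to integers modulo `ℓ` -/
theorem exists_int_step (hℓ : ℓ.Prime) (hA : A.LiesOverPrime ℓ) {x : Qb} (hx : x ∈ A)
    (hfix : ∀ σ ∈ A.decompositionSubgroup ℚ, σ x = x) :
    ∃ (r : ℤ) (y : Qb), y ∈ A ∧ (∀ σ ∈ A.decompositionSubgroup ℚ, σ y = y) ∧
      x = r + ℓ * y := by
  haveI := Fermat.Agent.H51.isGalois_Qbar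
  haveI : Fact ℓ.Prime := ⟨hℓ⟩
  obtain ⟨F, hF⟩ := exists_isFrobeniusAt (L := Qb) hℓ hA
  haveI := H05.charP_residueField hℓ hA
  obtain ⟨h1, h2⟩ := hF
  have h3 := h2 (IsLocalRing.residue A ⟨x, hx⟩)
  have h4 : (⟨F, h1⟩ : A.decompositionSubgroup ℚ) • IsLocalRing.residue A ⟨x, hx⟩ =
      IsLocalRing.residue A ⟨x, hx⟩ := by
    have h5 : (⟨F, h1⟩ : A.decompositionSubgroup ℚ) • (⟨x, hx⟩ : A) = ⟨x, hx⟩ :=
      Subtype.ext (hfix F h1)
    conv_rhs => rw [← h5]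
    rfl
  rw [h4] at h3
  have h6 : IsLocalRing.residue A ⟨x, hx⟩ ∈ (⊥ : Subfield (IsLocalRing.ResidueField A)) :=
    (Subfield.mem_bot_iff_pow_eq_self _ ℓ).mpr h3.symm
  obtain ⟨n, hn⟩ := (mem_bot_iff_intCast ℓ _).mp h6
  have h7 : (⟨x, hx⟩ - (n : A) : A) ∈ IsLocalRing.maximalIdeal A := by
    rw [← IsLocalRing.residue_eq_zero_iff, map_sub, map_intCast, hn, sub_self]
  rw [← ValuationSubring.coe_mem_nonunits_iff, ValuationSubring.mem_nonunits_iff] at h7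
  have h8 : (((⟨x, hx⟩ - (n : A) : A)) : Qb) = x - n := by push_cast; rfl
  rw [h8] at h7
  have hℓ0 : (ℓ : Qb) ≠ 0 := by exact_mod_cast hℓ.ne_zero
  have hℓA : A.valuation (ℓ : Qb) < 1 := by
    rw [← ValuationSubring.mem_nonunits_iff]; exact hA
  refine ⟨n, (x - n) / ℓ, ?_, ?_, ?_⟩
  · by_cases hz : x - n = 0
    · rw [hz, zero_div]; exact A.zero_mem
    · have hI : ∀ σ ∈ A.inertiaSubgroupIn ℚ, σ (x - n) = x - n := by
        intro σ hσ
        rw [map_sub, map_intCast, hfix σ ((mem_inertia_iff A σ).mp hσ).1]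
      obtain ⟨m, hm⟩ := H12.exists_valuation_eq_zpow hℓ hA (x - n) hz hI
      rw [hm] at h7
      have hm1 : 1 ≤ m := by
        by_contra hcon
        push Not at hcon
        have h9 : A.valuation (ℓ : Qb) ≠ 0 := (Valuation.ne_zero_iff _).mpr hℓ0
        have h10 : 1 ≤ A.valuation (ℓ : Qb) ^ m := by
          obtain ⟨k, hk⟩ : ∃ k : ℕ, m = -(k : ℤ) := ⟨(-m).toNat, by omega⟩
          rw [hk, zpow_neg, zpow_natCast]
          exact (one_le_inv₀ (pow_pos (zero_lt_iff.mpr h9) k)).mpr (pow_le_one₀ zero_le hℓA.le)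
        exact absurd h7 (not_lt.mpr h10)
      rw [← A.valuation_le_one_iff, map_div₀, hm]
      have h9 : 0 < A.valuation (ℓ : Qb) :=
        zero_lt_iff.mpr ((Valuation.ne_zero_iff _).mpr hℓ0)
      rw [div_le_one₀ h9]
      obtain ⟨k, hk⟩ : ∃ k : ℕ, m = (k : ℤ) + 1 := ⟨(m - 1).toNat, by omega⟩
      rw [hk, zpow_add₀ h9.ne', zpow_natCast, zpow_one]
      exact mul_le_of_le_one_left' (pow_le_one₀ zero_le hℓA.le)
  · intro σ hσ
    rw [map_div₀, map_sub, map_intCast, map_natCast, hfix σ hσ]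
  · field_simp
    ring

theorem exists_int_approx (hℓ : ℓ.Prime) (hA : A.LiesOverPrime ℓ) (K : ℕ) {x : Qb} (hx : x ∈ A)
    (hfix : ∀ σ ∈ A.decompositionSubgroup ℚ, σ x = x) :
    ∃ (r : ℤ) (y : Qb), y ∈ A ∧ x = r + (ℓ : Qb) ^ K * y := by
  have key : ∃ (r : ℤ) (y : Qb), y ∈ A ∧ (∀ σ ∈ A.decompositionSubgroup ℚ, σ y = y) ∧
      x = r + (ℓ : Qb) ^ K * y := by
    induction K with
    | zero => exact ⟨0, x, hx, hfix, by simp⟩
    | succ K ih =>
      obtain ⟨r, y, hy, hyf, e⟩ := ih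
      obtain ⟨r', y', hy', hyf', e'⟩ := exists_int_step hℓ hA hy hyf
      refine ⟨r + ℓ ^ K * r', y', hy', hyf', ?_⟩
      rw [e, e']
      push_cast
      ring
  obtain ⟨r, y, hy, -, e⟩ := key
  exact ⟨r, y, hy, e⟩

end Dense

end Fermat.Agent.H09
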