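import Mathlib
import Fermat.Agent.H09.DescB
import Fermat.Agent.Descent.Lattice

set_option autoImplicit false
set_option linter.style.haveILetI false
set_option linter.unusedSectionVars false

/-! Local descent of Hopf orders. -/

noncomputable section

namespace Fermat.Agent.H09

open Fermat.Agent.H02F (Qb GQ LocalHopf IsHopfOrder)
open Fermat.Agent.Igusa (Rl)
open scoped Pointwise

section Arch

variable {A : ValuationSubring Qb} {ℓ : ℕ}

theorem exists_pow_mul_mem (hℓ : ℓ.Prime) (hA : A.LiesOverPrime ℓ) (q : Qb) :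
    ∃ K : ℕ, (ℓ : Qb) ^ K * q ∈ A := by
  have halg : IsAlgebraic ℤ q :=
    (IsFractionRing.isAlgebraic_iff ℤ ℚ Qb).mpr (Algebra.IsAlgebraic.isAlgebraic _)
  obtain ⟨n, hn, hint⟩ := halg.exists_integral_multiple
  obtain ⟨K, m, hm, e⟩ := Nat.exists_eq_pow_mul_and_not_dvd (Int.natAbs_ne_zero.mpr hn) ℓ
    hℓ.ne_one
  refine ⟨K, ?_⟩
  have h1 : (n : Qb) * q ∈ A := by
    have := H05.mem_of_isIntegral A hint
    rwa [zsmul_eq_mul] at this
  have h2 : ((n.natAbs : ℕ) : Qb) * q ∈ A := by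
    rcases Int.natAbs_eq n with h | h
    · have h' : (n : Qb) = ((n.natAbs : ℕ) : Qb) := by
        conv_lhs => rw [h]
        rw [Int.cast_natCast]
      rwa [← h']
    · have h' : (n : Qb) = -((n.natAbs : ℕ) : Qb) := by
        conv_lhs => rw [h]
        rw [Int.cast_neg, Int.cast_natCast]
      rw [h', neg_mul] at h1
      have := A.neg_mem _ h1
      rwa [neg_neg] at this
  have hm0 : (m : Qb) ≠ 0 := by
    intro h
    apply hm
    have : m = 0 := by exact_mod_cast h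
    rw [this]; exact dvd_zero ℓ
  have h3 := A.mul_mem _ _ (inv_natCast_mem hℓ hA hm) h2
  rw [e] at h3
  push_cast at h3
  have e2 : (m : Qb)⁻¹ * ((ℓ : Qb) ^ K * m * q) = (ℓ : Qb) ^ K * q := by
    field_simp
  rwa [e2] at h3

theorem pow_mul_mem_mono {K K' : ℕ} (h : K ≤ K') {q : Qb} (hq : (ℓ : Qb) ^ K * q ∈ A) :
    (ℓ : Qb) ^ K' * q ∈ A := by
  obtain ⟨k, rfl⟩ := Nat.exists_eq_add_of_le h
  rw [pow_add, mul_comm ((ℓ : Qb) ^ K), mul_assoc]
  exact A.mul_mem _ _ (pow_mem (natCast_mem A ℓ) k) hq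

theorem exists_pow_mul_mem_fin (hℓ : ℓ.Prime) (hA : A.LiesOverPrime ℓ) {ι : Type*}
    [Finite ι] (q : ι → Qb) : ∃ K : ℕ, ∀ i, (ℓ : Qb) ^ K * q i ∈ A := by
  have := Fintype.ofFinite ι
  choose K hK using fun i => exists_pow_mul_mem hℓ hA (q i)
  exact ⟨Finset.univ.sup K, fun i => pow_mul_mem_mono (Finset.le_sup (Finset.mem_univ i)) (hK i)⟩

/-- `ℚ ∩ A = ℤ_(ℓ)` -/
theorem mem_Rl_of_mem (hℓ : ℓ.Prime) (hA : A.LiesOverPrime ℓ) {q : ℚ}
    (hq : algebraMap ℚ Qb q ∈ A) : q ∈ GaloisRep.ratLocalizedAt ℓ := by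
  haveI : Fact ℓ.Prime := ⟨hℓ⟩
  rw [Igusa.mem_Rl_iff]
  intro hd
  have hnum : ¬ (ℓ : ℤ) ∣ q.num := by
    intro h
    have h1 : ℓ ∣ q.num.natAbs := Int.natCast_dvd.mp h
    have h2 := Nat.dvd_gcd h1 hd
    rw [Nat.Coprime.gcd_eq_one q.reduced] at h2
    exact hℓ.one_lt.ne' (Nat.dvd_one.mp h2)
  apply H05.natCast_not_mem_nonunits (c := q.num) hℓ hA hnum
  obtain ⟨k, hk⟩ := hd
  have h3 : (q.num : Qb) = (ℓ : Qb) * ((k : Qb) * algebraMap ℚ Qb q) := by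
    have h4 : (q.num : ℚ) = ℓ * (k * q) := by
      have h5 := Rat.mul_den_eq_num q
      rw [hk] at h5
      push_cast at h5
      rw [← h5]; ring
    have h6 := congrArg (algebraMap ℚ Qb) h4
    simpa using h6
  rw [h3]
  have h4 : (k : Qb) * algebraMap ℚ Qb q ∈ A := A.mul_mem _ _ (natCast_mem A k) hq
  have h5 : (ℓ : Qb) ∈ A.nonunits := hA
  rw [ValuationSubring.mem_nonunits_iff] at h5 ⊢
  rw [map_mul]
  exact mul_lt_one_of_lt_of_le h5 ((A.valuation_le_one_iff _).mpr h4)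

theorem mem_of_mem_Rl (hℓ : ℓ.Prime) (hA : A.LiesOverPrime ℓ) {q : ℚ}
    (hq : q ∈ GaloisRep.ratLocalizedAt ℓ) : algebraMap ℚ Qb q ∈ A := by
  haveI : Fact ℓ.Prime := ⟨hℓ⟩
  rw [Igusa.mem_Rl_iff] at hq
  have h1 : algebraMap ℚ Qb q = (q.num : Qb) * ((q.den : ℕ) : Qb)⁻¹ := by
    conv_lhs => rw [← Rat.num_div_den q]
    rw [map_div₀, map_intCast, map_natCast, div_eq_mul_inv]
  rw [h1]
  exact A.mul_mem _ _ (intCast_mem A _) (inv_natCast_mem hℓ hA hq)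

end Arch

end Fermat.Agent.H09
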