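import Mathlib
import Fermat.Agent.TW.LHDef
import Fermat.Agent.H19.HopfG
import Fermat.Agent.H12.InertiaVal
import Fermat.Agent.H51.QbarGalois

set_option autoImplicit false
set_option linter.style.haveILetI false
set_option linter.unusedSectionVars false

/-! Hopf orders over a principal ideal domain of algebraic numbers fixed by a subgroup. -/

noncomputable section

namespace Fermat.Agent.H09.LHopf

open Fermat.Agent.H02F (Qb GQ IsHopfOrder)
open Fermat.Agent.TW (RI LH HasLH mem_RI)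

/-- `R` is a principal ideal domain whose fraction field is the fixed field of `Γ` -/
structure Base (R : Subring Qb) (Γ : Subgroup GQ) : Prop where
  pid : IsPrincipalIdealRing R
  fix : ∀ r ∈ R, ∀ σ ∈ Γ, σ r = r
  frac : ∀ x : Qb, (∀ σ ∈ Γ, σ x = x) → ∃ r ∈ R, r ≠ 0 ∧ r * x ∈ R

section Base

variable {A : ValuationSubring Qb} {p : ℕ}

theorem isUnit_RI_of_val {x : RI A} (h : A.valuation (x : Qb) = 1) : IsUnit x := by
  have hx : (x : Qb) ≠ 0 := by
    intro h0
    rw [h0, map_zero] at h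
    exact zero_ne_one h
  have hinv : (x : Qb)⁻¹ ∈ RI A := by
    rw [mem_RI]
    refine ⟨?_, fun σ hσ => ?_⟩
    · rw [← A.valuation_le_one_iff, map_inv₀, h, inv_one]
    · rw [map_inv₀, (mem_RI.mp x.2).2 σ hσ]
  exact ⟨⟨x, ⟨_, hinv⟩, Subtype.ext (mul_inv_cancel₀ hx), Subtype.ext (inv_mul_cancel₀ hx)⟩, rfl⟩

theorem val_of_isUnit {x : RI A} (h : IsUnit x) : A.valuation (x : Qb) = 1 := by
  obtain ⟨y, hy⟩ := h.exists_right_inv
  have h1 : A.valuation (x : Qb) * A.valuation (y : Qb) = 1 := by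
    rw [← map_mul]
    have : (x : Qb) * y = 1 := congrArg Subtype.val hy
    rw [this, map_one]
  have hx : A.valuation (x : Qb) ≤ 1 := (A.valuation_le_one_iff _).mpr (mem_RI.mp x.2).1
  have hy' : A.valuation (y : Qb) ≤ 1 := (A.valuation_le_one_iff _).mpr (mem_RI.mp y.2).1
  refine le_antisymm hx ?_
  rw [← h1]
  exact mul_le_of_le_one_right' hy'

theorem exists_zpow (hp : p.Prime) (hA : A.LiesOverPrime p) {z : Qb} (hz : z ≠ 0)
    (hfix : ∀ σ ∈ A.inertiaSubgroupIn ℚ, σ z = z) :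
    ∃ m : ℤ, A.valuation z = A.valuation (p : Qb) ^ m := by
  haveI := Fermat.Agent.H51.isGalois_Qbar
  exact H12.exists_valuation_eq_zpow hp hA z hz hfix

theorem val_p_lt (hA : A.LiesOverPrime p) : A.valuation (p : Qb) < 1 := by
  have h1 : ((p : ℕ) : Qb) ∈ A.nonunits := hA
  rwa [ValuationSubring.mem_nonunits_iff] at h1

theorem val_p_ne (hp : p.Prime) : A.valuation (p : Qb) ≠ 0 :=
  (Valuation.ne_zero_iff _).mpr (by exact_mod_cast hp.ne_zero)

theorem natCast_mem_RI (n : ℕ) : (n : Qb) ∈ RI A := natCast_mem (RI A) n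

/-- factorisation in `RI A` -/
theorem exists_factor (hp : p.Prime) (hA : A.LiesOverPrime p) {x : RI A} (hx : x ≠ 0) :
    ∃ n : ℕ, A.valuation (x : Qb) = A.valuation (p : Qb) ^ n ∧
      ∃ u : RI A, IsUnit u ∧ x = (p : RI A) ^ n * u := by
  have hx0 : (x : Qb) ≠ 0 := fun h => hx (Subtype.ext h)
  obtain ⟨m, hm⟩ := exists_zpow hp hA hx0 (mem_RI.mp x.2).2
  have hp0 : (p : Qb) ≠ 0 := by exact_mod_cast hp.ne_zero
  have hle : A.valuation (x : Qb) ≤ 1 := (A.valuation_le_one_iff _).mpr (mem_RI.mp x.2).1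
  have hm0 : 0 ≤ m := by
    rw [hm, ← zpow_zero (A.valuation (p : Qb)),
      zpow_le_zpow_iff_right_of_lt_one₀ (zero_lt_iff.mpr (val_p_ne hp)) (val_p_lt hA)] at hle
    exact hle
  obtain ⟨n, rfl⟩ := Int.eq_ofNat_of_zero_le hm0
  rw [zpow_natCast] at hm
  have hu : A.valuation ((x : Qb) / (p : Qb) ^ n) = 1 := by
    rw [map_div₀, map_pow, hm, div_self (pow_ne_zero n (val_p_ne hp))]
  have huR : (x : Qb) / (p : Qb) ^ n ∈ RI A := by
    rw [mem_RI]
    refine ⟨(A.valuation_le_one_iff _).mp hu.le, fun σ hσ => ?_⟩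
    rw [map_div₀, map_pow, map_natCast, (mem_RI.mp x.2).2 σ hσ]
  refine ⟨n, hm, ⟨_, huR⟩, isUnit_RI_of_val hu, Subtype.ext ?_⟩
  push_cast
  field_simp

theorem isPID_RI (hp : p.Prime) (hA : A.LiesOverPrime p) : IsPrincipalIdealRing (RI A) := by
  have hpv : A.valuation (((p : RI A) : RI A) : Qb) = A.valuation (p : Qb) := by push_cast; rfl
  have hdvr : IsDiscreteValuationRing (RI A) := by
    apply IsDiscreteValuationRing.ofHasUnitMulPowIrreducibleFactorization
    refine ⟨(p : RI A), ⟨?_, ?_⟩, fun {x} hx => ?_⟩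
    · intro h
      have h1 := val_of_isUnit h
      rw [hpv] at h1
      exact absurd h1 (val_p_lt hA).ne
    · intro a b hab
      have hp0 : (p : RI A) ≠ 0 := by
        intro h0
        have : ((p : RI A) : Qb) = 0 := by rw [h0]; rfl
        push_cast at this
        exact hp.ne_zero (by exact_mod_cast this)
      have ha0 : a ≠ 0 := by rintro rfl; rw [zero_mul] at hab; exact hp0 hab
      have hb0 : b ≠ 0 := by rintro rfl; rw [mul_zero] at hab; exact hp0 hab
      obtain ⟨n, hn, u, hu, ea⟩ := exists_factor hp hA ha0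
      obtain ⟨m, hm, u', hu', eb⟩ := exists_factor hp hA hb0
      have h1 : A.valuation (p : Qb) ^ 1 = A.valuation (p : Qb) ^ (n + m) := by
        have h2 := congrArg (fun z : RI A => A.valuation (z : Qb)) hab
        simp only [Subring.coe_mul, map_mul, hpv, hn, hm] at h2
        rw [pow_one, pow_add]; exact h2
      have h2 : 1 = n + m := by
        have h3 := zpow_right_injective₀ (zero_lt_iff.mpr (val_p_ne hp)) (val_p_lt hA).ne
          (a₁ := ((1 : ℕ) : ℤ)) (a₂ := ((n + m : ℕ) : ℤ)) (by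
            change A.valuation (p : Qb) ^ ((1 : ℕ) : ℤ) = A.valuation (p : Qb) ^ ((n + m : ℕ) : ℤ)
            rw [zpow_natCast, zpow_natCast]; exact h1)
        exact_mod_cast h3
      have h4 : n = 0 ∨ m = 0 := by omega
      rcases h4 with h4 | h4
      · left; rw [ea, h4, pow_zero, one_mul]; exact hu
      · right; rw [eb, h4, pow_zero, one_mul]; exact hu'
    · obtain ⟨n, -, u, hu, e⟩ := exists_factor hp hA hx
      exact ⟨n, hu.unit, e.symm⟩
  infer_instance

theorem base_RI (hp : p.Prime) (hA : A.LiesOverPrime p) : Base (RI A) (A.inertiaSubgroupIn ℚ) where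
  pid := isPID_RI hp hA
  fix r hr σ hσ := (mem_RI.mp hr).2 σ hσ
  frac x hx := by
    by_cases hx0 : x = 0
    · exact ⟨1, (RI A).one_mem, one_ne_zero, by rw [hx0, mul_zero]; exact (RI A).zero_mem⟩
    obtain ⟨m, hm⟩ := exists_zpow hp hA hx0 hx
    have hp0 : (p : Qb) ≠ 0 := by exact_mod_cast hp.ne_zero
    refine ⟨(p : Qb) ^ m.natAbs, (RI A).pow_mem (natCast_mem_RI p) _, pow_ne_zero _ hp0, ?_⟩
    rw [mem_RI]
    refine ⟨?_, fun σ hσ => ?_⟩
    · rw [← A.valuation_le_one_iff, map_mul, map_pow, hm, ← zpow_natCast,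
        ← zpow_add₀ (val_p_ne hp), ← zpow_zero (A.valuation (p : Qb)),
        zpow_le_zpow_iff_right_of_lt_one₀ (zero_lt_iff.mpr (val_p_ne hp)) (val_p_lt hA)]
      omega
    · rw [map_mul, map_pow, map_natCast, hx σ hσ]

end Base

end Fermat.Agent.H09.LHopf
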