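import Mathlib
import Fermat.Agent.H09.LHA

set_option autoImplicit false
set_option linter.style.haveILetI false
set_option linter.unusedSectionVars false

/-! Generic Hopf orders: independence, basis, closure properties. -/

noncomputable section

namespace Fermat.Agent.H09.LHopf

open Fermat.Agent.H02F (Qb GQ IsHopfOrder)
open Fermat.Agent.TW (RI LH HasLH mem_RI)

/-- generic Hopf orders -/
structure GH (R : Subring Qb) (Γ : Subgroup GQ) {M : Type*} [AddCommGroup M]
    (act : Γ →* AddMonoid.End M) (H : Subalgebra R (M → Qb)) : Prop where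
  fg : (Subalgebra.toSubmodule H).FG
  equiv : ∀ φ ∈ H, ∀ (σ : Γ) (m : M), φ (act σ m) = (σ : GQ) (φ m)
  sep : ∀ x y : M, x ≠ y → ∃ φ ∈ H, φ x ≠ φ y
  comul : ∀ φ ∈ H, ∃ (n : ℕ) (a b : Fin n → M → Qb), (∀ i, a i ∈ H) ∧ (∀ i, b i ∈ H) ∧
    ∀ x y, φ (x + y) = ∑ i, a i x * b i y

variable {R : Subring Qb} {Γ : Subgroup GQ} (hB : Base R Γ)
variable {M : Type*} [AddCommGroup M] {act : Γ →* AddMonoid.End M}

theorem smul_apply' (r : R) (φ : M → Qb) (m : M) : (r • φ) m = (r : Qb) * φ m := rfl

theorem gact_inv_act (σ : Γ) (m : M) : act σ (act σ⁻¹ m) = m := by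
  have : act σ (act σ⁻¹ m) = (act σ * act σ⁻¹) m := rfl
  rw [this, ← map_mul, mul_inv_cancel, map_one]
  rfl

theorem gact_act_inv (σ : Γ) (m : M) : act σ⁻¹ (act σ m) = m := by
  have : act σ⁻¹ (act σ m) = (act σ⁻¹ * act σ) m := rfl
  rw [this, ← map_mul, inv_mul_cancel, map_one]
  rfl

variable (act) in
/-- equivariant functions -/
def GEq (φ : M → Qb) : Prop := ∀ (σ : Γ) (m : M), φ (act σ m) = (σ : GQ) (φ m)

include hB in
theorem glinInd {ι : Type*} {v : ι → M → Qb} (hv : ∀ i, GEq act (v i))
    (h : LinearIndependent R v) : LinearIndependent Qb v := by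
  classical
  rw [linearIndependent_iff']
  intro s
  induction s using Finset.induction_on with
  | empty => intro c _ i hi; exact absurd hi (Finset.notMem_empty i)
  | insert a s ha ih =>
    intro c hc
    by_cases hca : c a = 0
    · rw [Finset.sum_insert ha, hca, zero_smul, zero_add] at hc
      intro i hi
      rcases Finset.mem_insert.mp hi with rfl | hi
      · exact hca
      · exact ih c hc i hi
    · exfalso
      rw [Finset.sum_insert ha] at hc
      have h1 : v a + ∑ i ∈ s, (c i / c a) • v i = 0 := by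
        have h2 := congrArg (fun f => (c a)⁻¹ • f) hc
        simp only [smul_add, smul_zero, Finset.smul_sum, smul_smul] at h2
        rw [inv_mul_cancel₀ hca, one_smul] at h2
        rw [← h2]
        congr 1
        refine Finset.sum_congr rfl fun i _ => ?_
        rw [div_eq_inv_mul]
      have h3 : ∀ i ∈ s, ∀ σ ∈ Γ, σ (c i / c a) = c i / c a := by
        intro i hi σ hσ
        have h4 : v a + ∑ i ∈ s, σ (c i / c a) • v i = 0 := by
          funext m
          have h5 := congrArg σ (congrFun h1 (act ⟨σ, hσ⟩⁻¹ m))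
          rw [Pi.add_apply, map_add, Finset.sum_apply, map_sum, Pi.zero_apply, map_zero] at h5
          rw [Pi.add_apply, Finset.sum_apply, Pi.zero_apply, ← h5]
          have h6 : ∀ i, σ (v i (act ⟨σ, hσ⟩⁻¹ m)) = v i m := by
            intro i
            have := hv i ⟨σ, hσ⟩ (act ⟨σ, hσ⟩⁻¹ m)
            rw [gact_inv_act] at this
            exact this.symm
          rw [h6]
          congr 1
          refine Finset.sum_congr rfl fun i _ => ?_
          rw [Pi.smul_apply, Pi.smul_apply, smul_eq_mul, smul_eq_mul, map_mul, h6]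
        have h5 : ∑ i ∈ s, (σ (c i / c a) - c i / c a) • v i = 0 := by
          simp_rw [sub_smul]
          rw [Finset.sum_sub_distrib, sub_eq_zero]
          exact add_left_cancel (h4.trans h1.symm)
        exact sub_eq_zero.mp (ih _ h5 i hi)
      have h6 : ∀ i, ∃ r : R, r ≠ 0 ∧ (i ∈ s → ∃ q : R, (q : Qb) = r * (c i / c a)) := by
        intro i
        by_cases hi : i ∈ s
        · obtain ⟨r, hr, hr0, hrx⟩ := hB.frac _ (h3 i hi)
          exact ⟨⟨r, hr⟩, fun h => hr0 (congrArg Subtype.val h), fun _ => ⟨⟨_, hrx⟩, rfl⟩⟩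
        · exact ⟨1, one_ne_zero, fun h => absurd h hi⟩
      choose r hr0 hr using h6
      have h7 : ∀ i, ∃ q : R, i ∈ s → (q : Qb) = (∏ j ∈ s, r j : R) * (c i / c a) := by
        intro i
        by_cases hi : i ∈ s
        · obtain ⟨q, hq⟩ := hr i hi
          refine ⟨(∏ j ∈ s.erase i, r j) * q, fun _ => ?_⟩
          rw [← Finset.prod_erase_mul s _ hi, Subring.coe_mul, Subring.coe_mul, hq, mul_assoc]
        · exact ⟨0, fun h => absurd h hi⟩
      choose q hq using h7
      rw [linearIndependent_iff'] at h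
      have h8 := h (insert a s) (fun i => if i = a then ∏ j ∈ s, r j else q i) (by
        rw [Finset.sum_insert ha, if_pos rfl]
        funext m
        have h9 := congrArg (fun z => ((∏ j ∈ s, r j : R) : Qb) * z) (congrFun h1 m)
        rw [Pi.add_apply, Finset.sum_apply, Pi.zero_apply] at h9
        simp only [mul_zero] at h9
        rw [Pi.add_apply, Finset.sum_apply, Pi.zero_apply, ← h9, mul_add, Finset.mul_sum,
          smul_apply']
        congr 1
        refine Finset.sum_congr rfl fun i hi => ?_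
        rw [if_neg (by rintro rfl; exact ha hi), smul_apply', hq i hi, Pi.smul_apply, smul_eq_mul,
          mul_assoc]) a (Finset.mem_insert_self a s)
      rw [if_pos rfl] at h8
      exact Finset.prod_ne_zero_iff.mpr (fun j _ => hr0 j) h8

section Lattice

variable {H : Subalgebra R (M → Qb)} (hH : GH R Γ act H)

theorem gtorsionFree : Module.IsTorsionFree R (M → Qb) := by
  refine Module.IsTorsionFree.of_smul_eq_zero fun r φ h => ?_
  by_cases hr : r = 0
  · exact Or.inl hr
  · right
    funext m
    have h1 := congrFun h m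
    rw [smul_apply', Pi.zero_apply] at h1
    refine (mul_eq_zero.mp h1).resolve_left fun h2 => hr (Subtype.ext h2)

theorem gtorsionFreeH (H : Subalgebra R (M → Qb)) : Module.IsTorsionFree R H := by
  have := gtorsionFree (R := R) (M := M)
  exact Function.Injective.moduleIsTorsionFree (R := R) (fun φ : H => φ.1)
    Subtype.val_injective (fun _ _ => rfl)

include hH in
theorem gfinite : Module.Finite R H := Module.Finite.iff_fg.mpr hH.fg

include hB hH in
theorem gfree : Module.Free R H := by
  have := hB.pid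
  have := gfinite hH
  have := gtorsionFreeH H
  exact Module.free_of_finite_type_torsion_free'

/-- a basis of `H` -/
def gbasis : Module.Basis (Fin (Module.finrank R H)) R H :=
  letI := gfinite hH
  letI := gfree hB hH
  Module.finBasis R H

theorem glinInd_basis : LinearIndependent Qb (fun i => (gbasis hB hH i : M → Qb)) := by
  apply glinInd hB (fun i => hH.equiv _ (gbasis hB hH i).2)
  exact (gbasis hB hH).linearIndependent.map' (Subalgebra.toSubmodule H).subtype
    (Submodule.ker_subtype _)

variable [Finite M]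

/-- `H` is a lattice in all functions -/
def gbasisQb : Module.Basis (Fin (Module.finrank R H)) Qb (M → Qb) :=
  Module.Basis.mk (glinInd_basis hB hH) (by
    rw [← H19.span_eq_top H hH.sep, Submodule.span_le]
    intro φ hφ
    have h1 : (⟨φ, hφ⟩ : H) ∈ Submodule.span R (Set.range (gbasis hB hH)) := by
      rw [(gbasis hB hH).span_eq]; trivial
    have h2 : φ ∈ Submodule.map (Subalgebra.toSubmodule H).subtype
        (Submodule.span R (Set.range (gbasis hB hH))) := ⟨_, h1, rfl⟩
    rw [Submodule.map_span, ← Set.range_comp] at h2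
    exact Submodule.span_le_restrictScalars R Qb _ h2)

@[simp] theorem gbasisQb_apply (i) : gbasisQb hB hH i = (gbasis hB hH i : M → Qb) := by
  simp [gbasisQb]

include hB hH in
theorem gexists_smul_mem {φ : M → Qb} (hφ : GEq act φ) : ∃ r : R, r ≠ 0 ∧ r • φ ∈ H := by
  classical
  set B := gbasisQb hB hH with hBdef
  have hrep : ∑ i, B.repr φ i • (gbasis hB hH i : M → Qb) = φ := by
    conv_rhs => rw [← B.sum_repr φ]
    refine Finset.sum_congr rfl fun i _ => ?_
    rw [hBdef, gbasisQb_apply]
  have hfix : ∀ i, ∀ σ ∈ Γ, σ (B.repr φ i) = B.repr φ i := by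
    intro i σ hσ
    have h6 : ∀ i m, σ ((gbasis hB hH i : M → Qb) (act ⟨σ, hσ⟩⁻¹ m)) =
        (gbasis hB hH i : M → Qb) m := by
      intro i m
      have := hH.equiv _ (gbasis hB hH i).2 ⟨σ, hσ⟩ (act ⟨σ, hσ⟩⁻¹ m)
      rw [gact_inv_act] at this
      exact this.symm
    have h1 : ∑ i, σ (B.repr φ i) • (gbasis hB hH i : M → Qb) = φ := by
      funext m
      have h2 := congrArg σ (congrFun hrep (act ⟨σ, hσ⟩⁻¹ m))
      have h3 : σ (φ (act ⟨σ, hσ⟩⁻¹ m)) = φ m := by
        have := hφ ⟨σ, hσ⟩ (act ⟨σ, hσ⟩⁻¹ m)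
        rw [gact_inv_act] at this
        exact this.symm
      rw [Finset.sum_apply, map_sum, h3] at h2
      rw [← h2, Finset.sum_apply]
      refine Finset.sum_congr rfl fun i _ => ?_
      rw [Pi.smul_apply, Pi.smul_apply, smul_eq_mul, smul_eq_mul, map_mul, h6]
    have h3 : ∑ i, (σ (B.repr φ i) - B.repr φ i) • (gbasis hB hH i : M → Qb) = 0 := by
      simp_rw [sub_smul, Finset.sum_sub_distrib]
      rw [h1, hrep, sub_self]
    exact sub_eq_zero.mp (Fintype.linearIndependent_iff.mp (glinInd_basis hB hH) _ h3 i)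
  choose r hr hr0 hrx using fun i => hB.frac _ (hfix i)
  refine ⟨∏ i, ⟨r i, hr i⟩, Finset.prod_ne_zero_iff.mpr fun i _ h0 =>
    hr0 i (congrArg Subtype.val h0), ?_⟩
  have h4 : (∏ i, (⟨r i, hr i⟩ : R)) • φ =
      ∑ i, ((∏ j ∈ Finset.univ.erase i, (⟨r j, hr j⟩ : R)) * ⟨_, hrx i⟩) •
        (gbasis hB hH i : M → Qb) := by
    funext m
    conv_lhs => rw [← hrep]
    rw [smul_apply', Finset.sum_apply, Finset.sum_apply, Finset.mul_sum]
    refine Finset.sum_congr rfl fun i _ => ?_
    rw [smul_apply', Pi.smul_apply, smul_eq_mul,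
      ← Finset.prod_erase_mul Finset.univ _ (Finset.mem_univ i), Subring.coe_mul, Subring.coe_mul]
    ring
  rw [h4]
  exact H.sum_mem fun i _ => H.smul_mem (gbasis hB hH i).2 _

end Lattice

end Fermat.Agent.H09.LHopf
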