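import Mathlib
import Fermat.Agent.H09.LHB

set_option autoImplicit false
set_option linter.style.haveILetI false
set_option linter.unusedSectionVars false

/-! Generic Hopf orders: submodules, quotients, extension of scalars. -/

noncomputable section

namespace Fermat.Agent.H09.LHopf

open Fermat.Agent.H02F (Qb GQ IsHopfOrder)
open Fermat.Agent.TW (RI LH HasLH mem_RI)

variable {R : Subring Qb} {Γ : Subgroup GQ} (hB : Base R Γ)

/-- pullback of functions -/
def gpull (R : Subring Qb) {M M' : Type*} (p : M' → M) : (M → Qb) →ₐ[R] (M' → Qb) :=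
  AlgHom.pi (fun m : M' => Pi.evalAlgHom R (fun _ : M => Qb) (p m))

@[simp] theorem gpull_apply {M M' : Type*} (p : M' → M) (φ : M → Qb) (m : M') :
    gpull R p φ m = φ (p m) := rfl

section Inj

variable {M : Type*} [AddCommGroup M] {act : Γ →* AddMonoid.End M}
  {H : Subalgebra R (M → Qb)} (hH : GH R Γ act H)
  {M' : Type*} [AddCommGroup M'] {act' : Γ →* AddMonoid.End M'}

include hH in
/-- submodules -/
theorem GH.map (p : M' →+ M) (hp : ∀ σ m, p (act' σ m) = act σ (p m))
    (hinj : Function.Injective p) : GH R Γ act' (H.map (gpull R p)) where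
  fg := by
    rw [Subalgebra.map_toSubmodule]
    exact hH.fg.map _
  equiv := by
    rintro _ ⟨φ, hφ, rfl⟩ σ m
    change φ (p (act' σ m)) = (σ : GQ) (φ (p m))
    rw [hp, hH.equiv φ hφ]
  sep := by
    intro x y hxy
    obtain ⟨φ, hφ, hne⟩ := hH.sep (p x) (p y) (fun h => hxy (hinj h))
    exact ⟨gpull R p φ, ⟨φ, hφ, rfl⟩, hne⟩
  comul := by
    rintro _ ⟨φ, hφ, rfl⟩
    obtain ⟨n, a, b, ha, hb, hab⟩ := hH.comul φ hφ
    refine ⟨n, fun i => gpull R p (a i), fun i => gpull R p (b i),
      fun i => ⟨a i, ha i, rfl⟩, fun i => ⟨b i, hb i, rfl⟩, fun x y => ?_⟩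
    change φ (p (x + y)) = ∑ i, a i (p x) * b i (p y)
    rw [map_add]
    exact hab (p x) (p y)

end Inj

section Surj

variable {M : Type*} [AddCommGroup M] [Finite M] {act : Γ →* AddMonoid.End M}
  {H : Subalgebra R (M → Qb)} (hH : GH R Γ act H)
  {M₂ : Type*} [AddCommGroup M₂] [Finite M₂] {act₂ : Γ →* AddMonoid.End M₂}
  (π : M →+ M₂) (hπ : ∀ σ m, π (act σ m) = act₂ σ (π m)) (hsurj : Function.Surjective π)

include hH hπ hsurj in
/-- trace along the fibres of `π` -/
theorem gexists_trace {x y : M₂} (hxy : x ≠ y) :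
    ∃ ψ : M₂ → Qb, GEq act₂ ψ ∧ ψ x ≠ ψ y := by
  classical
  have := Fintype.ofFinite M
  let tr : (M → Qb) →ₗ[Qb] (M₂ → Qb) :=
    { toFun := fun φ z => ∑ m : M, if π m = z then φ m else 0
      map_add' := fun φ ψ => by
        funext z
        simp only [Pi.add_apply]
        rw [← Finset.sum_add_distrib]
        refine Finset.sum_congr rfl fun m _ => ?_
        split_ifs <;> simp
      map_smul' := fun c φ => by
        funext z
        simp only [Pi.smul_apply, RingHom.id_apply, smul_eq_mul]
        rw [Finset.mul_sum]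
        refine Finset.sum_congr rfl fun m _ => ?_
        split_ifs <;> simp }
  have htr : ∀ φ z, tr φ z = ∑ m : M, if π m = z then φ m else 0 := fun _ _ => rfl
  by_contra hcon
  push Not at hcon
  have heq : ∀ φ ∈ H, GEq act₂ (tr φ) := by
    intro φ hφ σ z
    let e : M ≃ M :=
      { toFun := act σ
        invFun := act σ⁻¹
        left_inv := gact_act_inv σ
        right_inv := gact_inv_act σ }
    rw [htr, htr, map_sum, ← Equiv.sum_comp e]
    refine Finset.sum_congr rfl fun m _ => ?_
    change (if π (act σ m) = act₂ σ z then φ (act σ m) else 0) = _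
    rw [hπ, hH.equiv φ hφ]
    have : act₂ σ (π m) = act₂ σ z ↔ π m = z := by
      constructor
      · intro h
        have := congrArg (act₂ σ⁻¹) h
        rwa [gact_act_inv, gact_act_inv] at this
      · intro h; rw [h]
    by_cases h : π m = z
    · rw [if_pos h, if_pos (this.mpr h)]
    · rw [if_neg h, if_neg (fun h' => h (this.mp h')), map_zero]
  have hzero : ∀ φ ∈ H, tr φ x = tr φ y := fun φ hφ => hcon _ (heq φ hφ)
  have hall : ∀ φ : M → Qb, tr φ x = tr φ y := by
    intro φ
    have hmem : φ ∈ Submodule.span Qb (H : Set (M → Qb)) := by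
      rw [H19.span_eq_top H hH.sep]; trivial
    induction hmem using Submodule.span_induction with
    | mem φ hφ => exact hzero φ hφ
    | zero => simp
    | add φ ψ _ _ h1 h2 => rw [map_add, Pi.add_apply, Pi.add_apply, h1, h2]
    | smul c φ _ h1 => rw [map_smul, Pi.smul_apply, Pi.smul_apply, h1]
  obtain ⟨m₀, hm₀⟩ := hsurj x
  have h1 := hall (Pi.single m₀ 1)
  rw [htr, htr] at h1
  rw [Finset.sum_eq_single m₀, Finset.sum_eq_zero] at h1
  · rw [if_pos hm₀, Pi.single_eq_same] at h1
    exact one_ne_zero h1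
  · intro m _
    by_cases h : m = m₀
    · rw [h, if_neg]
      rw [hm₀]; exact hxy
    · rw [Pi.single_eq_of_ne h]; simp
  · intro m _ hm
    rw [Pi.single_eq_of_ne hm]; simp
  · intro h; exact absurd (Finset.mem_univ _) h

include hB hH hsurj in
theorem gfg_comap : (Subalgebra.toSubmodule (H.comap (gpull R π))).FG := by
  have hpid := hB.pid
  have hfin := gfinite hH
  have hN : IsNoetherian R H := inferInstance
  let f : H.comap (gpull R π) →ₗ[R] H :=
    { toFun := fun ψ => ⟨gpull R π ψ.1, ψ.2⟩
      map_add' := fun _ _ => rfl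
      map_smul' := fun _ _ => rfl }
  have hinj : Function.Injective f := by
    intro a b h
    apply Subtype.ext
    funext z
    obtain ⟨m, rfl⟩ := hsurj z
    exact congrFun (congrArg Subtype.val h) m
  have : Module.Finite R (H.comap (gpull R π)) := Module.Finite.of_injective f hinj
  exact Module.Finite.iff_fg.mp this

include hB hH hπ hsurj in
theorem gsep_comap {x y : M₂} (hxy : x ≠ y) : ∃ ψ ∈ H.comap (gpull R π), ψ x ≠ ψ y := by
  obtain ⟨ψ, hψ, hne⟩ := gexists_trace hH π hπ hsurj hxy
  have hψ' : GEq act (gpull R π ψ) := by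
    intro σ m
    rw [gpull_apply, gpull_apply, hπ, hψ]
  obtain ⟨r, hr, hmem⟩ := gexists_smul_mem hB hH hψ'
  refine ⟨r • ψ, ?_, ?_⟩
  · change gpull R π (r • ψ) ∈ H
    rw [map_smul]
    exact hmem
  · intro h
    apply hne
    rw [smul_apply', smul_apply'] at h
    exact mul_left_cancel₀ (fun h0 => hr (Subtype.ext h0)) h

/-- the submodule of `H` of functions constant on the fibres -/
def GW (H : Subalgebra R (M → Qb)) : Submodule R H where
  carrier := {φ | ∃ ψ : M₂ → Qb, φ.1 = gpull R π ψ}
  add_mem' := by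
    rintro a b ⟨α, hα⟩ ⟨β, hβ⟩
    exact ⟨α + β, by rw [map_add, ← hα, ← hβ]; rfl⟩
  zero_mem' := ⟨0, by rw [map_zero]; rfl⟩
  smul_mem' := by
    rintro c a ⟨α, hα⟩
    exact ⟨c • α, by rw [map_smul, ← hα]; rfl⟩

include hB hH in
theorem gexists_retraction : ∃ P : H →ₗ[R] H, (∀ φ, P φ ∈ GW π H) ∧
    ∀ φ ∈ GW π H, P φ = φ := by
  have hpid := hB.pid
  have hfin := gfinite hH
  have htf : Module.IsTorsionFree R (H ⧸ GW π H) := by
    refine Module.IsTorsionFree.of_smul_eq_zero fun r q h => ?_
    obtain ⟨φ, rfl⟩ := Submodule.Quotient.mk_surjective _ q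
    by_cases hr : r = 0
    · exact Or.inl hr
    · right
      rw [← Submodule.Quotient.mk_smul, Submodule.Quotient.mk_eq_zero] at h
      rw [Submodule.Quotient.mk_eq_zero]
      obtain ⟨ψ, hψ⟩ := h
      have hr' : (r : Qb) ≠ 0 := fun h0 => hr (Subtype.ext h0)
      refine ⟨(r : Qb)⁻¹ • ψ, ?_⟩
      funext m
      have h1 := congrFun hψ m
      change (r : Qb) * φ.1 m = ψ (π m) at h1
      change φ.1 m = (r : Qb)⁻¹ * ψ (π m)
      rw [← h1, inv_mul_cancel_left₀ hr']
  have hfree : Module.Free R (H ⧸ GW π H) := Module.free_of_finite_type_torsion_free'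
  obtain ⟨s, hs⟩ := Module.projective_lifting_property (GW π H).mkQ LinearMap.id
    (Submodule.mkQ_surjective _)
  refine ⟨LinearMap.id - s.comp (GW π H).mkQ, fun φ => ?_, fun φ hφ => ?_⟩
  · rw [← Submodule.Quotient.mk_eq_zero, ← Submodule.mkQ_apply]
    have h1 := LinearMap.congr_fun hs ((GW π H).mkQ φ)
    rw [LinearMap.sub_apply, map_sub]
    change (GW π H).mkQ φ - (GW π H).mkQ (s ((GW π H).mkQ φ)) = 0
    change (GW π H).mkQ (s ((GW π H).mkQ φ)) = (GW π H).mkQ φ at h1
    rw [h1, sub_self]
  · have h1 : (GW π H).mkQ φ = 0 := by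
      rw [Submodule.mkQ_apply, Submodule.Quotient.mk_eq_zero]
      exact hφ
    change φ - s ((GW π H).mkQ φ) = φ
    rw [h1, map_zero, sub_zero]

include hB hH hπ hsurj in
/-- quotients -/
theorem GH.comap : GH R Γ act₂ (H.comap (gpull R π)) := by
  classical
  refine ⟨gfg_comap hB hH π hsurj, ?_, fun x y hxy => gsep_comap hB hH π hπ hsurj hxy, ?_⟩
  · intro ψ hψ σ z
    obtain ⟨m, rfl⟩ := hsurj z
    rw [← hπ]
    exact hH.equiv _ hψ σ m
  · intro ψ hψ
    obtain ⟨P, hP, hPid⟩ := gexists_retraction hB hH π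
    let PQ : (M → Qb) →ₗ[Qb] (M → Qb) :=
      (gbasisQb hB hH).constr Qb (fun i => (P (gbasis hB hH i)).1)
    have hPQ : ∀ φ : H, PQ φ.1 = (P φ).1 := by
      have h1 : (PQ.restrictScalars R).comp (Subalgebra.toSubmodule H).subtype =
          (Subalgebra.toSubmodule H).subtype.comp P := by
        refine (gbasis hB hH).ext fun i => ?_
        change PQ (gbasis hB hH i).1 = (P (gbasis hB hH i)).1
        rw [← gbasisQb_apply, Module.Basis.constr_basis]
      exact fun φ => LinearMap.congr_fun h1 φ
    have hfix : ∀ χ : M₂ → Qb, PQ (gpull R π χ) = gpull R π χ := by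
      intro χ
      have hmem : χ ∈ Submodule.span Qb (H.comap (gpull R π) : Set (M₂ → Qb)) := by
        rw [H19.span_eq_top _ (fun x y hxy => gsep_comap hB hH π hπ hsurj hxy)]; trivial
      induction hmem using Submodule.span_induction with
      | mem χ hχ =>
        have h1 := hPid ⟨gpull R π χ, hχ⟩ ⟨χ, rfl⟩
        exact (hPQ ⟨gpull R π χ, hχ⟩).trans (congrArg Subtype.val h1)
      | zero => rw [map_zero, map_zero]
      | add a b _ _ h1 h2 => rw [map_add, map_add, h1, h2]
      | smul c a _ h1 =>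
        have : gpull R π (c • a) = c • gpull R π a := rfl
        rw [this, map_smul, h1]
    obtain ⟨n, a, b, ha, hb, hab'⟩ := hH.comul _ hψ
    have hab : ∀ x y : M, ψ (π (x + y)) = ∑ i, a i x * b i y := hab'
    have s1 : ∀ x y : M, ψ (π x + π y) = ∑ i, (P ⟨a i, ha i⟩).1 x * b i y := by
      intro x y
      have h1 : ∑ i, b i y • a i = gpull R π (fun z => ψ (z + π y)) := by
        funext x
        rw [Finset.sum_apply]
        have := hab x y
        rw [map_add] at this
        rw [gpull_apply, this]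
        exact Finset.sum_congr rfl fun i _ => mul_comm _ _
      have h2 := hfix (fun z => ψ (z + π y))
      rw [← h1, map_sum] at h2
      have h3 := congrFun h2 x
      rw [h1, gpull_apply, Finset.sum_apply] at h3
      rw [← h3]
      refine Finset.sum_congr rfl fun i _ => ?_
      rw [map_smul, Pi.smul_apply, smul_eq_mul, mul_comm, ← hPQ ⟨a i, ha i⟩]
    have s2 : ∀ x y : M, ψ (π x + π y) = ∑ i, (P ⟨a i, ha i⟩).1 x * (P ⟨b i, hb i⟩).1 y := by
      intro x y
      have h1 : ∑ i, (P ⟨a i, ha i⟩).1 x • b i = gpull R π (fun z => ψ (π x + z)) := by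
        funext y
        rw [Finset.sum_apply, gpull_apply, s1 x y]
        rfl
      have h2 := hfix (fun z => ψ (π x + z))
      rw [← h1, map_sum] at h2
      have h3 := congrFun h2 y
      rw [h1, gpull_apply, Finset.sum_apply] at h3
      rw [← h3]
      refine Finset.sum_congr rfl fun i _ => ?_
      rw [map_smul, Pi.smul_apply, smul_eq_mul, ← hPQ ⟨b i, hb i⟩]
    choose α hα using fun i => hP ⟨a i, ha i⟩
    choose β hβ using fun i => hP ⟨b i, hb i⟩
    refine ⟨n, α, β, fun i => ?_, fun i => ?_, fun x y => ?_⟩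
    · change gpull R π (α i) ∈ H
      rw [← hα i]
      exact (P ⟨a i, ha i⟩).2
    · change gpull R π (β i) ∈ H
      rw [← hβ i]
      exact (P ⟨b i, hb i⟩).2
    · obtain ⟨x, rfl⟩ := hsurj x
      obtain ⟨y, rfl⟩ := hsurj y
      rw [s2]
      refine Finset.sum_congr rfl fun i _ => ?_
      rw [hα i, hβ i]
      rfl

end Surj

section Ext

variable {ℓ : ℕ} {M : Type*} [AddCommGroup M] {act : GQ →* AddMonoid.End M}
  {H : Subalgebra (GaloisRep.ratLocalizedAt ℓ) (M → Qb)}

/-- finite sums of products of functions in two variables -/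
def tens {R : Subring Qb} (H : Set (M → Qb)) : Submodule R (M → M → Qb) :=
  Submodule.span R {f | ∃ a ∈ H, ∃ b ∈ H, f = fun x y => a x * b y}

theorem exists_of_mem_tens {R : Subring Qb} {H : Subalgebra R (M → Qb)} {f : M → M → Qb}
    (hf : f ∈ tens (R := R) (H : Set (M → Qb))) :
    ∃ (n : ℕ) (a b : Fin n → M → Qb), (∀ i, a i ∈ H) ∧ (∀ i, b i ∈ H) ∧
      ∀ x y, f x y = ∑ i, a i x * b i y := by
  obtain ⟨n, c, g, rfl⟩ := (Submodule.mem_span_set' ..).mp hf
  choose a ha b hb hab using fun i => (g i).2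
  refine ⟨n, fun i => c i • a i, b, fun i => H.smul_mem (ha i) _, hb, fun x y => ?_⟩
  rw [Finset.sum_apply, Finset.sum_apply]
  refine Finset.sum_congr rfl fun i _ => ?_
  rw [hab i]
  change (c i : Qb) * (a i x * b i y) = (c i : Qb) * a i x * b i y
  ring

/-- extension of scalars of a Hopf order over `ℤ_(ℓ)` -/
theorem GH.of_isHopfOrder (hH : IsHopfOrder ℓ act H) (R : Subring Qb) (Γ : Subgroup GQ)
    (hfix : ∀ r ∈ R, ∀ σ ∈ Γ, σ r = r)
    (hR : ∀ q ∈ GaloisRep.ratLocalizedAt ℓ, algebraMap ℚ Qb q ∈ R) :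
    GH R Γ (act.comp Γ.subtype) (Algebra.adjoin R (H : Set (M → Qb))) := by
  classical
  set K := Algebra.adjoin R (H : Set (M → Qb)) with hK
  have hle : ∀ φ ∈ H, φ ∈ K := fun φ hφ => Algebra.subset_adjoin hφ
  have hspan : Subalgebra.toSubmodule K = Submodule.span R (H : Set (M → Qb)) := by
    rw [hK, Algebra.adjoin_eq_span]
    congr 1
    exact congrArg (fun s : Submonoid (M → Qb) => (s : Set (M → Qb)))
      (Submonoid.closure_eq H.toSubmonoid)
  have hmem : ∀ {φ : M → Qb}, φ ∈ K ↔ φ ∈ Submodule.span R (H : Set (M → Qb)) := by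
    intro φ
    rw [← hspan]; rfl
  refine ⟨?_, ?_, ?_, ?_⟩
  · obtain ⟨s, hs⟩ := hH.fg
    refine ⟨s, ?_⟩
    rw [hspan]
    apply le_antisymm
    · apply Submodule.span_mono
      intro φ hφ
      have : φ ∈ Subalgebra.toSubmodule H := by
        rw [← hs]; exact Submodule.subset_span hφ
      exact this
    · rw [Submodule.span_le]
      intro φ hφ
      have h1 : φ ∈ Submodule.span (GaloisRep.ratLocalizedAt ℓ) (s : Set (M → Qb)) := by
        rw [hs]; exact hφ
      clear hφ
      induction h1 using Submodule.span_induction with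
      | mem x hx => exact Submodule.subset_span hx
      | zero => exact Submodule.zero_mem _
      | add x y _ _ hx hy => exact Submodule.add_mem _ hx hy
      | smul c x _ hx =>
        have : c • x = (⟨algebraMap ℚ Qb (c : ℚ), hR _ c.2⟩ : R) • x := by
          funext m
          rw [smul_apply', Pi.smul_apply, Algebra.smul_def]
          rfl
        rw [SetLike.mem_coe, this]
        exact Submodule.smul_mem _ _ hx
  · intro φ hφ σ m
    have h1 := hmem.mp hφ
    clear hφ
    induction h1 using Submodule.span_induction with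
    | mem x hx => exact hH.equiv x hx σ m
    | zero => rw [Pi.zero_apply, Pi.zero_apply, map_zero]
    | add x y _ _ hx hy => rw [Pi.add_apply, Pi.add_apply, hx, hy, map_add]
    | smul c x _ hx =>
      rw [smul_apply', smul_apply', hx, map_mul, hfix _ c.2 _ σ.2]
  · intro x y hxy
    obtain ⟨φ, hφ, hne⟩ := hH.sep x y hxy
    exact ⟨φ, hle φ hφ, hne⟩
  · intro φ hφ
    apply exists_of_mem_tens
      (f := fun x y => φ (x + y))
    have h1 := hmem.mp hφ
    clear hφ
    induction h1 using Submodule.span_induction with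
    | mem x hx =>
      obtain ⟨n, a, b, ha, hb, hab⟩ := hH.comul x hx
      have : (fun u v => x (u + v)) = ∑ i, fun u v => a i u * b i v := by
        funext u v
        rw [hab, Finset.sum_apply, Finset.sum_apply]
      rw [this]
      exact Submodule.sum_mem _ fun i _ => Submodule.subset_span
        ⟨a i, hle _ (ha i), b i, hle _ (hb i), rfl⟩
    | zero => exact Submodule.zero_mem _
    | add x y _ _ hx hy => exact Submodule.add_mem _ hx hy
    | smul c x _ hx => exact Submodule.smul_mem _ c hx

end Ext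

end Fermat.Agent.H09.LHopf
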