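import Mathlib
import Fermat.Agent.H09.LHC
import Fermat.Agent.H09.DescC

set_option autoImplicit false
set_option linter.style.haveILetI false
set_option linter.unusedSectionVars false

/-! Hopf orders over the inertia ring: closure properties. -/

noncomputable section

namespace Fermat.Agent.H09.LHopf

open Fermat.Agent.H02F (Qb GQ IsHopfOrder)
open Fermat.Agent.TW (RI LH HasLH mem_RI)

section

variable {A : ValuationSubring Qb} {p : ℕ} {M : Type*} [AddCommGroup M]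

theorem lh_iff {act : A.inertiaSubgroupIn ℚ →* AddMonoid.End M}
    {H : Subalgebra (RI A) (M → Qb)} : LH A act H ↔ GH (RI A) (A.inertiaSubgroupIn ℚ) act H :=
  ⟨fun h => ⟨h.fg, h.equiv, h.sep, h.comul⟩, fun h => ⟨h.fg, h.equiv, h.sep, h.comul⟩⟩

/-- (L1) -/
theorem hasLH_of_isHopfOrder (hp : p.Prime) (hA : A.LiesOverPrime p)
    {act : GQ →* AddMonoid.End M} {H : Subalgebra (GaloisRep.ratLocalizedAt p) (M → Qb)}
    (hH : IsHopfOrder p act H) : HasLH A (act.comp (A.inertiaSubgroupIn ℚ).subtype) := by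
  refine ⟨_, lh_iff.mpr (GH.of_isHopfOrder hH (RI A) _ (base_RI hp hA).fix fun q hq => ?_)⟩
  exact mem_RI.mpr ⟨mem_of_mem_Rl hp hA hq, fun σ _ => σ.commutes q⟩

theorem hasLH_of_isHopfOrder' (hp : p.Prime) (hA : A.LiesOverPrime p)
    {act : GQ →* AddMonoid.End M} {H : Subalgebra (GaloisRep.ratLocalizedAt p) (M → Qb)}
    (hH : IsHopfOrder p act H) {act' : A.inertiaSubgroupIn ℚ →* AddMonoid.End M}
    (hact : ∀ (σ : A.inertiaSubgroupIn ℚ) (m : M), act' σ m = act (σ : GQ) m) :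
    HasLH A act' := by
  have h1 : act' = act.comp (A.inertiaSubgroupIn ℚ).subtype := by
    ext σ m
    exact hact σ m
  rw [h1]
  exact hasLH_of_isHopfOrder hp hA hH

/-- (L2) -/
theorem hasLH_of_injective {act : A.inertiaSubgroupIn ℚ →* AddMonoid.End M}
    (h : HasLH A act) {M₁ : Type*} [AddCommGroup M₁]
    {act₁ : A.inertiaSubgroupIn ℚ →* AddMonoid.End M₁} (i : M₁ →+ M)
    (hi : ∀ σ m, i (act₁ σ m) = act σ (i m)) (hinj : Function.Injective i) : HasLH A act₁ := by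
  obtain ⟨H, hH⟩ := h
  exact ⟨_, lh_iff.mpr ((lh_iff.mp hH).map i hi hinj)⟩

/-- (L3) -/
theorem hasLH_of_surjective (hp : p.Prime) (hA : A.LiesOverPrime p) [Finite M]
    {act : A.inertiaSubgroupIn ℚ →* AddMonoid.End M}
    (h : HasLH A act) {M₂ : Type*} [AddCommGroup M₂]
    {act₂ : A.inertiaSubgroupIn ℚ →* AddMonoid.End M₂} (π : M →+ M₂)
    (hπ : ∀ σ m, π (act σ m) = act₂ σ (π m)) (hsurj : Function.Surjective π) :
    HasLH A act₂ := by
  have : Finite M₂ := Finite.of_surjective π hsurj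
  obtain ⟨H, hH⟩ := h
  exact ⟨_, lh_iff.mpr ((lh_iff.mp hH).comap (base_RI hp hA) π hπ hsurj)⟩

/-- (L2), with the relation between the two orders -/
theorem exists_lh_injective {act : A.inertiaSubgroupIn ℚ →* AddMonoid.End M}
    {H : Subalgebra (RI A) (M → Qb)} (hH : LH A act H) {M₁ : Type*} [AddCommGroup M₁]
    {act₁ : A.inertiaSubgroupIn ℚ →* AddMonoid.End M₁} (i : M₁ →+ M)
    (hi : ∀ σ m, i (act₁ σ m) = act σ (i m)) (hinj : Function.Injective i) :
    ∃ H₁ : Subalgebra (RI A) (M₁ → Qb), LH A act₁ H₁ ∧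
      ∀ ψ : M₁ → Qb, ψ ∈ H₁ ↔ ∃ φ ∈ H, ψ = fun x => φ (i x) := by
  refine ⟨_, lh_iff.mpr ((lh_iff.mp hH).map i hi hinj), fun ψ => ?_⟩
  constructor
  · rintro ⟨φ, hφ, rfl⟩
    exact ⟨φ, hφ, rfl⟩
  · rintro ⟨φ, hφ, rfl⟩
    exact ⟨φ, hφ, rfl⟩

/-- (L3), with the relation between the two orders -/
theorem exists_lh_surjective (hp : p.Prime) (hA : A.LiesOverPrime p) [Finite M]
    {act : A.inertiaSubgroupIn ℚ →* AddMonoid.End M}
    {H : Subalgebra (RI A) (M → Qb)} (hH : LH A act H) {M₂ : Type*} [AddCommGroup M₂]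
    {act₂ : A.inertiaSubgroupIn ℚ →* AddMonoid.End M₂} (π : M →+ M₂)
    (hπ : ∀ σ m, π (act σ m) = act₂ σ (π m)) (hsurj : Function.Surjective π) :
    ∃ H₂ : Subalgebra (RI A) (M₂ → Qb), LH A act₂ H₂ ∧
      ∀ ψ : M₂ → Qb, ψ ∈ H₂ ↔ (fun x => ψ (π x)) ∈ H := by
  have : Finite M₂ := Finite.of_surjective π hsurj
  exact ⟨_, lh_iff.mpr ((lh_iff.mp hH).comap (base_RI hp hA) π hπ hsurj), fun _ => Iff.rfl⟩

/-- subquotients -/
theorem hasLH_of_subquotient (hp : p.Prime) (hA : A.LiesOverPrime p) [Finite M]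
    {act : A.inertiaSubgroupIn ℚ →* AddMonoid.End M}
    (h : HasLH A act) {M₁ M₂ : Type*} [AddCommGroup M₁] [AddCommGroup M₂]
    {act₁ : A.inertiaSubgroupIn ℚ →* AddMonoid.End M₁}
    {act₂ : A.inertiaSubgroupIn ℚ →* AddMonoid.End M₂}
    (i : M₁ →+ M) (hi : ∀ σ m, i (act₁ σ m) = act σ (i m)) (hinj : Function.Injective i)
    (π : M₁ →+ M₂) (hπ : ∀ σ m, π (act₁ σ m) = act₂ σ (π m)) (hsurj : Function.Surjective π) :
    HasLH A act₂ := by
  have : Finite M₁ := Finite.of_injective i hinj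
  exact hasLH_of_surjective hp hA (hasLH_of_injective h i hi hinj) π hπ hsurj

end

end Fermat.Agent.H09.LHopf
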