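import Mathlib
import Fermat.Agent.TFin.TanSub
import Fermat.Agent.TFin.CokerSys
import Fermat.Agent.TFin.LiftFIn
import Fermat.Agent.H02M.StT3

/-!
# Local conditions for the step at `p`
-/

set_option autoImplicit false
set_option linter.unusedSectionVars false
set_option linter.style.haveILetI false

noncomputable section

namespace Fermat.Agent.H09.MH

open Fermat.Agent.TC Fermat.Agent.TW Fermat.Agent.CC Fermat.Agent.H25.GE Fermat.Agent.H25.TR
open Fermat.Agent.H25 Fermat.Agent.H25.PR Fermat.Agent.H25.PT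
open Fermat.Agent.H25.SB Fermat.Agent.H25.GD Fermat.Agent.TFin
open Fermat.Agent.H04 (DN M2)
open Fermat.Agent.H25.St (UQ StT OrdD)
open IsLocalRing Matrix

section Reindex

variable {O k : Type} [CommRing O] [IsLocalRing O] [IsNoetherianRing O]
    [IsAdicComplete (maximalIdeal O) O] [Field k] [Finite k] {D : RD O k}
    {S : Finset Nat.Primes} {bad : Finset ℕ} {κ : Type} [Finite κ] [Nonempty κ]
    {H : κ → CData D S bad} {hbar : HBar D S} {r : ℕ} {𝒯 𝒯' : Type}

/-- reindexing of the conditional Selmer bound -/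
theorem selBQ_reindex {tv : 𝒯 → Nat.Primes} {Q : (AR H hbar → k) → Prop}
    (h : SelBQ H hbar r tv Q) (e : 𝒯' ≃ 𝒯) : SelBQ H hbar r (fun t => tv (e t)) Q := by
  obtain ⟨Sel, hf, h1, h2⟩ := h
  refine ⟨Sel, hf, fun d hd hQ hT => h1 d hd hQ fun q => ?_, ?_⟩
  · obtain ⟨q, rfl⟩ := e.surjective q
    exact hT q
  · have h3 : Nat.card (∀ q : 𝒯', H0 ((plv (tv (e q)) (tv (e q)).2).decompositionSubgroup ℚ)
        (Ad0 D.rbar (1 : GQ →* k))) = Nat.card (∀ q : 𝒯,
        H0 ((plv (tv q) (tv q).2).decompositionSubgroup ℚ) (Ad0 D.rbar (1 : GQ →* k))) :=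
      Nat.card_congr (Equiv.piCongrLeft (fun q : 𝒯 =>
        H0 ((plv (tv q) (tv q).2).decompositionSubgroup ℚ) (Ad0 D.rbar (1 : GQ →* k))) e)
    rw [h3]
    exact h2

/-- reindexing of the Selmer bound -/
theorem selB_reindex {tv : 𝒯 → Nat.Primes} (h : SelB H hbar r tv) (e : 𝒯' ≃ 𝒯) :
    SelB H hbar r (fun t => tv (e t)) := by
  obtain ⟨Sel, hf, h1, h2⟩ := h
  refine ⟨Sel, hf, fun d hd hT => h1 d hd fun q => ?_, ?_⟩
  · obtain ⟨q, rfl⟩ := e.surjective q
    exact hT q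
  · have h3 : Nat.card (∀ q : 𝒯', H0 ((plv (tv (e q)) (tv (e q)).2).decompositionSubgroup ℚ)
        (Ad0 D.rbar (1 : GQ →* k))) = Nat.card (∀ q : 𝒯,
        H0 ((plv (tv q) (tv q).2).decompositionSubgroup ℚ) (Ad0 D.rbar (1 : GQ →* k))) :=
      Nat.card_congr (Equiv.piCongrLeft (fun q : 𝒯 =>
        H0 ((plv (tv q) (tv q).2).decompositionSubgroup ℚ) (Ad0 D.rbar (1 : GQ →* k))) e)
    rw [h3]
    exact h2

/-- an enumeration of a finite set of primes -/
def enumEquiv {m : ℕ} {tv : Fin m → Nat.Primes} {T : Finset Nat.Primes}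
    (hinj : Function.Injective tv) (hT : ∀ q, q ∈ T ↔ ∃ t, tv t = q) : Fin m ≃ T :=
  Equiv.ofBijective (fun t => ⟨tv t, (hT _).mpr ⟨t, rfl⟩⟩)
    ⟨fun _ _ h => hinj (congrArg Subtype.val h), fun ⟨q, hq⟩ => by
      obtain ⟨t, ht⟩ := (hT q).mp hq
      exact ⟨t, Subtype.ext ht⟩⟩

theorem enumEquiv_apply {m : ℕ} {tv : Fin m → Nat.Primes} {T : Finset Nat.Primes}
    (hinj : Function.Injective tv) (hT : ∀ q, q ∈ T ↔ ∃ t, tv t = q) (t : Fin m) :
    ((enumEquiv hinj hT t : T) : Nat.Primes) = tv t := rfl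

theorem selB_enum {m : ℕ} {tv : Fin m → Nat.Primes} {T : Finset Nat.Primes}
    (hinj : Function.Injective tv) (hT : ∀ q, q ∈ T ↔ ∃ t, tv t = q)
    (h : SelB H hbar r (fun t : T => (t : Nat.Primes))) : SelB H hbar r tv :=
  selB_reindex h (enumEquiv hinj hT)

theorem selBQ_enum {m : ℕ} {tv : Fin m → Nat.Primes} {T : Finset Nat.Primes}
    {Q : (AR H hbar → k) → Prop}
    (hinj : Function.Injective tv) (hT : ∀ q, q ∈ T ↔ ∃ t, tv t = q)
    (h : SelBQ H hbar r (fun t : T => (t : Nat.Primes)) Q) : SelBQ H hbar r tv Q :=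
  selBQ_reindex h (enumEquiv hinj hT)

/-- weakening the condition -/
theorem selBQ_mono {tv : 𝒯 → Nat.Primes} {Q Q' : (AR H hbar → k) → Prop}
    (h : SelBQ H hbar r tv Q)
    (hQ : ∀ d : AR H hbar → k, IsDer O (CA H hbar).resB d → Q' d → Q d) :
    SelBQ H hbar r tv Q' := by
  obtain ⟨Sel, hf, h1, h2⟩ := h
  exact ⟨Sel, hf, fun d hd hQ' hT => h1 d hd (hQ d hd hQ') hT, h2⟩

/-- affine change of the element killed by the derivations -/
theorem selBQ_affine {tv : 𝒯 → Nat.Primes} {z : AR H hbar}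
    (h : SelBQ H hbar r tv (fun d => d z = 0)) {u l : O} (hu : IsUnit u) :
    SelBQ H hbar r tv (fun d => d (algebraMap O _ u * z - algebraMap O _ l) = 0) := by
  refine selBQ_mono h fun d hd h0 => ?_
  have h1 : d (algebraMap O _ u * z - algebraMap O _ l) = D.res u * d z := by
    rw [sub_eq_add_neg, ← map_neg, hd.add, hd.const, hd.mul, hd.const]
    simp only [mul_zero, add_zero, Comp.res_comp]
  rw [h1] at h0
  rcases mul_eq_zero.mp h0 with h2 | h2
  · exact absurd h2 (hu.map D.res).ne_zero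
  · exact h2

end Reindex

end Fermat.Agent.H09.MH
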