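import Mathlib
import Fermat.Agent.H09.MH1
import Fermat.Agent.H22.NewTop

/-!
# Local conditions for the step at `p`, at the levels of type `Γ₀`
-/

set_option autoImplicit false
set_option linter.unusedSectionVars false
set_option linter.style.haveILetI false

noncomputable section

namespace Fermat.Agent.H09.MH

open Fermat.Agent.TC Fermat.Agent.TW Fermat.Agent.CC Fermat.Agent.H25.GE Fermat.Agent.H25.TR
open Fermat.Agent.H25 Fermat.Agent.H25.PR Fermat.Agent.H25.PT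
open Fermat.Agent.H25.SB Fermat.Agent.H25.GD Fermat.Agent.TFin Fermat.Agent.H22
open Fermat.Agent.H04 (DN M2)
open Fermat.Agent.H25.St (UQ StT OrdD)
open IsLocalRing Matrix

section Sel

variable {O : Type} [CommRing O] [IsLocalRing O] [IsNoetherianRing O]
    [IsAdicComplete (maximalIdeal O) O] [Finite (ResidueField O)] {D : RD O (ResidueField O)}
    {p : ℕ} {pp : Nat.Primes} {S T S' : Finset Nat.Primes} {r : ℕ} {qv : Fin r → Nat.Primes}
    {κ : Type} [Finite κ] [Nonempty κ] {bad : Finset ℕ}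

theorem selM_strict (hm : SelM D p pp S T r qv) (hS' : S' = S ∪ Finset.univ.image qv)
    (H : κ → CData D S' bad) (hbar : HBar D S')
    (hun : ∀ q ∈ S, q ∉ T → q ≠ pp → ∀ i x, ∀ τ ∈ (plv q q.2).inertiaSubgroupIn ℚ,
        (H i).t x τ = 2)
    (hst : ∀ (d : AR H hbar → ResidueField O) (hd : IsDer O (CA H hbar).resB d),
          StrictC p (plv pp pp.2) (sHom hd (CA H hbar).rho)) :
    SelB H hbar r (fun t : T => (t : Nat.Primes)) := by
  subst hS'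
  exact hm.strict κ bad H hbar hun hst

theorem selM_root (hm : SelM D p pp S T r qv) (hS' : S' = S ∪ Finset.univ.image qv)
    (H : κ → CData D S' bad) (hbar : HBar D S')
    (hun : ∀ q ∈ S, q ∉ T → q ≠ pp → ∀ i x, ∀ τ ∈ (plv q q.2).inertiaSubgroupIn ℚ,
        (H i).t x τ = 2)
    (hfl : ∀ i, FlT p O ((H i).C hbar).t) {Q Q' : Mt (ResidueField O)}
    (hB : BData (plv pp pp.2) D.rbar Q Q') {φ σ₀ : GQ} (hφ : (plv pp pp.2).IsFrobeniusAt φ p)
    (hσ₀ : σ₀ ∈ (plv pp pp.2).inertiaSubgroupIn ℚ) (hu : IsUnit (D.chi σ₀ - 1)) :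
    SelBQ H hbar r (fun t : T => (t : Nat.Primes)) (fun d => d (zEl H hbar φ σ₀) = 0) := by
  subst hS'
  exact hm.root κ bad H hbar hun hfl Q Q' hB φ σ₀ hφ hσ₀ hu

variable [Fact p.Prime] [CharP (ResidueField O) p]

/-- strict ordinarity of the points gives the strict condition for the derivations -/
theorem strictC_of_points (hp2 : p ≠ 2) (hpp : (pp : ℕ) = p) (hchi : IsCyc p D.chi)
    {psi : GQ → ℤ} (ho : OrdD D (plv pp pp.2) psi) (H : κ → CData D S' bad) (hbar : HBar D S')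
    (h : ∀ i x, StT (plv pp pp.2) D.chi psi ((H i).t x))
    (d : AR H hbar → ResidueField O) (hd : IsDer O (CA H hbar).resB d) :
    StrictC p (plv pp pp.2) (sHom hd (CA H hbar).rho) := by
  have hA : (plv pp pp.2).LiesOverPrime p := hpp ▸ plv_over pp pp.2
  exact St.strict_cond H hbar hp2 hchi hA ho h d hd

end Sel

section Cmp

variable {O K : Type} [CommRing O] [IsDomain O] [IsDiscreteValuationRing O]
    [IsAdicComplete (maximalIdeal O) O] [Field K] [Algebra O K] {p r : ℕ}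
    [Finite (ResidueField O)] [CharZero O] [hp : Fact p.Prime] [IsAlgClosed K] [FaithfulSMul O K]
    {F : TWBase O K p r}

/-- unipotent inertia at the Taylor–Wiles levels -/
theorem inertia_two (X : CmpT F) (n : ℕ) (x : (X.toCmp.cd 1 n).X) {q : ℕ} (hq : q.Prime)
    (hqp : q ≠ p) (hqN : ¬ q * q ∣ X.N) (hqD : q ∣ F.D₀) {τ : GQ}
    (hτ : τ ∈ (plv q hq).inertiaSubgroupIn ℚ) : (X.toCmp.cd 1 n).t x τ = 2 :=
  hin_inertia X.B.hpO F.Ge F.hchi F.hc (X.toCmp.hin 1 n) x hq hqp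
    (X.not_sq_dvd_lvl n x hq hqN hqD) (plv_over q hq) hτ

/-- flatness at the levels prime to `p` -/
theorem flT_cmp (X : CmpT F) (n : ℕ) (hpN : ¬ p ∣ X.N) (hpD : p ∣ F.D₀) :
    FlT p O ((X.toCmp.cd 1 n).C (F.hbar n)).t :=
  (X.toCmp.hin 1 n).flT_cd X.B.hpO F.Ge F.hchi F.hc (F.hbar n)
    (fun x => X.not_dvd_lvl n x hp.out hpN hpD)

variable {κ κ' : Type} [Finite κ] [Finite κ'] [Nonempty κ] {X : κ → CmpT F} (E : Extra F κ')
  {i i' : κ} {pp : Nat.Primes} (h : RStep (X i) (X i') pp) {ϖ : O}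
  (hϖ : maximalIdeal O = Ideal.span {ϖ}) (hϖ0 : ϖ ≠ 0)
  (hd : 2 * rk O (X i).N F.a < rk O (X i').N F.a) (w : κ') [CharP (ResidueField O) p]

/-- **The Selmer bound for the cokernel system** (strictly ordinary at `p`). -/
theorem selB_YC (hpO : (p : O) ∈ maximalIdeal O) (hp2 : p ≠ 2) (hpp : (pp : ℕ) = p)
    (hpD : p ∣ F.D₀) {psi : GQ → ℤ} (ho : OrdD F.D (plv pp pp.2) psi) (n : ℕ)
    {S₁ T : Finset Nat.Primes}
    (hS : F.S n = S₁ ∪ Finset.univ.image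
      (fun j => (⟨(F.c n).q j, (F.c n).prime j⟩ : Nat.Primes)))
    (hm : SelM F.D p pp S₁ T r (fun j => ⟨(F.c n).q j, (F.c n).prime j⟩))
    (hSO : ∀ x : ((X i').toCmp.cd 1 n).X, (pp : ℕ) ∣ (X i').toCmp.lvl 1 n x →
      StT (plv pp pp.2) F.D.chi psi (((X i').toCmp.cd 1 n).t x))
    (hW : ∀ x, StT (plv pp pp.2) F.D.chi psi ((E.H n w).t x))
    (hun : ∀ q ∈ S₁, q ∉ T → q ≠ pp → (q : ℕ) ∣ F.D₀ ∧ ¬ (q : ℕ) * (q : ℕ) ∣ (X i').N)
    (hunW : ∀ q ∈ S₁, q ∉ T → q ≠ pp → ∀ x, ∀ τ ∈ (plv q q.2).inertiaSubgroupIn ℚ,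
      (E.H n w).t x τ = 2) :
    SelB (((raiseD E h hϖ hϖ0).YC hpO hϖ hd (fun _ : Unit => Sum.inr w)).H n)
      (((raiseD E h hϖ hϖ0).YC hpO hϖ hd (fun _ : Unit => Sum.inr w)).hbar n) r
      (fun t : T => (t : Nat.Primes)) := by
  refine selM_strict hm hS _ _ ?_ ?_
  · rintro q hq hqT hqp (_ | _) x τ hτ
    · obtain ⟨h1, h2⟩ := hun q hq hqT hqp
      exact inertia_two (X i') n ((raiseD E h hϖ hϖ0).ptC hpO hϖ hd (fun _ : Unit => Sum.inr w) x)
        q.2 (fun h3 => hqp (Subtype.ext (h3.trans hpp.symm))) h2 h1 hτ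
    · exact hunW q hq hqT hqp x τ hτ
  · refine strictC_of_points hp2 hpp F.hchi ho _ _ ?_
    rintro (_ | _) x
    · exact hSO _ (dvd_lvl_ptC E h hϖ hϖ0 hpO hd (fun _ : Unit => Sum.inr w) hpD x)
    · exact hW x

/-- **The Selmer bound for the flat tower with constant unit root.** -/
theorem selBQ_flat {κ₁ : Type} [Finite κ₁] [Nonempty κ₁] (φ : κ₁ → κ) (hpp : (pp : ℕ) = p)
    (hpD : p ∣ F.D₀) (n : ℕ) {S₁ T : Finset Nat.Primes}
    (hS : F.S n = S₁ ∪ Finset.univ.image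
      (fun j => (⟨(F.c n).q j, (F.c n).prime j⟩ : Nat.Primes)))
    (hm : SelM F.D p pp S₁ T r (fun j => ⟨(F.c n).q j, (F.c n).prime j⟩))
    (hpN : ∀ j, ¬ p ∣ (X (φ j)).N)
    (hun : ∀ q ∈ S₁, q ∉ T → q ≠ pp → (q : ℕ) ∣ F.D₀ ∧
      ∀ j, ¬ (q : ℕ) * (q : ℕ) ∣ (X (φ j)).N)
    {Q Q' : Mt (ResidueField O)} (hB : BData (plv pp pp.2) F.D.rbar Q Q') {Φ σ₀ : GQ}
    (hΦ : (plv pp pp.2).IsFrobeniusAt Φ p)
    (hσ₀ : σ₀ ∈ (plv pp pp.2).inertiaSubgroupIn ℚ) (hu : IsUnit (F.D.chi σ₀ - 1))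
    {u l : O} (hu' : IsUnit u) :
    SelBQ (((sysT X E).comap (fun j => (Sum.inl (φ j) : κ ⊕ κ'))).H n)
      (((sysT X E).comap (fun j => (Sum.inl (φ j) : κ ⊕ κ'))).hbar n) r
      (fun t : T => (t : Nat.Primes))
      (fun d => d (algebraMap O _ u * zEl
        (((sysT X E).comap (fun j => (Sum.inl (φ j) : κ ⊕ κ'))).H n)
        (((sysT X E).comap (fun j => (Sum.inl (φ j) : κ ⊕ κ'))).hbar n) Φ σ₀ -
        algebraMap O _ l) = 0) := by
  refine selBQ_affine (selM_root hm hS _ _ ?_ ?_ hB hΦ hσ₀ hu) hu'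
  · intro q hq hqT hqp j x τ hτ
    obtain ⟨h1, h2⟩ := hun q hq hqT hqp
    exact inertia_two (X (φ j)) n x q.2 (fun h3 => hqp (Subtype.ext (h3.trans hpp.symm)))
      (h2 j) h1 hτ
  · intro j
    exact flT_cmp (X (φ j)) n (hpN j) hpD

end Cmp

end Fermat.Agent.H09.MH
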