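import Mathlib
import Fermat.Agent.H09.DescC

set_option autoImplicit false
set_option linter.style.haveILetI false
set_option linter.unusedSectionVars false

/-! Local descent of Hopf orders. -/

noncomputable section

namespace Fermat.Agent.H09

open Fermat.Agent.H02F (Qb GQ LocalHopf IsHopfOrder)
open scoped Pointwise

variable {M : Type*} [AddCommGroup M] {act : GQ →* AddMonoid.End M}
  {A : ValuationSubring Qb} {ℓ : ℕ}

theorem repr_cj {n : ℕ} {v : Module.Basis (Fin n) Qb (M → Qb)}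
    (hv : ∀ i σ, cj act σ (v i) = v i) (σ : GQ) (φ : M → Qb) (i : Fin n) :
    v.repr (cj act σ φ) i = σ (v.repr φ i) := by
  conv_lhs => rw [← v.sum_repr φ]
  rw [cj_sum]
  simp_rw [cj_smul, hv]
  rw [v.repr_sum_self]

theorem smul_mem_of_mem {𝓗 : Subalgebra A (M → Qb)} {c : Qb} (hc : c ∈ A) {φ : M → Qb}
    (hφ : φ ∈ 𝓗) : c • φ ∈ 𝓗 := 𝓗.smul_mem hφ (⟨c, hc⟩ : A)

theorem exists_delta [Finite M] [DecidableEq M] (hℓ : ℓ.Prime) (hA : A.LiesOverPrime ℓ)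
    {𝓗 : Subalgebra A (M → Qb)} (h : LocalHopf A act 𝓗) (m : M) :
    ∃ K : ℕ, (ℓ : Qb) ^ K • (Pi.single m 1 : M → Qb) ∈ 𝓗 := by
  classical
  have := Fintype.ofFinite M
  have h1 : ∀ m' : M, ∃ f ∈ 𝓗, m' ≠ m → f m' ≠ f m := by
    intro m'
    by_cases hm : m' = m
    · exact ⟨0, 𝓗.zero_mem, fun h => absurd hm h⟩
    · obtain ⟨f, hf, hf'⟩ := h.sep m' m hm
      exact ⟨f, hf, fun _ => hf'⟩
  choose f hf hf' using h1
  have hc : ∀ m', (f m' - fun _ => f m' m') ∈ 𝓗 := by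
    intro m'
    refine 𝓗.sub_mem (hf m') ?_
    exact 𝓗.algebraMap_mem (⟨f m' m', h.int _ (hf m') m'⟩ : A)
  set g : M → Qb := ∏ m' ∈ Finset.univ.erase m, (f m' - fun _ => f m' m') with hg
  have hgm : g ∈ 𝓗 := 𝓗.prod_mem fun m' _ => hc m'
  have hg0 : ∀ m', m' ≠ m → g m' = 0 := by
    intro m' hm
    rw [hg, Finset.prod_apply]
    apply Finset.prod_eq_zero (Finset.mem_erase.mpr ⟨hm, Finset.mem_univ m'⟩)
    rw [Pi.sub_apply, sub_self]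
  have hg1 : g m ≠ 0 := by
    rw [hg, Finset.prod_apply, Finset.prod_ne_zero_iff]
    intro m' hm'
    rw [Pi.sub_apply, sub_ne_zero]
    exact (hf' m' (Finset.ne_of_mem_erase hm')).symm
  obtain ⟨K, hK⟩ := exists_pow_mul_mem hℓ hA (g m)⁻¹
  refine ⟨K, ?_⟩
  have e : (ℓ : Qb) ^ K • (Pi.single m 1 : M → Qb) = ((ℓ : Qb) ^ K * (g m)⁻¹) • g := by
    ext x
    by_cases hx : x = m
    · subst hx
      rw [Pi.smul_apply, Pi.smul_apply, Pi.single_eq_same, smul_eq_mul, smul_eq_mul, mul_one,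
        mul_assoc, inv_mul_cancel₀ hg1, mul_one]
    · rw [Pi.smul_apply, Pi.smul_apply, Pi.single_eq_of_ne hx, hg0 x hx, smul_zero, smul_zero]
  rw [e]
  exact smul_mem_of_mem hK hgm

theorem eq_sum_delta [Fintype M] [DecidableEq M] (φ : M → Qb) :
    φ = ∑ m, φ m • (Pi.single m 1 : M → Qb) := by
  ext x
  rw [Finset.sum_apply]
  simp [Pi.single_apply]

theorem smul_pow_mem_mono {𝓗 : Subalgebra A (M → Qb)} {K K' : ℕ} (h : K ≤ K') {φ : M → Qb}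
    (hφ : (ℓ : Qb) ^ K • φ ∈ 𝓗) : (ℓ : Qb) ^ K' • φ ∈ 𝓗 := by
  obtain ⟨k, rfl⟩ := Nat.exists_eq_add_of_le h
  rw [pow_add, mul_comm, mul_smul]
  exact smul_mem_of_mem (pow_mem (natCast_mem A ℓ) k) hφ

theorem exists_pow_smul_mem [Finite M] (hℓ : ℓ.Prime) (hA : A.LiesOverPrime ℓ)
    {𝓗 : Subalgebra A (M → Qb)} (h : LocalHopf A act 𝓗) (φ : M → Qb) :
    ∃ K : ℕ, (ℓ : Qb) ^ K • φ ∈ 𝓗 := by
  classical
  have := Fintype.ofFinite M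
  choose K hK using fun m => exists_delta hℓ hA h m
  obtain ⟨K', hK'⟩ := exists_pow_mul_mem_fin hℓ hA φ
  refine ⟨K' + Finset.univ.sup K, ?_⟩
  have e0 : (ℓ : Qb) ^ (K' + Finset.univ.sup K) • φ = ∑ m, (ℓ : Qb) ^ (K' + Finset.univ.sup K) •
      φ m • (Pi.single m 1 : M → Qb) := by
    conv_lhs => rw [eq_sum_delta φ]
    rw [Finset.smul_sum]
  rw [e0]
  refine 𝓗.sum_mem fun m _ => ?_
  rw [pow_add, smul_smul, mul_assoc, mul_comm _ (φ m), ← mul_assoc, mul_smul]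
  exact smul_mem_of_mem (hK' m) (smul_pow_mem_mono (Finset.le_sup (Finset.mem_univ m)) (hK m))

theorem exists_pow_smul_mem_fin [Finite M] (hℓ : ℓ.Prime) (hA : A.LiesOverPrime ℓ)
    {𝓗 : Subalgebra A (M → Qb)} (h : LocalHopf A act 𝓗) {ι : Type*} [Finite ι]
    (φ : ι → M → Qb) : ∃ K : ℕ, ∀ i, (ℓ : Qb) ^ K • φ i ∈ 𝓗 := by
  have := Fintype.ofFinite ι
  choose K hK using fun i => exists_pow_smul_mem hℓ hA h (φ i)
  exact ⟨Finset.univ.sup K, fun i => smul_pow_mem_mono (Finset.le_sup (Finset.mem_univ i)) (hK i)⟩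

/-- the descended order -/
def descH (hℓ : ℓ.Prime) (hA : A.LiesOverPrime ℓ) (act : GQ →* AddMonoid.End M)
    (𝓗 : Subalgebra A (M → Qb)) : Subalgebra (GaloisRep.ratLocalizedAt ℓ) (M → Qb) where
  carrier := {φ | φ ∈ 𝓗 ∧ ∀ σ, cj act σ φ = φ}
  mul_mem' {φ ψ} hφ hψ := ⟨𝓗.mul_mem hφ.1 hψ.1, fun σ => by
    rw [cj_mul_fun, hφ.2, hψ.2]⟩
  add_mem' {φ ψ} hφ hψ := ⟨𝓗.add_mem hφ.1 hψ.1, fun σ => by
    rw [cj_add, hφ.2, hψ.2]⟩
  algebraMap_mem' r := ⟨𝓗.algebraMap_mem (⟨algebraMap ℚ Qb (r : ℚ),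
    mem_of_mem_Rl hℓ hA r.2⟩ : A), fun σ => by
      ext m
      exact σ.commutes (r : ℚ)⟩

theorem mem_descH {hℓ : ℓ.Prime} {hA : A.LiesOverPrime ℓ}
    {𝓗 : Subalgebra A (M → Qb)} {φ : M → Qb} :
    φ ∈ descH hℓ hA act 𝓗 ↔ φ ∈ 𝓗 ∧ ∀ σ, cj act σ φ = φ := Iff.rfl

theorem exists_approx_dec [Finite M] (hact : OpenKer act) (hℓ : ℓ.Prime)
    (hA : A.LiesOverPrime ℓ) {𝓗 : Subalgebra A (M → Qb)} (h : LocalHopf A act 𝓗) {ψ : M → Qb}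
    (hψ : ψ ∈ 𝓗) (hD : ∀ σ ∈ A.decompositionSubgroup ℚ, cj act σ ψ = ψ) :
    ∃ ψ' ∈ descH hℓ hA act 𝓗, ∃ χ ∈ 𝓗, ψ = ψ' + (ℓ : Qb) • χ := by
  classical
  obtain ⟨n, v, hv⟩ := exists_basis_equiv hact
  obtain ⟨K₀, hK₀⟩ := exists_pow_smul_mem_fin hℓ hA h v
  obtain ⟨K₁, hK₁⟩ := exists_pow_mul_mem_fin hℓ hA (v.repr ψ)
  have h1 : ∀ i, ∃ (r : ℤ) (y : Qb), y ∈ A ∧
      (ℓ : Qb) ^ K₁ * v.repr ψ i = r + (ℓ : Qb) ^ (K₀ + K₁ + 1) * y := by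
    intro i
    refine exists_int_approx hℓ hA _ (hK₁ i) fun σ hσ => ?_
    rw [map_mul, map_pow, map_natCast, ← repr_cj hv, hD σ hσ]
  choose r y hy e using h1
  have hℓ0 : (ℓ : Qb) ≠ 0 := by exact_mod_cast hℓ.ne_zero
  have e' : ∀ i, v.repr ψ i = ((r i : Qb) / (ℓ : Qb) ^ K₁) + (ℓ : Qb) * (y i * (ℓ : Qb) ^ K₀) := by
    intro i
    have h2 := e i
    have h3 : v.repr ψ i = ((r i : Qb) + (ℓ : Qb) ^ (K₀ + K₁ + 1) * y i) / (ℓ : Qb) ^ K₁ := by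
      rw [← h2]; field_simp
    rw [h3, pow_add, pow_add, pow_one]
    field_simp
  set χ : M → Qb := ∑ i, y i • (ℓ : Qb) ^ K₀ • v i with hχ
  have hχm : χ ∈ 𝓗 := 𝓗.sum_mem fun i _ => smul_mem_of_mem (hy i) (hK₀ i)
  have e1 : ψ = ∑ i, ((r i : Qb) / (ℓ : Qb) ^ K₁) • v i + (ℓ : Qb) • χ := by
    conv_lhs => rw [← v.sum_repr ψ]
    rw [hχ, Finset.smul_sum, ← Finset.sum_add_distrib]
    refine Finset.sum_congr rfl fun i _ => ?_
    rw [smul_smul, smul_smul, ← add_smul, mul_assoc, ← e']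
  refine ⟨∑ i, ((r i : Qb) / (ℓ : Qb) ^ K₁) • v i, ⟨?_, fun σ => ?_⟩, χ, hχm, e1⟩
  · have h2 : ∑ i, ((r i : Qb) / (ℓ : Qb) ^ K₁) • v i = ψ - (ℓ : Qb) • χ := by
      rw [e1]; abel
    rw [h2]
    exact 𝓗.sub_mem hψ (smul_mem_of_mem (natCast_mem A ℓ) hχm)
  · rw [cj_sum]
    refine Finset.sum_congr rfl fun i _ => ?_
    rw [cj_smul, hv, map_div₀, map_intCast, map_pow, map_natCast]

theorem exists_approx_one [Finite M] (hact : OpenKer act) (hℓ : ℓ.Prime)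
    (hA : A.LiesOverPrime ℓ) {𝓗 : Subalgebra A (M → Qb)} (h : LocalHopf A act 𝓗) {φ : M → Qb}
    (hφ : φ ∈ 𝓗) : ∃ s ∈ Submodule.span A (descH hℓ hA act 𝓗 : Set (M → Qb)),
      ∃ χ ∈ 𝓗, φ = s + (ℓ : Qb) • χ := by
  have key : ∀ φ ∈ Submodule.span A {χ : M → Qb | χ ∈ 𝓗 ∧
      ∀ σ ∈ A.decompositionSubgroup ℚ, cj act σ χ = χ},
      ∃ s ∈ Submodule.span A (descH hℓ hA act 𝓗 : Set (M → Qb)),
      ∃ χ ∈ 𝓗, φ = s + (ℓ : Qb) • χ := by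
    intro φ hφ
    induction hφ using Submodule.span_induction with
    | mem x hx =>
      obtain ⟨ψ', h1, χ, h2, e⟩ := exists_approx_dec hact hℓ hA h hx.1 hx.2
      exact ⟨ψ', Submodule.subset_span h1, χ, h2, e⟩
    | zero => exact ⟨0, Submodule.zero_mem _, 0, 𝓗.zero_mem, by rw [smul_zero, add_zero]⟩
    | add x y _ _ hx hy =>
      obtain ⟨s, hs, χ, hχ, e⟩ := hx
      obtain ⟨s', hs', χ', hχ', e'⟩ := hy
      exact ⟨s + s', Submodule.add_mem _ hs hs', χ + χ', 𝓗.add_mem hχ hχ', by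
        rw [e, e', smul_add]; abel⟩
    | smul a x _ hx =>
      obtain ⟨s, hs, χ, hχ, e⟩ := hx
      exact ⟨a • s, Submodule.smul_mem _ _ hs, a • χ, 𝓗.smul_mem hχ a, by
        rw [e, smul_add, smul_comm]⟩
  apply key
  have h1 := h.span φ hφ
  refine Submodule.span_le.mpr ?_ h1
  rintro ψ ⟨hψ, hψI⟩
  exact mem_span_dec hact hℓ hA h hψ fun σ hσ => (cj_eq_self_iff act σ ψ).mpr (hψI σ hσ)

theorem exists_approx_pow [Finite M] (hact : OpenKer act) (hℓ : ℓ.Prime)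
    (hA : A.LiesOverPrime ℓ) {𝓗 : Subalgebra A (M → Qb)} (h : LocalHopf A act 𝓗) {φ : M → Qb}
    (hφ : φ ∈ 𝓗) (k : ℕ) : ∃ s ∈ Submodule.span A (descH hℓ hA act 𝓗 : Set (M → Qb)),
      ∃ χ ∈ 𝓗, φ = s + (ℓ : Qb) ^ k • χ := by
  induction k with
  | zero => exact ⟨0, Submodule.zero_mem _, φ, hφ, by rw [pow_zero, one_smul, zero_add]⟩
  | succ k ih =>
    obtain ⟨s, hs, χ, hχ, e⟩ := ih
    obtain ⟨s', hs', χ', hχ', e'⟩ := exists_approx_one hact hℓ hA h hχ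
    refine ⟨s + (ℓ : Qb) ^ k • s', Submodule.add_mem _ hs ?_, χ', hχ', ?_⟩
    · exact Submodule.smul_mem _ (⟨(ℓ : Qb) ^ k, pow_mem (natCast_mem A ℓ) k⟩ : A) hs'
    · rw [e, e', smul_add, smul_smul, ← pow_succ, add_assoc]

theorem exists_conductor [Finite M] (hact : OpenKer act) (hℓ : ℓ.Prime)
    (hA : A.LiesOverPrime ℓ) {𝓗 : Subalgebra A (M → Qb)} (h : LocalHopf A act 𝓗) :
    ∃ k : ℕ, ∀ χ ∈ 𝓗, (ℓ : Qb) ^ k • χ ∈ Submodule.span A (descH hℓ hA act 𝓗 : Set (M → Qb)) := by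
  classical
  have := Fintype.ofFinite M
  obtain ⟨n, v, hv⟩ := exists_basis_equiv hact
  obtain ⟨K₀, hK₀⟩ := exists_pow_smul_mem_fin hℓ hA h v
  obtain ⟨K₁, hK₁⟩ := exists_pow_mul_mem_fin hℓ hA
    (fun p : M × Fin n => v.repr (Pi.single p.1 1 : M → Qb) p.2)
  refine ⟨K₀ + K₁, fun χ hχ => ?_⟩
  have hvH : ∀ i, (ℓ : Qb) ^ K₀ • v i ∈ descH hℓ hA act 𝓗 := by
    intro i
    refine ⟨hK₀ i, fun σ => ?_⟩
    rw [cj_smul, hv, map_pow, map_natCast]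
  have e1 : (ℓ : Qb) ^ (K₀ + K₁) • χ = ∑ m, ∑ i, (χ m *
      ((ℓ : Qb) ^ K₁ * v.repr (Pi.single m 1 : M → Qb) i)) • ((ℓ : Qb) ^ K₀ • v i) := by
    conv_lhs => rw [eq_sum_delta χ, Finset.smul_sum]
    refine Finset.sum_congr rfl fun m _ => ?_
    conv_lhs => rw [← v.sum_repr (Pi.single m 1 : M → Qb)]
    rw [Finset.smul_sum, Finset.smul_sum]
    refine Finset.sum_congr rfl fun i _ => ?_
    rw [smul_smul, smul_smul, smul_smul, pow_add]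
    congr 1
    ring
  rw [e1]
  refine Submodule.sum_mem _ fun m _ => Submodule.sum_mem _ fun i _ => ?_
  exact Submodule.smul_mem _ (⟨_, A.mul_mem _ _ (h.int χ hχ m) (hK₁ (m, i))⟩ : A)
    (Submodule.subset_span (hvH i))

/-- **Descent**: a local Hopf order is spanned by its rational elements. -/
theorem mem_span_descH [Finite M] (hact : OpenKer act) (hℓ : ℓ.Prime)
    (hA : A.LiesOverPrime ℓ) {𝓗 : Subalgebra A (M → Qb)} (h : LocalHopf A act 𝓗) {φ : M → Qb}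
    (hφ : φ ∈ 𝓗) : φ ∈ Submodule.span A (descH hℓ hA act 𝓗 : Set (M → Qb)) := by
  obtain ⟨k, hk⟩ := exists_conductor hact hℓ hA h
  obtain ⟨s, hs, χ, hχ, e⟩ := exists_approx_pow hact hℓ hA h hφ k
  rw [e]
  exact Submodule.add_mem _ hs (hk χ hχ)

end Fermat.Agent.H09
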