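import Mathlib
import Fermat.Agent.H09.DescD

set_option autoImplicit false
set_option linter.style.haveILetI false
set_option linter.unusedSectionVars false

/-! Local descent of Hopf orders: conclusion. -/

noncomputable section

namespace Fermat.Agent.H09

open Fermat.Agent.H02F (Qb GQ LocalHopf IsHopfOrder)
open scoped Pointwise

variable {M : Type*} [AddCommGroup M] {act : GQ →* AddMonoid.End M}
  {A : ValuationSubring Qb} {ℓ : ℕ}

theorem Rl_smul_apply (r : GaloisRep.ratLocalizedAt ℓ) (φ : M → Qb) (m : M) :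
    (r • φ) m = algebraMap ℚ Qb (r : ℚ) * φ m := by
  rw [Pi.smul_apply, Algebra.smul_def]; rfl

theorem descH_fg [Finite M] (hact : OpenKer act) (hℓ : ℓ.Prime)
    (hA : A.LiesOverPrime ℓ) {𝓗 : Subalgebra A (M → Qb)} (h : LocalHopf A act 𝓗) :
    (Subalgebra.toSubmodule (descH hℓ hA act 𝓗)).FG := by
  classical
  have := Fintype.ofFinite M
  haveI : Fact ℓ.Prime := ⟨hℓ⟩
  obtain ⟨n, v, hv⟩ := exists_basis_equiv hact
  obtain ⟨K₁, hK₁⟩ := exists_pow_mul_mem_fin hℓ hA
    (fun p : M × Fin n => v.repr (Pi.single p.1 1 : M → Qb) p.2)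
  haveI : IsNoetherianRing (GaloisRep.ratLocalizedAt ℓ) :=
    (inferInstance : IsNoetherianRing (Igusa.Rl ℓ))
  have hℓ0 : (ℓ : Qb) ≠ 0 := by exact_mod_cast hℓ.ne_zero
  set N : Submodule (GaloisRep.ratLocalizedAt ℓ) (M → Qb) :=
    Submodule.span _ (Set.range fun i => ((ℓ : Qb) ^ K₁)⁻¹ • v i) with hN
  have hNfg : N.FG := Submodule.fg_span (Set.finite_range _)
  have hle : Subalgebra.toSubmodule (descH hℓ hA act 𝓗) ≤ N := by
    intro φ hφ
    have hφ' : φ ∈ descH hℓ hA act 𝓗 := hφ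
    have h1 : ∀ i, ∃ q : GaloisRep.ratLocalizedAt ℓ, (algebraMap ℚ Qb (q : ℚ)) =
        (ℓ : Qb) ^ K₁ * v.repr φ i := by
      intro i
      have hfix : ∀ σ : GQ, σ ((ℓ : Qb) ^ K₁ * v.repr φ i) = (ℓ : Qb) ^ K₁ * v.repr φ i := by
        intro σ
        rw [map_mul, map_pow, map_natCast, ← repr_cj hv, hφ'.2 σ]
      obtain ⟨q, hq⟩ := H51.rational_of_fixed hfix
      have hA' : (ℓ : Qb) ^ K₁ * v.repr φ i ∈ A := by
        have e1 : v.repr φ i = ∑ m, φ m * v.repr (Pi.single m 1 : M → Qb) i := by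
          conv_lhs => rw [eq_sum_delta φ]
          rw [map_sum, Finsupp.finsetSum_apply]
          refine Finset.sum_congr rfl fun m _ => ?_
          rw [map_smul, Finsupp.smul_apply, smul_eq_mul]
        rw [e1, Finset.mul_sum]
        refine sum_mem fun m _ => ?_
        rw [mul_left_comm]
        exact A.mul_mem _ _ (h.int φ hφ'.1 m) (hK₁ (m, i))
      refine ⟨⟨q, mem_Rl_of_mem hℓ hA ?_⟩, hq⟩
      rw [hq]; exact hA'
    choose q hq using h1
    have e : φ = ∑ i, q i • (((ℓ : Qb) ^ K₁)⁻¹ • v i) := by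
      conv_lhs => rw [← v.sum_repr φ]
      refine Finset.sum_congr rfl fun i _ => ?_
      ext m
      have e2 : (q i • (((ℓ : Qb) ^ K₁)⁻¹ • v i)) m =
        algebraMap ℚ Qb (q i : ℚ) * (((ℓ : Qb) ^ K₁)⁻¹ * v i m) := Rl_smul_apply _ _ _
      rw [e2, hq i, Pi.smul_apply, smul_eq_mul]
      field_simp
    rw [e]
    exact Submodule.sum_mem _ fun i _ => Submodule.smul_mem _ _
      (Submodule.subset_span ⟨i, rfl⟩)
  exact Submodule.FG.of_le hNfg hle

theorem descH_sep [Finite M] (hact : OpenKer act) (hℓ : ℓ.Prime)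
    (hA : A.LiesOverPrime ℓ) {𝓗 : Subalgebra A (M → Qb)} (h : LocalHopf A act 𝓗)
    {x y : M} (hxy : x ≠ y) : ∃ φ ∈ descH hℓ hA act 𝓗, φ x ≠ φ y := by
  by_contra hcon
  push Not at hcon
  obtain ⟨φ, hφ, hne⟩ := h.sep x y hxy
  apply hne
  have h1 := mem_span_descH hact hℓ hA h hφ
  clear hne hφ
  induction h1 using Submodule.span_induction with
  | mem z hz => exact hcon z hz
  | zero => rfl
  | add a b _ _ ha hb => rw [Pi.add_apply, Pi.add_apply, ha, hb]
  | smul c a _ ha => rw [Pi.smul_apply, Pi.smul_apply, ha]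

/-- an integral basis -/
theorem descH_basis [Finite M] (hact : OpenKer act) (hℓ : ℓ.Prime)
    (hA : A.LiesOverPrime ℓ) {𝓗 : Subalgebra A (M → Qb)} (h : LocalHopf A act 𝓗) :
    ∃ (n : ℕ) (b : Fin n → M → Qb), (∀ i, b i ∈ descH hℓ hA act 𝓗) ∧
      LinearIndependent Qb b ∧
      ∀ φ ∈ 𝓗, ∃ c : Fin n → Qb, (∀ i, c i ∈ A) ∧ φ = ∑ i, c i • b i := by
  classical
  haveI : Fact ℓ.Prime := ⟨hℓ⟩
  haveI : IsPrincipalIdealRing (GaloisRep.ratLocalizedAt ℓ) :=
    (inferInstance : IsPrincipalIdealRing (Igusa.Rl ℓ))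
  let R := GaloisRep.ratLocalizedAt ℓ
  let H := Subalgebra.toSubmodule (descH hℓ hA act 𝓗)
  haveI : Module.Finite R H := Module.Finite.iff_fg.mpr (descH_fg hact hℓ hA h)
  haveI : IsDomain R := inferInstance
  haveI : Module.IsTorsionFree R (M → Qb) := by
    refine Module.IsTorsionFree.of_smul_eq_zero fun r φ hr => ?_
    by_cases hr0 : r = 0
    · exact Or.inl hr0
    · refine Or.inr (funext fun m => ?_)
      have h1 : algebraMap ℚ Qb (r : ℚ) * φ m = 0 := by
        rw [← Rl_smul_apply, hr]; rfl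
      refine (mul_eq_zero.mp h1).resolve_left fun h2 => hr0 ?_
      exact Subtype.ext ((map_eq_zero (algebraMap ℚ Qb)).mp h2)
  haveI : Module.Free R H := inferInstance
  let b := Module.finBasis R H
  refine ⟨_, fun i => (b i : M → Qb), fun i => (b i).2, ?_, ?_⟩
  · apply linearIndependent_of_equiv (act := act)
    · intro i σ
      exact (b i).2.2 σ
    · have h1 : LinearIndependent R fun i => (b i : M → Qb) :=
        b.linearIndependent.map' H.subtype (Submodule.ker_subtype H)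
      haveI : IsFractionRing R ℚ := Igusa.isFractionRing_Rl
      haveI : IsScalarTower R ℚ (M → Qb) := by
        refine ⟨fun r q φ => ?_⟩
        ext m
        rw [Rl_smul_apply, Pi.smul_apply, Pi.smul_apply, Algebra.smul_def, Algebra.smul_def,
          Algebra.smul_def, map_mul, mul_assoc]
        rfl
      exact (LinearIndependent.iff_fractionRing R ℚ).mp h1
  · intro φ hφ
    have h1 := mem_span_descH hact hℓ hA h hφ
    clear hφ
    induction h1 using Submodule.span_induction with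
    | mem z hz =>
      refine ⟨fun i => algebraMap ℚ Qb (b.repr ⟨z, hz⟩ i : ℚ), fun i =>
        mem_of_mem_Rl hℓ hA (b.repr ⟨z, hz⟩ i).2, ?_⟩
      have h2 := congrArg (H.subtype) (b.sum_repr ⟨z, hz⟩)
      rw [map_sum] at h2
      refine h2.symm.trans ?_
      refine Finset.sum_congr rfl fun i _ => ?_
      rw [map_smul]
      ext m
      rw [Pi.smul_apply, Pi.smul_apply, Algebra.smul_def]
      rfl
    | zero => exact ⟨0, fun _ => A.zero_mem, by simp⟩
    | add x y _ _ hx hy =>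
      obtain ⟨c, hc, e⟩ := hx
      obtain ⟨c', hc', e'⟩ := hy
      refine ⟨c + c', fun i => A.add_mem _ _ (hc i) (hc' i), ?_⟩
      rw [e, e', ← Finset.sum_add_distrib]
      refine Finset.sum_congr rfl fun i _ => ?_
      rw [Pi.add_apply, add_smul]
    | smul a x _ hx =>
      obtain ⟨c, hc, e⟩ := hx
      refine ⟨fun i => (a : Qb) * c i, fun i => A.mul_mem _ _ a.2 (hc i), ?_⟩
      rw [e, Finset.smul_sum]
      refine Finset.sum_congr rfl fun i _ => ?_
      rw [mul_smul]
      rfl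

theorem descH_comul [Finite M] (hact : OpenKer act) (hℓ : ℓ.Prime)
    (hA : A.LiesOverPrime ℓ) {𝓗 : Subalgebra A (M → Qb)} (h : LocalHopf A act 𝓗)
    {φ : M → Qb} (hφ : φ ∈ descH hℓ hA act 𝓗) :
    ∃ (n : ℕ) (a b : Fin n → M → Qb), (∀ i, a i ∈ descH hℓ hA act 𝓗) ∧
      (∀ i, b i ∈ descH hℓ hA act 𝓗) ∧ ∀ x y, φ (x + y) = ∑ i, a i x * b i y := by
  classical
  obtain ⟨n, b, hb, hli, hspan⟩ := descH_basis hact hℓ hA h
  obtain ⟨k, p, q, hp, hq, e⟩ := h.comul φ hφ.1
  choose α hα hpe using fun i => hspan (p i) (hp i)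
  choose β hβ hqe using fun i => hspan (q i) (hq i)
  -- coefficients
  let c : Fin n → Fin n → Qb := fun i j => ∑ l, α l i * β l j
  have hc : ∀ i j, c i j ∈ A := fun i j => sum_mem fun l _ => A.mul_mem _ _ (hα l i) (hβ l j)
  have e1 : ∀ x y, φ (x + y) = ∑ i, (∑ j, c i j * b j y) * b i x := by
    intro x y
    rw [e]
    have e2 : ∀ l, p l x * q l y = ∑ i, ∑ j, α l i * β l j * b j y * b i x := by
      intro l
      conv_lhs => rw [hpe l, hqe l]
      rw [Finset.sum_apply, Finset.sum_apply, Finset.sum_mul_sum]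
      refine Finset.sum_congr rfl fun i _ => Finset.sum_congr rfl fun j _ => ?_
      rw [Pi.smul_apply, Pi.smul_apply, smul_eq_mul, smul_eq_mul]
      ring
    simp_rw [e2]
    rw [Finset.sum_comm]
    refine Finset.sum_congr rfl fun i _ => ?_
    rw [Finset.sum_comm, Finset.sum_mul]
    refine Finset.sum_congr rfl fun j _ => ?_
    simp_rw [c]
    rw [Finset.sum_mul, Finset.sum_mul]
  -- uniqueness
  have huniq : ∀ d : Fin n → Fin n → Qb, (∀ x y, ∑ i, (∑ j, d i j * b j y) * b i x = 0) →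
      ∀ i j, d i j = 0 := by
    intro d hd i
    have h1 : ∀ y, ∀ i, ∑ j, d i j * b j y = 0 := by
      intro y
      refine Fintype.linearIndependent_iff.mp hli (fun i => ∑ j, d i j * b j y) ?_
      ext x
      rw [Finset.sum_apply]
      exact hd x y
    refine Fintype.linearIndependent_iff.mp hli (fun j => d i j) ?_
    ext y
    rw [Finset.sum_apply]
    exact h1 y i
  have hfix : ∀ i j (σ : GQ), σ (c i j) = c i j := by
    intro i j σ
    have h1 := huniq (fun i j => σ (c i j) - c i j) (by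
      intro x y
      have h2 := (cj_eq_self_iff act σ φ).mp (hφ.2 σ) (act σ⁻¹ x + act σ⁻¹ y)
      rw [map_add, act_act_inv, act_act_inv, e1, e1, map_sum] at h2
      have h3 : ∀ i, σ ((∑ j, c i j * b j (act σ⁻¹ y)) * b i (act σ⁻¹ x)) =
          (∑ j, σ (c i j) * b j y) * b i x := by
        intro i
        rw [map_mul, map_sum]
        have h4 : ∀ (i : Fin n) (z : M), σ (b i (act σ⁻¹ z)) = b i z := by
          intro i z
          exact congrFun ((hb i).2 σ) z
        rw [h4]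
        congr 1
        refine Finset.sum_congr rfl fun j _ => ?_
        rw [map_mul, h4]
      rw [Finset.sum_congr rfl fun i _ => h3 i] at h2
      rw [← sub_eq_zero.mpr h2.symm, ← Finset.sum_sub_distrib]
      refine Finset.sum_congr rfl fun i _ => ?_
      rw [← sub_mul, ← Finset.sum_sub_distrib]
      congr 1
      refine Finset.sum_congr rfl fun j _ => ?_
      rw [sub_mul]) i j
    exact sub_eq_zero.mp h1
  have hrat : ∀ i j, ∃ q : GaloisRep.ratLocalizedAt ℓ, algebraMap ℚ Qb (q : ℚ) = c i j := by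
    intro i j
    obtain ⟨q, hq⟩ := H51.rational_of_fixed (hfix i j)
    refine ⟨⟨q, mem_Rl_of_mem hℓ hA ?_⟩, hq⟩
    rw [hq]; exact hc i j
  choose r hr using hrat
  refine ⟨n, b, fun i => ∑ j, r i j • b j, hb, fun i => ?_, fun x y => ?_⟩
  · exact (descH hℓ hA act 𝓗).sum_mem fun j _ => (descH hℓ hA act 𝓗).smul_mem (hb j) _
  · rw [e1]
    refine Finset.sum_congr rfl fun i _ => ?_
    rw [mul_comm]
    congr 1
    change _ = (∑ j, r i j • b j) y
    rw [Finset.sum_apply]
    refine Finset.sum_congr rfl fun j _ => ?_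
    have e2 : (r i j • b j) y = algebraMap ℚ Qb (r i j : ℚ) * b j y := Rl_smul_apply _ _ _
    rw [e2, hr]

/-- **(F-B)** Local Hopf orders descend to `ℤ_(ℓ)`. -/
theorem isHopfOrder_descH [Finite M] (hact : OpenKer act) (hℓ : ℓ.Prime)
    (hA : A.LiesOverPrime ℓ) {𝓗 : Subalgebra A (M → Qb)} (h : LocalHopf A act 𝓗) :
    IsHopfOrder ℓ act (descH hℓ hA act 𝓗) where
  fg := descH_fg hact hℓ hA h
  equiv φ hφ σ m := (cj_eq_self_iff act σ φ).mp (hφ.2 σ) m
  sep _ _ hxy := descH_sep hact hℓ hA h hxy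
  comul _ hφ := descH_comul hact hℓ hA h hφ

theorem exists_isHopfOrder [Finite M] (hact : OpenKer act) (hℓ : ℓ.Prime)
    (hA : A.LiesOverPrime ℓ) {𝓗 : Subalgebra A (M → Qb)} (h : LocalHopf A act 𝓗) :
    ∃ H : Subalgebra (GaloisRep.ratLocalizedAt ℓ) (M → Qb), IsHopfOrder ℓ act H :=
  ⟨_, isHopfOrder_descH hact hℓ hA h⟩

end Fermat.Agent.H09
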