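import Mathlib
import Fermat.Agent.H09.MH2
import Fermat.Agent.H26.WSide
import Fermat.Agent.H27.ModeH1

/-!
# Local data at `p` for a curve with multiplicative reduction
-/

set_option autoImplicit false
set_option linter.unusedSectionVars false
set_option linter.style.haveILetI false

noncomputable section

namespace Fermat.Agent.H09.MH

open Fermat.Agent.TC Fermat.Agent.TW Fermat.Agent.CC Fermat.Agent.H25.GE Fermat.Agent.H25.TR
open Fermat.Agent.H25 Fermat.Agent.H25.PR Fermat.Agent.H25.PT Fermat.Agent.H12.LL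
open Fermat.Agent.H25.SB Fermat.Agent.H25.GD Fermat.Agent.TFin Fermat.Agent.H22 Fermat.Agent.Ell
open Fermat.Agent.H04 (DN M2)
open Fermat.Agent.H25.St (UQ StT OrdD)
open Fermat.Agent.H27.MH
open IsLocalRing Matrix

section PD

variable {O : Type} [CommRing O] [IsLocalRing O] [Finite (ResidueField O)]
    {D : RD O (ResidueField O)}
    {p : ℕ} [hp : Fact p.Prime] [CharP (ResidueField O) p] {pp : Nat.Primes}

/-- an element of inertia where the cyclotomic character is far from `1` -/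
theorem exists_sigma (hp2 : p ≠ 2) (hpp : (pp : ℕ) = p) (hchi : IsCyc p D.chi)
    (hres : D.res = residue O) :
    ∃ σ₀ ∈ (plv pp pp.2).inertiaSubgroupIn ℚ, IsUnit (D.chi σ₀ - 1) := by
  have hA : (plv pp pp.2).LiesOverPrime p := hpp ▸ plv_over pp pp.2
  obtain ⟨σ₀, h1, h2⟩ := St.exists_inertia_ne (O := O) (D := D) hp.out hp2 hA hchi
  refine ⟨σ₀, h1, ?_⟩
  by_contra hcon
  have h3 : D.chi σ₀ - 1 ∈ maximalIdeal O := (mem_maximalIdeal _).mpr hcon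
  apply h2
  rw [hres]
  rw [← residue_eq_zero_iff, map_sub, map_one, sub_eq_zero] at h3
  exact h3

end PD

section Val

variable {O : Type} [CommRing O] [IsLocalRing O] [IsNoetherianRing O]
    [IsAdicComplete (maximalIdeal O) O] [Finite (ResidueField O)] {D : RD O (ResidueField O)}
    {p : ℕ} [hp : Fact p.Prime] [CharP (ResidueField O) p] {pp : Nat.Primes}
    {S : Finset Nat.Primes}
    {κ : Type} [Finite κ] [Nonempty κ] {bad : Finset ℕ} (H : κ → CData D S bad)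
    (hbar : HBar D S)

/-- the residual value of the unit root element -/
theorem resB_zEl (hp2 : p ≠ 2) (hpp : (pp : ℕ) = p) (hchi : IsCyc p D.chi)
    {psi : GQ → ℤ} (ho : OrdD D (plv pp pp.2) psi) {Φ σ₀ : GQ}
    (hΦ : Φ ∈ (plv pp pp.2).decompositionSubgroup ℚ)
    (hσ₀ : σ₀ ∈ (plv pp pp.2).inertiaSubgroupIn ℚ) :
    (CA H hbar).resB (zEl H hbar Φ σ₀) = D.res (D.chi σ₀ - 1) * (psi Φ : ResidueField O) := by
  have hA : (plv pp pp.2).LiesOverPrime p := hpp ▸ plv_over pp pp.2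
  have hne := St.exists_inertia_ne (O := O) (D := D) hp.out hp2 hA hchi
  have hσD := inertia_le_decomposition _ hσ₀
  have h1 := ho.tbar_eq hne hΦ
  have h2 := ho.tbar_eq hne (mul_mem hσD hΦ)
  have h3 : psi (σ₀ * Φ) = psi Φ := by
    rw [ho.uq.mul σ₀ hσD Φ hΦ, ho.uq.ine σ₀ hσ₀, one_mul]
  have h4 : D.res (D.chi (σ₀ * Φ)) = D.res (D.chi σ₀) * D.res (D.chi Φ) := by
    rw [← D.det_rbar, ← D.det_rbar, ← D.det_rbar, map_mul, Matrix.det_mul]
  rw [zEl, map_sub, map_mul, Comp.res_comp, Comp.res_t, Comp.res_t, h1, h2, h3, h4, map_sub,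
    map_one]
  ring

end Val

section Curve

variable {W : WeierstrassCurve ℤ} {p : ℕ} [hp : Fact p.Prime]
  (hΔ : W.Δ ≠ 0) (hirr : W.ModRepIsIrreducible p) (hp2 : p ≠ 2)
  {O : Type} [CommRing O] [IsDomain O] [IsDiscreteValuationRing O]
  [IsAdicComplete (maximalIdeal O) O] [Finite (ResidueField O)] [CharZero O] [Algebra ℤ_[p] O]
  [IsLocalHom (algebraMap ℤ_[p] O)]

/-- **The local data at `p`** of a curve with multiplicative reduction. -/
theorem exists_pdata (hpΔ : (p : ℤ) ∣ W.Δ) (hc₄ : ¬ (p : ℤ) ∣ W.c₄) {pp : Nat.Primes}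
    (hpp : (pp : ℕ) = p) :
    ∃ (psi : GQ → ℤ) (σ₀ : GQ) (Q Q' : Mt (ResidueField O)),
      OrdD (RDW hΔ hirr hp2 O) (plv pp pp.2) psi ∧
      StT (plv pp pp.2) (RDW hΔ hirr hp2 O).chi psi (tW W p O) ∧
      BData (plv pp pp.2) (RDW hΔ hirr hp2 O).rbar Q Q' ∧
      σ₀ ∈ (plv pp pp.2).inertiaSubgroupIn ℚ ∧ IsUnit ((RDW hΔ hirr hp2 O).chi σ₀ - 1) := by
  haveI := charP_res p O
  have hA : (plv pp pp.2).LiesOverPrime p := hpp ▸ plv_over pp pp.2
  obtain ⟨psi, -, h1, h2⟩ := exists_stT_tW (O := O) hΔ hirr hp2 hpΔ hc₄ hA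
  have hne := St.exists_inertia_ne (O := O) (D := RDW hΔ hirr hp2 O) hp.out hp2 hA
    (RDW_isCyc hΔ hirr hp2)
  obtain ⟨Q, Q', hB, -⟩ := h2.exists_BData hne
  obtain ⟨σ₀, h3, h4⟩ := exists_sigma (D := RDW hΔ hirr hp2 O) hp2 hpp (RDW_isCyc hΔ hirr hp2)
    (RDW_res hΔ hirr hp2)
  exact ⟨psi, σ₀, Q, Q', h2, h1, hB, h3, h4⟩

end Curve

section SysH

variable {O K : Type} [CommRing O] [IsDomain O] [IsDiscreteValuationRing O]
    [IsAdicComplete (maximalIdeal O) O] [Field K] [Algebra O K] {p r : ℕ}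
    [Finite (ResidueField O)] [CharZero O] [hp : Fact p.Prime] [IsAlgClosed K] [FaithfulSMul O K]
    {F : TWBase O K p r} {κ' : Type} [Finite κ'] (E : Extra F κ') {m : ℕ}
    {tv : Fin m → Nat.Primes} (X : Fin (m + 1) → CmpT F) (X' : CmpT F) {ϖ : O}
    [CharP (ResidueField O) p] {pp : Nat.Primes} {S₁ T : Finset Nat.Primes}

/-- **The Selmer bound for the flat tower with constant unit root**, in the form needed by
`liftH`. -/
theorem hSelI_of (hpp : (pp : ℕ) = p) (hpD : p ∣ F.D₀)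
    (hS : ∀ n, F.S n = S₁ ∪ Finset.univ.image
      (fun j => (⟨(F.c n).q j, (F.c n).prime j⟩ : Nat.Primes)))
    (hm : ∀ n, SelM F.D p pp S₁ T r (fun j => ⟨(F.c n).q j, (F.c n).prime j⟩))
    (hinj : Function.Injective tv) (htv : ∀ q, q ∈ T ↔ ∃ t, tv t = q)
    (hpN : ∀ j, ¬ p ∣ (X j).N)
    (hun : ∀ q ∈ S₁, q ∉ T → q ≠ pp → (q : ℕ) ∣ F.D₀ ∧
      ∀ j, ¬ (q : ℕ) * (q : ℕ) ∣ (X j).N)
    {Q Q' : Mt (ResidueField O)} (hB : BData (plv pp pp.2) F.D.rbar Q Q') {Φ σ₀ : GQ}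
    (hΦ : (plv pp pp.2).IsFrobeniusAt Φ p)
    (hσ₀ : σ₀ ∈ (plv pp pp.2).inertiaSubgroupIn ℚ) (hu : IsUnit (F.D.chi σ₀ - 1))
    {u l : O} (hu' : IsUnit u) (y : ∀ n, ((sysH E X X').comap cpx).A n)
    (hy : ∀ n, y n = algebraMap O _ u * zEl (((sysH E X X').comap cpx).H n)
      (((sysH E X X').comap cpx).hbar n) Φ σ₀ - algebraMap O _ l) (n : ℕ) :
    SelBQ (((sysH E X X').comap cpx).H n) (((sysH E X X').comap cpx).hbar n) r tv
      (fun δ => δ (y n) = 0) := by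
  rw [hy n]
  exact selBQ_enum hinj htv (selBQ_flat (X := xx X X') E some hpp hpD n (hS n) (hm n) hpN hun hB
    hΦ hσ₀ hu hu')

/-- **The Selmer bound for the cokernel system**, in the form needed by `liftH`. -/
theorem hSels_of (hϖ : maximalIdeal O = Ideal.span {ϖ}) (hϖ0 : ϖ ≠ 0)
    (hstepp : RStep (X (Fin.last m)) X' pp) (hp2 : p ≠ 2) (hpp : (pp : ℕ) = p) (hpD : p ∣ F.D₀)
    (hS : ∀ n, F.S n = S₁ ∪ Finset.univ.image
      (fun j => (⟨(F.c n).q j, (F.c n).prime j⟩ : Nat.Primes)))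
    (hm : ∀ n, SelM F.D p pp S₁ T r (fun j => ⟨(F.c n).q j, (F.c n).prime j⟩))
    (hinj : Function.Injective tv) (htv : ∀ q, q ∈ T ↔ ∃ t, tv t = q)
    {psi : GQ → ℤ} (ho : OrdD F.D (plv pp pp.2) psi)
    (hSO : ∀ n, ∀ x : (X'.toCmp.cd 1 n).X, (pp : ℕ) ∣ X'.toCmp.lvl 1 n x →
      StT (plv pp pp.2) F.D.chi psi ((X'.toCmp.cd 1 n).t x))
    (w : κ') (hW : ∀ n x, StT (plv pp pp.2) F.D.chi psi ((E.H n w).t x))
    (hun : ∀ q ∈ S₁, q ∉ T → q ≠ pp → (q : ℕ) ∣ F.D₀ ∧ ¬ (q : ℕ) * (q : ℕ) ∣ X'.N)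
    (hunW : ∀ n, ∀ q ∈ S₁, q ∉ T → q ≠ pp → ∀ x, ∀ τ ∈ (plv q q.2).inertiaSubgroupIn ℚ,
      (E.H n w).t x τ = 2)
    (hd' : 2 * rk O (X (Fin.last m)).N F.a < rk O X'.N F.a) (n : ℕ) :
    SelB (((raiseP E X X' hstepp hϖ hϖ0).YC X'.B.hpO hϖ hd' (fun _ : Unit => Sum.inr w)).H n)
      (((raiseP E X X' hstepp hϖ hϖ0).YC X'.B.hpO hϖ hd' (fun _ : Unit => Sum.inr w)).hbar n)
      r tv :=
  selB_enum hinj htv (selB_YC (X := xx X X') (i := some (Fin.last m)) (i' := none) E hstepp hϖ hϖ0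
    hd' w X'.B.hpO hp2 hpp hpD ho n (hS n) (hm n) (hSO n) (hW n) hun (hunW n))

end SysH

end Fermat.Agent.H09.MH
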