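import Mathlib
import Fermat.Agent.H09.MH3
import Fermat.Agent.H02M.StT6

/-!
# Strict ordinarity at the points of the levels divisible exactly once by `p`
-/

set_option autoImplicit false
set_option linter.unusedSectionVars false
set_option linter.style.haveILetI false

noncomputable section

namespace Fermat.Agent.H09.MH

open Fermat.Agent.TC Fermat.Agent.TW Fermat.Agent.CC Fermat.Agent.H25.GE Fermat.Agent.H25.TR
open Fermat.Agent.H25 Fermat.Agent.H25.PR Fermat.Agent.H25.PT Fermat.Agent.H12.LL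
open Fermat.Agent.H25.SB Fermat.Agent.H25.GD Fermat.Agent.TFin Fermat.Agent.H22 Fermat.Agent.Ell
open Fermat.Agent.H04 (DN M2)
open Fermat.Agent.H25.St (UQ StT OrdD)
open Fermat.Agent.H27.MH
open IsLocalRing Matrix

section Cmp

variable {O K : Type} [CommRing O] [IsDomain O] [IsDiscreteValuationRing O]
    [IsAdicComplete (maximalIdeal O) O] [Field K] [Algebra O K] {p r : ℕ}
    [Finite (ResidueField O)] [CharZero O] [hp : Fact p.Prime] [IsAlgClosed K] [FaithfulSMul O K]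
    {F : TWBase O K p r} [CharP (ResidueField O) p] {pp : Nat.Primes}

/-- **strict ordinarity of the points which are new at `p`** -/
theorem stT_cmp (X : CmpT F) (hp2 : p ≠ 2) (hpp : (pp : ℕ) = p) (hpsq : ¬ p * p ∣ X.N)
    (hpD : p ∣ F.D₀) {psi : GQ → ℤ} (ho : OrdD F.D (plv pp pp.2) psi) (n : ℕ)
    (x : (X.toCmp.cd 1 n).X) (hx : (pp : ℕ) ∣ X.toCmp.lvl 1 n x) :
    StT (plv pp pp.2) F.D.chi psi ((X.toCmp.cd 1 n).t x) := by
  have hA : (plv pp pp.2).LiesOverPrime p := hpp ▸ plv_over pp pp.2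
  refine St.stT_pt X.B.hpO F.Ge F.hchi F.hc (X.toCmp.hin 1 n) (F.hbar n) hp2 x ⟨?_, ?_⟩ hA ho
    (St.exists_inertia_ne (O := O) hp.out hp2 hA F.hchi)
  · exact (dvd_of_eq hpp.symm).trans hx
  · rw [pow_two]
    exact X.not_sq_dvd_lvl n x hp.out hpsq hpD

variable {κ' : Type} [Finite κ'] (E : Extra F κ') {m : ℕ}
    {tv : Fin m → Nat.Primes} (X : Fin (m + 1) → CmpT F) (X' : CmpT F) {ϖ : O}
    {S₁ T : Finset Nat.Primes}

/-- **The Selmer bound for the cokernel system**, in the form needed by `liftH`. -/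
theorem hSels_of' (hϖ : maximalIdeal O = Ideal.span {ϖ}) (hϖ0 : ϖ ≠ 0)
    (hstepp : RStep (X (Fin.last m)) X' pp) (hp2 : p ≠ 2) (hpp : (pp : ℕ) = p) (hpD : p ∣ F.D₀)
    (hS : ∀ n, F.S n = S₁ ∪ Finset.univ.image
      (fun j => (⟨(F.c n).q j, (F.c n).prime j⟩ : Nat.Primes)))
    (hm : ∀ n, SelM F.D p pp S₁ T r (fun j => ⟨(F.c n).q j, (F.c n).prime j⟩))
    (hinj : Function.Injective tv) (htv : ∀ q, q ∈ T ↔ ∃ t, tv t = q)
    {psi : GQ → ℤ} (ho : OrdD F.D (plv pp pp.2) psi) (hpsq : ¬ p * p ∣ X'.N)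
    (w : κ') (hW : ∀ n x, StT (plv pp pp.2) F.D.chi psi ((E.H n w).t x))
    (hun : ∀ q ∈ S₁, q ∉ T → q ≠ pp → (q : ℕ) ∣ F.D₀ ∧ ¬ (q : ℕ) * (q : ℕ) ∣ X'.N)
    (hunW : ∀ n, ∀ q ∈ S₁, q ∉ T → q ≠ pp → ∀ x, ∀ τ ∈ (plv q q.2).inertiaSubgroupIn ℚ,
      (E.H n w).t x τ = 2)
    (hd' : 2 * rk O (X (Fin.last m)).N F.a < rk O X'.N F.a) (n : ℕ) :
    SelB (((raiseP E X X' hstepp hϖ hϖ0).YC X'.B.hpO hϖ hd' (fun _ : Unit => Sum.inr w)).H n)
      (((raiseP E X X' hstepp hϖ hϖ0).YC X'.B.hpO hϖ hd' (fun _ : Unit => Sum.inr w)).hbar n)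
      r tv :=
  hSels_of E X X' hϖ hϖ0 hstepp hp2 hpp hpD hS hm hinj htv ho
    (fun n x hx => stT_cmp X' hp2 hpp hpsq hpD ho n x hx) w hW hun hunW hd' n

end Cmp

end Fermat.Agent.H09.MH
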