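import Mathlib
import Fermat.Agent.H09.DescE
import Fermat.Agent.H19.HopfB

set_option autoImplicit false
set_option linter.style.haveILetI false
set_option linter.unusedSectionVars false

/-! Integral bases of Hopf orders; characters belong to every Hopf order. -/

noncomputable section

namespace Fermat.Agent.H09

open Fermat.Agent.H02F (Qb GQ IsHopfOrder)

section Basis

variable {M : Type*} [AddCommGroup M]

/-- An integral basis of (the extension to `A` of) a Hopf order. -/
structure HopfBasis (A : ValuationSubring Qb) (act : GQ →* AddMonoid.End M) {n : ℕ}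
    (b : Module.Basis (Fin n) Qb (M → Qb)) : Prop where
  int : ∀ i m, b i m ∈ A
  equiv : ∀ i σ, cj act σ (b i) = b i
  mul : ∀ i j, ∀ k, b.repr (b i * b j) k ∈ A
  one : ∀ k, b.repr 1 k ∈ A
  comul : ∀ i, ∃ γ : Fin n → Fin n → Qb, (∀ j k, γ j k ∈ A) ∧
    ∀ x y, b i (x + y) = ∑ j, ∑ k, γ j k * b j x * b k y

theorem mem_of_isIntegral_Rl {A : ValuationSubring Qb} {ℓ : ℕ} (hℓ : ℓ.Prime)
    (hA : A.LiesOverPrime ℓ) {x : Qb} (hx : IsIntegral (GaloisRep.ratLocalizedAt ℓ) x) :
    x ∈ A := by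
  let f : GaloisRep.ratLocalizedAt ℓ →+* A :=
    { toFun := fun r => ⟨algebraMap ℚ Qb (r : ℚ), mem_of_mem_Rl hℓ hA r.2⟩
      map_one' := Subtype.ext (map_one (algebraMap ℚ Qb))
      map_zero' := Subtype.ext (map_zero (algebraMap ℚ Qb))
      map_mul' := fun a b => Subtype.ext (map_mul (algebraMap ℚ Qb) _ _)
      map_add' := fun a b => Subtype.ext (map_add (algebraMap ℚ Qb) _ _) }
  obtain ⟨p, hp, hp0⟩ := hx
  have h1 : IsIntegral A x := by
    refine ⟨p.map f, hp.map f, ?_⟩
    rw [Polynomial.eval₂_map]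
    exact hp0
  obtain ⟨y, hy⟩ := IsIntegrallyClosed.isIntegral_iff.mp h1
  rw [← hy]
  exact y.2

variable {act : GQ →* AddMonoid.End M}

theorem exists_hopfBasis [Finite M] {A : ValuationSubring Qb} {ℓ : ℕ} (hℓ : ℓ.Prime)
    (hA : A.LiesOverPrime ℓ) {H : Subalgebra (GaloisRep.ratLocalizedAt ℓ) (M → Qb)}
    (hH : IsHopfOrder ℓ act H) :
    ∃ (n : ℕ) (b : Module.Basis (Fin n) Qb (M → Qb)), HopfBasis A act b ∧
      (∀ i, b i ∈ H) ∧ ∀ φ ∈ H, ∀ k, b.repr φ k ∈ A := by
  classical
  have hspan := H19.span_eq_top H hH.sep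
  have hb0 : ∀ φ : H, (φ : M → Qb) = ∑ i, algebraMap ℚ Qb ((H19.basisH hH).repr φ i : ℚ) •
      (H19.basisH hH i : M → Qb) := by
    intro φ
    have h1 := congrArg (fun ψ : H => (ψ : M → Qb)) ((H19.basisH hH).sum_repr φ)
    refine h1.symm.trans ?_
    push_cast
    refine Finset.sum_congr rfl fun i _ => ?_
    ext m
    rw [Rl_smul_apply, Pi.smul_apply, smul_eq_mul]
  have hsp : ⊤ ≤ Submodule.span Qb (Set.range fun i => (H19.basisH hH i : M → Qb)) := by
    rw [← hspan, Submodule.span_le]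
    intro φ hφ
    have h1 := hb0 ⟨φ, hφ⟩
    change φ = _ at h1
    rw [SetLike.mem_coe, h1]
    exact Submodule.sum_mem _ fun i _ => Submodule.smul_mem _ _
      (Submodule.subset_span ⟨i, rfl⟩)
  let b : Module.Basis _ Qb (M → Qb) := Module.Basis.mk (H19.linInd_basisH hH) hsp
  have hb : ∀ i, b i = (H19.basisH hH i : M → Qb) := fun i => Module.Basis.mk_apply _ _ i
  have hbH : ∀ i, b i ∈ H := fun i => by rw [hb]; exact (H19.basisH hH i).2
  have hrepr : ∀ φ ∈ H, ∀ k, b.repr φ k ∈ A := by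
    intro φ hφ k
    have h1 := hb0 ⟨φ, hφ⟩
    change φ = _ at h1
    simp_rw [← hb] at h1
    rw [h1, b.repr_sum_self]
    exact mem_of_mem_Rl hℓ hA (Subtype.property _)
  refine ⟨_, b, ⟨?_, ?_, ?_, ?_, ?_⟩, hbH, hrepr⟩
  · intro i m
    rw [hb]
    apply mem_of_isIntegral_Rl hℓ hA
    haveI := H19.finite_H hH
    have h1 : IsIntegral (GaloisRep.ratLocalizedAt ℓ) (H19.basisH hH i) :=
      Algebra.IsIntegral.isIntegral _
    exact h1.map (H19.evA H m)
  · intro i σ
    exact (cj_eq_self_iff act σ (b i)).mpr (hH.equiv _ (hbH i) σ)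
  · intro i j k
    exact hrepr _ (H.mul_mem (hbH i) (hbH j)) k
  · intro k
    exact hrepr _ H.one_mem k
  · intro i
    obtain ⟨n, p, q, hp, hq, e⟩ := hH.comul (b i) (hbH i)
    refine ⟨fun j k => ∑ l, b.repr (p l) j * b.repr (q l) k, fun j k => sum_mem fun l _ =>
      A.mul_mem _ _ (hrepr _ (hp l) j) (hrepr _ (hq l) k), fun x y => ?_⟩
    rw [e]
    have e2 : ∀ l, p l x * q l y = ∑ j, ∑ k, b.repr (p l) j * b.repr (q l) k * b j x * b k y := by
      intro l
      conv_lhs => rw [← b.sum_repr (p l), ← b.sum_repr (q l)]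
      rw [Finset.sum_apply, Finset.sum_apply, Finset.sum_mul_sum]
      refine Finset.sum_congr rfl fun j _ => Finset.sum_congr rfl fun k _ => ?_
      rw [Pi.smul_apply, Pi.smul_apply, smul_eq_mul, smul_eq_mul]
      ring
    simp_rw [e2]
    rw [Finset.sum_comm]
    refine Finset.sum_congr rfl fun j _ => ?_
    rw [Finset.sum_comm]
    refine Finset.sum_congr rfl fun k _ => ?_
    rw [Finset.sum_mul, Finset.sum_mul]

variable {A : ValuationSubring Qb} {n : ℕ} {b : Module.Basis (Fin n) Qb (M → Qb)}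

theorem HopfBasis.repr_mul (h : HopfBasis A act b) {φ ψ : M → Qb} (I : Ideal A)
    (hφ : ∀ i, b.repr φ i ∈ A) (hψ : ∀ i, ∃ y ∈ I, (y : Qb) = b.repr ψ i) (k : Fin n) :
    ∃ y ∈ I, (y : Qb) = b.repr (φ * ψ) k := by
  have e : b.repr (φ * ψ) k = ∑ i, ∑ j, b.repr φ i * b.repr ψ j * b.repr (b i * b j) k := by
    have e1 : φ * ψ = ∑ i, ∑ j, (b.repr φ i * b.repr ψ j) • (b i * b j) := by
      conv_lhs => rw [← b.sum_repr φ, ← b.sum_repr ψ]
      rw [Finset.sum_mul_sum]
      refine Finset.sum_congr rfl fun i _ => Finset.sum_congr rfl fun j _ => ?_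
      rw [smul_mul_smul_comm]
    conv_lhs => rw [e1]
    simp only [map_sum, map_smul, Finsupp.finsetSum_apply, Finsupp.smul_apply, smul_eq_mul]
  choose y hy hyψ using hψ
  refine ⟨∑ i, ∑ j, (⟨_, hφ i⟩ * y j * ⟨_, h.mul i j k⟩ : A), ?_, ?_⟩
  · refine sum_mem fun i _ => sum_mem fun j _ => ?_
    exact Ideal.mul_mem_right _ _ (Ideal.mul_mem_left _ _ (hy j))
  · rw [e]
    push_cast
    refine Finset.sum_congr rfl fun i _ => Finset.sum_congr rfl fun j _ => ?_
    rw [hyψ]

theorem HopfBasis.repr_mul_mem (h : HopfBasis A act b) {φ ψ : M → Qb}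
    (hφ : ∀ i, b.repr φ i ∈ A) (hψ : ∀ i, b.repr ψ i ∈ A) (k : Fin n) :
    b.repr (φ * ψ) k ∈ A := by
  obtain ⟨y, -, hy⟩ := h.repr_mul ⊤ hφ (fun i => ⟨⟨_, hψ i⟩, Submodule.mem_top, rfl⟩) k
  rw [← hy]
  exact y.2

/-- **Characters belong to every Hopf order.** -/
theorem HopfBasis.repr_char (h : HopfBasis A act b) {χ : M → Qb}
    (hχ : ∀ x y, χ (x + y) = χ x * χ y) (k : Fin n) : b.repr χ k ∈ A := by
  classical
  by_cases h0 : ∀ i, b.repr χ i = 0
  · rw [h0]; exact A.zero_mem
  push Not at h0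
  obtain ⟨i₁, hi₁⟩ := h0
  obtain ⟨i₀, -, hmax⟩ := Finset.exists_max_image Finset.univ
    (fun i => A.valuation (b.repr χ i)) ⟨i₁, Finset.mem_univ i₁⟩
  have hi₀ : b.repr χ i₀ ≠ 0 := by
    intro h1
    have h2 := hmax i₁ (Finset.mem_univ i₁)
    rw [h1, map_zero, le_zero_iff, map_eq_zero] at h2
    exact hi₁ h2
  choose γ hγ hcomul using h.comul
  -- uniqueness of coordinates on `M × M`
  have huniq : ∀ d : Fin n → Fin n → Qb, (∀ x y, ∑ i, (∑ j, d i j * b j y) * b i x = 0) →
      ∀ i j, d i j = 0 := by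
    intro d hd i
    have h1 : ∀ y, ∀ i, ∑ j, d i j * b j y = 0 := by
      intro y
      refine Fintype.linearIndependent_iff.mp b.linearIndependent
        (fun i => ∑ j, d i j * b j y) ?_
      ext x
      rw [Finset.sum_apply]
      exact hd x y
    refine Fintype.linearIndependent_iff.mp b.linearIndependent (fun j => d i j) ?_
    ext y
    rw [Finset.sum_apply]
    exact h1 y i
  have key : ∀ j k, b.repr χ j * b.repr χ k = ∑ i, b.repr χ i * γ i j k := by
    intro j k
    rw [← sub_eq_zero]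
    refine huniq (fun j k => b.repr χ j * b.repr χ k - ∑ i, b.repr χ i * γ i j k) ?_ j k
    intro x y
    have hx : χ x = ∑ i, b.repr χ i * b i x := by
      conv_lhs => rw [← b.sum_repr χ]
      rw [Finset.sum_apply]
      rfl
    have hy : χ y = ∑ i, b.repr χ i * b i y := by
      conv_lhs => rw [← b.sum_repr χ]
      rw [Finset.sum_apply]
      rfl
    have hxy : χ (x + y) = ∑ i, b.repr χ i * b i (x + y) := by
      conv_lhs => rw [← b.sum_repr χ]
      rw [Finset.sum_apply]
      rfl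
    have e1 : ∑ j, (∑ k, b.repr χ j * b.repr χ k * b k y) * b j x = χ x * χ y := by
      rw [hx, hy, Finset.sum_mul_sum]
      refine Finset.sum_congr rfl fun i _ => ?_
      rw [Finset.sum_mul]
      refine Finset.sum_congr rfl fun j _ => ?_
      ring
    have e2 : ∑ j, (∑ k, (∑ i, b.repr χ i * γ i j k) * b k y) * b j x = χ (x + y) := by
      rw [hxy]
      have e3 : ∀ i, b.repr χ i * b i (x + y) =
          ∑ j, ∑ k, b.repr χ i * γ i j k * b k y * b j x := by
        intro i
        rw [hcomul, Finset.mul_sum]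
        refine Finset.sum_congr rfl fun j _ => ?_
        rw [Finset.mul_sum]
        refine Finset.sum_congr rfl fun k _ => ?_
        ring
      simp_rw [e3]
      rw [Finset.sum_comm]
      refine Finset.sum_congr rfl fun j _ => ?_
      rw [Finset.sum_comm, Finset.sum_mul]
      refine Finset.sum_congr rfl fun k _ => ?_
      rw [Finset.sum_mul, Finset.sum_mul]
    have e4 : ∀ j, (∑ k, (b.repr χ j * b.repr χ k - ∑ i, b.repr χ i * γ i j k) * b k y) * b j x =
        (∑ k, b.repr χ j * b.repr χ k * b k y) * b j x -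
          (∑ k, (∑ i, b.repr χ i * γ i j k) * b k y) * b j x := by
      intro j
      rw [← sub_mul, ← Finset.sum_sub_distrib]
      congr 1
      refine Finset.sum_congr rfl fun k _ => ?_
      rw [sub_mul]
    simp_rw [e4]
    rw [Finset.sum_sub_distrib, e1, e2, hχ, sub_self]
  have h1 := key i₀ k
  have h2 : A.valuation (b.repr χ i₀ * b.repr χ k) ≤ A.valuation (b.repr χ i₀) := by
    rw [h1]
    refine Valuation.map_sum_le _ fun i _ => ?_
    rw [map_mul]
    refine (mul_le_of_le_one_right' ((A.valuation_le_one_iff _).mpr (hγ i i₀ k))).trans ?_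
    exact hmax i (Finset.mem_univ i)
  rw [map_mul] at h2
  rw [← A.valuation_le_one_iff]
  have h3 : A.valuation (b.repr χ i₀) ≠ 0 := (Valuation.ne_zero_iff _).mpr hi₀
  have h4 : 0 < A.valuation (b.repr χ i₀) := zero_lt_iff.mpr h3
  exact (mul_le_iff_le_one_right h4).mp h2

end Basis

end Fermat.Agent.H09
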