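import Mathlib
import Fermat.Agent.H09.OTBasis

set_option autoImplicit false
set_option linter.style.haveILetI false
set_option linter.unusedSectionVars false

/-! A Galois module of order four which is très ramifiée at `2` has no Hopf order. -/

noncomputable section

namespace Fermat.Agent.H09

open Fermat.Agent.H02F (Qb GQ IsHopfOrder)

section Klein

variable {M : Type*} [AddCommGroup M]

/-- A Klein four group with a marked basis. -/
structure Klein (e f : M) : Prop where
  two : ∀ x : M, x + x = 0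
  all : ∀ x : M, x = 0 ∨ x = e ∨ x = f ∨ x = e + f
  he : e ≠ 0
  hf : f ≠ 0
  hef : e ≠ f

variable {e f : M} (h : Klein e f)

include h

theorem Klein.neg (x : M) : -x = x := by
  rw [neg_eq_iff_add_eq_zero]; exact h.two x

theorem Klein.ef_ne_zero : e + f ≠ 0 := by
  intro h0
  apply h.hef
  rw [← sub_eq_zero, sub_eq_add_neg, h.neg]
  exact h0

theorem Klein.ef_ne_e : e + f ≠ e := fun h0 => h.hf (add_eq_left.mp h0)

theorem Klein.ef_ne_f : e + f ≠ f := fun h0 => h.he (add_eq_right.mp h0)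

theorem Klein.e_add_ef : e + (e + f) = f := by rw [← add_assoc, h.two, zero_add]

theorem Klein.f_add_ef : f + (e + f) = e := by
  rw [add_left_comm, h.two, add_zero]

omit h in
open Classical in
/-- the character trivial on `f` -/
def chi (_ : M) (f : M) : M → Qb := fun x => if x = 0 ∨ x = f then 1 else -1

theorem Klein.chi_zero : chi e f 0 = 1 := by rw [chi, if_pos (Or.inl rfl)]

theorem Klein.chi_f : chi e f f = 1 := by rw [chi, if_pos (Or.inr rfl)]

theorem Klein.chi_e : chi e f e = -1 := by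
  rw [chi, if_neg]
  rintro (h1 | h1)
  · exact h.he h1
  · exact h.hef h1

theorem Klein.chi_ef : chi e f (e + f) = -1 := by
  rw [chi, if_neg]
  rintro (h1 | h1)
  · exact h.ef_ne_zero h1
  · exact h.ef_ne_f h1

theorem Klein.chi_mul (x y : M) : chi e f (x + y) = chi e f x * chi e f y := by
  rcases h.all x with rfl | rfl | rfl | rfl <;> rcases h.all y with rfl | rfl | rfl | rfl
  · rw [add_zero, h.chi_zero, mul_one]
  · rw [zero_add, h.chi_zero, one_mul]
  · rw [zero_add, h.chi_zero, one_mul]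
  · rw [zero_add, h.chi_zero, one_mul]
  · rw [add_zero, h.chi_zero, mul_one]
  · rw [h.two, h.chi_zero, h.chi_e]; ring
  · rw [h.chi_ef, h.chi_e, h.chi_f]; ring
  · rw [h.e_add_ef, h.chi_ef, h.chi_e, h.chi_f]; ring
  · rw [add_zero, h.chi_zero, mul_one]
  · rw [add_comm, h.chi_ef, h.chi_e, h.chi_f]; ring
  · rw [h.two, h.chi_zero, h.chi_f]; ring
  · rw [h.f_add_ef, h.chi_ef, h.chi_e, h.chi_f]; ring
  · rw [add_zero, h.chi_zero, mul_one]
  · rw [add_comm (_ + _), h.e_add_ef, h.chi_ef, h.chi_e, h.chi_f]; ring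
  · rw [add_comm (_ + _), h.f_add_ef, h.chi_ef, h.chi_e, h.chi_f]; ring
  · rw [h.two, h.chi_zero, h.chi_ef]; ring

omit h in
open Classical in
/-- the indicator function of the non-trivial coset -/
def epsf (e f : M) : M → Qb := fun x => if x = f ∨ x = e + f then 1 else 0

theorem Klein.eps_zero : epsf e f 0 = 0 := by
  rw [epsf, if_neg]
  rintro (h1 | h1)
  · exact h.hf h1.symm
  · exact h.ef_ne_zero h1.symm

theorem Klein.eps_e : epsf e f e = 0 := by
  rw [epsf, if_neg]
  rintro (h1 | h1)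
  · exact h.hef h1
  · exact h.ef_ne_e h1.symm

theorem Klein.eps_f : epsf e f f = 1 := by rw [epsf, if_pos (Or.inl rfl)]

theorem Klein.eps_ef : epsf e f (e + f) = 1 := by rw [epsf, if_pos (Or.inr rfl)]

end Klein

section Main

variable {M : Type*} [AddCommGroup M] [Finite M] {act : GQ →* AddMonoid.End M}
  {A : ValuationSubring Qb} {e f : M}

/-- **OT2**: a module of order four extending `ℤ/2` by `ℤ/2`, with class of odd valuation at `2`,
has no Hopf order at `2`. -/
theorem no_hopfOrder_of_odd (hA : A.LiesOverPrime 2) (h : Klein e f)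
    (hIe : ∀ σ ∈ A.inertiaSubgroupIn ℚ, act σ e = e)
    {s : Qb} {k : ℤ} (hs : A.valuation s ^ 2 = A.valuation (2 : Qb) ^ (2 * k + 1))
    (hs1 : ∀ σ ∈ A.inertiaSubgroupIn ℚ, σ s = s ∨ σ s = -s)
    (hfix : ∀ σ ∈ A.inertiaSubgroupIn ℚ, σ s = s → act σ f = f)
    (hmov : ∀ σ ∈ A.inertiaSubgroupIn ℚ, σ s = -s → act σ f = e + f)
    {H : Subalgebra (GaloisRep.ratLocalizedAt 2) (M → Qb)} (hH : IsHopfOrder 2 act H) : False := by
  classical
  haveI := Fermat.Agent.H51.isGalois_Qbar
  have h2v : A.valuation (2 : Qb) < 1 := by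
    have h1 : ((2 : ℕ) : Qb) ∈ A.nonunits := hA
    rw [ValuationSubring.mem_nonunits_iff] at h1
    exact_mod_cast h1
  have h20 : A.valuation (2 : Qb) ≠ 0 := (Valuation.ne_zero_iff _).mpr two_ne_zero
  have h20' : 0 < A.valuation (2 : Qb) := zero_lt_iff.mpr h20
  have hzp : ∀ {z : Qb}, z ≠ 0 → (∀ σ ∈ A.inertiaSubgroupIn ℚ, σ z = z) →
      ∃ m : ℤ, A.valuation z = A.valuation (2 : Qb) ^ m := by
    intro z hz hfix
    obtain ⟨m, hm⟩ := H12.exists_valuation_eq_zpow Nat.prime_two hA z hz hfix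
    exact ⟨m, by exact_mod_cast hm⟩
  have hmono : ∀ a b : ℤ, A.valuation (2 : Qb) ^ a ≤ A.valuation (2 : Qb) ^ b ↔ b ≤ a :=
    fun a b => zpow_le_zpow_iff_right_of_lt_one₀ h20' h2v
  have hs0 : s ≠ 0 := by
    rintro rfl
    rw [map_zero, zero_pow two_ne_zero] at hs
    exact zpow_ne_zero _ h20 hs.symm
  -- an element of inertia moving `s`
  obtain ⟨σ, hσ, hσs⟩ : ∃ σ ∈ A.inertiaSubgroupIn ℚ, σ s = -s := by
    by_contra hcon
    push Not at hcon
    obtain ⟨m, hm⟩ := hzp hs0 fun σ hσ => (hs1 σ hσ).resolve_right (hcon σ hσ)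
    rw [hm, ← zpow_natCast, ← zpow_mul] at hs
    have h1 := (hmono _ _).mp hs.le
    have h2 := (hmono _ _).mp hs.ge
    push_cast at h1 h2
    omega
  obtain ⟨n, b, hb, hbH, hreprH⟩ := exists_hopfBasis Nat.prime_two hA hH
  have hχ : ∀ i, b.repr (chi e f) i ∈ A := fun i => hb.repr_char h.chi_mul i
  have hσf : act σ f = e + f := hmov σ hσ hσs
  have hσe : act σ e = e := hIe σ hσ
  have hσef : act σ (e + f) = f := by
    rw [map_add, hσe, hσf]; exact h.e_add_ef
  have hσ' : ∀ x y : M, act σ x = y → act σ⁻¹ y = x := by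
    intro x y hxy
    rw [← hxy, act_inv_act]
  -- the difference of the two conjugate characters
  have hdiff : ∀ i, ∃ y ∈ IsLocalRing.maximalIdeal A,
      (y : Qb) = b.repr (chi e f - cj act σ (chi e f)) i := by
    intro i
    have h1 : b.repr (chi e f - cj act σ (chi e f)) i =
        b.repr (chi e f) i - σ (b.repr (chi e f) i) := by
      rw [map_sub, Finsupp.sub_apply, repr_cj (fun i σ => hb.equiv i σ)]
    have h3 := ((mem_inertia_iff A σ).mp hσ).2 _ (hχ i)
    have h4 : b.repr (chi e f) i - σ (b.repr (chi e f) i) ∈ A.nonunits := by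
      rw [ValuationSubring.mem_nonunits_iff] at h3 ⊢
      rwa [Valuation.map_sub_swap]
    refine ⟨⟨b.repr (chi e f) i - σ (b.repr (chi e f) i), A.nonunits_subset h4⟩, ?_, h1.symm⟩
    rw [← ValuationSubring.coe_mem_nonunits_iff]
    exact h4
  -- twice the idempotent
  have e2 : chi e f * (chi e f - cj act σ (chi e f)) = (2 : Qb) • epsf e f := by
    have hcj : ∀ x y, act σ x = y → cj act σ (chi e f) y = chi e f x := by
      intro x y hxy
      rw [cj_apply, hσ' x y hxy]
      rcases h.all x with rfl | rfl | rfl | rfl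
      · rw [h.chi_zero, map_one]
      · rw [h.chi_e, map_neg, map_one]
      · rw [h.chi_f, map_one]
      · rw [h.chi_ef, map_neg, map_one]
    ext x
    rw [Pi.mul_apply, Pi.sub_apply, Pi.smul_apply, smul_eq_mul]
    rcases h.all x with rfl | rfl | rfl | rfl
    · rw [hcj 0 0 (map_zero _), h.eps_zero]; ring
    · rw [hcj _ _ hσe, h.eps_e]; ring
    · rw [hcj _ _ hσef, h.chi_f, h.chi_ef, h.eps_f]; ring
    · rw [hcj _ _ hσf, h.chi_f, h.chi_ef, h.eps_ef]; ring
  -- behaviour of inertia
  have hfix' : ∀ τ ∈ A.inertiaSubgroupIn ℚ, τ s = s → ∀ x, act τ x = x := by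
    intro τ hτ hτs x
    have h1 := hIe τ hτ
    have h2 := hfix τ hτ hτs
    rcases h.all x with rfl | rfl | rfl | rfl
    · exact map_zero _
    · exact h1
    · exact h2
    · rw [map_add, h1, h2]
  have hepsI : ∀ τ ∈ A.inertiaSubgroupIn ℚ, cj act τ (epsf e f) = epsf e f := by
    intro τ hτ
    rw [cj_eq_self_iff]
    intro x
    have h01 : ∀ y, epsf e f y = 0 ∨ epsf e f y = 1 := by
      intro y
      rcases h.all y with rfl | rfl | rfl | rfl
      · exact Or.inl h.eps_zero
      · exact Or.inl h.eps_e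
      · exact Or.inr h.eps_f
      · exact Or.inr h.eps_ef
    have h3 : τ (epsf e f x) = epsf e f x := by
      rcases h01 x with h4 | h4
      · rw [h4, map_zero]
      · rw [h4, map_one]
    rw [h3]
    rcases hs1 τ hτ with h1 | h1
    · rw [hfix' τ hτ h1]
    · have h5 := hmov τ hτ h1
      have h6 := hIe τ hτ
      rcases h.all x with rfl | rfl | rfl | rfl
      · rw [map_zero]
      · rw [h6]
      · rw [h5, h.eps_f, h.eps_ef]
      · rw [map_add, h5, h6, h.e_add_ef, h.eps_f, h.eps_ef]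
  have heps : ∀ i, b.repr (epsf e f) i ∈ A := by
    intro i
    by_cases h0 : b.repr (epsf e f) i = 0
    · rw [h0]; exact A.zero_mem
    obtain ⟨y, hy, hye⟩ := hb.repr_mul (IsLocalRing.maximalIdeal A) hχ hdiff i
    rw [e2, map_smul, Finsupp.smul_apply, smul_eq_mul] at hye
    rw [← ValuationSubring.coe_mem_nonunits_iff, hye, ValuationSubring.mem_nonunits_iff,
      map_mul] at hy
    obtain ⟨m, hm⟩ := hzp h0 fun τ hτ => by
      rw [← repr_cj (fun i σ => hb.equiv i σ), hepsI τ hτ]
    rw [hm, ← zpow_one_add₀ h20, ← zpow_zero (A.valuation (2 : Qb)), ← not_le, hmono] at hy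
    rw [← A.valuation_le_one_iff, hm, ← zpow_zero (A.valuation (2 : Qb)), hmono]
    omega
  -- the product with the character
  set η : M → Qb := epsf e f * chi e f with hη
  have hηA : ∀ i, b.repr η i ∈ A := fun i => hb.repr_mul_mem heps hχ i
  have hη0 : η 0 = 0 := by rw [hη, Pi.mul_apply, h.eps_zero, zero_mul]
  have hηe : η e = 0 := by rw [hη, Pi.mul_apply, h.eps_e, zero_mul]
  have hηf : η f = 1 := by rw [hη, Pi.mul_apply, h.eps_f, h.chi_f, mul_one]
  have hηef : η (e + f) = -1 := by rw [hη, Pi.mul_apply, h.eps_ef, h.chi_ef, one_mul]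
  have hsη : ∀ τ ∈ A.inertiaSubgroupIn ℚ, cj act τ (s • η) = s • η := by
    intro τ hτ
    rw [cj_eq_self_iff]
    intro x
    rw [Pi.smul_apply, Pi.smul_apply, smul_eq_mul, smul_eq_mul, map_mul]
    have h3 : τ (η x) = η x := by
      rcases h.all x with rfl | rfl | rfl | rfl
      · rw [hη0, map_zero]
      · rw [hηe, map_zero]
      · rw [hηf, map_one]
      · rw [hηef, map_neg, map_one]
    rw [h3]
    rcases hs1 τ hτ with h1 | h1
    · rw [hfix' τ hτ h1, h1]
    · have h5 := hmov τ hτ h1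
      have h6 := hIe τ hτ
      rw [h1]
      rcases h.all x with rfl | rfl | rfl | rfl
      · rw [map_zero, hη0]; ring
      · rw [h6, hηe]; ring
      · rw [h5, hηf, hηef]; ring
      · rw [map_add, h5, h6, h.e_add_ef, hηf, hηef]; ring
  have hval : ∀ i, A.valuation (s * b.repr η i) ≤ A.valuation (2 : Qb) ^ (k + 1) := by
    intro i
    by_cases h0 : b.repr η i = 0
    · rw [h0, mul_zero, map_zero]; exact zero_le
    have hne : s * b.repr η i ≠ 0 := mul_ne_zero hs0 h0
    have hrep : s * b.repr η i = b.repr (s • η) i := by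
      rw [map_smul, Finsupp.smul_apply, smul_eq_mul]
    obtain ⟨m, hm⟩ := hzp hne fun τ hτ => by
      rw [hrep, ← repr_cj (fun i σ => hb.equiv i σ), hsη τ hτ]
    have h1 : A.valuation (s * b.repr η i) ^ 2 ≤ A.valuation (2 : Qb) ^ (2 * k + 1) := by
      rw [map_mul, mul_pow, hs]
      exact mul_le_of_le_one_right' (pow_le_one₀ zero_le
        ((A.valuation_le_one_iff _).mpr (hηA i)))
    rw [hm, ← zpow_natCast, ← zpow_mul, hmono] at h1
    rw [hm, hmono]
    push_cast at h1
    omega
  have hfin : A.valuation s ≤ A.valuation (2 : Qb) ^ (k + 1) := by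
    have h1 : s = ∑ i, (s * b.repr η i) * b i f := by
      have h2 : η f = ∑ i, b.repr η i * b i f := by
        conv_lhs => rw [← b.sum_repr η]
        rw [Finset.sum_apply]
        rfl
      rw [hηf] at h2
      conv_lhs => rw [← mul_one s, h2, Finset.mul_sum]
      refine Finset.sum_congr rfl fun i _ => ?_
      ring
    conv_lhs => rw [h1]
    refine Valuation.map_sum_le _ fun i _ => ?_
    rw [map_mul]
    exact (mul_le_of_le_one_right' ((A.valuation_le_one_iff _).mpr (hb.int i f))).trans (hval i)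
  have h1 : A.valuation s ^ 2 ≤ (A.valuation (2 : Qb) ^ (k + 1)) ^ 2 :=
    pow_le_pow_left₀ zero_le hfin 2
  rw [hs, ← zpow_natCast, ← zpow_mul, hmono] at h1
  push_cast at h1
  omega

end Main

end Fermat.Agent.H09
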