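import Mathlib
import Fermat.Agent.H09.AtP
import Fermat.Agent.H09.TwoAdic

set_option autoImplicit false

/-!
# A relation between the abscissas of a cyclic subgroup of order `p` and of the `2`-torsion

For a cyclic subgroup `C` of odd order `p = 2 r + 1` (generated by `P₀`) and the roots
`e₁, e₂, e₃` of the `2`-division polynomial, put `Π_e = ∏_{j=1}^{r} (x(j P₀) - e)`. Then
`(e₂-e₁)^p Π₃⁴ + (e₃-e₂)^p Π₁⁴ + (e₁-e₃)^p Π₂⁴ = 0`
(the two sides are the differences of the abscissas of the `2`-torsion of the isogenous curve).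
-/

namespace Fermat.Agent.H09

open Polynomial WeierstrassCurve WeierstrassCurve.Affine WeierstrassCurve.Affine.Point
open Fermat.Agent.H08

section

variable {K : Type*} [Field K] [DecidableEq K] {W : WeierstrassCurve.Affine K}

/-- `e, e', e''` are the three roots of the 2-division polynomial. -/
structure TwoRoots (W : WeierstrassCurve.Affine K) (e e' e'' : K) : Prop where
  b₂ : W.b₂ = -4 * (e + e' + e'')
  b₄ : W.b₄ = 2 * (e * e' + e * e'' + e' * e'')
  b₆ : W.b₆ = -4 * e * e' * e''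

omit [DecidableEq K] in
theorem TwoRoots.perm {e e' e'' : K} (h : TwoRoots W e e' e'') : TwoRoots W e' e'' e :=
  ⟨by rw [h.b₂]; ring, by rw [h.b₄]; ring, by rw [h.b₆]; ring⟩

omit [DecidableEq K] in
theorem TwoRoots.swap {e e' e'' : K} (h : TwoRoots W e e' e'') : TwoRoots W e' e e'' :=
  ⟨by rw [h.b₂]; ring, by rw [h.b₄]; ring, by rw [h.b₆]; ring⟩

theorem trans_formula (h2 : (2 : K) ≠ 0) {e e' e'' : K} (h : TwoRoots W e e' e'')
    {P Q : W.Point} (hP : P ≠ 0) (hQ : Q ≠ 0) (hPQ : px P ≠ px Q) :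
    (px (P + Q) - e) * (px (P - Q) - e) * (px P - px Q) ^ 2 =
      ((px P - e) * (px Q - e) - (e - e') * (e - e'')) ^ 2 := by
  have hs := px_add_sub_sum hP hQ hPQ
  have hp := px_add_sub_prod hP hQ hPQ
  have hb := W.b_relation
  have h4 : (4 : K) ≠ 0 := by
    have : (4 : K) = 2 * 2 := by norm_num
    rw [this]; exact mul_ne_zero h2 h2
  have hb8 : W.b₈ = 4 * (e + e' + e'') * e * e' * e'' - (e * e' + e * e'' + e' * e'') ^ 2 := by
    apply mul_left_cancel₀ h4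
    rw [hb, h.b₂, h.b₄, h.b₆]; ring
  rw [h.b₂, h.b₄, h.b₆] at hs
  rw [h.b₄, h.b₆, hb8] at hp
  linear_combination hp - e * hs

/-- the orbit product -/
noncomputable def orbProd (p : ℕ) (P₀ : W.Point) (e : K) (Q : W.Point) : K :=
  ∏ k ∈ Finset.range p, (px (Q + k • P₀) - e)

theorem orbProd_add {p : ℕ} {P₀ : W.Point} (hp : p • P₀ = 0) (e : K) (Q : W.Point) :
    orbProd p P₀ e (Q + P₀) = orbProd p P₀ e Q := by
  unfold orbProd
  rcases Nat.eq_zero_or_pos p with h0 | h0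
  · subst h0; simp
  obtain ⟨n, rfl⟩ : ∃ n, p = n + 1 := ⟨p - 1, by omega⟩
  rw [Finset.prod_range_succ, Finset.prod_range_succ']
  congr 1
  · apply Finset.prod_congr rfl
    intro k _
    rw [succ_nsmul', ← add_assoc]
  · rw [add_assoc, ← succ_nsmul', hp, zero_smul]

theorem orbProd_add_nsmul {p : ℕ} {P₀ : W.Point} (hp : p • P₀ = 0) (e : K) (Q : W.Point)
    (k : ℕ) : orbProd p P₀ e (Q + k • P₀) = orbProd p P₀ e Q := by
  induction k with
  | zero => rw [zero_smul, add_zero]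
  | succ k ih => rw [succ_nsmul, ← add_assoc, orbProd_add hp, ih]

theorem prod_range_symm {M : Type*} [CommMonoid M] (f : ℕ → M) (r : ℕ) :
    ∏ k ∈ Finset.range (2 * r + 1), f k =
      f 0 * ∏ j ∈ Finset.range r, (f (j + 1) * f (2 * r - j)) := by
  rw [Finset.prod_range_succ', mul_comm, two_mul, Finset.prod_range_add, Finset.prod_mul_distrib]
  congr 2
  rw [← Finset.prod_range_reflect]
  apply Finset.prod_congr rfl
  intro j hj
  rw [Finset.mem_range] at hj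
  congr 1
  omega

/-- `D(x)` -/
noncomputable def Dpoly (r : ℕ) (P₀ : W.Point) : K[X] :=
  ∏ j ∈ Finset.range r, (X - C (px ((j + 1) • P₀)))

/-- `U_e(x)` -/
noncomputable def Upoly (r : ℕ) (P₀ : W.Point) (e e' e'' : K) : K[X] :=
  ∏ j ∈ Finset.range r, (C (px ((j + 1) • P₀) - e) * X +
    C (-e * (px ((j + 1) • P₀) - e) - (e - e') * (e - e'')))

/-- `Π_e` -/
noncomputable def Pi' (r : ℕ) (P₀ : W.Point) (e : K) : K :=
  ∏ j ∈ Finset.range r, (px ((j + 1) • P₀) - e)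

theorem Upoly_eval (r : ℕ) (P₀ : W.Point) (e e' e'' x : K) :
    (Upoly r P₀ e e' e'').eval x = ∏ j ∈ Finset.range r,
      ((x - e) * (px ((j + 1) • P₀) - e) - (e - e') * (e - e'')) := by
  unfold Upoly
  rw [eval_prod]
  apply Finset.prod_congr rfl
  intro j _
  simp only [eval_add, eval_mul, eval_C, eval_X]
  ring

theorem Dpoly_eval (r : ℕ) (P₀ : W.Point) (x : K) :
    (Dpoly r P₀).eval x = ∏ j ∈ Finset.range r, (x - px ((j + 1) • P₀)) := by
  unfold Dpoly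
  rw [eval_prod]
  apply Finset.prod_congr rfl
  intro j _
  simp

theorem Upoly_eval_root (r : ℕ) (P₀ : W.Point) (e e' e'' : K) :
    (Upoly r P₀ e e' e'').eval e' = (e' - e) ^ r * Pi' r P₀ e'' := by
  have e1 : (e' - e) ^ r = ∏ _j ∈ Finset.range r, (e' - e) := by simp
  rw [Upoly_eval, Pi', e1, ← Finset.prod_mul_distrib]
  apply Finset.prod_congr rfl
  intro j _
  ring

theorem Dpoly_eval_sq (r : ℕ) (P₀ : W.Point) (e : K) :
    (Dpoly r P₀).eval e ^ 2 = Pi' r P₀ e ^ 2 := by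
  rw [Dpoly_eval, Pi', ← Finset.prod_pow, ← Finset.prod_pow]
  apply Finset.prod_congr rfl
  intro j _
  ring

/-- product formula for the orbit product -/
theorem orbProd_mul (h2 : (2 : K) ≠ 0) {e e' e'' : K} (h : TwoRoots W e e' e'') {r : ℕ}
    {P₀ : W.Point} (hp : (2 * r + 1) • P₀ = 0) {Q : W.Point} (hQ : Q ≠ 0)
    (hQ' : ∀ j < r, (j + 1) • P₀ ≠ 0 ∧ px Q ≠ px ((j + 1) • P₀)) :
    orbProd (2 * r + 1) P₀ e Q * (Dpoly r P₀).eval (px Q) ^ 2 =
      (px Q - e) * (Upoly r P₀ e e' e'').eval (px Q) ^ 2 := by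
  unfold orbProd
  rw [prod_range_symm, Dpoly_eval, Upoly_eval, zero_smul, add_zero, mul_assoc,
    ← Finset.prod_pow, ← Finset.prod_pow, ← Finset.prod_mul_distrib]
  congr 1
  apply Finset.prod_congr rfl
  intro j hj
  rw [Finset.mem_range] at hj
  obtain ⟨h3, h4⟩ := hQ' j hj
  have e1 : Q + (2 * r - j) • P₀ = Q - (j + 1) • P₀ := by
    rw [sub_eq_add_neg, add_right_inj, eq_neg_iff_add_eq_zero, ← add_smul,
      show 2 * r - j + (j + 1) = 2 * r + 1 by omega, hp]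
  rw [e1]
  exact trans_formula h2 h hQ h3 h4

end

section

variable {K : Type*} [Field K] [DecidableEq K] [IsAlgClosed K] [CharZero K]
  {W : WeierstrassCurve.Affine K}

omit [IsAlgClosed K] in
/-- The key relation for one pair of roots. -/
theorem pair_relation (hΔ : W.Δ ≠ 0) {e₁ e₂ e₃ : K} (h : TwoRoots W e₁ e₂ e₃) {p r : ℕ}
    (hpr : p = 2 * r + 1) (hp : p.Prime) (hp5 : 5 ≤ p) {P₀ : W.Point} (hP : P₀ ≠ 0)
    (hpP : p • P₀ = 0) (hPi : ∀ e ∈ ({e₁, e₂, e₃} : Set K), Pi' r P₀ e ≠ 0)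
    {Q : W.Point} (hQ : Q ≠ 0) (hQ3 : 3 • Q = 0) :
    Pi' r P₀ e₂ ^ 2 * orbProd p P₀ e₁ Q - Pi' r P₀ e₁ ^ 2 * orbProd p P₀ e₂ Q =
      (e₂ - e₁) ^ p * Pi' r P₀ e₃ ^ 2 := by
  have h2 : (2 : K) ≠ 0 := two_ne_zero
  have hk0 : ∀ k : ℕ, ¬ p ∣ k → k • P₀ ≠ 0 := fun k hk => nsmul_ne_zero_of_prime hp hP hpP hk
  have hpint := hp
  -- Q + k P₀ is never in ⟨P₀⟩
  have hQC : ∀ k : ℕ, Q ≠ k • P₀ := by
    intro k hk
    have h3 : 3 • (k • P₀) = 0 := by rw [← hk]; exact hQ3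
    rw [← mul_smul] at h3
    have h4 : p ∣ 3 * k := by
      by_contra hnd
      exact hk0 _ hnd h3
    rcases (Nat.Prime.dvd_mul hp).mp h4 with h5 | h5
    · have := Nat.le_of_dvd (by norm_num) h5
      omega
    · obtain ⟨c, rfl⟩ := h5
      apply hQ
      rw [hk, mul_comm, mul_smul, hpP, nsmul_zero]
  have hQC' : ∀ k : ℕ, 2 • Q ≠ k • P₀ := by
    intro k hk
    apply hQC (2 * k)
    have : Q = 4 • Q := by
      have e : (4 : ℕ) • Q = 3 • Q + Q := succ_nsmul Q 3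
      rw [e, hQ3, zero_add]
    rw [this, show (4 : ℕ) = 2 * 2 by norm_num, mul_smul, hk, ← mul_smul]
  have hneg : ∀ k : ℕ, ∃ l : ℕ, -(k • P₀) = l • P₀ := by
    intro k
    refine ⟨(p - 1) * k, ?_⟩
    rw [neg_eq_iff_add_eq_zero, ← add_smul]
    have : k + (p - 1) * k = k * p := by
      obtain ⟨m, rfl⟩ : ∃ m, p = m + 1 := ⟨p - 1, by omega⟩
      simp; ring
    rw [this, mul_smul, hpP, nsmul_zero]
  have hQk : ∀ k : ℕ, Q + k • P₀ ≠ 0 ∧ ∀ j < r, (j + 1) • P₀ ≠ 0 ∧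
      px (Q + k • P₀) ≠ px ((j + 1) • P₀) := by
    intro k
    have h0 : Q + k • P₀ ≠ 0 := by
      intro h0
      obtain ⟨l, hl⟩ := hneg k
      exact hQC l (by rw [← hl]; exact eq_neg_of_add_eq_zero_left h0)
    refine ⟨h0, fun j hj => ?_⟩
    have hj0 : (j + 1) • P₀ ≠ 0 := hk0 _ (fun hd => by
      have := Nat.le_of_dvd (by omega) hd
      omega)
    refine ⟨hj0, fun hx => ?_⟩
    rcases (px_eq_iff h0 hj0).mp hx with h4 | h4
    · obtain ⟨l, hl⟩ := hneg k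
      apply hQC (j + 1 + l)
      rw [add_smul, ← hl, ← h4]; abel
    · obtain ⟨l, hl⟩ := hneg (j + 1 + k)
      apply hQC l
      rw [← hl, add_smul, neg_add, ← h4]; abel
  -- the polynomial
  set w : K := Pi' r P₀ e₂ ^ 2 * orbProd p P₀ e₁ Q - Pi' r P₀ e₁ ^ 2 * orbProd p P₀ e₂ Q with hw
  let G₁ : K[X] := C (Pi' r P₀ e₂ ^ 2) * ((X - C e₁) * Upoly r P₀ e₁ e₂ e₃ ^ 2)
  let G₂ : K[X] := C (Pi' r P₀ e₁ ^ 2) * ((X - C e₂) * Upoly r P₀ e₂ e₁ e₃ ^ 2)
  let H : K[X] := (G₁ - G₂) - C w * Dpoly r P₀ ^ 2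
  have hPi1 := hPi e₁ (by simp)
  have hPi2 := hPi e₂ (by simp)
  have hPi3 := hPi e₃ (by simp)
  have hne : ∀ e : K, Pi' r P₀ e ≠ 0 → ∀ j ∈ Finset.range r, px ((j + 1) • P₀) - e ≠ 0 :=
    fun e he => Finset.prod_ne_zero_iff.mp he
  have hUdeg : ∀ e e' e'' : K, Pi' r P₀ e ≠ 0 → (Upoly r P₀ e e' e'').degree = r ∧
      (Upoly r P₀ e e' e'').leadingCoeff = Pi' r P₀ e := by
    intro e e' e'' he
    have hdeg : (Upoly r P₀ e e' e'').degree = r := by
      unfold Upoly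
      rw [degree_prod]
      rw [Finset.sum_congr rfl (fun j hj => degree_linear (hne e he j hj))]
      simp
    refine ⟨hdeg, ?_⟩
    unfold Upoly Pi'
    rw [leadingCoeff_prod]
    apply Finset.prod_congr rfl
    intro j hj
    exact leadingCoeff_linear (hne e he j hj)
  have hG : ∀ (c e e' e'' : K), c ≠ 0 → Pi' r P₀ e ≠ 0 →
      (C (c ^ 2) * ((X - C e) * Upoly r P₀ e e' e'' ^ 2)).degree = ((2 * r + 1 : ℕ) : WithBot ℕ) ∧
      (C (c ^ 2) * ((X - C e) * Upoly r P₀ e e' e'' ^ 2)).leadingCoeff =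
        c ^ 2 * Pi' r P₀ e ^ 2 := by
    intro c e e' e'' hc he
    obtain ⟨g1, g2⟩ := hUdeg e e' e'' he
    constructor
    · rw [degree_mul, degree_C (pow_ne_zero 2 hc), degree_mul, degree_X_sub_C, degree_pow, g1]
      simp only [nsmul_eq_mul]
      push_cast
      ring
    · rw [leadingCoeff_mul, leadingCoeff_C, leadingCoeff_mul, leadingCoeff_X_sub_C,
        leadingCoeff_pow, g2, one_mul]
  have hG1 := hG (Pi' r P₀ e₂) e₁ e₂ e₃ hPi2 hPi1
  have hG2 := hG (Pi' r P₀ e₁) e₂ e₁ e₃ hPi1 hPi2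
  have hsub : (G₁ - G₂).degree < ((2 * r + 1 : ℕ) : WithBot ℕ) := by
    have := degree_sub_lt_left (p := G₁) (q := G₂) (hG1.1.trans hG2.1.symm) (by
      intro h0
      have := hG1.1
      change G₁.degree = _ at this
      rw [h0, degree_zero] at this
      exact WithBot.natCast_ne_bot _ this.symm) (by
      change (C (Pi' r P₀ e₂ ^ 2) * ((X - C e₁) * Upoly r P₀ e₁ e₂ e₃ ^ 2)).leadingCoeff = _
      rw [hG1.2]
      change _ = (C (Pi' r P₀ e₁ ^ 2) * ((X - C e₂) * Upoly r P₀ e₂ e₁ e₃ ^ 2)).leadingCoeff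
      rw [hG2.2]; ring)
    calc (G₁ - G₂).degree < G₁.degree := this
      _ = _ := hG1.1
  have hDdeg : (C w * Dpoly r P₀ ^ 2).degree < ((2 * r + 1 : ℕ) : WithBot ℕ) := by
    have hD : (Dpoly r P₀ ^ 2).degree = ((2 * r : ℕ) : WithBot ℕ) := by
      rw [degree_pow]
      unfold Dpoly
      rw [degree_prod, Finset.sum_congr rfl (fun j _ => degree_X_sub_C _)]
      simp
    refine lt_of_le_of_lt (degree_mul_le _ _) (lt_of_le_of_lt (add_le_add_left degree_C_le _) ?_)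
    rw [zero_add, hD]
    exact_mod_cast Nat.lt_succ_self _
  have hHdeg : H.degree < ((2 * r + 1 : ℕ) : WithBot ℕ) :=
    lt_of_le_of_lt (degree_sub_le _ _) (max_lt hsub hDdeg)
  -- the roots
  have hroot : ∀ k : ℕ, H.eval (px (Q + k • P₀)) = 0 := by
    intro k
    obtain ⟨q0, q1⟩ := hQk k
    have f1 := orbProd_mul h2 h (by rw [← hpr]; exact hpP) q0 q1
    have f2 := orbProd_mul h2 h.swap (by rw [← hpr]; exact hpP) q0 q1
    rw [← hpr, orbProd_add_nsmul hpP] at f1 f2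
    simp only [H, G₁, G₂, eval_sub, eval_mul, eval_C, eval_X, eval_pow]
    rw [← f1, ← f2, hw]
    ring
  have hinj : Set.InjOn (fun k : ℕ => px (Q + k • P₀)) (Finset.range p) := by
    intro k hk l hl hkl
    simp only [Finset.coe_range, Set.mem_Iio] at hk hl
    rcases (px_eq_iff (hQk k).1 (hQk l).1).mp hkl with h4 | h4
    · have h5 : k • P₀ = l • P₀ := add_left_cancel h4
      rcases lt_trichotomy k l with h6 | h6 | h6
      · exfalso
        apply hk0 (l - k) (fun hd => by have := Nat.le_of_dvd (by omega) hd; omega)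
        have : l • P₀ = (l - k) • P₀ + k • P₀ := by rw [← add_smul]; congr 1; omega
        rw [h5] at this
        exact (add_eq_right.mp this.symm)
      · exact h6
      · exfalso
        apply hk0 (k - l) (fun hd => by have := Nat.le_of_dvd (by omega) hd; omega)
        have : k • P₀ = (k - l) • P₀ + l • P₀ := by rw [← add_smul]; congr 1; omega
        rw [h5] at this
        exact (add_eq_right.mp this.symm)
    · exfalso
      obtain ⟨m, hm⟩ := hneg (k + l)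
      apply hQC' m
      rw [← hm, add_smul, two_smul]
      have h5 : Q + k • P₀ + (Q + l • P₀) = 0 := by rw [h4]; abel
      rw [← sub_eq_zero]
      rw [← h5]; abel
  have hH0 : H = 0 := by
    apply Polynomial.eq_zero_of_degree_lt_of_eval_finset_eq_zero
      ((Finset.range p).image (fun k : ℕ => px (Q + k • P₀)))
    · rw [Finset.card_image_of_injOn hinj, Finset.card_range, hpr]
      exact hHdeg
    · intro x hx
      obtain ⟨k, _, rfl⟩ := Finset.mem_image.mp hx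
      exact hroot k
  -- evaluate at e₂
  have hev : H.eval e₂ = 0 := by rw [hH0, eval_zero]
  simp only [H, G₁, G₂, eval_sub, eval_mul, eval_C, eval_X, eval_pow] at hev
  rw [Upoly_eval_root, Dpoly_eval_sq, sub_self, zero_mul, mul_zero, sub_zero] at hev
  have hPi2sq : Pi' r P₀ e₂ ^ 2 ≠ 0 := pow_ne_zero 2 hPi2
  apply mul_left_cancel₀ hPi2sq
  have e5 : (e₂ - e₁) ^ p = (e₂ - e₁) * ((e₂ - e₁) ^ r) ^ 2 := by
    rw [hpr, ← pow_mul, pow_succ]; ring
  rw [e5]
  linear_combination -hev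

/-- **Main relation.** -/
theorem three_term_relation (hΔ : W.Δ ≠ 0) {e₁ e₂ e₃ : K} (h : TwoRoots W e₁ e₂ e₃) {p r : ℕ}
    (hpr : p = 2 * r + 1) (hp : p.Prime) (hp5 : 5 ≤ p) {P₀ : W.Point} (hP : P₀ ≠ 0)
    (hpP : p • P₀ = 0) (hPi : ∀ e ∈ ({e₁, e₂, e₃} : Set K), Pi' r P₀ e ≠ 0) :
    (e₂ - e₁) ^ p * Pi' r P₀ e₃ ^ 4 + (e₃ - e₂) ^ p * Pi' r P₀ e₁ ^ 4 +
      (e₁ - e₃) ^ p * Pi' r P₀ e₂ ^ 4 = 0 := by
  obtain ⟨Q, hQ, hQ3⟩ := exists_torsion (W := W) hΔ (n := 3) (by decide) le_rfl (by norm_num)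
  have r1 := pair_relation hΔ h hpr hp hp5 hP hpP hPi hQ hQ3
  have r2 := pair_relation hΔ h.perm hpr hp hp5 hP hpP (fun e he => hPi e (by
    simp only [Set.mem_insert_iff, Set.mem_singleton_iff] at he ⊢; tauto)) hQ hQ3
  have r3 := pair_relation hΔ h.perm.perm hpr hp hp5 hP hpP (fun e he => hPi e (by
    simp only [Set.mem_insert_iff, Set.mem_singleton_iff] at he ⊢; tauto)) hQ hQ3
  linear_combination -(Pi' r P₀ e₃ ^ 2 * r1) - (Pi' r P₀ e₁ ^ 2 * r2) - (Pi' r P₀ e₂ ^ 2 * r3)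

end

end Fermat.Agent.H09
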