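import Mathlib
import Fermat.Agent.H09.Isog
import Fermat.Agent.H09.GoodP
import Fermat.Agent.H09.InertiaNode
import Fermat.Agent.H09.Dichotomy

set_option autoImplicit false

/-!
# Tools for the endgame: numerical lemma, products over a cyclic group
-/

namespace Fermat.Agent.H09

open Polynomial WeierstrassCurve WeierstrassCurve.Affine WeierstrassCurve.Affine.Point
open Fermat.Agent.H08 Fermat.Agent.H05

/-- the final numerical contradiction -/
theorem no_sol {p : ℕ} (hp : Odd p) (hp3 : 3 ≤ p) {A B : ℤ} (hA : Odd A) (hB : (32 : ℤ) ∣ B)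
    (hB0 : B ≠ 0) (h : 16 ^ (p - 1) * (A ^ p - (A + B) ^ p) + B ^ p = 0) : False := by
  set S : ℤ := ∑ i ∈ Finset.range p, (A + B) ^ i * A ^ (p - 1 - i) with hS
  have h1 : S * (A + B - A) = (A + B) ^ p - A ^ p := by
    rw [hS, Commute.geom_sum₂_mul (Commute.all _ _)]
  have hp1 : B ^ p = B * B ^ (p - 1) := by
    rw [← pow_succ']; congr 1; omega
  have h2 : B * (B ^ (p - 1) - 16 ^ (p - 1) * S) = 0 := by
    rw [hp1] at h
    linear_combination h - 16 ^ (p - 1) * h1
  have h3 : B ^ (p - 1) = 16 ^ (p - 1) * S := by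
    rcases mul_eq_zero.mp h2 with h | h
    · exact absurd h hB0
    · exact sub_eq_zero.mp h
  obtain ⟨k, rfl⟩ := hB
  have h4 : (2 * k) ^ (p - 1) = S := by
    have : (16 : ℤ) ^ (p - 1) ≠ 0 := by positivity
    apply mul_left_cancel₀ this
    rw [← h3, ← mul_pow]
    congr 1; ring
  have hSodd : Odd S := by
    have hAB : Odd (A + 32 * k) := by
      apply hA.add_even
      exact ⟨16 * k, by ring⟩
    rw [← Int.not_even_iff_odd, even_iff_two_dvd]
    intro h2S
    have h2S' : ((S : ℤ) : ZMod 2) = 0 := (ZMod.intCast_zmod_eq_zero_iff_dvd S 2).mpr h2S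
    revert h2S'
    have hz1 : ((A : ℤ) : ZMod 2) = 1 := by
      obtain ⟨m, rfl⟩ := hA
      push_cast
      have : (2 : ZMod 2) = 0 := rfl
      rw [this]; ring
    have hz2 : ((A + 32 * k : ℤ) : ZMod 2) = 1 := by
      obtain ⟨m, hm⟩ := hAB
      rw [hm]
      push_cast
      have : (2 : ZMod 2) = 0 := rfl
      rw [this]; ring
    rw [hS]
    push_cast at hz2 ⊢
    rw [hz1] at hz2 ⊢
    rw [hz2]
    simp only [one_pow, mul_one, Finset.sum_const, Finset.card_range, nsmul_eq_mul]
    obtain ⟨m, rfl⟩ := hp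
    push_cast
    have : (2 : ZMod 2) = 0 := rfl
    rw [this]
    simp
  have hSeven : Even S := by
    rw [← h4, even_iff_two_dvd]
    exact dvd_pow (dvd_mul_right _ _) (by omega)
  exact (Int.not_even_iff_odd.mpr hSodd) hSeven

section

variable {F : Type*} [Field F] [CharZero F]

/-- a rational number which is a unit everywhere is `±1` -/
theorem rat_unit {q : ℚ} (h : ∀ ℓ : ℕ, ℓ.Prime → ∃ A : ValuationSubring F,
    A.LiesOverPrime ℓ ∧ A.valuation (q : F) = 1) : q ^ 2 = 1 := by
  have hnum : ∀ ℓ : ℕ, ℓ.Prime → ¬ (ℓ : ℤ) ∣ q.num := by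
    intro ℓ hℓ hd
    obtain ⟨A, hA, hv⟩ := h ℓ hℓ
    have hden : ¬ (ℓ : ℤ) ∣ (q.den : ℤ) := by
      intro hd2
      have h1 : ℓ ∣ q.num.natAbs := Int.natCast_dvd.mp hd
      have h2 : ℓ ∣ q.den := by exact_mod_cast hd2
      have h3 := Nat.dvd_gcd h1 h2
      rw [q.reduced] at h3
      exact hℓ.one_lt.ne' (Nat.dvd_one.mp h3)
    have h1 := val_intCast_lt_one hA hd
    have h2 := val_intCast_eq_one hℓ hA hden
    rw [Rat.cast_def, map_div₀] at hv
    rw [Int.cast_natCast] at h2
    rw [h2, div_one] at hv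
    rw [hv] at h1
    exact lt_irrefl _ h1
  have hden : ∀ ℓ : ℕ, ℓ.Prime → ¬ (ℓ : ℤ) ∣ (q.den : ℤ) := by
    intro ℓ hℓ hd
    obtain ⟨A, hA, hv⟩ := h ℓ hℓ
    have h1 := val_intCast_lt_one hA hd
    have h2 := val_intCast_eq_one hℓ hA (hnum ℓ hℓ)
    rw [Rat.cast_def, map_div₀] at hv
    rw [Int.cast_natCast] at h1
    rw [h2] at hv
    have : A.valuation ((q.den : ℕ) : F) = 1 := by
      rw [one_div] at hv
      exact inv_eq_one.mp hv
    rw [this] at h1
    exact lt_irrefl _ h1
  have e1 : q.num.natAbs = 1 := by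
    by_contra hne
    obtain ⟨ℓ, hℓ, hd⟩ := Nat.exists_prime_and_dvd hne
    exact hnum ℓ hℓ (Int.natCast_dvd.mpr hd)
  have e2 : q.den = 1 := by
    by_contra hne
    obtain ⟨ℓ, hℓ, hd⟩ := Nat.exists_prime_and_dvd hne
    exact hden ℓ hℓ (by exact_mod_cast hd)
  have e3 : q = q.num := by
    conv_lhs => rw [← Rat.num_div_den q, e2]
    simp
  rw [e3]
  rcases Int.natAbs_eq q.num with h1 | h1 <;> rw [e1] at h1 <;> rw [h1] <;> norm_num

end

section

variable {F : Type*} [Field F] [DecidableEq F] {Γ₀ : Type*} [LinearOrderedCommGroupWithZero Γ₀]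
  {v : Valuation F Γ₀} {W : WeierstrassCurve.Affine F}

/-- existence of a 2-torsion point -/
theorem exists_two_torsion (hΔ : W.Δ ≠ 0) (h2 : (2 : F) ≠ 0) {e : F}
    (he : 4 * e ^ 3 + W.b₂ * e ^ 2 + 2 * W.b₄ * e + W.b₆ = 0) :
    ∃ T : W.Point, T ≠ 0 ∧ T + T = 0 ∧ px T = e := by
  set y : F := -(W.a₁ * e + W.a₃) / 2 with hy
  have hy2 : 2 * y = -(W.a₁ * e + W.a₃) := by rw [hy]; field_simp
  have h4 : (4 : F) ≠ 0 := by
    have : (4 : F) = 2 * 2 := by norm_num
    rw [this]; exact mul_ne_zero h2 h2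
  have heq : W.Equation e y := by
    rw [Affine.equation_iff]
    apply mul_left_cancel₀ h4
    simp only [WeierstrassCurve.b₂, WeierstrassCurve.b₄, WeierstrassCurve.b₆] at he
    linear_combination (2 * y + (W.a₁ * e + W.a₃)) * hy2 - he
  have hns : W.Nonsingular e y := (Affine.equation_iff_nonsingular_of_Δ_ne_zero hΔ).mp heq
  refine ⟨Point.some e y hns, some_ne_zero _, ?_, rfl⟩
  apply Point.add_self_of_Y_eq
  rw [Affine.negY]
  linear_combination hy2

/-- an integral torsion point of odd order and nonsingular reduction is not congruent to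
a 2-torsion point. -/
theorem val_sub_two_torsion (hW : IsIntegralFor v W) {P T : W.Point} {n : ℕ} (hn : Odd n)
    (hnP : n • P = 0) (hP0 : P ≠ 0) (hPx : v (px P) ≤ 1) (hns : NonsingularRed v P)
    (hT0 : T ≠ 0) (hT : T + T = 0) (hTx : v (px T) ≤ 1) : v (px P - px T) = 1 := by
  by_contra hne
  have hlt : v (px P - px T) < 1 := lt_of_le_of_ne (v_sub_le_one hPx hTx) hne
  have h1 : InE1 v (P + P) := by
    rcases inE1_sub_or_add_of_congr hW hP0 hT0 hPx hlt hns with h | h
    · have e : P + P = (P - T) + (P - T) := by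
        have : (P - T) + (P - T) = P + P - (T + T) := by abel
        rw [this, hT, sub_zero]
      rw [e]; exact h.add hW h
    · have e : P + P = (P + T) + (P + T) := by
        have : (P + T) + (P + T) = P + P + (T + T) := by abel
        rw [this, hT, add_zero]
      rw [e]; exact h.add hW h
  obtain ⟨m, hm⟩ := hn
  have h2 : P = (m + 1) • (P + P) := by
    have : (m + 1) • (P + P) = n • P + P := by
      rw [hm, ← two_nsmul, ← mul_nsmul, ← succ_nsmul]; congr 1
    rw [this, hnP, zero_add]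
  have h3 : P ∈ E1 v W hW := by
    rw [h2]
    exact AddSubgroup.nsmul_mem _ (show P + P ∈ E1 v W hW from h1) _
  have h4 : InE1 v P := h3
  rcases h4 with h | h
  · exact hP0 h
  · exact absurd h (not_lt.mpr hPx)

end

end Fermat.Agent.H09
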