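import Mathlib
import Fermat.Agent.H09.EndTools
import Fermat.Agent.H09.Frey

set_option autoImplicit false

/-!
# The endgame: a Galois stable line of the Frey curve contained in `E₀` everywhere
-/

namespace Fermat.Agent.H09

open Polynomial WeierstrassCurve WeierstrassCurve.Affine WeierstrassCurve.Affine.Point
open Fermat.Agent.H08 Fermat.Agent.H05

section Cyc

variable {L : Type*} [Field L] [DecidableEq L] {W : WeierstrassCurve.Affine L}

/-- the nonzero multiples of `P₀` -/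
noncomputable def cyc (p : ℕ) (P₀ : W.Point) : Finset W.Point :=
  (Finset.Ico 1 p).image (fun k => k • P₀)

theorem cyc_injOn {p : ℕ} {P₀ : W.Point} (hord : addOrderOf P₀ = p) :
    Set.InjOn (fun k : ℕ => k • P₀) (Finset.Ico 1 p : Set ℕ) := by
  intro i hi j hj hij
  have hi' := Finset.mem_Ico.mp (Finset.mem_coe.mp hi)
  have hj' := Finset.mem_Ico.mp (Finset.mem_coe.mp hj)
  have := (nsmul_eq_nsmul_iff_modEq (x := P₀) (n := i) (m := j)).mp hij
  rw [hord] at this
  exact Nat.ModEq.eq_of_lt_of_lt this hi'.2 hj'.2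

theorem prod_cyc {p r : ℕ} (hpr : p = 2 * r + 1) {P₀ : W.Point} (hord : addOrderOf P₀ = p)
    (e : L) : ∏ Q ∈ cyc p P₀, (px Q - e) = Pi' r P₀ e ^ 2 := by
  have hpP : p • P₀ = 0 := by rw [← hord]; exact addOrderOf_nsmul_eq_zero P₀
  unfold cyc
  rw [Finset.prod_image (cyc_injOn hord)]
  have h1 : ∏ k ∈ Finset.Ico 1 p, (px (k • P₀) - e) =
      ∏ k ∈ Finset.range (2 * r), (px ((k + 1) • P₀) - e) := by
    rw [Finset.prod_Ico_eq_prod_range]
    have : p - 1 = 2 * r := by omega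
    rw [this]
    apply Finset.prod_congr rfl
    intro k _
    rw [add_comm]
  rw [h1, Pi', ← Finset.prod_pow]
  have h2 := prod_range_symm (fun k => if k = 0 then (1 : L) else px (k • P₀) - e) r
  rw [Finset.prod_range_succ'] at h2
  simp only [if_true, mul_one, one_mul, Nat.add_eq_zero_iff, one_ne_zero, and_false,
    if_false] at h2
  rw [h2]
  apply Finset.prod_congr rfl
  intro j hj
  rw [Finset.mem_range] at hj
  rw [if_neg (by omega)]
  have h3 : (2 * r - j) • P₀ = -((j + 1) • P₀) := by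
    rw [eq_neg_iff_add_eq_zero, ← add_nsmul]
    have : 2 * r - j + (j + 1) = p := by omega
    rw [this, hpP]
  rw [h3, px_neg, pow_two]

end Cyc

section Rational

variable {L : Type*} [Field L] [CharZero L] [DecidableEq L] [IsGalois ℚ L]
  {W₀ : WeierstrassCurve.Affine ℚ}

omit [IsGalois ℚ L] in
theorem smul_pt_injective (σ : L ≃ₐ[ℚ] L) :
    Function.Injective (fun P : (W₀⁄L).Point => σ • P) :=
  fun _ _ h => smul_left_cancel σ h

/-- symmetric products over a Galois stable set are rational -/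
theorem prod_rational (S : Finset (W₀⁄L).Point)
    (hSσ : ∀ σ : L ≃ₐ[ℚ] L, ∀ P ∈ S, σ • P ∈ S) (e : ℚ) :
    ∃ q : ℚ, (q : L) = ∏ P ∈ S, (px P - (e : L)) := by
  have hfix : ∀ σ : L ≃ₐ[ℚ] L, σ (∏ P ∈ S, (px P - (e : L))) = ∏ P ∈ S, (px P - (e : L)) := by
    intro σ
    have hinj := smul_pt_injective (W₀ := W₀) σ
    have himg : S.image (fun P => σ • P) = S := by
      apply Finset.eq_of_subset_of_card_le
      · intro Q hQ
        obtain ⟨P, hP, rfl⟩ := Finset.mem_image.mp hQ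
        exact hSσ σ P hP
      · rw [Finset.card_image_of_injective _ hinj]
    rw [map_prod]
    calc ∏ P ∈ S, σ (px P - (e : L)) = ∏ P ∈ S, (px (σ • P) - (e : L)) := by
          apply Finset.prod_congr rfl
          intro P _
          rw [px_smul, map_sub, map_ratCast]
      _ = ∏ Q ∈ S.image (fun P => σ • P), (px Q - (e : L)) := by
          rw [Finset.prod_image (fun a _ b _ h => hinj h)]
      _ = ∏ P ∈ S, (px P - (e : L)) := by rw [himg]
  have hcbot := (InfiniteGalois.mem_bot_iff_fixed (k := ℚ) _).mpr hfix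
  obtain ⟨q, hq⟩ := IntermediateField.mem_bot.mp hcbot
  exact ⟨q, by rw [← hq]; simp⟩

end Rational

section Frey

variable {L : Type*} [Field L] [CharZero L] [DecidableEq L]

omit [DecidableEq L] in
theorem frey_twoRoots (P : FreyPackage) :
    TwoRoots (P.freyCurve⁄L) 0 (((P.a ^ P.p : ℤ) : L) / 4) (-((P.b ^ P.p : ℤ) : L) / 4) := by
  have e2 : (P.freyCurve⁄L).b₂ = ((P.b ^ P.p : ℤ) : L) - ((P.a ^ P.p : ℤ) : L) := by
    change (P.freyCurve.map (algebraMap ℚ L)).b₂ = _
    rw [map_b₂]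
    have : P.freyCurve.b₂ = ((P.b ^ P.p : ℤ) : ℚ) - ((P.a ^ P.p : ℤ) : ℚ) := by
      simp only [WeierstrassCurve.b₂, FreyPackage.freyCurve]
      push_cast
      ring
    rw [this]; simp
  have e4 : (P.freyCurve⁄L).b₄ = -(((P.b ^ P.p : ℤ) : L) * ((P.a ^ P.p : ℤ) : L)) / 8 := by
    change (P.freyCurve.map (algebraMap ℚ L)).b₄ = _
    rw [map_b₄]
    have : P.freyCurve.b₄ = -(((P.b ^ P.p : ℤ) : ℚ) * ((P.a ^ P.p : ℤ) : ℚ)) / 8 := by
      simp only [WeierstrassCurve.b₄, FreyPackage.freyCurve]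
      push_cast
      ring
    rw [this]; simp
  have e6 : (P.freyCurve⁄L).b₆ = 0 := by
    change (P.freyCurve.map (algebraMap ℚ L)).b₆ = _
    rw [map_b₆]
    have : P.freyCurve.b₆ = 0 := by
      simp only [WeierstrassCurve.b₆, FreyPackage.freyCurve]
      ring
    rw [this]; simp
  refine ⟨?_, ?_, ?_⟩
  · rw [e2]; ring
  · rw [e4]; ring
  · rw [e6]; ring

variable [IsAlgClosed L] [Algebra.IsAlgebraic ℚ L]

/-- **Endgame.** A Galois stable line in the `p`-torsion of the Frey curve cannot have nonsingular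
reduction everywhere. -/
theorem endgame (P : FreyPackage) {P₀ : (P.freyCurve⁄L).Point} (hord : addOrderOf P₀ = P.p)
    (hσ : ∀ σ : L ≃ₐ[ℚ] L, ∀ Q ∈ cyc P.p P₀, σ • Q ∈ cyc P.p P₀)
    (H : ∀ ℓ : ℕ, ℓ.Prime → ∀ A : ValuationSubring L, A.LiesOverPrime ℓ →
      ∀ Q ∈ cyc P.p P₀, A.valuation (px Q) ≤ 1 → NonsingularRed A.valuation Q) : False := by
  have hgal : IsGalois ℚ L := { to_normal := { splits' := fun x => IsAlgClosed.splits _ } }
  have hp5 := P.hp5
  obtain ⟨r, hr⟩ := P.hp_odd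
  have hmap := frey_map_int P L
  have hΔ : (P.freyCurve⁄L).Δ ≠ 0 := by
    rw [← hmap, map_Δ]
    simpa using Fermat.Agent.H26.freyCurveInt_Δ_ne_zero P
  have hpP : P.p • P₀ = 0 := by rw [← hord]; exact addOrderOf_nsmul_eq_zero P₀
  have hP0 : P₀ ≠ 0 := by
    rintro rfl
    rw [addOrderOf_zero] at hord
    omega
  set a : ℤ := P.a ^ P.p with ha
  set b : ℤ := P.b ^ P.p with hb
  have htwo := frey_twoRoots (L := L) P
  rw [← ha, ← hb] at htwo
  set e₂ : L := (a : L) / 4 with he₂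
  set e₃ : L := -(b : L) / 4 with he₃
  have hmem : ∀ Q ∈ cyc P.p P₀, Q ≠ 0 ∧ P.p • Q = 0 := by
    intro Q hQ
    obtain ⟨k, hk, rfl⟩ := Finset.mem_image.mp hQ
    rw [Finset.mem_Ico] at hk
    constructor
    · intro h0
      have : P.p ∣ k := by rw [← hord]; exact addOrderOf_dvd_of_nsmul_eq_zero h0
      have := Nat.le_of_dvd (by omega) this
      omega
    · rw [smul_comm, hpP, smul_zero]
  have hint : ∀ A : ValuationSubring L, IsIntegralFor A.valuation (P.freyCurve⁄L) :=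
    fun A => isIntegralFor_of_int hmap
  -- individual factors away from 2
  have hbnd : ∀ A : ValuationSubring L, ∀ z : ℤ, A.valuation (z : L) ≤ 1 := fun A z =>
    (A.valuation_le_one_iff _).mpr (intCast_mem A z)
  have hroots : ∀ e ∈ ({0, e₂, e₃} : Set L), 4 * e ^ 3 + (P.freyCurve⁄L).b₂ * e ^ 2 +
      2 * (P.freyCurve⁄L).b₄ * e + (P.freyCurve⁄L).b₆ = 0 := by
    intro e he
    rw [htwo.b₂, htwo.b₄, htwo.b₆]
    simp only [Set.mem_insert_iff, Set.mem_singleton_iff] at he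
    rcases he with rfl | rfl | rfl <;> ring
  have hodd : ∀ ℓ : ℕ, ℓ.Prime → ℓ ≠ 2 → ∀ A : ValuationSubring L, A.LiesOverPrime ℓ →
      ∀ Q ∈ cyc P.p P₀, ∀ e ∈ ({0, e₂, e₃} : Set L),
        A.valuation (px Q - e) = max 1 (A.valuation (px Q)) := by
    intro ℓ hℓ hℓ2 A hA Q hQ e he
    have hv4 : A.valuation (4 : L) = 1 := by
      have := val_intCast_eq_one (c := 4) hℓ hA (by
        intro h
        have h' : ℓ ∣ 2 ^ 2 := by exact_mod_cast h
        exact hℓ2 ((Nat.prime_dvd_prime_iff_eq hℓ Nat.prime_two).mp (hℓ.dvd_of_dvd_pow h')))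
      exact_mod_cast this
    have hve : A.valuation e ≤ 1 := by
      simp only [Set.mem_insert_iff, Set.mem_singleton_iff] at he
      rcases he with rfl | rfl | rfl
      · simp
      · rw [he₂, map_div₀, hv4, div_one]; exact hbnd A a
      · rw [he₃, map_div₀, hv4, div_one, Valuation.map_neg]; exact hbnd A b
    rcases le_or_gt (A.valuation (px Q)) 1 with hx | hx
    · rw [max_eq_left hx]
      obtain ⟨T, hT0, hT, hTe⟩ := exists_two_torsion hΔ two_ne_zero (hroots e he)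
      rw [← hTe] at hve ⊢
      exact val_sub_two_torsion (hint A) P.hp_odd (hmem Q hQ).2 (hmem Q hQ).1 hx
        (H ℓ hℓ A hA Q hQ hx) hT0 hT hve
    · rw [max_eq_right hx.le]
      exact A.valuation.map_sub_eq_of_lt_left (lt_of_le_of_lt hve hx)
  -- individual factors at 2
  have htwoadic : ∀ A : ValuationSubring L, A.LiesOverPrime 2 → ∀ Q ∈ cyc P.p P₀,
      A.valuation (px Q) = 1 ∧ A.valuation (px Q - e₃) = 1 ∧
        A.valuation (4 * (px Q - e₂)) = 1 := by
    intro A hA Q hQ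
    have hv2 : A.valuation (2 : L) < 1 := by
      have := val_intCast_lt_one (c := 2) hA (by norm_num)
      exact_mod_cast this
    have hvp : A.valuation (P.p : L) = 1 := by
      have := val_intCast_eq_one (c := (P.p : ℤ)) Nat.prime_two hA (by
        intro h
        have h' : 2 ∣ P.p := by exact_mod_cast h
        have := (Nat.prime_dvd_prime_iff_eq Nat.prime_two P.pp).mp h'
        omega)
      exact_mod_cast this
    have hx : A.valuation (px Q) ≤ 1 := val_px_le_one_of_torsion (hint A) (hmem Q hQ).2 hvp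
    have hy := val_py_le_one (hint A) hx
    have hns := H 2 Nat.prime_two A hA Q hQ hx
    have h32 : (32 : ℤ) ∣ b := Fermat.Agent.H26.thirty_two_dvd_b_pow P
    obtain ⟨k, hk⟩ := h32
    have hv4' : (4 : L) ≠ 0 := by norm_num
    have hve3 : A.valuation e₃ < 1 := by
      have : e₃ = 2 * ((-(4 * k) : ℤ) : L) := by
        rw [he₃, hk]; push_cast; ring
      rw [this]
      exact v_mul_lt_one_left hv2 (hbnd A _)
    have ha4 : (P.freyCurve⁄L).a₄ = 2 * ((-(a * k) : ℤ) : L) := by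
      have : (P.freyCurve⁄L).b₄ = 2 * (P.freyCurve⁄L).a₄ + (P.freyCurve⁄L).a₁ *
        (P.freyCurve⁄L).a₃ := rfl
      have h3 : (P.freyCurve⁄L).a₃ = 0 := by
        change (P.freyCurve.map (algebraMap ℚ L)).a₃ = _
        rw [_root_.WeierstrassCurve.map_a₃]; simp [FreyPackage.freyCurve]
      rw [htwo.b₄, h3, he₂, he₃, hk] at this
      apply mul_left_cancel₀ (two_ne_zero (α := L))
      push_cast at this ⊢
      linear_combination -this
    have hva4 : A.valuation (P.freyCurve⁄L).a₄ < 1 := by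
      rw [ha4]; exact v_mul_lt_one_left hv2 (hbnd A _)
    have h1 : (P.freyCurve⁄L).a₁ = 1 := by
      change (P.freyCurve.map (algebraMap ℚ L)).a₁ = _
      rw [_root_.WeierstrassCurve.map_a₁]; simp [FreyPackage.freyCurve]
    have h3 : (P.freyCurve⁄L).a₃ = 0 := by
      change (P.freyCurve.map (algebraMap ℚ L)).a₃ = _
      rw [_root_.WeierstrassCurve.map_a₃]; simp [FreyPackage.freyCurve]
    have h6 : (P.freyCurve⁄L).a₆ = 0 := by
      change (P.freyCurve.map (algebraMap ℚ L)).a₆ = _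
      rw [_root_.WeierstrassCurve.map_a₆]; simp [FreyPackage.freyCurve]
    have hx1 : A.valuation (px Q) = 1 := by
      by_contra hne
      have hxlt : A.valuation (px Q) < 1 := lt_of_le_of_ne hx hne
      have heqn := eqn_of_ne_zero (hmem Q hQ).1
      rw [h1, h3, h6] at heqn
      have hylt : A.valuation (py Q) < 1 := by
        by_contra hc
        have hy1 : A.valuation (py Q) = 1 := le_antisymm hy (not_lt.mp hc)
        have e : (py Q) ^ 2 = px Q ^ 3 + (P.freyCurve⁄L).a₂ * px Q ^ 2 +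
            (P.freyCurve⁄L).a₄ * px Q - px Q * py Q := by linear_combination heqn
        have h7 : A.valuation ((py Q) ^ 2) < 1 := by
          rw [e]
          refine v_sub_lt_one (v_add_lt_one (v_add_lt_one (v_pow_lt_one hxlt three_ne_zero)
            (v_mul_lt_one_right (hint A).h₂ (v_pow_lt_one hxlt two_ne_zero)))
            (v_mul_lt_one_left hva4 hx)) (v_mul_lt_one_left hxlt hy)
        rw [map_pow, hy1, one_pow] at h7
        exact lt_irrefl _ h7
      rcases hns with h7 | h7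
      · rw [H08.psi2, h1, h3, one_mul, add_zero] at h7
        have : A.valuation (2 * py Q + px Q) < 1 :=
          v_add_lt_one (v_mul_lt_one_right (v_ofNat_le_one _ 2) hylt) hxlt
        rw [h7] at this; exact lt_irrefl _ this
      · rw [H08.phiX, h1, one_mul] at h7
        have : A.valuation (3 * px Q ^ 2 + 2 * (P.freyCurve⁄L).a₂ * px Q + (P.freyCurve⁄L).a₄ -
            py Q) < 1 := by
          refine v_sub_lt_one (v_add_lt_one (v_add_lt_one (v_mul_lt_one_right
            (v_ofNat_le_one _ 3) (v_pow_lt_one hxlt two_ne_zero)) (v_mul_lt_one_right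
            (v_mul_le_one (v_ofNat_le_one _ 2) (hint A).h₂) hxlt)) hva4) hylt
        rw [h7] at this; exact lt_irrefl _ this
    refine ⟨hx1, ?_, ?_⟩
    · rw [A.valuation.map_sub_eq_of_lt_left (by rw [hx1]; exact hve3), hx1]
    · have hva : A.valuation (a : L) = 1 := by
        apply val_intCast_eq_one Nat.prime_two hA
        intro h
        have h4 := Fermat.Agent.H26.a_pow_mod_four P
        have h5 : ((a : ℤ) : ZMod 2) = 0 := (ZMod.intCast_zmod_eq_zero_iff_dvd a 2).mpr h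
        have h6 : ((a : ℤ) : ZMod 2) = (ZMod.castHom (show 2 ∣ 4 by norm_num) (ZMod 2))
          ((a : ℤ) : ZMod 4) := by simp
        rw [h6] at h5
        rw [← ha] at h4
        rw [h4] at h5
        revert h5
        decide
      have e : 4 * (px Q - e₂) = 2 * (2 * px Q) - a := by rw [he₂]; ring
      rw [e, A.valuation.map_sub_swap, A.valuation.map_sub_eq_of_lt_left, hva]
      rw [hva]
      exact v_mul_lt_one_left hv2 (v_mul_le_one (v_ofNat_le_one _ 2) hx)
  -- the rational numbers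
  obtain ⟨q₁, hq₁⟩ := prod_rational (cyc P.p P₀) hσ 0
  obtain ⟨q₂, hq₂⟩ := prod_rational (cyc P.p P₀) hσ ((a : ℚ) / 4)
  obtain ⟨q₃, hq₃⟩ := prod_rational (cyc P.p P₀) hσ (-(b : ℚ) / 4)
  have k₁ : (q₁ : L) = ∏ Q ∈ cyc P.p P₀, (px Q - 0) := by rw [hq₁]; push_cast; rfl
  have k₂ : (q₂ : L) = ∏ Q ∈ cyc P.p P₀, (px Q - e₂) := by rw [hq₂, he₂]; push_cast; rfl
  have k₃ : (q₃ : L) = ∏ Q ∈ cyc P.p P₀, (px Q - e₃) := by rw [hq₃, he₃]; push_cast; rfl
  have hcardc : (cyc P.p P₀).card = P.p - 1 := by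
    unfold cyc
    rw [Finset.card_image_of_injOn (cyc_injOn hord), Nat.card_Ico]
  have hne : ∀ e ∈ ({0, e₂, e₃} : Set L), ∏ Q ∈ cyc P.p P₀, (px Q - e) ≠ 0 := by
    intro e he
    rw [Finset.prod_ne_zero_iff]
    intro Q hQ h0
    obtain ⟨A, hA⟩ := exists_liesOverPrime L Nat.prime_three
    have := hodd 3 Nat.prime_three (by norm_num) A hA Q hQ e he
    rw [h0, _root_.map_zero] at this
    have h1 : (1 : A.ValueGroup) ≤ max 1 (A.valuation (px Q)) := le_max_left _ _
    rw [← this] at h1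
    exact absurd h1 (by simp)
  have hq1 : q₁ ≠ 0 := by
    rintro rfl; exact hne 0 (by simp) (by rw [← k₁]; simp)
  have r3 : (q₃ / q₁) ^ 2 = 1 := by
    apply rat_unit (F := L)
    intro ℓ hℓ
    obtain ⟨A, hA⟩ := exists_liesOverPrime L hℓ
    refine ⟨A, hA, ?_⟩
    have hkey : A.valuation (q₃ : L) = A.valuation (q₁ : L) := by
      rw [k₁, k₃, map_prod, map_prod]
      apply Finset.prod_congr rfl
      intro Q hQ
      by_cases h2 : ℓ = 2
      · subst h2
        rw [(htwoadic A hA Q hQ).2.1, sub_zero, (htwoadic A hA Q hQ).1]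
      · rw [hodd ℓ hℓ h2 A hA Q hQ e₃ (by simp), hodd ℓ hℓ h2 A hA Q hQ 0 (by simp)]
    push_cast
    rw [map_div₀, hkey, div_self]
    rw [Valuation.ne_zero_iff]
    exact_mod_cast hq1
  have r2 : (q₂ * 4 ^ (P.p - 1) / q₁) ^ 2 = 1 := by
    apply rat_unit (F := L)
    intro ℓ hℓ
    obtain ⟨A, hA⟩ := exists_liesOverPrime L hℓ
    refine ⟨A, hA, ?_⟩
    have hkey : A.valuation ((q₂ : L) * 4 ^ (P.p - 1)) = A.valuation (q₁ : L) := by
      rw [k₁, k₂, ← hcardc, ← Finset.prod_const, ← Finset.prod_mul_distrib, map_prod, map_prod]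
      apply Finset.prod_congr rfl
      intro Q hQ
      by_cases h2 : ℓ = 2
      · subst h2
        rw [mul_comm, (htwoadic A hA Q hQ).2.2, sub_zero, (htwoadic A hA Q hQ).1]
      · have hv4 : A.valuation (4 : L) = 1 := by
          have := val_intCast_eq_one (c := 4) hℓ hA (by
            intro h
            have h' : ℓ ∣ 2 ^ 2 := by exact_mod_cast h
            exact h2 ((Nat.prime_dvd_prime_iff_eq hℓ Nat.prime_two).mp (hℓ.dvd_of_dvd_pow h')))
          exact_mod_cast this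
        rw [map_mul, hv4, mul_one, hodd ℓ hℓ h2 A hA Q hQ e₂ (by simp),
          hodd ℓ hℓ h2 A hA Q hQ 0 (by simp)]
    push_cast
    rw [map_div₀, hkey, div_self]
    rw [Valuation.ne_zero_iff]
    exact_mod_cast hq1
  -- the three term relation
  have hPi : ∀ e, Pi' r P₀ e ^ 2 = ∏ Q ∈ cyc P.p P₀, (px Q - e) := fun e =>
    (prod_cyc hr hord e).symm
  have hrel := three_term_relation hΔ htwo hr P.pp hp5 hP0 hpP (fun e he h0 => by
    apply hne e he
    rw [← hPi, h0]; ring)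
  have e4 : ∀ e, Pi' r P₀ e ^ 4 = (∏ Q ∈ cyc P.p P₀, (px Q - e)) ^ 2 := by
    intro e; rw [← hPi]; ring
  rw [e4, e4, e4, ← k₁, ← k₂, ← k₃] at hrel
  have hrelQ : ((a : ℚ) / 4 - 0) ^ P.p * q₃ ^ 2 + (-(b : ℚ) / 4 - (a : ℚ) / 4) ^ P.p * q₁ ^ 2 +
      (0 - -(b : ℚ) / 4) ^ P.p * q₂ ^ 2 = 0 := by
    have : (((((a : ℚ) / 4 - 0) ^ P.p * q₃ ^ 2 + (-(b : ℚ) / 4 - (a : ℚ) / 4) ^ P.p * q₁ ^ 2 +
      (0 - -(b : ℚ) / 4) ^ P.p * q₂ ^ 2 : ℚ)) : L) = 0 := by
      push_cast
      rw [he₂, he₃] at hrel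
      exact hrel
    exact_mod_cast this
  have s3 : q₃ ^ 2 = q₁ ^ 2 := by
    rw [div_pow] at r3
    exact (div_eq_one_iff_eq (pow_ne_zero 2 hq1)).mp r3
  have s2 : q₂ ^ 2 * 16 ^ (P.p - 1) = q₁ ^ 2 := by
    rw [div_pow] at r2
    have := (div_eq_one_iff_eq (pow_ne_zero 2 hq1)).mp r2
    rw [← this, mul_pow, ← pow_mul, mul_comm (P.p - 1) 2, pow_mul]
    norm_num
  have hfin : (16 : ℚ) ^ (P.p - 1) * ((a : ℚ) ^ P.p - (a + b) ^ P.p) + (b : ℚ) ^ P.p = 0 := by
    have hq12 : q₁ ^ 2 ≠ 0 := pow_ne_zero 2 hq1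
    have h4p : (4 : ℚ) ^ P.p ≠ 0 := by positivity
    apply mul_left_cancel₀ hq12
    have t1 : ((a : ℚ) / 4 - 0) ^ P.p = (a : ℚ) ^ P.p / 4 ^ P.p := by rw [sub_zero, div_pow]
    have t2 : (-(b : ℚ) / 4 - (a : ℚ) / 4) ^ P.p = -(a + b : ℚ) ^ P.p / 4 ^ P.p := by
      rw [← sub_div, div_pow]
      have : (-(b : ℚ) - a) = -(a + b) := by ring
      rw [this, P.hp_odd.neg_pow]
    have t3 : (0 - -(b : ℚ) / 4) ^ P.p = (b : ℚ) ^ P.p / 4 ^ P.p := by
      have : (0 - -(b : ℚ) / 4) = b / 4 := by ring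
      rw [this, div_pow]
    rw [t1, t2, t3, s3] at hrelQ
    have hrel2 : (a : ℚ) ^ P.p * q₁ ^ 2 - (a + b : ℚ) ^ P.p * q₁ ^ 2 +
        (b : ℚ) ^ P.p * q₂ ^ 2 = 0 := by
      have h5 : ((a : ℚ) ^ P.p * q₁ ^ 2 - (a + b : ℚ) ^ P.p * q₁ ^ 2 +
        (b : ℚ) ^ P.p * q₂ ^ 2) / 4 ^ P.p = 0 := by
        rw [← hrelQ]; ring
      rcases div_eq_zero_iff.mp h5 with h6 | h6
      · exact h6
      · exact absurd h6 h4p
    linear_combination 16 ^ (P.p - 1) * hrel2 - (b : ℚ) ^ P.p * s2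
  have hfinZ : 16 ^ (P.p - 1) * (a ^ P.p - (a + b) ^ P.p) + b ^ P.p = 0 := by
    exact_mod_cast hfin
  refine no_sol P.hp_odd (by omega) (A := a) (B := b) ?_
    (Fermat.Agent.H26.thirty_two_dvd_b_pow P) (pow_ne_zero _ P.hb0) hfinZ
  rw [← Int.not_even_iff_odd, even_iff_two_dvd]
  intro h
  have h4 := Fermat.Agent.H26.a_pow_mod_four P
  have h5 : ((a : ℤ) : ZMod 2) = 0 := (ZMod.intCast_zmod_eq_zero_iff_dvd a 2).mpr h
  have h6 : ((a : ℤ) : ZMod 2) = (ZMod.castHom (show 2 ∣ 4 by norm_num) (ZMod 2))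
    ((a : ℤ) : ZMod 4) := by simp
  rw [h6] at h5
  rw [← ha] at h4
  rw [h4] at h5
  revert h5
  decide

end Frey

end Fermat.Agent.H09
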