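import Mathlib
import Fermat.Agent.H09.Dichotomy
import Fermat.Agent.H09.FrobNode
import Fermat.Agent.H09.Frey

set_option autoImplicit false

/-!
# Position of a stable line with trivial quotient with respect to `E₀`
-/

namespace Fermat.Agent.H09

open Polynomial WeierstrassCurve WeierstrassCurve.Affine WeierstrassCurve.Affine.Point
open Fermat.Agent.H08
open Fermat.Agent.H05
open scoped Pointwise

section

variable {L : Type*} [Field L] [CharZero L] [IsAlgClosed L] [DecidableEq L]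
  [Algebra.IsAlgebraic ℚ L] {W₀ : WeierstrassCurve.Affine ℚ} {p : ℕ}

/-- at `ℓ ≠ p` with `p ∤ ℓ² - 1`: the line is contained in `E₀` -/
theorem nodeE0_of_cofixed {ℓ : ℕ} (hp : p.Prime) (hp3 : 3 ≤ p) (hℓ : ℓ.Prime)
    {A : ValuationSubring L}
    (hA : A.LiesOverPrime ℓ) (hvp : A.valuation (p : L) = 1) {r t α β : L}
    (h : NodeData A.valuation (W₀⁄L) r t α β) (hΔ : (W₀⁄L).Δ ≠ 0)
    (hc₄ : A.valuation (W₀⁄L).c₄ = 1)
    {N : Submodule (ZMod p) (Submodule.torsionBy ℤ (W₀⁄L).Point (p : ℤ))} (hatom : IsAtom N)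
    (hcof : ∀ (σ : L ≃ₐ[ℚ] L) (x : Submodule.torsionBy ℤ (W₀⁄L).Point (p : ℤ)), σ • x - x ∈ N)
    (hnd : ¬ p ∣ ℓ ^ 2 - 1) :
    ∀ x ∈ N, NodeE0 A.valuation r t (x : (W₀⁄L).Point) := by
  have hgal : IsGalois ℚ L := { to_normal := { splits' := fun x => IsAlgClosed.splits _ } }
  by_cases hNF : N ≤ pull p (nodeE0Sub h)
  · exact fun x hx => hNF hx
  exfalso
  have hdisj : Disjoint N (pull p (nodeE0Sub h)) := (hatom.not_le_iff_disjoint).mp hNF
  obtain ⟨P, hP0, hpP, hPE⟩ := exists_torsion_nodeE0 h hΔ hc₄ hp hp3 hvp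
  obtain ⟨σ, hσ⟩ := exists_isFrobeniusAt hℓ hA
  have h1 : σ • (⟨P, mem_torsion_iff.mpr hpP⟩ : Submodule.torsionBy ℤ (W₀⁄L).Point (p : ℤ)) -
      ⟨P, mem_torsion_iff.mpr hpP⟩ ∈ N ⊓ pull p (nodeE0Sub h) := by
    refine ⟨hcof _ _, ?_⟩
    rw [SetLike.mem_coe, mem_pull]
    exact (nodeE0Sub h).sub_mem (nodeE0_smul (frob_smul_eq hσ) h hPE) hPE
  rw [hdisj.eq_bot, Submodule.mem_bot, sub_eq_zero] at h1
  have h2 : σ • P = P := congrArg Subtype.val h1
  exact hnd (dvd_of_frob_fixed hℓ hσ h hp hvp hP0 hpP hPE h2)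

omit [IsAlgClosed L] [Algebra.IsAlgebraic ℚ L] in
/-- good reduction at a small prime: no `p`-torsion point is fixed by Frobenius -/
theorem no_fixed_of_good {ℓ : ℕ} (hp : p.Prime) (hℓ : ℓ.Prime) {A : ValuationSubring L}
    (hvp : A.valuation (p : L) = 1)
    (hW : IsIntegralFor A.valuation (W₀⁄L)) (hΔ : A.valuation (W₀⁄L).Δ = 1) {σ : L ≃ₐ[ℚ] L}
    (hσ : A.IsFrobeniusAt σ ℓ) {P : (W₀⁄L).Point} (hP0 : P ≠ 0) (hpP : p • P = 0)
    (hfix : σ • P = P) (hbig : ℓ ^ 2 < p - 1) : False := by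
  classical
  have hne : ∀ k ∈ Finset.Ico 1 p, k • P ≠ 0 := by
    intro k hk h0
    rw [Finset.mem_Ico] at hk
    have h1 : addOrderOf P ∣ p := addOrderOf_dvd_of_nsmul_eq_zero hpP
    have h2 : addOrderOf P ∣ k := addOrderOf_dvd_of_nsmul_eq_zero h0
    rcases (Nat.dvd_prime hp).mp h1 with h3 | h3
    · exact hP0 (AddMonoid.addOrderOf_eq_one_iff.mp h3)
    · rw [h3] at h2
      have := Nat.le_of_dvd (by omega) h2
      omega
  have htor : ∀ k : ℕ, p • (k • P) = 0 := by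
    intro k
    rw [smul_comm, hpP, smul_zero]
  have hx : ∀ k : ℕ, A.valuation (px (k • P)) ≤ 1 := fun k =>
    val_px_le_one_of_torsion hW (htor k) hvp
  have hy : ∀ k : ℕ, A.valuation (py (k • P)) ≤ 1 := fun k => val_py_le_one hW (hx k)
  have hfixk : ∀ k : ℕ, σ • (k • P) = k • P := by
    intro k
    have h1 : σ • (k • P) = k • (σ • P) := by
      change DistribMulAction.toAddMonoidHom (W₀⁄L).Point σ (k • P) = _
      rw [map_nsmul]; rfl
    rw [h1, hfix]
  set T : Finset (IsLocalRing.ResidueField A) :=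
    (X ^ ℓ - X : (IsLocalRing.ResidueField A)[X]).roots.toFinset with hT
  have hpol : (X ^ ℓ - X : (IsLocalRing.ResidueField A)[X]) ≠ 0 :=
    FiniteField.X_pow_card_sub_X_ne_zero _ hℓ.one_lt
  have hTcard : T.card ≤ ℓ := by
    refine (Multiset.toFinset_card_le _).trans ((Polynomial.card_roots' _).trans ?_)
    rw [FiniteField.X_pow_card_sub_X_natDegree_eq _ hℓ.one_lt]
  have hmemT : ∀ z : A, A.valuation ((z : L) ^ ℓ - z) < 1 → IsLocalRing.residue A z ∈ T := by
    intro z hz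
    rw [hT, Multiset.mem_toFinset, mem_roots hpol, IsRoot.def, eval_sub, eval_pow, eval_X,
      ← map_pow, ← map_sub, IsLocalRing.residue_eq_zero_iff, ValuationSubring.valuation_lt_one_iff]
    exact hz
  have hfixval : ∀ z : L, σ z = z → A.valuation z ≤ 1 → A.valuation (z ^ ℓ - z) < 1 := by
    intro z hz hvz
    have := frob_val_sub hσ hvz
    rw [hz, ← neg_sub, Valuation.map_neg] at this
    exact this
  let f : ℕ → IsLocalRing.ResidueField A × IsLocalRing.ResidueField A := fun k =>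
    (IsLocalRing.residue A ⟨px (k • P), (A.valuation_le_one_iff _).mp (hx k)⟩,
      IsLocalRing.residue A ⟨py (k • P), (A.valuation_le_one_iff _).mp (hy k)⟩)
  obtain ⟨i, hi, j, hj, hij, hfij⟩ := Finset.exists_ne_map_eq_of_card_lt_of_maps_to
    (s := Finset.Ico 1 p) (t := T ×ˢ T) (f := f) (by
      rw [Finset.card_product, Nat.card_Ico]
      calc T.card * T.card ≤ ℓ * ℓ := Nat.mul_le_mul hTcard hTcard
        _ = ℓ ^ 2 := (pow_two ℓ).symm
        _ < p - 1 := hbig) (by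
      intro k _
      simp only [Finset.mem_coe, Finset.mem_product, f]
      refine ⟨hmemT _ (hfixval _ ?_ (hx k)), hmemT _ (hfixval _ ?_ (hy k))⟩
      · rw [← px_smul, hfixk]
      · rw [← py_smul, hfixk])
  have key : ∀ i ∈ Finset.Ico 1 p, ∀ j ∈ Finset.Ico 1 p, i < j → f i = f j → False := by
    intro i hi j hj hlt hfe
    simp only [f, Prod.mk.injEq] at hfe
    obtain ⟨h1, h2⟩ := hfe
    rw [eq_comm, ← sub_eq_zero, ← map_sub, IsLocalRing.residue_eq_zero_iff,
      ValuationSubring.valuation_lt_one_iff] at h1 h2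
    have h3 : InE1 A.valuation (j • P - i • P) :=
      inE1_sub_of_congr hW (hne j hj) (hne i hi) (hx j) h1 h2
        (nonsingularRed_of_Δ hW hΔ (hne j hj) (hx j))
    have h4 : j • P - i • P = (j - i) • P := by
      rw [← add_sub_cancel_right ((j - i) • P) (i • P), ← add_nsmul]
      congr 2
      omega
    rw [h4] at h3
    have h5 := InE1.eq_zero_of_torsion hW h3 (htor _) hvp
    rw [Finset.mem_Ico] at hi hj
    exact hne (j - i) (Finset.mem_Ico.mpr ⟨by omega, by omega⟩) h5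
  rcases lt_or_gt_of_ne hij with h | h
  · exact key i hi j hj h hfij
  · exact key j hj i hi h hfij.symm

/-- good reduction at a small prime is impossible if `V / N` is trivial -/
theorem not_good_of_cofixed {ℓ : ℕ} (hp : p.Prime) (hℓ : ℓ.Prime) {A : ValuationSubring L}
    (hA : A.LiesOverPrime ℓ) (hvp : A.valuation (p : L) = 1)
    (hW : IsIntegralFor A.valuation (W₀⁄L)) (hΔ : A.valuation (W₀⁄L).Δ = 1)
    {N : Submodule (ZMod p) (Submodule.torsionBy ℤ (W₀⁄L).Point (p : ℤ))} (htop : N ≠ ⊤)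
    (hcof : ∀ (σ : L ≃ₐ[ℚ] L) (x : Submodule.torsionBy ℤ (W₀⁄L).Point (p : ℤ)), σ • x - x ∈ N)
    (hfin : Finite (Submodule.torsionBy ℤ (W₀⁄L).Point (p : ℤ)))
    (hbig : ℓ ^ 2 < p - 1) : False := by
  have hgal : IsGalois ℚ L := { to_normal := { splits' := fun x => IsAlgClosed.splits _ } }
  obtain ⟨σ, hσ⟩ := exists_isFrobeniusAt hℓ hA
  by_cases hinj : ∃ x : Submodule.torsionBy ℤ (W₀⁄L).Point (p : ℤ), x ≠ 0 ∧ σ • x = x
  · obtain ⟨x, hx0, hx⟩ := hinj
    have h0 : (x : (W₀⁄L).Point) ≠ 0 := fun h => hx0 (Subtype.ext h)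
    exact no_fixed_of_good hp hℓ hvp hW hΔ hσ h0 (mem_torsion_iff.mp x.2)
      (congrArg Subtype.val hx) hbig
  · push Not at hinj
    -- `σ - 1` is injective, hence surjective
    let g : Submodule.torsionBy ℤ (W₀⁄L).Point (p : ℤ) →+
      Submodule.torsionBy ℤ (W₀⁄L).Point (p : ℤ) := actHom p σ - AddMonoidHom.id _
    have hg : ∀ x, g x = σ • x - x := fun x => rfl
    have hginj : Function.Injective g := by
      rw [injective_iff_map_eq_zero]
      intro x hx
      rw [hg, sub_eq_zero] at hx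
      by_contra h0
      exact hinj x h0 hx
    have hgsurj : Function.Surjective g := Finite.surjective_of_injective hginj
    apply htop
    rw [eq_top_iff]
    intro x _
    obtain ⟨y, rfl⟩ := hgsurj x
    rw [hg]
    exact hcof σ y

/-- If the stable line `N` is disjoint from a subspace `F` containing the image of
`σ - 1` for `σ` in an inertia group at `p`, then `N` is fixed. -/
theorem fix_of_disjoint [Fact p.Prime] {W₁ : WeierstrassCurve ℤ}
    (hW₁ : W₁.map (Int.castRingHom L) = (W₀⁄L))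
    (hΔ0 : W₁.Δ ≠ 0) (hss : W₁.IsSemistableModel) (hp5 : 5 ≤ p)
    {N : Submodule (ZMod p) (Submodule.torsionBy ℤ (W₀⁄L).Point (p : ℤ))}
    (hN : IsGaloisStable ℚ N) (hatom : IsAtom N) (hcoatom : IsCoatom N)
    {A₀ : ValuationSubring L} (hA₀ : A₀.LiesOverPrime p)
    {F : Submodule (ZMod p) (Submodule.torsionBy ℤ (W₀⁄L).Point (p : ℤ))}
    (hI : ∀ σ ∈ A₀.inertiaSubgroupIn ℚ, ∀ x, actHom p σ x - x ∈ F) (hdisj : Disjoint N F) :
    ∀ σ : L ≃ₐ[ℚ] L, ∀ x ∈ N, σ • x = x := by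
  have hp := (inferInstance : Fact p.Prime).out
  have hgal : IsGalois ℚ L := { to_normal := { splits' := fun x => IsAlgClosed.splits _ } }
  obtain ⟨K, hKo, hK⟩ := exists_open_fix (L := L) (W₀ := W₀) hp (by omega)
  have hnorm := fixSub_normal N hN
  have htop : fixSub N = ⊤ := by
    apply minkowski
    · refine Subgroup.isOpen_mono (H₁ := K) ?_ hKo
      intro σ hσ
      change ∀ x ∈ N, σ • x = x
      intro x _
      exact hK σ hσ x
    · intro ℓ hℓ A hA σ hσ
      by_cases hℓp : ℓ = p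
      · subst hℓp
        obtain ⟨g, rfl⟩ := exists_smul_eq hℓ hA₀ hA
        have hτ := inertia_conj hσ
        change ∀ x ∈ N, σ • x = x
        intro x hx
        have hgx : g⁻¹ • x ∈ N := hN g⁻¹ x hx
        have h1 : (g⁻¹ * σ * g) • (g⁻¹ • x) - g⁻¹ • x ∈ N ⊓ F :=
          ⟨sub_mem (hN _ _ hgx) hgx, hI _ hτ (g⁻¹ • x)⟩
        rw [hdisj.eq_bot, Submodule.mem_bot, sub_eq_zero, tmul_smul, tmul_smul, tsmul_inv_smul,
          tinv_smul_eq_iff, tsmul_inv_smul] at h1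
        exact h1
      · obtain ⟨F', h1, h2⟩ := inertia_away (p := p) hW₁ hΔ0 hss hp hℓ hℓp hA hσ
        have h3 := (alg_away hatom hcoatom (actHom p σ) h1 h2 (fun x hx => hN σ x hx)).1
        change ∀ x ∈ N, σ • x = x
        exact h3
  intro σ
  have h4 : σ ∈ (fixSub N : Set (L ≃ₐ[ℚ] L)) := by rw [htop]; trivial
  exact h4

/-- at `p` (multiplicative reduction): `N ⊆ E₀` unless `N` is fixed by Galois -/
theorem nodeE0_at_p [Fact p.Prime] {W₁ : WeierstrassCurve ℤ}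
    (hW₁ : W₁.map (Int.castRingHom L) = (W₀⁄L))
    (hΔ0 : W₁.Δ ≠ 0) (hss : W₁.IsSemistableModel) (hp5 : 5 ≤ p)
    {N : Submodule (ZMod p) (Submodule.torsionBy ℤ (W₀⁄L).Point (p : ℤ))}
    (hN : IsGaloisStable ℚ N) (hatom : IsAtom N) (hcoatom : IsCoatom N)
    (hnf : ¬ ∀ σ : L ≃ₐ[ℚ] L, ∀ x ∈ N, σ • x = x)
    {A : ValuationSubring L} (hA : A.LiesOverPrime p) {r t α β : L}
    (h : NodeData A.valuation (W₀⁄L) r t α β) :
    ∀ x ∈ N, NodeE0 A.valuation r t (x : (W₀⁄L).Point) := by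
  by_cases hNF : N ≤ pull p (nodeE0Sub h)
  · exact fun x hx => hNF hx
  exfalso
  have hdisj : Disjoint N (pull p (nodeE0Sub h)) := (hatom.not_le_iff_disjoint).mp hNF
  refine hnf (fix_of_disjoint hW₁ hΔ0 hss hp5 hN hatom hcoatom hA (F := pull p (nodeE0Sub h))
    (fun σ hσ x => ?_) hdisj)
  rw [mem_pull]
  exact nodeE0_smul_sub hσ h (x : (W₀⁄L).Point)

end

end Fermat.Agent.H09
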