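import Mathlib
import Fermat.Agent.H09.NodeExists
import Fermat.Agent.H09.GoodP
import Fermat.Prelude.Def_EllipticCurve_ZeroComponentAt

set_option autoImplicit false

/-!
# `InZeroComponentAt` in terms of valuations
-/

namespace Fermat.Agent.H09

open WeierstrassCurve WeierstrassCurve.Affine WeierstrassCurve.Affine.Point
open Fermat.Agent.H08

section

variable {F : Type*} [Field F] {Γ₀ : Type*} [LinearOrderedCommGroupWithZero Γ₀]
  {v : Valuation F Γ₀} {W : WeierstrassCurve.Affine F} {r t α β : F}

/-- `NodeE0` means: nonintegral or nonsingular reduction -/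
theorem nodeE0_iff_nonsingularRed (h : NodeData v W r t α β) {P : W.Point} :
    NodeE0 v r t P ↔ (P ≠ 0 → v (px P) ≤ 1 → NonsingularRed v P) := by
  constructor
  · exact fun hP h0 hx => hP.nonsingularRed h h0 hx
  · intro hP
    by_cases h0 : P = 0
    · subst h0; exact NodeE0.zero
    rw [nodeE0_iff h0]
    by_contra hlt
    push Not at hlt
    have hx : v (px P) ≤ 1 := by
      have : px P = (px P - r) + r := by ring
      rw [this]
      exact v_add_le_one hlt.le h.hr
    have hns := hP h0 hx
    have hQ0 : shiftPt W r t P ≠ 0 := fun h' => h0 (shiftPt_eq_zero.mp h')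
    have ex : px (shiftPt W r t P) = px P - r := px_shiftPt h0
    have ey : py (shiftPt W r t P) = py P - t := py_shiftPt h0
    have hQx : v (px (shiftPt W r t P)) < 1 := by rw [ex]; exact hlt
    have hy : v (py P - t) < 1 := by
      have e := eqn_of_ne_zero hQ0
      rw [ex, ey] at e
      have h3 : (shiftCurve W r t).a₃ = 0 := h.slopes.a₃
      have h4 : (shiftCurve W r t).a₄ = 0 := h.slopes.a₄
      rw [h3, h4] at e
      have hyle : v (py P - t) ≤ 1 := v_sub_le_one (val_py_le_one h.int hx) h.ht
      have e2 : (py P - t) ^ 2 = (px P - r) ^ 3 + (shiftCurve W r t).a₂ * (px P - r) ^ 2 +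
          (shiftCurve W r t).a₆ - (shiftCurve W r t).a₁ * (px P - r) * (py P - t) := by
        linear_combination e
      have e3 : v ((py P - t) ^ 2) < 1 := by
        rw [e2]
        refine v_sub_lt_one (v_add_lt_one (v_add_lt_one (v_pow_lt_one hlt three_ne_zero)
          (v_mul_lt_one_right h.int_shift.h₂ (v_pow_lt_one hlt two_ne_zero))) h.a₆) ?_
        exact v_mul_lt_one_left (v_mul_lt_one_right h.int_shift.h₁ hlt) hyle
      by_contra hcon
      push Not at hcon
      have : v (py P - t) = 1 := le_antisymm hyle hcon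
      rw [map_pow, this, one_pow] at e3
      exact lt_irrefl _ e3
    have epsi : H08.psi2 (shiftPt W r t P) = H08.psi2 P := by
      unfold H08.psi2
      rw [ex, ey]
      simp only [shiftCurve]; ring
    have ephi : phiX (shiftPt W r t P) = phiX P := by
      unfold phiX
      rw [ex, ey]
      simp only [shiftCurve]; ring
    have h3 : (shiftCurve W r t).a₃ = 0 := h.slopes.a₃
    have h4 : (shiftCurve W r t).a₄ = 0 := h.slopes.a₄
    rcases hns with h1 | h1
    · rw [← epsi, H08.psi2, ex, ey, h3, add_zero] at h1
      have : v (2 * (py P - t) + (shiftCurve W r t).a₁ * (px P - r)) < 1 :=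
        v_add_lt_one (v_mul_lt_one_right (v_ofNat_le_one v 2) hy)
          (v_mul_lt_one_right h.int_shift.h₁ hlt)
      rw [h1] at this
      exact lt_irrefl _ this
    · rw [← ephi, phiX, ex, ey, h4, add_zero] at h1
      have : v (3 * (px P - r) ^ 2 + 2 * (shiftCurve W r t).a₂ * (px P - r) -
          (shiftCurve W r t).a₁ * (py P - t)) < 1 :=
        v_sub_lt_one (v_add_lt_one (v_mul_lt_one_right (v_ofNat_le_one v 3)
          (v_pow_lt_one hlt two_ne_zero)) (v_mul_lt_one_right
          (v_mul_le_one (v_ofNat_le_one v 2) h.int_shift.h₂) hlt))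
          (v_mul_lt_one_right h.int_shift.h₁ hy)
      rw [h1] at this
      exact lt_irrefl _ this

end

section

theorem inZeroComponentAt_iff {W : WeierstrassCurve ℤ}
    {A : ValuationSubring (AlgebraicClosure ℚ)}
    {P : ((W.map (Int.castRingHom ℚ))⁄(AlgebraicClosure ℚ)).Point} :
    W.InZeroComponentAt A P ↔
      (P ≠ 0 → A.valuation (px P) ≤ 1 → NonsingularRed A.valuation P) := by
  have hmap : W.map (Int.castRingHom (AlgebraicClosure ℚ)) =
      ((W.map (Int.castRingHom ℚ))⁄(AlgebraicClosure ℚ)) := by
    change _ = (W.map (Int.castRingHom ℚ)).map (algebraMap ℚ (AlgebraicClosure ℚ))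
    rw [WeierstrassCurve.map_map]
    congr 1
  have hW : IsIntegralFor A.valuation ((W.map (Int.castRingHom ℚ))⁄(AlgebraicClosure ℚ)) :=
    isIntegralFor_of_int hmap
  have c1 : ((W.map (Int.castRingHom ℚ))⁄(AlgebraicClosure ℚ)).a₁ =
    (((W.a₁ : ℤ) : A) : AlgebraicClosure ℚ) := by rw [← hmap]; simp
  have c2 : ((W.map (Int.castRingHom ℚ))⁄(AlgebraicClosure ℚ)).a₂ =
    (((W.a₂ : ℤ) : A) : AlgebraicClosure ℚ) := by rw [← hmap]; simp
  have c3 : ((W.map (Int.castRingHom ℚ))⁄(AlgebraicClosure ℚ)).a₃ =
    (((W.a₃ : ℤ) : A) : AlgebraicClosure ℚ) := by rw [← hmap]; simp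
  have c4 : ((W.map (Int.castRingHom ℚ))⁄(AlgebraicClosure ℚ)).a₄ =
    (((W.a₄ : ℤ) : A) : AlgebraicClosure ℚ) := by rw [← hmap]; simp
  have c6 : ((W.map (Int.castRingHom ℚ))⁄(AlgebraicClosure ℚ)).a₆ =
    (((W.a₆ : ℤ) : A) : AlgebraicClosure ℚ) := by rw [← hmap]; simp
  have r2 : IsLocalRing.residue A 2 = 2 := map_ofNat _ 2
  have r3 : IsLocalRing.residue A 3 = 3 := map_ofNat _ 3
  have k2 : ((2 : A) : AlgebraicClosure ℚ) = 2 := rfl
  have k3 : ((3 : A) : AlgebraicClosure ℚ) = 3 := rfl
  have hres : ∀ z : A, IsLocalRing.residue A z ≠ 0 ↔ A.valuation (z : AlgebraicClosure ℚ) = 1 := by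
    intro z
    rw [Ne, IsLocalRing.residue_eq_zero_iff, ValuationSubring.valuation_lt_one_iff, not_lt]
    constructor
    · exact fun h => le_antisymm (A.valuation_le_one z) h
    · exact fun h => h.ge
  rcases P with _ | ⟨x, y, h⟩
  · constructor
    · intro _ h0
      exact absurd rfl h0
    · intro _
      exact Or.inl rfl
  · have hpx : px (Point.some x y h) = x := rfl
    have hpy : py (Point.some x y h) = y := rfl
    have key : ∀ (hx : x ∈ A) (hy : y ∈ A),
        (W.map (Int.castRingHom (IsLocalRing.ResidueField A))).toAffine.Nonsingular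
          (IsLocalRing.residue A ⟨x, hx⟩) (IsLocalRing.residue A ⟨y, hy⟩) ↔
        NonsingularRed A.valuation (Point.some x y h) := by
      intro hx hy
      set x' : A := ⟨x, hx⟩ with hx'
      set y' : A := ⟨y, hy⟩ with hy'
      rw [Affine.nonsingular_iff', Affine.equation_iff']
      have e0 : (IsLocalRing.residue A y') ^ 2 +
          (W.map (Int.castRingHom (IsLocalRing.ResidueField A))).toAffine.a₁ *
            (IsLocalRing.residue A x') * (IsLocalRing.residue A y') +
          (W.map (Int.castRingHom (IsLocalRing.ResidueField A))).toAffine.a₃ *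
            (IsLocalRing.residue A y') - ((IsLocalRing.residue A x') ^ 3 +
          (W.map (Int.castRingHom (IsLocalRing.ResidueField A))).toAffine.a₂ *
            (IsLocalRing.residue A x') ^ 2 +
          (W.map (Int.castRingHom (IsLocalRing.ResidueField A))).toAffine.a₄ *
            (IsLocalRing.residue A x') +
          (W.map (Int.castRingHom (IsLocalRing.ResidueField A))).toAffine.a₆) =
          IsLocalRing.residue A (y' ^ 2 + (W.a₁ : A) * x' * y' + (W.a₃ : A) * y' -
            (x' ^ 3 + (W.a₂ : A) * x' ^ 2 + (W.a₄ : A) * x' + (W.a₆ : A))) := by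
        simp
      have e1 : (W.map (Int.castRingHom (IsLocalRing.ResidueField A))).toAffine.a₁ *
            (IsLocalRing.residue A y') - (3 * (IsLocalRing.residue A x') ^ 2 + 2 *
            (W.map (Int.castRingHom (IsLocalRing.ResidueField A))).toAffine.a₂ *
            (IsLocalRing.residue A x') +
            (W.map (Int.castRingHom (IsLocalRing.ResidueField A))).toAffine.a₄) =
          IsLocalRing.residue A ((W.a₁ : A) * y' - (3 * x' ^ 2 + 2 * (W.a₂ : A) * x' +
            (W.a₄ : A))) := by
        simp only [map_sub, map_add, map_mul, map_pow, r2, r3, map_intCast]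
        simp
      have e2 : 2 * (IsLocalRing.residue A y') +
          (W.map (Int.castRingHom (IsLocalRing.ResidueField A))).toAffine.a₁ *
            (IsLocalRing.residue A x') +
          (W.map (Int.castRingHom (IsLocalRing.ResidueField A))).toAffine.a₃ =
          IsLocalRing.residue A (2 * y' + (W.a₁ : A) * x' + (W.a₃ : A)) := by
        simp only [map_add, map_mul, r2, map_intCast]
        simp
      have hzero : y' ^ 2 + (W.a₁ : A) * x' * y' + (W.a₃ : A) * y' -
            (x' ^ 3 + (W.a₂ : A) * x' ^ 2 + (W.a₄ : A) * x' + (W.a₆ : A)) = 0 := by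
        apply Subtype.ext
        have := (Affine.equation_iff' _ _).mp h.1
        rw [c1, c2, c3, c4, c6] at this
        push_cast
        exact this
      rw [e0, e1, e2, hzero, _root_.map_zero, hres, hres]
      unfold NonsingularRed
      have f1 : A.valuation (((W.a₁ : A) * y' - (3 * x' ^ 2 + 2 * (W.a₂ : A) * x' +
            (W.a₄ : A)) : A) : AlgebraicClosure ℚ) = A.valuation (phiX (Point.some x y h)) := by
        rw [← Valuation.map_neg]
        congr 1
        rw [phiX, hpx, hpy, c1, c2, c4]
        push_cast [k2, k3]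
        ring
      have f2 : A.valuation ((2 * y' + (W.a₁ : A) * x' + (W.a₃ : A) : A) :
          AlgebraicClosure ℚ) = A.valuation (H08.psi2 (Point.some x y h)) := by
        congr 1
      rw [f1, f2]
      constructor
      · rintro ⟨-, h1 | h1⟩
        · exact Or.inr h1
        · exact Or.inl h1
      · rintro (h1 | h1)
        · exact ⟨rfl, Or.inr h1⟩
        · exact ⟨rfl, Or.inl h1⟩
    constructor
    · rintro (h0 | ⟨x', y', h', he, hor⟩) _ hx
      · exact absurd h0 (some_ne_zero _)
      · obtain ⟨rfl, rfl⟩ := Point.some.inj he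
        rw [hpx, A.valuation_le_one_iff] at hx
        rcases hor with h1 | ⟨hx', hy', hns⟩
        · exact absurd hx h1
        · exact (key hx' hy').mp hns
    · intro hns
      refine Or.inr ⟨x, y, h, rfl, ?_⟩
      by_cases hx : x ∈ A
      · right
        have hvx : A.valuation (px (Point.some x y h)) ≤ 1 := by
          rw [hpx, A.valuation_le_one_iff]; exact hx
        have hy : y ∈ A := by
          have := val_py_le_one hW hvx
          rwa [hpy, A.valuation_le_one_iff] at this
        exact ⟨hx, hy, (key hx hy).mpr (hns (some_ne_zero _) hvx)⟩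
      · exact Or.inl hx

end

end Fermat.Agent.H09
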