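import Mathlib
import Fermat.Agent.H09.Endgame
import Fermat.Agent.H09.TypeOne
import Fermat.Agent.H09.ZeroComp
import Fermat.Prelude.Def_FLTPrelim_CofixedLine

set_option autoImplicit false

/-!
# S12 and S15: congruences, and the reduction of S12 to propagation of type I
-/

namespace Fermat.Agent.H09

open Polynomial WeierstrassCurve WeierstrassCurve.Affine WeierstrassCurve.Affine.Point
open Fermat.Agent.H08 Fermat.Agent.H05

local notation "Qb" => AlgebraicClosure ℚ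

theorem map_int_Qb (W : WeierstrassCurve ℤ) :
    W.map (Int.castRingHom Qb) = ((W.map (Int.castRingHom ℚ))⁄Qb) := by
  change _ = (W.map (Int.castRingHom ℚ)).map (algebraMap ℚ Qb)
  rw [WeierstrassCurve.map_map]
  congr 1

theorem Δ_Qb_ne_zero {W : WeierstrassCurve ℤ} (hΔ : W.Δ ≠ 0) :
    ((W.map (Int.castRingHom ℚ))⁄Qb).Δ ≠ 0 := by
  rw [← map_int_Qb, map_Δ]
  simpa using hΔ

theorem exists_nodeData_int {W : WeierstrassCurve ℤ} (hΔ : W.Δ ≠ 0) {ℓ : ℕ} (hℓ : ℓ.Prime)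
    (hℓΔ : (ℓ : ℤ) ∣ W.Δ) (hℓc₄ : ¬ (ℓ : ℤ) ∣ W.c₄) {A : ValuationSubring Qb}
    (hA : A.LiesOverPrime ℓ) :
    A.valuation ((W.map (Int.castRingHom ℚ))⁄Qb).c₄ = 1 ∧ ∃ r t α β : Qb,
      NodeData A.valuation ((W.map (Int.castRingHom ℚ))⁄Qb) r t α β := by
  have hint : IsIntegralFor A.valuation ((W.map (Int.castRingHom ℚ))⁄Qb) :=
    isIntegralFor_of_int (map_int_Qb W)
  have h1 : A.valuation ((W.map (Int.castRingHom ℚ))⁄Qb).Δ < 1 := by
    rw [← map_int_Qb, map_Δ]; exact val_intCast_lt_one hA hℓΔ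
  have h2 : A.valuation ((W.map (Int.castRingHom ℚ))⁄Qb).c₄ = 1 := by
    rw [← map_int_Qb, map_c₄]; exact val_intCast_eq_one hℓ hA hℓc₄
  exact ⟨h2, exists_nodeData hint (Δ_Qb_ne_zero hΔ) h1 h2⟩

theorem val_prime_eq_one {p ℓ : ℕ} (hp : p.Prime) (hℓ : ℓ.Prime) (hℓp : ℓ ≠ p)
    {A : ValuationSubring Qb} (hA : A.LiesOverPrime ℓ) : A.valuation (p : Qb) = 1 := by
  have := val_intCast_eq_one (c := (p : ℤ)) hℓ hA (by
    intro h
    have h' : ℓ ∣ p := by exact_mod_cast h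
    exact hℓp ((Nat.prime_dvd_prime_iff_eq hℓ hp).mp h'))
  exact_mod_cast this

/-- **S15 congruence.** A rational point of prime order `p` in the zero component at a place of
multiplicative reduction over `ℓ ≠ p`: then `p ∣ ℓ² - 1`. -/
theorem dvd_of_rational_inZeroComponentAt {p : ℕ} (hp : p.Prime) {W : WeierstrassCurve ℤ}
    (hΔ : W.Δ ≠ 0) {Q : ((W.map (Int.castRingHom ℚ))⁄Qb).Point}
    (hQfix : ∀ σ : Qb ≃ₐ[ℚ] Qb, σ • Q = Q) (hQord : addOrderOf Q = p) {ℓ : ℕ} (hℓ : ℓ.Prime)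
    (hℓp : ℓ ≠ p) (hℓΔ : (ℓ : ℤ) ∣ W.Δ) (hℓc₄ : ¬ (ℓ : ℤ) ∣ W.c₄)
    {A : ValuationSubring Qb} (hA : A.LiesOverPrime ℓ) (hin : W.InZeroComponentAt A Q) :
    p ∣ ℓ ^ 2 - 1 := by
  have hgal : IsGalois ℚ Qb := { to_normal := { splits' := fun x => IsAlgClosed.splits _ } }
  obtain ⟨-, r, t, α, β, h⟩ := exists_nodeData_int hΔ hℓ hℓΔ hℓc₄ hA
  obtain ⟨σ, hσ⟩ := exists_isFrobeniusAt hℓ hA
  have hQ0 : Q ≠ 0 := by
    rintro rfl
    rw [addOrderOf_zero] at hQord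
    exact hp.one_lt.ne hQord
  have hpQ : p • Q = 0 := by rw [← hQord]; exact addOrderOf_nsmul_eq_zero Q
  exact dvd_of_frob_fixed hℓ hσ h hp (val_prime_eq_one hp hℓ hℓp hA) hQ0 hpQ
    ((nodeE0_iff_nonsingularRed h).mpr (inZeroComponentAt_iff.mp hin)) (hQfix σ)

/-- A Galois stable line in the `p`-torsion, with trivial quotient. -/
structure CofixedLine (W : WeierstrassCurve ℤ) (p : ℕ)
    (C : AddSubgroup ((W.map (Int.castRingHom ℚ))⁄Qb).Point) : Prop where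
  card : Nat.card C = p
  stable : ∀ σ : Qb ≃ₐ[ℚ] Qb, ∀ Q ∈ C, σ • Q ∈ C
  cofixed : ∀ σ : Qb ≃ₐ[ℚ] Qb, ∀ Q : ((W.map (Int.castRingHom ℚ))⁄Qb).Point,
    p • Q = 0 → σ • Q - Q ∈ C

theorem CofixedLine.nsmul_eq_zero {W : WeierstrassCurve ℤ} {p : ℕ}
    {C : AddSubgroup ((W.map (Int.castRingHom ℚ))⁄Qb).Point} (hC : CofixedLine W p C)
    {Q : ((W.map (Int.castRingHom ℚ))⁄Qb).Point} (hQ : Q ∈ C) : p • Q = 0 := by
  have h1 : Nat.card C • (⟨Q, hQ⟩ : C) = 0 := card_nsmul_eq_zero'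
  rw [hC.card] at h1
  exact congrArg Subtype.val h1

/-- the corresponding submodule of the `p`-torsion -/
theorem CofixedLine.exists_submodule {W : WeierstrassCurve ℤ} {p : ℕ} (hp : p.Prime)
    {C : AddSubgroup ((W.map (Int.castRingHom ℚ))⁄Qb).Point} (hC : CofixedLine W p C) :
    Nat.card (pull (L := Qb) p C) = p ∧ IsAtom (pull (L := Qb) p C) := by
  have hfact : Fact p.Prime := ⟨hp⟩
  have hcard : Nat.card (pull (L := Qb) p C) = p := by
    refine Eq.trans (Nat.card_congr (β := C)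
      ⟨fun x => ⟨(x.1 : ((W.map (Int.castRingHom ℚ))⁄Qb).Point), x.2⟩,
      fun Q => ⟨⟨Q.1, mem_torsion_iff.mpr (hC.nsmul_eq_zero Q.2)⟩, Q.2⟩, fun x => rfl,
      fun Q => rfl⟩) hC.card
  refine ⟨hcard, ?_, ?_⟩
  · intro hbot
    rw [hbot] at hcard
    have : Nat.card (⊥ : Submodule (ZMod p) (Submodule.torsionBy ℤ
      ((W.map (Int.castRingHom ℚ))⁄Qb).Point (p : ℤ))) = 1 := Nat.card_unique
    rw [this] at hcard
    exact hp.one_lt.ne hcard
  · intro b hb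
    have hfin : Finite (pull (L := Qb) p C) :=
      Nat.finite_of_card_ne_zero (by rw [hcard]; exact hp.ne_zero)
    by_contra hne
    have hle : b ≤ pull (L := Qb) p C := hb.le
    have hfinb : Finite b := Finite.of_injective (Submodule.inclusion hle)
      (Submodule.inclusion_injective hle)
    have h1 : Nat.card b ∣ Nat.card (pull (L := Qb) p C) := AddSubgroup.card_dvd_of_le
        (H := b.toAddSubgroup) (K := (pull (L := Qb) p C).toAddSubgroup) hle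
    rw [hcard] at h1
    rcases (Nat.dvd_prime hp).mp h1 with h2 | h2
    · apply hne
      rw [Submodule.eq_bot_iff]
      intro x hx
      have : Subsingleton b := (Nat.card_eq_one_iff_unique.mp h2).1
      have h3 : (⟨x, hx⟩ : b) = 0 := Subsingleton.elim _ _
      exact congrArg Subtype.val h3
    · apply hb.ne
      apply SetLike.coe_injective
      have hf : (pull (L := Qb) p C : Set (Submodule.torsionBy ℤ
        ((W.map (Int.castRingHom ℚ))⁄Qb).Point (p : ℤ))).Finite := Set.toFinite _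
      refine Set.eq_of_subset_of_ncard_le (fun x hx => hle hx) ?_ hf
      have e1 : (pull (L := Qb) p C : Set (Submodule.torsionBy ℤ
        ((W.map (Int.castRingHom ℚ))⁄Qb).Point (p : ℤ))).ncard = p := hcard
      have e2 : (b : Set (Submodule.torsionBy ℤ
        ((W.map (Int.castRingHom ℚ))⁄Qb).Point (p : ℤ))).ncard = p := h2
      rw [e1, e2]

/-- **S12 congruence.** -/
theorem CofixedLine.dvd_of_not_inZeroComponentAt {W : WeierstrassCurve ℤ} (hΔ : W.Δ ≠ 0) {p : ℕ}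
    (hp : p.Prime) (hp3 : 3 ≤ p) {C : AddSubgroup ((W.map (Int.castRingHom ℚ))⁄Qb).Point}
    (hC : CofixedLine W p C) {ℓ : ℕ} (hℓ : ℓ.Prime)
    (hℓp : ℓ ≠ p) (hℓΔ : (ℓ : ℤ) ∣ W.Δ) (hℓc₄ : ¬ (ℓ : ℤ) ∣ W.c₄)
    {A : ValuationSubring Qb} (hA : A.LiesOverPrime ℓ)
    (hnot : ¬ ∀ Q ∈ C, W.InZeroComponentAt A Q) : p ∣ ℓ ^ 2 - 1 := by
  obtain ⟨hc₄, r, t, α, β, h⟩ := exists_nodeData_int hΔ hℓ hℓΔ hℓc₄ hA
  by_contra hnd
  apply hnot
  intro Q hQ
  rw [inZeroComponentAt_iff, ← nodeE0_iff_nonsingularRed h]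
  exact nodeE0_of_cofixed hp hp3 hℓ hA (val_prime_eq_one hp hℓ hℓp hA) h (Δ_Qb_ne_zero hΔ) hc₄
    (hC.exists_submodule hp).2 (fun σ x => hC.cofixed σ x (mem_torsion_iff.mp x.2)) hnd
    ⟨Q, mem_torsion_iff.mpr (hC.nsmul_eq_zero hQ)⟩ hQ

theorem endgame' (P : FreyPackage) {W₀ : WeierstrassCurve.Affine ℚ} (hW₀ : W₀ = P.freyCurve)
    {P₀ : (W₀⁄Qb).Point} (hord : addOrderOf P₀ = P.p)
    (hσ : ∀ σ : Qb ≃ₐ[ℚ] Qb, ∀ Q ∈ cyc P.p P₀, σ • Q ∈ cyc P.p P₀)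
    (H : ∀ ℓ : ℕ, ℓ.Prime → ∀ A : ValuationSubring Qb, A.LiesOverPrime ℓ →
      ∀ Q ∈ cyc P.p P₀, A.valuation (px Q) ≤ 1 → NonsingularRed A.valuation Q) : False := by
  subst hW₀
  exact endgame P hord hσ H

theorem frey_no_fixed' (P : FreyPackage) {W₀ : WeierstrassCurve.Affine ℚ} (hW₀ : W₀ = P.freyCurve)
    {P₀ : (W₀⁄Qb).Point} (h0 : P₀ ≠ 0) (hp : P.p • P₀ = 0)
    (hσ : ∀ σ : Qb ≃ₐ[ℚ] Qb, σ • P₀ = P₀) : False := by
  subst hW₀
  have hgal : IsGalois ℚ Qb := { to_normal := { splits' := fun x => IsAlgClosed.splits _ } }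
  obtain ⟨Q, hQ, hpQ⟩ := exists_rational_point h0 hσ hp
  exact frey_no_rational_torsion P hQ hpQ

/-- **Reduction of S12** to the propagation of type I. -/
theorem frey_no_cofixed_of (P : FreyPackage) (hp17 : 17 ≤ P.p)
    (hprop : ∀ C : AddSubgroup ((P.freyCurveInt.map (Int.castRingHom ℚ))⁄Qb).Point,
      CofixedLine P.freyCurveInt P.p C → (3 : ℤ) ∣ P.freyCurveInt.Δ →
      (∀ A : ValuationSubring Qb, A.LiesOverPrime 2 →
        ∀ Q ∈ C, P.freyCurveInt.InZeroComponentAt A Q) →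
      (∀ A : ValuationSubring Qb, A.LiesOverPrime 3 →
        ∀ Q ∈ C, P.freyCurveInt.InZeroComponentAt A Q) →
      ∀ ℓ : ℕ, ℓ.Prime → ℓ ≠ P.p → (ℓ : ℤ) ∣ P.freyCurveInt.Δ →
        ¬ (ℓ : ℤ) ∣ P.freyCurveInt.c₄ → ∀ A : ValuationSubring Qb, A.LiesOverPrime ℓ →
        ∀ Q ∈ C, P.freyCurveInt.InZeroComponentAt A Q) :
    ¬ HasGaloisStableCofixedLine (K := Qb) ℚ P.freyCurve P.p := by
  intro hcl
  have hfact : Fact P.p.Prime := ⟨P.pp⟩
  have hp5 := P.hp5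
  have hgal : IsGalois ℚ Qb := { to_normal := { splits' := fun x => IsAlgClosed.splits _ } }
  set W := P.freyCurveInt with hWdef
  have hWQ : W.map (Int.castRingHom ℚ) = P.freyCurve := Fermat.Agent.H26.freyCurveInt_map P
  have hΔ0 : W.Δ ≠ 0 := Fermat.Agent.H26.freyCurveInt_Δ_ne_zero P
  have hss : W.IsSemistableModel := Fermat.Agent.H26.freyCurveInt_isSemistableModel P
  rw [← hWQ] at hcl
  obtain ⟨N, hN, hb, ht, hcof⟩ := hcl
  obtain ⟨hfinM, hrank⟩ := finrank_torsion (L := Qb) (W₀ := W.map (Int.castRingHom ℚ))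
    (p := P.p) (by omega)
  obtain ⟨hatom, hcoatom, hrN⟩ := atom_coatom hrank hb ht
  obtain ⟨hfin, -⟩ := finite_torsion (L := Qb) (W₀ := W.map (Int.castRingHom ℚ)) P.pp
    (by omega)
  have hint : ∀ A : ValuationSubring Qb,
      IsIntegralFor A.valuation ((W.map (Int.castRingHom ℚ))⁄Qb) :=
    fun A => isIntegralFor_of_int (map_int_Qb W)
  -- the subgroup
  let C : AddSubgroup ((W.map (Int.castRingHom ℚ))⁄Qb).Point :=
    N.toAddSubgroup.map (Submodule.subtype (Submodule.torsionBy ℤ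
      ((W.map (Int.castRingHom ℚ))⁄Qb).Point (P.p : ℤ))).toAddMonoidHom
  have hmemC : ∀ Q, Q ∈ C ↔ ∃ x ∈ N, (x : ((W.map (Int.castRingHom ℚ))⁄Qb).Point) = Q := by
    intro Q
    rfl
  have hcardN : Nat.card N = P.p := by
    rw [Module.natCard_eq_pow_finrank (K := ZMod P.p), hrN, Nat.card_zmod, pow_one]
  have hC : CofixedLine W P.p C := by
    refine ⟨?_, ?_, ?_⟩
    · rw [← hcardN]
      symm
      refine Nat.card_congr (Equiv.ofBijective
        (fun x : N => (⟨(x.1 : ((W.map (Int.castRingHom ℚ))⁄Qb).Point),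
          (hmemC _).mpr ⟨x.1, x.2, rfl⟩⟩ : C)) ⟨?_, ?_⟩)
      · intro x y hxy
        have h1 := congrArg (fun z : C => (z : ((W.map (Int.castRingHom ℚ))⁄Qb).Point)) hxy
        exact Subtype.ext (Subtype.ext h1)
      · rintro ⟨Q, hQ⟩
        obtain ⟨x, hx, rfl⟩ := (hmemC Q).mp hQ
        exact ⟨⟨x, hx⟩, rfl⟩
    · intro σ Q hQ
      obtain ⟨x, hx, rfl⟩ := (hmemC Q).mp hQ
      exact (hmemC _).mpr ⟨σ • x, hN σ x hx, rfl⟩
    · intro σ Q hQ
      exact (hmemC _).mpr ⟨σ • (⟨Q, mem_torsion_iff.mpr hQ⟩ : Submodule.torsionBy ℤ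
        ((W.map (Int.castRingHom ℚ))⁄Qb).Point (P.p : ℤ)) - ⟨Q, mem_torsion_iff.mpr hQ⟩,
        hcof σ _, rfl⟩
  -- multiplicative reduction at 3
  have h3 : (3 : ℤ) ∣ W.Δ := by
    by_contra h3
    obtain ⟨A, hA⟩ := exists_liesOverPrime Qb Nat.prime_three
    have hv3 : A.valuation ((W.map (Int.castRingHom ℚ))⁄Qb).Δ = 1 := by
      rw [← map_int_Qb, map_Δ]
      exact val_intCast_eq_one Nat.prime_three hA h3
    exact not_good_of_cofixed P.pp Nat.prime_three hA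
      (val_prime_eq_one P.pp Nat.prime_three (by omega) hA) (hint A) hv3 ht hcof hfin (by omega)
  have htype : ∀ ℓ : ℕ, ℓ.Prime → ℓ ≠ P.p → (ℓ : ℤ) ∣ W.Δ → ¬ P.p ∣ ℓ ^ 2 - 1 →
      ∀ A : ValuationSubring Qb, A.LiesOverPrime ℓ → ∀ Q ∈ C, W.InZeroComponentAt A Q := by
    intro ℓ hℓ hℓp hℓΔ hnd A hA
    by_contra hcon
    exact hnd (hC.dvd_of_not_inZeroComponentAt hΔ0 P.pp (by omega) hℓ hℓp hℓΔ
      (hss ℓ hℓ hℓΔ) hA hcon)
  have hall := hprop C hC h3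
    (htype 2 Nat.prime_two (by omega) (Fermat.Agent.H26.two_dvd_freyCurveInt_Δ P) (by
      intro h; have := Nat.le_of_dvd (by norm_num) h; omega))
    (htype 3 Nat.prime_three (by omega) h3 (by
      intro h; have := Nat.le_of_dvd (by norm_num) h; omega))
  -- a generator
  obtain ⟨x₀, hx₀N, hx₀⟩ := (Submodule.ne_bot_iff N).mp hb
  have hP0 : (x₀ : ((W.map (Int.castRingHom ℚ))⁄Qb).Point) ≠ 0 :=
    fun h' => hx₀ (Subtype.ext h')
  have hpP : P.p • (x₀ : ((W.map (Int.castRingHom ℚ))⁄Qb).Point) = 0 := mem_torsion_iff.mp x₀.2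
  have hord : addOrderOf (x₀ : ((W.map (Int.castRingHom ℚ))⁄Qb).Point) = P.p :=
    addOrderOf_eq_prime hpP hP0
  have hfinC : Finite C := Nat.finite_of_card_ne_zero (by rw [hC.card]; exact P.hp0)
  have hP0C : (x₀ : ((W.map (Int.castRingHom ℚ))⁄Qb).Point) ∈ C :=
    (hmemC _).mpr ⟨x₀, hx₀N, rfl⟩
  have hcyc : ∀ Q, Q ∈ cyc P.p (x₀ : ((W.map (Int.castRingHom ℚ))⁄Qb).Point) ↔
      Q ∈ C ∧ Q ≠ 0 := by
    intro Q
    constructor
    · intro hQ
      obtain ⟨k, hk, rfl⟩ := Finset.mem_image.mp hQ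
      refine ⟨C.nsmul_mem hP0C k, ?_⟩
      rw [Finset.mem_Ico] at hk
      intro h0
      have : P.p ∣ k := by rw [← hord]; exact addOrderOf_dvd_of_nsmul_eq_zero h0
      have := Nat.le_of_dvd (by omega) this
      omega
    · rintro ⟨hQ, hQ0⟩
      have hle : AddSubgroup.zmultiples (x₀ : ((W.map (Int.castRingHom ℚ))⁄Qb).Point) ≤ C := by
        rw [AddSubgroup.zmultiples_le]; exact hP0C
      have heq : AddSubgroup.zmultiples (x₀ : ((W.map (Int.castRingHom ℚ))⁄Qb).Point) = C := by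
        apply AddSubgroup.eq_of_le_of_card_ge hle
        rw [hC.card, Nat.card_zmultiples, hord]
      rw [← heq, AddSubgroup.mem_zmultiples_iff] at hQ
      obtain ⟨k, rfl⟩ := hQ
      have hk := Int.emod_nonneg k (b := (P.p : ℤ)) (by exact_mod_cast P.hp0)
      have hk2 := Int.emod_lt_of_pos k (b := (P.p : ℤ)) (by exact_mod_cast P.hppos)
      obtain ⟨m, hm⟩ := Int.eq_ofNat_of_zero_le hk
      have hkm : k • (x₀ : ((W.map (Int.castRingHom ℚ))⁄Qb).Point) =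
          m • (x₀ : ((W.map (Int.castRingHom ℚ))⁄Qb).Point) := by
        have h1 := mod_addOrderOf_zsmul (x₀ : ((W.map (Int.castRingHom ℚ))⁄Qb).Point) k
        rw [hord, hm, natCast_zsmul] at h1
        exact h1.symm
      rw [hkm] at hQ0 ⊢
      refine Finset.mem_image.mpr ⟨m, ?_, rfl⟩
      rw [Finset.mem_Ico]
      constructor
      · rw [Nat.one_le_iff_ne_zero]
        rintro rfl
        exact hQ0 (zero_smul _ _)
      · rw [hm] at hk2; exact_mod_cast hk2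
  refine endgame' P hWQ hord ?_ ?_
  · intro σ Q hQ
    rw [hcyc] at hQ ⊢
    exact ⟨hC.stable σ Q hQ.1, smul_ne_zero' σ hQ.2⟩
  · intro ℓ hℓ A hA Q hQ hx
    rw [hcyc] at hQ
    by_cases hℓΔ : (ℓ : ℤ) ∣ W.Δ
    · by_cases hℓp : ℓ = P.p
      · subst hℓp
        obtain ⟨-, r, t, α, β, hnd⟩ := exists_nodeData_int hΔ0 P.pp hℓΔ (hss _ P.pp hℓΔ) hA
        have hnf : ¬ ∀ σ : Qb ≃ₐ[ℚ] Qb, ∀ x ∈ N, σ • x = x := by
          intro hf
          exact frey_no_fixed' P hWQ hP0 hpP (fun σ => congrArg Subtype.val (hf σ x₀ hx₀N))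
        obtain ⟨x, hx', rfl⟩ := (hmemC Q).mp hQ.1
        exact (nodeE0_iff_nonsingularRed hnd).mp (nodeE0_at_p (map_int_Qb W) hΔ0 hss hp5 hN
          hatom hcoatom hnf hA hnd x hx') hQ.2 hx
      · exact inZeroComponentAt_iff.mp (hall ℓ hℓ hℓp hℓΔ (hss ℓ hℓ hℓΔ) A hA Q hQ.1) hQ.2 hx
    · have hv : A.valuation ((W.map (Int.castRingHom ℚ))⁄Qb).Δ = 1 := by
        rw [← map_int_Qb, map_Δ]
        exact val_intCast_eq_one hℓ hA hℓΔ
      exact nonsingularRed_of_Δ (hint A) hv hQ.2 hx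

end Fermat.Agent.H09
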