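import Mathlib
import Fermat.Agent.H09.OT2
import Fermat.Agent.H09.S12Red
import Fermat.Agent.Ell.Comp
import Fermat.Agent.Frob.Torsion

set_option autoImplicit false
set_option linter.style.haveILetI false
set_option linter.unusedSectionVars false

/-! The two-torsion of a curve with odd valuation of the discriminant at `2` has no Hopf order. -/

noncomputable section

namespace Fermat.Agent.H09

open Fermat.Agent.H02F (Qb GQ IsHopfOrder)
open Fermat.Agent.H08 Fermat.Agent.Ell
open WeierstrassCurve WeierstrassCurve.Affine WeierstrassCurve.Affine.Point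

section Algebra

/-- the discriminant in terms of the two-division points -/
theorem disc_of_roots {F : Type*} [Field F] {W : WeierstrassCurve F} (h2 : (2 : F) ≠ 0)
    {x y z : F} (hx : 4 * x ^ 3 + W.b₂ * x ^ 2 + 2 * W.b₄ * x + W.b₆ = 0)
    (hy : 4 * y ^ 3 + W.b₂ * y ^ 2 + 2 * W.b₄ * y + W.b₆ = 0)
    (hz : 4 * z ^ 3 + W.b₂ * z ^ 2 + 2 * W.b₄ * z + W.b₆ = 0)
    (hxy : x ≠ y) (hxz : x ≠ z) (hyz : y ≠ z) :
    (4 * (x - y) * (x - z) * (y - z)) ^ 2 = W.Δ := by
  have e1 : 4 * (x ^ 2 + x * y + y ^ 2) + W.b₂ * (x + y) + 2 * W.b₄ = 0 := by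
    apply mul_left_cancel₀ (sub_ne_zero.mpr hxy)
    linear_combination hx - hy
  have e2 : 4 * (x ^ 2 + x * z + z ^ 2) + W.b₂ * (x + z) + 2 * W.b₄ = 0 := by
    apply mul_left_cancel₀ (sub_ne_zero.mpr hxz)
    linear_combination hx - hz
  have hb2 : W.b₂ = -4 * (x + y + z) := by
    apply mul_left_cancel₀ (sub_ne_zero.mpr hyz)
    linear_combination e1 - e2
  have hb4 : W.b₄ = 2 * (x * y + x * z + y * z) := by
    apply mul_left_cancel₀ h2
    rw [hb2] at e1
    linear_combination e1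
  have hb6 : W.b₆ = -4 * (x * y * z) := by
    rw [hb2, hb4] at hx
    linear_combination hx
  have h4 : (4 : F) ≠ 0 := by
    have : (4 : F) = 2 * 2 := by norm_num
    rw [this]; exact mul_ne_zero h2 h2
  apply mul_left_cancel₀ h4
  have hb8 := W.b_relation
  rw [WeierstrassCurve.Δ]
  rw [hb2, hb4, hb6] at hb8
  rw [hb2, hb4, hb6]
  linear_combination (16 * (x + y + z) ^ 2) * hb8

theorem twoTors_eq {F : Type*} [Field F] [DecidableEq F] {W : WeierstrassCurve.Affine F}
    {P : W.Point} (hP : P ≠ 0) (h2 : P + P = 0) :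
    4 * px P ^ 3 + W.b₂ * px P ^ 2 + 2 * W.b₄ * px P + W.b₆ = 0 := by
  have h1 : -P = P := by rw [neg_eq_iff_add_eq_zero]; exact h2
  have h3 := py_neg hP
  rw [h1] at h3
  have h4 := eqn_of_ne_zero hP
  have h5 : 2 * py P + W.a₁ * px P + W.a₃ = 0 := by linear_combination h3
  simp only [WeierstrassCurve.b₂, WeierstrassCurve.b₄, WeierstrassCurve.b₆]
  linear_combination (2 * py P + W.a₁ * px P + W.a₃) * h5 - 4 * h4

end Algebra

section Card

variable {M : Type*} [AddCommGroup M]

/-- a group of order four killed by `2` -/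
theorem klein_of_card (hc : Nat.card M = 4) (h2 : ∀ x : M, x + x = 0) {e f : M} (he : e ≠ 0)
    (hf : f ≠ 0) (hef : e ≠ f) : Klein e f where
  two := h2
  all := by
    classical
    haveI : Finite M := Nat.finite_of_card_ne_zero (by rw [hc]; norm_num)
    haveI := Fintype.ofFinite M
    have hneg : ∀ x : M, -x = x := fun x => by rw [neg_eq_iff_add_eq_zero]; exact h2 x
    have h1 : e + f ≠ 0 := by
      intro h0
      apply hef
      rw [← sub_eq_zero, sub_eq_add_neg, hneg]
      exact h0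
    have h3 : e + f ≠ e := fun h0 => hf (add_eq_left.mp h0)
    have h4 : e + f ≠ f := fun h0 => he (add_eq_right.mp h0)
    have hcard : ({0, e, f, e + f} : Finset M).card = 4 := by
      rw [Finset.card_insert_of_notMem, Finset.card_insert_of_notMem,
        Finset.card_insert_of_notMem, Finset.card_singleton]
      · simpa using h4.symm
      · simp only [Finset.mem_insert, Finset.mem_singleton, not_or]
        exact ⟨hef, h3.symm⟩
      · simp only [Finset.mem_insert, Finset.mem_singleton, not_or]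
        exact ⟨he.symm, hf.symm, h1.symm⟩
    have huniv : ({0, e, f, e + f} : Finset M) = Finset.univ := by
      apply Finset.eq_univ_of_card
      rw [hcard, ← Nat.card_eq_fintype_card, hc]
    intro x
    have := Finset.mem_univ x
    rw [← huniv] at this
    simpa using this
  he := he
  hf := hf
  hef := hef

end Card

section Curve

variable {W : WeierstrassCurve ℤ} {M : Type*} [AddCommGroup M] {act : GQ →* AddMonoid.End M}

/-- a square root of the discriminant and the action on the two-torsion -/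
theorem exists_sqrt_disc {ι : M →+ ((W.map (Int.castRingHom ℚ))⁄Qb).Point} (hι : Function.Injective ι)
    (hιG : ∀ (σ : GQ) (m : M), ι (act σ m) = σ • ι m) {e f : M} (h : Klein e f) :
    ∃ s : Qb, s ^ 2 = ((W.Δ : ℤ) : Qb) ∧
      (∀ σ : GQ, act σ e = e → act σ f = f → σ s = s) ∧
      (∀ σ : GQ, act σ e = e → act σ f = e + f → σ s = -s) := by
  have hne : ∀ {m : M}, m ≠ 0 → ι m ≠ 0 := fun hm h0 => hm (hι (by rw [h0, _root_.map_zero]))
  have hpx : ∀ {m m' : M}, m ≠ 0 → m' ≠ 0 → m ≠ m' → px (ι m) ≠ px (ι m') := by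
    intro m m' hm hm' hmm h1
    rcases (px_eq_iff (hne hm) (hne hm')).mp h1 with h2 | h2
    · exact hmm (hι h2)
    · rw [← map_neg, h.neg] at h2
      exact hmm (hι h2)
  have htwo : ∀ {m : M}, m ≠ 0 → 4 * px (ι m) ^ 3 +
      ((W.map (Int.castRingHom ℚ))⁄Qb).b₂ * px (ι m) ^ 2 +
      2 * ((W.map (Int.castRingHom ℚ))⁄Qb).b₄ * px (ι m) +
      ((W.map (Int.castRingHom ℚ))⁄Qb).b₆ = 0 := by
    intro m hm
    exact twoTors_eq (hne hm) (by rw [← map_add, h.two, _root_.map_zero])
  refine ⟨4 * (px (ι e) - px (ι f)) * (px (ι e) - px (ι (e + f))) *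
    (px (ι f) - px (ι (e + f))), ?_, ?_, ?_⟩
  · rw [disc_of_roots two_ne_zero (htwo h.he) (htwo h.hf) (htwo h.ef_ne_zero)
      (hpx h.he h.hf h.hef) (hpx h.he h.ef_ne_zero h.ef_ne_e.symm)
      (hpx h.hf h.ef_ne_zero h.ef_ne_f.symm), ← map_int_Qb, map_Δ]
    rfl
  · intro σ he hf
    have hef : act σ (e + f) = e + f := by rw [map_add, he, hf]
    have h1 : ∀ {m m' : M}, act σ m = m' → σ (px (ι m)) = px (ι m') := by
      intro m m' hm
      rw [← hm, hιG, px_smul]
    simp only [map_mul, map_sub, map_ofNat, h1 he, h1 hf, h1 hef]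
  · intro σ he hf
    have hef : act σ (e + f) = f := by rw [map_add, he, hf, h.e_add_ef]
    have h1 : ∀ {m m' : M}, act σ m = m' → σ (px (ι m)) = px (ι m') := by
      intro m m' hm
      rw [← hm, hιG, px_smul]
    simp only [map_mul, map_sub, map_ofNat, h1 he, h1 hf, h1 hef]
    ring

/-- **OT2** for elliptic curves. -/
theorem no_hopfOrder_twoTorsion (hΔ : W.Δ ≠ 0) (h2Δ : (2 : ℤ) ∣ W.Δ) (h2c₄ : ¬ (2 : ℤ) ∣ W.c₄)
    (hodd : Odd (padicValInt 2 W.Δ)) {ι : M →+ ((W.map (Int.castRingHom ℚ))⁄Qb).Point} (hι : Function.Injective ι)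
    (hιG : ∀ (σ : GQ) (m : M), ι (act σ m) = σ • ι m)
    (hιM : ∀ P : ((W.map (Int.castRingHom ℚ))⁄Qb).Point, P + P = 0 ↔ ∃ m, ι m = P)
    {H : Subalgebra (GaloisRep.ratLocalizedAt 2) (M → Qb)} : ¬ IsHopfOrder 2 act H := by
  classical
  intro hH
  haveI := Fermat.Agent.H51.isGalois_Qbar
  obtain ⟨A, hA⟩ := Fermat.Agent.H05.exists_liesOverPrime Qb Nat.prime_two
  obtain ⟨hc₄, r, t, α, β, hnd⟩ := exists_nodeData_int hΔ Nat.prime_two (by exact_mod_cast h2Δ)
    (by exact_mod_cast h2c₄) hA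
  have hΔQ : ((W.map (Int.castRingHom ℚ))⁄Qb).Δ ≠ 0 := Δ_Qb_ne_zero hΔ
  -- the module `M` has four elements
  have h2 : ∀ x : M, x + x = 0 := by
    intro x
    apply hι
    rw [map_add, _root_.map_zero]
    exact (hιM _).mpr ⟨x, rfl⟩
  haveI hell : (W.map (Int.castRingHom ℚ)).IsElliptic := by
    refine ⟨isUnit_iff_ne_zero.mpr ?_⟩
    rw [map_Δ]
    simpa using hΔ
  have hcard : Nat.card M = 4 := by
    have h1 := Frob.card_torsion (K := Qb) (W.map (Int.castRingHom ℚ)) (n := 2) two_ne_zero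
    have h3 : Nat.card M = Nat.card {P : ((W.map (Int.castRingHom ℚ))⁄Qb).Point // 2 • P = 0} := by
      refine Nat.card_congr (Equiv.ofBijective (fun m => ⟨ι m, ?_⟩) ⟨?_, ?_⟩)
      · rw [two_nsmul, ← map_add, h2, _root_.map_zero]
      · intro m m' hmm
        exact hι (congrArg Subtype.val hmm)
      · rintro ⟨P, hP⟩
        rw [two_nsmul] at hP
        obtain ⟨m, hm⟩ := (hιM P).mp hP
        exact ⟨m, Subtype.ext hm⟩
    rw [h3, h1]; norm_num
  haveI : Finite M := Nat.finite_of_card_ne_zero (by rw [hcard]; norm_num)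
  -- a point reducing to the node
  obtain ⟨P, hP0, hP2, hPE⟩ := exists_torsion_node hnd hΔQ hc₄ Nat.prime_two hA Nat.prime_two
  rw [two_nsmul] at hP2
  obtain ⟨f, rfl⟩ := (hιM P).mp hP2
  have hf : f ≠ 0 := by rintro rfl; exact hP0 (_root_.map_zero ι)
  -- valuations
  have h2v : A.valuation (2 : Qb) < 1 := by
    have h1 : ((2 : ℕ) : Qb) ∈ A.nonunits := hA
    rw [ValuationSubring.mem_nonunits_iff] at h1
    exact_mod_cast h1
  have h20 : A.valuation (2 : Qb) ≠ 0 := (Valuation.ne_zero_iff _).mpr two_ne_zero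
  have h20' : 0 < A.valuation (2 : Qb) := zero_lt_iff.mpr h20
  obtain ⟨k, hk⟩ := hodd
  have hvΔ : A.valuation ((W.Δ : ℤ) : Qb) = A.valuation (2 : Qb) ^ (2 * (k : ℤ) + 1) := by
    haveI : Fact (Nat.Prime 2) := ⟨Nat.prime_two⟩
    obtain ⟨m, hm⟩ := padicValInt_dvd (p := 2) W.Δ
    have hm2 : ¬ (2 : ℤ) ∣ m := by
      rintro ⟨m', rfl⟩
      have h3 : ((2 : ℕ) : ℤ) ^ (padicValInt 2 W.Δ + 1) ∣ W.Δ := by
        refine ⟨m', ?_⟩
        conv_lhs => rw [hm]
        push_cast
        ring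
      rcases (padicValInt_dvd_iff _ _).mp h3 with h4 | h4
      · exact hΔ h4
      · omega
    rw [hm, hk]
    push_cast
    rw [map_mul, map_pow, val_intCast_eq_one Nat.prime_two hA (by exact_mod_cast hm2), mul_one]
    exact_mod_cast rfl
  have hsval : ∀ s : Qb, s ^ 2 = ((W.Δ : ℤ) : Qb) →
      A.valuation s ^ 2 = A.valuation (2 : Qb) ^ (2 * (k : ℤ) + 1) := by
    intro s hs
    rw [← map_pow, hs, hvΔ]
  -- inertia moves any square root of the discriminant
  have hmove : ∀ s : Qb, s ^ 2 = ((W.Δ : ℤ) : Qb) →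
      ∃ σ ∈ A.inertiaSubgroupIn ℚ, σ s ≠ s := by
    intro s hs
    by_contra hcon
    push Not at hcon
    have hs0 : s ≠ 0 := by
      rintro rfl
      rw [zero_pow two_ne_zero] at hs
      exact hΔ (by exact_mod_cast hs.symm)
    obtain ⟨m, hm⟩ := H12.exists_valuation_eq_zpow Nat.prime_two hA s hs0 hcon
    have h1 := hsval s hs
    have h3 : A.valuation ((2 : ℕ) : Qb) = A.valuation (2 : Qb) := by norm_num
    rw [hm, h3, ← zpow_natCast, ← zpow_mul] at h1
    have h4 := (zpow_le_zpow_iff_right_of_lt_one₀ h20' h2v).mp h1.le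
    have h5 := (zpow_le_zpow_iff_right_of_lt_one₀ h20' h2v).mp h1.ge
    push_cast at h4 h5
    omega
  -- the difference `σ x - x` is in the zero component
  have hsub : ∀ σ ∈ A.inertiaSubgroupIn ℚ, ∀ x : M,
      NodeE0 A.valuation r t (ι (act σ x - x)) := by
    intro σ hσ x
    rw [map_sub, hιG]
    exact nodeE0_smul_sub hσ hnd (ι x)
  -- the point `e`
  obtain ⟨e, he, heE⟩ : ∃ e : M, e ≠ 0 ∧ NodeE0 A.valuation r t (ι e) := by
    by_contra hcon
    push Not at hcon
    have htriv : ∀ σ ∈ A.inertiaSubgroupIn ℚ, ∀ x : M, act σ x = x := by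
      intro σ hσ x
      by_contra hne
      exact hcon _ (sub_ne_zero.mpr hne) (hsub σ hσ x)
    obtain ⟨g, hg0, hgf⟩ : ∃ g : M, g ≠ 0 ∧ g ≠ f := by
      by_contra hcon2
      push Not at hcon2
      haveI := Fintype.ofFinite M
      have h1 : (Finset.univ : Finset M) ⊆ {0, f} := by
        intro x _
        by_cases hx : x = 0
        · simp [hx]
        · simp [hcon2 x hx]
      have h3 := (Finset.card_le_card h1).trans Finset.card_le_two
      rw [Finset.card_univ, ← Nat.card_eq_fintype_card, hcard] at h3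
      omega
    have hK := klein_of_card hcard h2 hg0 hf hgf
    obtain ⟨s, hs, hs1, -⟩ := exists_sqrt_disc hι hιG hK
    obtain ⟨σ, hσ, hσs⟩ := hmove s hs
    exact hσs (hs1 σ (htriv σ hσ g) (htriv σ hσ f))
  have hef : e ≠ f := by
    rintro rfl
    exact hPE heE
  have hK := klein_of_card hcard h2 he hf hef
  obtain ⟨s, hs, hs1, hs2⟩ := exists_sqrt_disc hι hιG hK
  have hs0 : s ≠ 0 := by
    rintro rfl
    rw [zero_pow two_ne_zero] at hs
    exact hΔ (by exact_mod_cast hs.symm)
  -- elements of the zero component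
  have hE0 : ∀ x : M, NodeE0 A.valuation r t (ι x) → x = 0 ∨ x = e := by
    intro x hx
    rcases hK.all x with h1 | h1 | h1 | h1
    · exact Or.inl h1
    · exact Or.inr h1
    · rw [h1] at hx; exact absurd hx hPE
    · exfalso
      rw [h1, map_add] at hx
      have h3 := NodeE0.add hnd (NodeE0.neg heE) hx
      rw [neg_add_cancel_left] at h3
      exact hPE h3
  have hIe : ∀ σ ∈ A.inertiaSubgroupIn ℚ, act σ e = e := by
    intro σ hσ
    rcases hE0 _ (hsub σ hσ e) with h1 | h1
    · exact sub_eq_zero.mp h1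
    · exfalso
      have h3 : act σ e = e + e := by rw [← sub_add_cancel (act σ e) e, h1]
      rw [h2] at h3
      have h4 := congrArg (act σ⁻¹) h3
      rw [act_inv_act, _root_.map_zero] at h4
      exact he h4
  have hIf : ∀ σ ∈ A.inertiaSubgroupIn ℚ, act σ f = f ∨ act σ f = e + f := by
    intro σ hσ
    rcases hE0 _ (hsub σ hσ f) with h1 | h1
    · exact Or.inl (sub_eq_zero.mp h1)
    · exact Or.inr (by rw [← sub_add_cancel (act σ f) f, h1])
  have hss : s ≠ -s := by
    intro h1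
    apply hs0
    have h3 : 2 * s = 0 := by linear_combination h1
    exact (mul_eq_zero.mp h3).resolve_left two_ne_zero
  refine no_hopfOrder_of_odd hA hK hIe (k := k) (hsval s hs) ?_ ?_ ?_ hH
  · intro σ hσ
    rcases hIf σ hσ with h1 | h1
    · exact Or.inl (hs1 σ (hIe σ hσ) h1)
    · exact Or.inr (hs2 σ (hIe σ hσ) h1)
  · intro σ hσ hσs
    rcases hIf σ hσ with h1 | h1
    · exact h1
    · exact absurd (hσs.symm.trans (hs2 σ (hIe σ hσ) h1)) hss
  · intro σ hσ hσs
    rcases hIf σ hσ with h1 | h1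
    · exact absurd ((hs1 σ (hIe σ hσ) h1).symm.trans hσs) hss
    · exact h1

end Curve

end Fermat.Agent.H09
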