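import Fermat.Agent.H09.Z6D
import Fermat.Agent.H27.NFEv
import Fermat.Agent.H27.Z4Main

/-!
# PROGRAM Z, Z6: from congruences between cusp forms to points; the pigeonhole principle
-/

set_option autoImplicit false
set_option linter.unusedSectionVars false
set_option linter.style.haveILetI false

noncomputable section

namespace Fermat.Agent.H09.Z6

open ModularCurve AlgebraicCurve CongruenceSubgroup IsLocalRing
open Fermat.Agent.H08 Fermat.Agent.EGal Fermat.Agent.Ell Fermat.Agent.Q Fermat.Agent.H11N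
open Fermat.Agent.ZF

variable {W : WeierstrassCurve ℤ}

/-- a cusp form of level `D` which is congruent to `W` modulo `2 ^ s` -/
def CongF (W : WeierstrassCurve ℤ) (D s : ℕ) [NeZero D] : Prop :=
  ∃ (g : CuspForm (Gamma0 D) 2) (R : Subring ℂ) (O : Type) (_ : CommRing O) (_ : IsDomain O)
    (_ : IsDiscreteValuationRing O) (_ : CharZero O) (_ : Finite (ResidueField O)) (φ : R →+* O),
    Function.Injective φ ∧ g ≠ 0 ∧ (2 : O) ∈ maximalIdeal O ∧
      ∀ l : Nat.Primes, ¬ (l : ℕ) ∣ D → ∃ c : R,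
        (CuspForm.heckeEvalForms D 2 (heckeGen l) : Module.End ℂ (CuspForm (Gamma0 D) 2)) g =
          (c : ℂ) • g ∧
        (2 : O) ^ s ∣ φ c - ((W.apOfModel l : ℤ) : O)

/-- **From congruences between cusp forms to points.** -/
theorem has_of_congF {D s : ℕ} [NeZero D] (h : CongF W D (s + 1)) :
    Has D D (fun l => W.apOfModel l) s := by
  letI : Algebra (AlgebraicClosure ℚ) ℂ :=
    (IsAlgClosed.lift (M := ℂ) (R := ℚ) (S := AlgebraicClosure ℚ)).toRingHom.toAlgebra
  obtain ⟨g, R, O, _, _, _, _, _, φ, hφ, hg, h2, hc⟩ := h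
  have h20 : (2 : O) ≠ 0 := two_ne_zero
  obtain ⟨n, hn⟩ : ∃ n : ℕ, Ideal.span {(2 : O) ^ (s + 1)} = maximalIdeal O ^ n := by
    obtain ⟨ϖ, hϖ⟩ := IsDiscreteValuationRing.exists_irreducible O
    obtain ⟨n, u, hu⟩ := IsDiscreteValuationRing.eq_unit_mul_pow_irreducible
      (pow_ne_zero (s + 1) h20) hϖ
    refine ⟨n, ?_⟩
    rw [hu, hϖ.maximalIdeal_eq, Ideal.span_singleton_pow]
    exact Ideal.span_singleton_mul_left_unit u.isUnit _
  haveI : NeZero (2 ^ (s + 1)) := ⟨pow_ne_zero _ two_ne_zero⟩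
  obtain ⟨θ, h1, h3, h4⟩ := Z34.exists_ev_tor (N := D) φ hφ hg n (2 ^ (s + 1)) (by
    rw [← hn, Ideal.mem_span_singleton]
    push_cast
    exact dvd_rfl)
  obtain ⟨b, hb⟩ : ∃ b, θ (b * 2 ^ s) ≠ 0 := by
    by_contra hcon
    push Not at hcon
    have h5 := h4 _ hcon
    rw [← hn, Ideal.mem_span_singleton, pow_succ] at h5
    obtain ⟨y, hy⟩ := h5
    have h6 : (2 : O) ^ s * (2 * y - 1) = 0 := by
      linear_combination -hy
    have h7 := (mul_eq_zero.mp h6).resolve_left (pow_ne_zero s h20)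
    exact h2 (IsUnit.of_mul_eq_one y (sub_eq_zero.mp h7))
  refine ⟨s + 1, (θ b : JZero D), ⟨?_, fun l hl => ?_⟩, ?_⟩
  · exact (H26.mem_tor).mp (θ b).2
  · obtain ⟨c, hcg, hcd⟩ := hc l hl
    obtain ⟨y, hy⟩ := hcd
    have h5 := h1 (heckeGen l) c hcg b
    have h6 : θ (φ c * b) = (W.apOfModel l : ℤ) • θ b := by
      have e1 : φ c * b = (W.apOfModel l : ℤ) • b + 2 ^ (s + 1) * (y * b) := by
        rw [zsmul_eq_mul]
        linear_combination b * hy
      have e2 : θ (2 ^ (s + 1) * (y * b)) = 0 := by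
        apply h3
        rw [← hn, Ideal.mem_span_singleton]
        exact dvd_mul_right _ _
      rw [e1, map_add, e2, add_zero, map_zsmul]
    rw [h6] at h5
    have h7 := congrArg (fun z : H26.Tor D (2 ^ (s + 1)) => (z : JZero D)) h5
    have h8 := coe_torAct_eq (heckeGen l) (θ b)
    rw [heckeJ_gen] at h8
    rw [← h8]
    exact h7
  · intro h0
    apply hb
    have e1 : b * 2 ^ s = (2 ^ s : ℕ) • b := by
      rw [nsmul_eq_mul]
      push_cast
      ring
    rw [e1, map_nsmul]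
    exact Subtype.ext h0

theorem modular_of_congF (h : ZCurve W) (B : ℕ)
    (hF : ∀ s : ℕ, ∃ m, s ≤ m ∧ ∃ Q : Finset Nat.Primes, Q.card ≤ B ∧
      (∀ q ∈ Q, CTy W m (q : ℕ)) ∧ ∃ (N : ℕ) (_ : NeZero N), N = NW W * ∏ q ∈ Q, (q : ℕ) ∧
      CongF W N s) :
    ∃ N : ℕ, 0 < N ∧ (∀ q : ℕ, q.Prime → q ∣ N → (q : ℤ) ∣ W.Δ) ∧ Squarefree N ∧
      W.IsModularModelOfLevel N := by
  refine modular_of_fam h (B := B) fun s => ?_
  obtain ⟨m, hm, Q, hQ, hC, N, hN0, hN, hc⟩ := hF (s + 1)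
  exact ⟨m, (Nat.le_succ s).trans hm, Q, hQ, hC, N, hN0, hN, has_of_congF hc⟩

/-! ### pigeonhole -/

/-- the pigeonhole principle in a discrete valuation ring -/
theorem exists_dvd_of_prod {O : Type*} [CommRing O] [IsDomain O] [IsDiscreteValuationRing O]
    {ι G : Type*} [Fintype ι] [Nonempty ι] {x : O} (hx0 : x ≠ 0) (d : ι → G → O) {m s : ℕ}
    (hs : s * Fintype.card ι ≤ m) (h : ∀ g : ι → G, x ^ m ∣ ∏ i, d i (g i)) :
    ∃ i, ∀ g, x ^ s ∣ d i g := by
  by_contra hcon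
  push Not at hcon
  choose g hg using hcon
  have h1 : ∀ i, ∃ y : O, d i (g i) * y = x ^ s ∧ ¬ IsUnit y := by
    intro i
    rcases ValuationRing.dvd_total (x ^ s) (d i (g i)) with h2 | h2
    · exact absurd h2 (hg i)
    · obtain ⟨y, hy⟩ := h2
      refine ⟨y, hy.symm, fun hu => hg i ?_⟩
      obtain ⟨u, rfl⟩ := hu
      exact ⟨((u⁻¹ : Oˣ) : O), by rw [hy, mul_assoc, Units.mul_inv, mul_one]⟩
  choose y hy hyu using h1
  obtain ⟨c, hc⟩ := h g
  obtain ⟨k, rfl⟩ := Nat.exists_eq_add_of_le hs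
  have h2 : (∏ i, d i (g i)) * ∏ i, y i = x ^ (s * Fintype.card ι) := by
    rw [← Finset.prod_mul_distrib]
    simp only [hy]
    rw [Finset.prod_const, Finset.card_univ, ← pow_mul]
  rw [hc, pow_add] at h2
  have h3 : x ^ (s * Fintype.card ι) * ((x ^ k * c) * (∏ i, y i) - 1) = 0 := by
    linear_combination h2
  have h4 := (mul_eq_zero.mp h3).resolve_left (pow_ne_zero _ hx0)
  have h5 : IsUnit (∏ i, y i) := IsUnit.of_mul_eq_one_right _ (sub_eq_zero.mp h4)
  obtain ⟨i⟩ := (inferInstance : Nonempty ι)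
  exact hyu i (isUnit_of_dvd_unit (Finset.dvd_prod_of_mem y (Finset.mem_univ i)) h5)

section Cong

open Fermat.Agent.Z34 (Dat Comp Sel0 CFT)

variable {G : Type} [Group G] {X : Dat G} {O : Type} [CommRing O] [IsDomain O]
  [IsDiscreteValuationRing O] {χ : G → O} {P : Type} [CommRing P] [IsLocalRing P]
  [Algebra O P] [Module.Finite O P] [IsLocalHom (algebraMap O P)] {ι : Type} [Fintype ι]

/-- **The pigeonhole principle** applied to theorem Z34: one of the components is congruent to the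
given one. -/
theorem exists_cong (h20 : (2 : O) ≠ 0) (h2 : (2 : O) ∈ maximalIdeal O) (hχσ : χ X.σ = 1)
    (hχ : ∀ g, χ g - 1 ∈ maximalIdeal O) (ω : O) (hω : ω ^ 2 + ω + 1 ∈ maximalIdeal O)
    (hSel : Sel0 X) {h : ℕ} (hh : 0 < h) (hCFT : CFT X.𝓛 X.ρ0 X.I h)
    (C : ι → Comp X χ O) (hC : ∀ i j, i ≠ j → ∃ x, (C i).val x ≠ (C j).val x)
    (hcard : h * 2 ^ X.Q.card ≤ Fintype.card ι) (C' : Comp X χ P) {m s : ℕ}
    (hP : ∀ x : O, algebraMap O P x = 0 → (2 : O) ^ m ∣ x) (t : G → O)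
    (ht : ∀ g, algebraMap O P (t g) = (C'.ρ g).trace) (hs : s * (h * 2 ^ X.Q.card) ≤ m) :
    ∃ i, ∀ g, (2 : O) ^ s ∣ ((C i).ρ g).trace - t g := by
  classical
  obtain ⟨T, -, hT⟩ := Finset.exists_subset_card_eq
    (s := (Finset.univ : Finset ι)) (n := h * 2 ^ X.Q.card) (by rwa [Finset.card_univ])
  have hcT : Fintype.card T = h * 2 ^ X.Q.card := by rw [Fintype.card_coe, hT]
  haveI : Nonempty T := by
    rw [← Fintype.card_pos_iff, hcT]
    positivity
  obtain ⟨i, hi⟩ := exists_dvd_of_prod (O := O) (ι := T) (G := G) h20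
    (fun i g => ((C i).ρ g).trace - t g) (m := m) (s := s) (by rw [hcT]; exact hs) (fun g => by
      let p : MvPolynomial (G ⊕ X.Q) O :=
        ∏ i : T, (MvPolynomial.X (Sum.inl (g i)) - MvPolynomial.C ((C i).ρ (g i)).trace)
      have h1 := Z34.main (ι := T) (P := P) h2 hχσ hχ ω hω hSel hCFT (fun i : T => C i)
        (fun i j hij => hC i j (fun e => hij (Subtype.ext e))) hcT.ge C' p (fun i => by
          rw [map_prod]
          apply Finset.prod_eq_zero (Finset.mem_univ i)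
          rw [map_sub, MvPolynomial.aeval_X, MvPolynomial.aeval_C]
          exact sub_self _)
      rw [map_prod] at h1
      have h3 : algebraMap O P (∏ i : T, (t (g i) - ((C i).ρ (g i)).trace)) = 0 := by
        rw [← h1, map_prod]
        refine Finset.prod_congr rfl fun i _ => ?_
        rw [map_sub, map_sub, MvPolynomial.aeval_X, MvPolynomial.aeval_C, ht]
        rfl
      have h4 := hP _ h3
      have h5 : ∏ i : T, (((C i).ρ (g i)).trace - t (g i)) =
          (∏ _i : T, (-1 : O)) * ∏ i : T, (t (g i) - ((C i).ρ (g i)).trace) := by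
        rw [← Finset.prod_mul_distrib]
        refine Finset.prod_congr rfl fun i _ => ?_
        ring
      rw [h5]
      exact h4.mul_left _)
  exact ⟨i, hi⟩

end Cong

end Fermat.Agent.H09.Z6
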