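import Mathlib
import Fermat.Agent.H12.GaussRed
import Fermat.Agent.Q.AtkinLehner
import Fermat.Agent.Igusa.Basis
import Fermat.Agent.Igusa.NormQ

set_option autoImplicit false
set_option linter.style.haveILetI false
set_option linter.unusedSectionVars false

/-! The reduction of the Atkin–Lehner automorphisms. -/

noncomputable section

namespace Fermat.Agent.H09

open ModularCurve HahnSeries AlgebraicCurve
open Fermat.Agent.Q (Red Idx gen sw wQ intL redL)
open Fermat.Agent.Igusa (cc TT jd)

local notation "kk" => IsLocalRing.ResidueField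

section WBar

variable {K : Type*} [Field K] {A : ValuationSubring K}

/-- series with integer coefficients are reduced coefficientwise -/
theorem red_cc (t : LaurentSeries ℤ) : Red A (cc K t) (cc (kk A) t) := by
  have h1 : cc K t = coeffMap A.subtype (cc A t) := by
    rw [coeffMap_coeffMap]
    congr 1
  have h2 : coeffMap A.subtype (cc A t) ∈ intL A := ⟨_, rfl⟩
  have h3 := Red.of_intL (⟨_, h2⟩ : intL A)
  rw [Q.redL_coeffMap] at h3
  have h4 : coeffMap (IsLocalRing.residue A) (cc A t) = cc (kk A) t := by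
    rw [coeffMap_coeffMap]
    congr 1
  rw [h1, ← h4]
  exact h3

variable (K) in
theorem cc_mem_full {N : ℕ} [NeZero N] {t : LaurentSeries ℤ} (ht : t ∈ TT N) :
    cc K t ∈ modularFunctionFieldFullC K N := by
  induction ht using Submonoid.closure_induction with
  | mem x hx =>
    obtain ⟨d, hd, hdN, rfl⟩ := hx
    rw [cc, Igusa.coeffMap_jd]
    exact Igusa.jd_mem_full hdN
  | one => rw [map_one]; exact one_mem _
  | mul x y _ _ hx hy => rw [map_mul]; exact mul_mem hx hy

variable [Algebra ℚ K] [Algebra.IsAlgebraic ℚ K]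

variable {M r : ℕ} [NeZero M] [NeZero r]

variable (K) in
/-- the automorphism permutes the monomials -/
theorem exists_swap (hrM : Nat.Coprime r M) {t : LaurentSeries ℤ} (ht : t ∈ TT (M * r)) :
    ∃ t' ∈ TT (M * r), (wQ K hrM ⟨cc K t, cc_mem_full K ht⟩ : LaurentSeries K) = cc K t' := by
  induction ht using Submonoid.closure_induction with
  | mem x hx =>
    obtain ⟨d, hd, hdN, rfl⟩ := hx
    have hmem : jd ℚ d ∈ divisorExpansionsC ℚ (M * r) := ⟨d, hd, hdN, rfl⟩
    rw [mul_comm M r, Nat.dvd_mul] at hdN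
    obtain ⟨y, z, hy, hz, rfl⟩ := hdN
    let i : Idx r M := ⟨(y, z), hy, hz⟩
    refine ⟨jd ℤ ((sw i).1.1 * (sw i).1.2), Submonoid.subset_closure
      ⟨_, inferInstance, ?_, rfl⟩, ?_⟩
    · rw [mul_comm M r]
      exact mul_dvd_mul (sw i).2.1 (sw i).2.2
    · have h1 := congrArg Subtype.val (Q.wQ_gen K hrM i)
      have h2 : (⟨cc K (jd ℤ (y * z)), cc_mem_full K (Submonoid.subset_closure
          ⟨y * z, hd, by rw [mul_comm M r]; exact mul_dvd_mul hy hz, rfl⟩)⟩ :
          modularFunctionFieldFullC K (M * r)) = ⟨gen r M K i, Q.gen_mem K i⟩ :=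
        Subtype.ext (Igusa.coeffMap_jd _ _)
      rw [h2, h1, cc, Igusa.coeffMap_jd]
      rfl
  | one =>
    refine ⟨1, one_mem _, ?_⟩
    have h2 : (⟨cc K 1, cc_mem_full K (one_mem _)⟩ : modularFunctionFieldFullC K (M * r)) = 1 :=
      Subtype.ext (map_one _)
    rw [h2, map_one, map_one]
    rfl
  | mul x y hx hy ihx ihy =>
    obtain ⟨x', hx', ex⟩ := ihx
    obtain ⟨y', hy', ey⟩ := ihy
    refine ⟨x' * y', mul_mem hx' hy', ?_⟩
    have h2 : (⟨cc K (x * y), cc_mem_full K (mul_mem hx hy)⟩ :
        modularFunctionFieldFullC K (M * r)) =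
        ⟨cc K x, cc_mem_full K hx⟩ * ⟨cc K y, cc_mem_full K hy⟩ :=
      Subtype.ext (map_mul _ _ _)
    rw [h2, map_mul, map_mul, ← ex, ← ey]
    rfl

variable [CharZero K]

/-- coordinates in a Gauss basis -/
theorem exists_gauss_coords {ℓ : ℕ} (hℓ : ℓ.Prime) (hA : A.LiesOverPrime ℓ) {N : ℕ} [NeZero N]
    {t : Fin (dedekindPsi N) → LaurentSeries ℤ} (ht : ∀ i, t i ∈ TT N)
    (hli : LinearIndependent (modularFunctionFieldFullC (kk A) 1) (fun i => cc (kk A) (t i)))
    {z : LaurentSeries K} (hz : z ∈ modularFunctionFieldFullC K N) {u : LaurentSeries (kk A)}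
    (hu : Red A z u) :
    ∃ (g : Fin (dedekindPsi N) → LaurentSeries K)
      (v : Fin (dedekindPsi N) → LaurentSeries (kk A)),
      (∀ i, g i ∈ modularFunctionFieldFullC K 1) ∧
      (∀ i, v i ∈ modularFunctionFieldFullC (kk A) 1) ∧ (∀ i, Red A (g i) (v i)) ∧
      z = ∑ i, g i * cc K (t i) ∧ u = ∑ i, v i * cc (kk A) (t i) := by
  have hind : ∀ v : Fin (dedekindPsi N) → LaurentSeries (kk A),
      (∀ i, v i ∈ (modularFunctionFieldFullC (kk A) 1 : Set (LaurentSeries (kk A)))) →
      ∑ i, v i * cc (kk A) (t i) = 0 → ∀ i, v i = 0 := by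
    intro v hv hsum i
    have h1 := Fintype.linearIndependent_iff.mp hli (fun i => ⟨v i, hv i⟩) hsum i
    exact congrArg Subtype.val h1
  have hNK : (N : K) ≠ 0 := by exact_mod_cast NeZero.ne N
  have hliK : LinearIndependent (modularFunctionFieldFullC K 1) (fun i => cc K (t i)) := by
    rw [Fintype.linearIndependent_iff]
    intro c hc i
    have h1 := H12.eq_zero_of_residually_independent (A := A)
      (c := fun i => (c i : LaurentSeries K)) (κ := modularFunctionFieldFullC (kk A) 1)
      (fun i => red_cc (t i)) (fun i hi => Q.exists_red hℓ hA (Q.full_le_FL 1 (c i).2) hi)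
      (fun i d v hv => Q.red_mem_one (mul_mem (by
        rw [← Q.algebraMap_eq_C]
        exact (modularFunctionFieldFullC K 1).algebraMap_mem d) (c i).2) hv) hind hc i
    exact Subtype.ext h1
  obtain ⟨g, hg⟩ := Igusa.exists_coords K N hNK _ (fun i => cc_mem_full K (ht i)) hliK hz
  have hcoord := H12.red_coords (A := A)
      (c := fun i => (g i : LaurentSeries K)) (κ := modularFunctionFieldFullC (kk A) 1)
      (fun i => red_cc (t i)) (fun i hi => Q.exists_red hℓ hA (Q.full_le_FL 1 (g i).2) hi)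
      (fun i d v hv => Q.red_mem_one (mul_mem (by
        rw [← Q.algebraMap_eq_C]
        exact (modularFunctionFieldFullC K 1).algebraMap_mem d) (g i).2) hv) hind hu hg
  choose v hv using hcoord
  refine ⟨fun i => g i, v, fun i => (g i).2, fun i => Q.red_mem_one (g i).2 (hv i), hv, hg, ?_⟩
  refine hu.unique ?_
  rw [hg]
  exact Red.sum _ fun i _ => (hv i).mul (red_cc (t i))

/-- the image of an element with Gauss coordinates -/
theorem red_w_of_coords (hrM : Nat.Coprime r M) {n : ℕ} {t t' : Fin n → LaurentSeries ℤ}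
    (ht : ∀ i, t i ∈ TT (M * r))
    (hw : ∀ i, (wQ K hrM ⟨cc K (t i), cc_mem_full K (ht i)⟩ : LaurentSeries K) = cc K (t' i))
    {g : Fin n → LaurentSeries K} {v : Fin n → LaurentSeries (kk A)}
    (hg : ∀ i, g i ∈ modularFunctionFieldFullC K 1) (hgv : ∀ i, Red A (g i) (v i))
    {z : modularFunctionFieldFullC K (M * r)} (hz : (z : LaurentSeries K) =
      ∑ i, g i * cc K (t i)) :
    Red A (wQ K hrM z : LaurentSeries K) (∑ i, qExpand (kk A) r (v i) * cc (kk A) (t' i)) := by
  have hgM : ∀ i, g i ∈ modularFunctionFieldFullC K M := fun i =>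
    full_degeneracyC_le K (one_dvd M) (hg i)
  have e : z = ∑ i, (⟨g i, Q.mem_of_mem K (g i) (hgM i)⟩ : modularFunctionFieldFullC K (M * r)) *
      ⟨cc K (t i), cc_mem_full K (ht i)⟩ := by
    apply Subtype.ext
    rw [hz]
    push_cast
    rfl
  have e2 : (wQ K hrM z : LaurentSeries K) = ∑ i, qExpand K r (g i) * cc K (t' i) := by
    rw [e, map_sum]
    push_cast
    refine Finset.sum_congr rfl fun i _ => ?_
    rw [map_mul]
    push_cast
    rw [Q.coe_wQ_of_mem K hrM (g i) (hgM i), hw]
  rw [e2]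
  exact Red.sum _ fun i _ => ((hgv i).qExpand r).mul (red_cc (t' i))

theorem exists_red_w_aux {ℓ : ℕ} (hℓ : ℓ.Prime) (hA : A.LiesOverPrime ℓ)
    (hrM : Nat.Coprime r M) (hk : ((M * r : ℕ) : kk A) ≠ 0) :
    (∀ z : modularFunctionFieldFullC K (M * r), Red A (z : LaurentSeries K) 0 →
      Red A (wQ K hrM z : LaurentSeries K) 0) ∧
    (∀ (z : modularFunctionFieldFullC K (M * r)) (u : LaurentSeries (kk A)),
      Red A (z : LaurentSeries K) u → ∃ u' ∈ modularFunctionFieldFullC (kk A) (M * r),
      Red A (wQ K hrM z : LaurentSeries K) u') := by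
  obtain ⟨t, ht, hli⟩ := Igusa.exists_basis (kk A) (M * r) hk
  choose t' ht' hw using fun i => exists_swap K hrM (ht i)
  constructor
  · intro z hz
    obtain ⟨g, v, hg, hv, hgv, ez, eu⟩ := exists_gauss_coords hℓ hA ht hli z.2 hz
    have h1 := red_w_of_coords hrM ht hw hg hgv ez
    have h2 : ∀ i, v i = 0 := by
      intro i
      have h3 := Fintype.linearIndependent_iff.mp hli (fun i => ⟨v i, hv i⟩) eu.symm i
      exact congrArg Subtype.val h3
    have h4 : ∑ i, qExpand (kk A) r (v i) * cc (kk A) (t' i) = 0 := by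
      refine Finset.sum_eq_zero fun i _ => ?_
      rw [h2, map_zero, zero_mul]
    rwa [h4] at h1
  · intro z u hz
    obtain ⟨g, v, hg, hv, hgv, ez, eu⟩ := exists_gauss_coords hℓ hA ht hli z.2 hz
    refine ⟨_, ?_, red_w_of_coords hrM ht hw hg hgv ez⟩
    refine sum_mem fun i _ => mul_mem ?_ (cc_mem_full (kk A) (ht' i))
    exact full_degeneracyC_map_le (kk A) M r ⟨v i, full_degeneracyC_le (kk A) (one_dvd M) (hv i),
      rfl⟩

/-- **The reduction of `w_r`.** -/
theorem exists_wBar_fun {ℓ : ℕ} (hℓ : ℓ.Prime) (hA : A.LiesOverPrime ℓ)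
    (hrM : Nat.Coprime r M) (hk : ((M * r : ℕ) : kk A) ≠ 0) :
    ∃ wb : modularFunctionFieldFullC (kk A) (M * r) → modularFunctionFieldFullC (kk A) (M * r),
      ∀ (z : modularFunctionFieldFullC K (M * r)) (u : modularFunctionFieldFullC (kk A) (M * r)),
        Red A (z : LaurentSeries K) u → Red A (wQ K hrM z : LaurentSeries K) (wb u) := by
  obtain ⟨h0, h1⟩ := exists_red_w_aux (K := K) hℓ hA hrM hk
  have hlift : ∀ u : modularFunctionFieldFullC (kk A) (M * r),
      ∃ z : modularFunctionFieldFullC K (M * r), Red A (z : LaurentSeries K) u := by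
    intro u
    obtain ⟨z, hz, hzu⟩ := Q.exists_lift (K := K) (M * r) u.2
    exact ⟨⟨z, hz⟩, hzu⟩
  choose L hL using hlift
  choose w' hw'm hw' using fun u : modularFunctionFieldFullC (kk A) (M * r) => h1 (L u) u (hL u)
  refine ⟨fun u => ⟨w' u, hw'm u⟩, fun z u hz => ?_⟩
  have h2 : Red A ((z - L u : modularFunctionFieldFullC K (M * r)) : LaurentSeries K) 0 := by
    have h3 := hz.sub (hL u)
    rwa [sub_self] at h3
  have h4 := (hw' u).add (h0 _ h2)
  rw [add_zero] at h4
  have h5 : (wQ K hrM z : LaurentSeries K) = (wQ K hrM (L u) : LaurentSeries K) +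
      (wQ K hrM (z - L u) : LaurentSeries K) := by
    rw [map_sub]
    push_cast
    ring
  rw [h5]
  exact h4

theorem exists_lift' (N : ℕ) (u : modularFunctionFieldFullC (kk A) N) :
    ∃ z : modularFunctionFieldFullC K N, Red A (z : LaurentSeries K) u := by
  obtain ⟨z, hz, hzu⟩ := Q.exists_lift (K := K) N u.2
  exact ⟨⟨z, hz⟩, hzu⟩

theorem exists_wBar {ℓ : ℕ} (hℓ : ℓ.Prime) (hA : A.LiesOverPrime ℓ)
    (hrM : Nat.Coprime r M) (hk : ((M * r : ℕ) : kk A) ≠ 0) :
    ∃ wb : modularFunctionFieldFullC (kk A) (M * r) ≃ₐ[kk A]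
        modularFunctionFieldFullC (kk A) (M * r),
      (∀ (z : modularFunctionFieldFullC K (M * r)) (u : modularFunctionFieldFullC (kk A) (M * r)),
        Red A (z : LaurentSeries K) u → Red A (wQ K hrM z : LaurentSeries K) (wb u)) ∧
      (∀ u, wb (wb u) = u) ∧
      (∀ (x : LaurentSeries (kk A)) (_ : x ∈ modularFunctionFieldFullC (kk A) M)
        (hx' : x ∈ modularFunctionFieldFullC (kk A) (M * r)),
        (wb ⟨x, hx'⟩ : LaurentSeries (kk A)) = qExpand (kk A) r x) ∧
      (∀ (x : LaurentSeries (kk A)) (_ : x ∈ modularFunctionFieldFullC (kk A) M)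
        (hx' : qExpand (kk A) r x ∈ modularFunctionFieldFullC (kk A) (M * r)),
        (wb ⟨qExpand (kk A) r x, hx'⟩ : LaurentSeries (kk A)) = x) := by
  obtain ⟨w, hw⟩ := exists_wBar_fun (K := K) hℓ hA hrM hk
  have huniq : ∀ (z : modularFunctionFieldFullC K (M * r))
      (u v : modularFunctionFieldFullC (kk A) (M * r)), Red A (z : LaurentSeries K) u →
      Red A (wQ K hrM z : LaurentSeries K) v → w u = v := fun z u v hu hv =>
    Subtype.ext ((hw z u hu).unique hv)
  have hinv : ∀ u, w (w u) = u := by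
    intro u
    obtain ⟨z, hz⟩ := exists_lift' (K := K) (M * r) u
    refine huniq (wQ K hrM z) (w u) u (hw z u hz) ?_
    rw [Q.wQ_wQ]
    exact hz
  let wa : modularFunctionFieldFullC (kk A) (M * r) →ₐ[kk A]
      modularFunctionFieldFullC (kk A) (M * r) :=
    { toFun := w
      map_one' := by
        refine huniq 1 1 1 Red.one ?_
        rw [map_one]
        exact Red.one
      map_zero' := by
        refine huniq 0 0 0 Red.zero ?_
        rw [map_zero]
        exact Red.zero
      map_mul' := fun u v => by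
        obtain ⟨z, hz⟩ := exists_lift' (K := K) (M * r) u
        obtain ⟨z', hz'⟩ := exists_lift' (K := K) (M * r) v
        refine huniq (z * z') (u * v) (w u * w v) (hz.mul hz') ?_
        rw [map_mul]
        exact (hw z u hz).mul (hw z' v hz')
      map_add' := fun u v => by
        obtain ⟨z, hz⟩ := exists_lift' (K := K) (M * r) u
        obtain ⟨z', hz'⟩ := exists_lift' (K := K) (M * r) v
        refine huniq (z + z') (u + v) (w u + w v) (hz.add hz') ?_
        rw [map_add]
        exact (hw z u hz).add (hw z' v hz')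
      commutes' := fun c => by
        obtain ⟨a, rfl⟩ := IsLocalRing.residue_surjective c
        have h1 : Red A ((algebraMap K (modularFunctionFieldFullC K (M * r)) (a : K) :
            modularFunctionFieldFullC K (M * r)) : LaurentSeries K)
            ((algebraMap (kk A) (modularFunctionFieldFullC (kk A) (M * r))
              (IsLocalRing.residue A a) : modularFunctionFieldFullC (kk A) (M * r)) :
              LaurentSeries (kk A)) := by
          have h2 := Red.C (A := A) a.2
          rw [← Q.algebraMap_eq_C, ← Q.algebraMap_eq_C] at h2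
          exact h2
        refine huniq _ _ _ h1 ?_
        rw [AlgEquiv.commutes]
        exact h1 }
  refine ⟨AlgEquiv.ofAlgHom wa wa (AlgHom.ext hinv) (AlgHom.ext hinv), hw, hinv, ?_, ?_⟩
  · intro x hx hx'
    obtain ⟨z, hz⟩ := exists_lift' (K := K) M ⟨x, hx⟩
    have h1 := hw ⟨z, Q.mem_of_mem K _ z.2⟩ ⟨x, hx'⟩ hz
    rw [Q.coe_wQ_of_mem K hrM _ z.2] at h1
    exact h1.unique (hz.qExpand r)
  · intro x hx hx'
    obtain ⟨z, hz⟩ := exists_lift' (K := K) M ⟨x, hx⟩
    have h1 := hw ⟨_, Q.qExpand_mem K _ z.2⟩ ⟨_, hx'⟩ (hz.qExpand r)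
    rw [Q.coe_wQ_qExpand K hrM _ z.2] at h1
    exact h1.unique hz

end WBar

end Fermat.Agent.H09
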