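import Fermat.Agent.H09.M2F
import Fermat.Agent.H22.M2B
import Fermat.Agent.H27.M2f
import Fermat.Agent.H18O.LiftU

/-!
# Mazur's principle at `2` for `p = 3`
-/

set_option autoImplicit false
set_option linter.style.haveILetI false
set_option linter.unusedSectionVars false
set_option maxSynthPendingDepth 3

noncomputable section

attribute [-instance] HahnSeries.instModule HahnSeries.instSMul HahnSeries.instDistribMulAction
  HahnSeries.instSMulZeroClass

attribute [local instance 10000] Fermat.Agent.H29.instLS Fermat.Agent.H29.instIF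
  Fermat.Agent.H29.instIF2

namespace Fermat.Agent.H09.M2

open ModularCurve HahnSeries Fermat.Agent.Igusa AlgebraicCurve Fermat.Agent.FF Fermat.Agent.H11Q
  Fermat.Agent.Q Module IntermediateField Fermat.Agent.H11N Fermat.Agent.NN

local notation "kk" => IsLocalRing.ResidueField
local notation "Qb" => AlgebraicClosure ℚ

attribute [local instance] H12.isAlgClosed_kk

variable {M : ℕ} [NeZero M] {A : ValuationSubring Qb} {m : ℕ}

/-- the divisibility of the orders, with constant `1`, in the presence of an auxiliary prime -/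
theorem ordTwo_one (hrM : Nat.Coprime 2 M) (h3 : 3 ∣ M) {s : ℕ} (hs : s.Prime) (hs3 : s % 3 = 2)
    (hsM : s ∣ M) (hA : A.LiesOverPrime 2) (hm : 0 < m) : OrdTwo A M hrM m 1 := by
  intro x f hf hI φ n hval j v
  rw [Nat.cast_one, one_mul]
  by_cases h9 : 9 ∣ M
  · obtain ⟨T, hT⟩ := N9.node_two hrM h9 hA
    have key := hT hm (f := f) hf.ne_zero (ratS_of_ifix hrM hA hI) hf.dvd (n := fun _ => n)
      (φ := φ) hval v
    simp only [sub_self, zero_mul, sub_zero, add_zero] at key
    rcases fin2_cases j with rfl | rfl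
    · exact key.1
    · exact key.2
  · have hrM' : Nat.Coprime 2 (M * 3) := Nat.Coprime.mul_right hrM (by norm_num)
    have hMk : ((M * 3 : ℕ) : kk A) ≠ 0 := Q.natCast_residue_ne_zero Nat.prime_two hA hrM'
    have hMk' : (M : kk A) ≠ 0 := Q.natCast_residue_ne_zero Nat.prime_two hA hrM
    have hk3 : (3 : kk A) ≠ 0 := by
      have h1 : ((3 : ℕ) : kk A) ≠ 0 :=
        Q.natCast_residue_ne_zero Nat.prime_two hA (by norm_num)
      exact_mod_cast h1
    haveI : SepFF (kk A) (modularFunctionFieldFullC (kk A) M) := sepFF_full hMk'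
    by_cases hv : 0 < v.ord (H22.M2.f3M (kk A) M h3 hk3)
    · obtain ⟨w, hw⟩ := H22.M2.exists_unram_beta Nat.prime_two hA h3 h9 hMk hk3
        (fun v => SepFF.deg_eq_one v) v hv
      rw [← hw]
      exact dvd_ord_up_beta hrM h3 hA hm hf hI hval j w
    · obtain ⟨w, hw⟩ := H22.M2.exists_unram_alpha h3 h9 hMk hk3 v (SepFF.deg_eq_one v)
        (not_lt.1 hv) (fun hj => N9.three_dvd_ord_jbar hs hs3 hsM h3 hrM hA v hj)
      rw [← hw]
      exact dvd_ord_up hrM h3 hA hm hf hI hval j w

/-- **Mazur's principle at `2`, `p = 3`.** -/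
theorem mz2_three {W : WeierstrassCurve ℤ} [hp : Fact (Nat.Prime 3)] (hΔ : W.Δ ≠ 0)
    (hirr : W.ModRepIsIrreducible 3) : H18O.Mz2 W 3 :=
  mz2_of hΔ hirr (by norm_num) (c := 1) (by norm_num)
    fun M _ hM h3 haux A hA => by
      obtain ⟨s, hs, hs3, hsM⟩ := haux rfl
      exact n2core_of_ordTwo hM h3 hA (by norm_num) (ordTwo_one hM h3 hs hs3 hsM hA (by norm_num))

theorem mz2All_three : H18O.Mz2All 3 := by
  haveI : Fact (Nat.Prime 3) := ⟨Nat.prime_three⟩
  intro W hΔ hss hirr
  exact mz2_three hΔ hirr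

theorem mz2All_five : H18O.Mz2All 5 := by
  haveI : Fact (Nat.Prime 5) := ⟨Nat.prime_five⟩
  intro W hΔ hss hirr
  exact mz2_five hΔ hirr (by norm_num) (by norm_num)

end Fermat.Agent.H09.M2
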