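import Mathlib
import Fermat.Agent.H28.KernelAbs
import Fermat.Agent.WP.Proj
import Fermat.Prelude.Def_AlgebraicCurve_Correspondence

set_option autoImplicit false
set_option linter.style.haveILetI false
set_option linter.unusedSectionVars false

/-! Reduction of the pull back of a difference of two places with the same reduction. -/

noncomputable section

namespace Fermat.Agent.H09

open AlgebraicCurve IsDedekindDomain IsLocalRing Polynomial Fermat.Agent.H28 Fermat.Agent.FF

section IntNorm

variable {L : Type*} [Field L] {A : ValuationSubring L} {E F : Type*} [Field E] [Field F]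
  [Algebra L E] [Algebra L F] [Algebra E F] [IsScalarTower L E F]

theorem evA_algebraMap (t : E) (p : A[X]) :
    evA A (algebraMap E F t) p = algebraMap E F (evA A t p) := by
  rw [evA_apply, evA_apply, Polynomial.hom_eval₂]
  congr 1
  ext a
  exact IsScalarTower.algebraMap_apply L E F a

theorem intOver_algebraMap {t h : E} (hh : IntOver A t h) :
    IntOver A (algebraMap E F t) (algebraMap E F h) := by
  obtain ⟨p, hp, hpx⟩ := hh
  refine ⟨p, hp, ?_⟩
  have h1 : evA A (algebraMap E F t) = (algebraMap E F).comp (evA A t) :=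
    RingHom.ext fun p => evA_algebraMap t p
  rw [h1, ← Polynomial.hom_eval₂, hpx, map_zero]

theorem intOver_norm [FiniteDimensional E F] {t : E} {x : F}
    (hx : IntOver A (algebraMap E F t) x) : IntOver A t (Algebra.norm E x) := by
  letI i1 : Algebra A[X] E := (evA A t).toAlgebra
  letI i2 : Algebra A[X] F := (evA A (algebraMap E F t)).toAlgebra
  haveI : IsScalarTower A[X] E F := IsScalarTower.of_algebraMap_eq fun p => evA_algebraMap t p
  have h1 : IsIntegral A[X] x := hx
  have h2 : IsIntegral A[X] (Algebra.norm E x) := Algebra.isIntegral_norm E h1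
  exact h2

end IntNorm

section Val

variable {L : Type*} [Field L] [IsAlgClosed L] [CharZero L] {F : Type*} [Field F] [Algebra L F]
  [FunField L F]

theorem hasVal_val {w : Place L F} {f : F} (hf : f ∈ w.toValuationSubring) :
    HasVal w f (val w f) := by
  have h1 := val_spec ((mem_iff_val_le_one w f).mp hf)
  by_cases h0 : f - algebraMap L F (val w f) = 0
  · exact Or.inl h0
  · right
    rw [w.adicValuation_eq_exp_neg_ord h0, ← WithZero.exp_zero, WithZero.exp_lt_exp] at h1
    omega

end Val

/-- a power map determines its exponent on an infinite field -/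
theorem pow_eq_all {k : Type*} [Field k] [Infinite k] {m n : ℕ}
    (h : ∀ c : k, c ≠ 0 → c ^ m = c ^ n) : m = n := by
  by_contra hne
  have h1 : (X : k[X]) ^ m - X ^ n ≠ 0 := by
    intro h0
    have h2 := congrArg (fun p => p.coeff m) h0
    rw [coeff_sub, coeff_X_pow, coeff_X_pow, if_pos rfl, if_neg hne, sub_zero] at h2
    exact one_ne_zero h2
  have h3 : ((X : k[X]) * (X ^ m - X ^ n)) ≠ 0 := mul_ne_zero X_ne_zero h1
  apply h3
  apply Polynomial.funext
  intro c
  by_cases hc : c = 0
  · simp [hc]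
  · simp [h c hc]

section Main

variable {L : Type*} [Field L] [IsAlgClosed L] [CharZero L] {A : ValuationSubring L}
  {E F Fb : Type*} [Field E] [Field F] [Field Fb] [Algebra L E] [Algebra L F] [Algebra E F]
  [IsScalarTower L E F] [FiniteDimensional E F] [FunField L E] [FunField L F]
  [Algebra (ResidueField A) Fb] {D : RedData A F Fb} (C : TwoCharts D)

theorem theta₂_pullback_single (x : Place L E) (v : C.V₂) :
    C.h₂.sys.theta L F v (Divisor.pullback F (Finsupp.single x 1)) =
      ∑ w ∈ x.fiber F, (w.ramificationIndex E : ℤ) *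
        C.h₂.sys.mu v (ctr (CR L (C.t₂ : F)) w) := by
  rw [Divisor.pullback_single, map_sum]
  refine Finset.sum_congr rfl fun w _ => ?_
  rw [RedSys.theta_single, one_mul]

theorem theta₁_pullback_single (x : Place L E) (v : C.V₁) :
    C.h₁.sys.theta L F v (Divisor.pullback F (Finsupp.single x 1)) =
      ∑ w ∈ x.fiber F, (w.ramificationIndex E : ℤ) *
        C.h₁.sys.mu v (ctr (CR L (C.t₁ : F)) w) := by
  rw [Divisor.pullback_single, map_sum]
  refine Finset.sum_congr rfl fun w _ => ?_
  rw [RedSys.theta_single, one_mul]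

section Fib

variable {C} {t : E} (ht : algebraMap E F t = (C.t₂ : F)) {x : Place L E}
  (hx : t ∈ x.toValuationSubring)

include ht hx

theorem t₂_mem_of_fiber {w : Place L F} (hw : w ∈ x.fiber F) :
    (C.t₂ : F) ∈ w.toValuationSubring := by
  rw [Place.mem_fiber] at hw
  rw [← ht, ← Place.mem_restrict_iff, hw]
  exact hx

theorem val_t₂_of_fiber {w : Place L F} (hw : w ∈ x.fiber F) :
    val w (C.t₂ : F) = val x t := by
  rw [Place.mem_fiber] at hw
  have h1 : (w.restrict E).adicValuation t ≤ 1 := by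
    rw [← mem_iff_val_le_one, hw]; exact hx
  rw [← ht, WP.val_restrict w h1, hw]

theorem good_of_fiber (hxA : val x t ∈ A) {w : Place L F} (hw : w ∈ x.fiber F) :
    InChart (CR L (C.t₂ : F)) w ∧ C.h₂.sys.Good (ctr (CR L (C.t₂ : F)) w) := by
  have hm := t₂_mem_of_fiber ht hx hw
  have hch : InChart (CR L (C.t₂ : F)) w := (inChart_iff w).mpr hm
  refine ⟨hch, ?_⟩
  rw [C.h₂.good_iff (isRat_ctr C.rat₂ hch)
    ((sub_mem_ctr_iff hch (tO L (C.t₂ : F)) (val w (C.t₂ : F))).mpr (hasVal_val hm)),
    val_t₂_of_fiber ht hx hw]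
  exact hxA

theorem mu₁_eq_zero_of_fiber (hxm : A.valuation (val x t) < 1) {w : Place L F}
    (hw : w ∈ x.fiber F) (v : C.V₁) : C.h₁.sys.mu v (ctr (CR L (C.t₁ : F)) w) = 0 := by
  by_cases hch : InChart (CR L (C.t₁ : F)) w
  · have hm1 := (inChart_iff w).mp hch
    have hm2 := t₂_mem_of_fiber ht hx hw
    have hv2 := val_t₂_of_fiber ht hx hw
    have h1 : val w (C.t₁ : F) * val w (C.t₂ : F) = 1 := by
      rw [← val_mul ((mem_iff_val_le_one w _).mp hm1) ((mem_iff_val_le_one w _).mp hm2), C.mul_eq,
        val_one]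
    have hng : ¬ C.h₁.sys.Good (ctr (CR L (C.t₁ : F)) w) := by
      rw [C.h₁.good_iff (isRat_ctr C.rat₁ hch)
        ((sub_mem_ctr_iff hch (tO L (C.t₁ : F)) (val w (C.t₁ : F))).mpr (hasVal_val hm1))]
      intro hA
      rw [hv2] at h1
      have h2 := congrArg A.valuation h1
      rw [map_mul, map_one] at h2
      have h3 : A.valuation (val w (C.t₁ : F)) ≤ 1 := (A.valuation_le_one_iff _).mpr hA
      have h4 : A.valuation (val w (C.t₁ : F)) * A.valuation (val x t) < 1 :=
        mul_lt_one_of_nonneg_of_lt_one_right h3 zero_le hxm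
      rw [h2] at h4
      exact lt_irrefl _ h4
    rw [RedSys.mu, C.h₁.sys.bar_eq_top_of_not_good hng, mlt_top]
  · rw [ctr_of_not hch, RedSys.mu_top]

/-- the value of a norm -/
theorem exists_val_norm (hxA : val x t ∈ A) (a : C.h₂.sys.R)
    (g : Place L F → ResidueField A)
    (hg : ∀ w ∈ x.fiber F, C.h₂.sys.ρ a - algebraMap _ _ (g w) ∈
      C.h₂.sys.bar (ctr (CR L (C.t₂ : F)) w)) :
    ∃ c : A, (c : L) = val x (Algebra.norm E (((a : CR L (C.t₂ : F)) : F))) ∧
      residue A c = ∏ w ∈ x.fiber F, g w ^ w.ramificationIndex E := by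
  classical
  have hreg : ∀ w : Place L F, w.restrict E = x →
      w.adicValuation (((a : CR L (C.t₂ : F)) : F)) ≤ 1 := by
    intro w hw
    rw [← mem_iff_val_le_one]
    exact (good_of_fiber ht hx hxA (Place.mem_fiber.mpr hw)).1 _
  have hval := (WP.norm_regular_and_val x _ hreg).2
  -- values in `A`
  have hex : ∀ w : Place L F, ∃ c : A, w ∈ x.fiber F →
      ((c : L) = val w (((a : CR L (C.t₂ : F)) : F)) ∧ residue A c = g w) := by
    intro w
    by_cases hw : w ∈ x.fiber F
    · obtain ⟨hch, hgood⟩ := good_of_fiber ht hx hxA hw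
      have h1 := (sub_mem_ctr_iff hch (a : CR L (C.t₂ : F)) _).mpr
        (hasVal_val ((mem_iff_val_le_one w _).mpr (hreg w (Place.mem_fiber.mp hw))))
      have hA := hgood a a.2 _ h1
      refine ⟨⟨_, hA⟩, fun _ => ⟨rfl, ?_⟩⟩
      have h2 : C.h₂.sys.ρ (a - C.h₂.sys.incl ⟨_, hA⟩) ∈
          C.h₂.sys.bar (ctr (CR L (C.t₂ : F)) w) := C.h₂.sys.ρ_mem_bar h1
      rw [map_sub, C.h₂.sys.ρ_incl] at h2
      exact (C.h₂.sys.isRat_bar (isRat_ctr C.rat₂ hch) hgood).eq_of_sub_mem h2 (hg w hw)
    · exact ⟨0, fun h => absurd h hw⟩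
  choose c hc using hex
  refine ⟨∏ w ∈ x.fiber F, c w ^ w.ramificationIndex E, ?_, ?_⟩
  · rw [hval]
    have h1 : ((∏ w ∈ x.fiber F, c w ^ w.ramificationIndex E : A) : L) =
        ∏ w ∈ x.fiber F, (c w : L) ^ w.ramificationIndex E := by
      change A.subtype _ = _
      rw [map_prod]
      rfl
    rw [h1]
    exact Finset.prod_congr rfl fun w hw => by rw [(hc w hw).1]
  · rw [map_prod]
    exact Finset.prod_congr rfl fun w hw => by rw [map_pow, (hc w hw).2]

end Fib

theorem mlt_isMaximal {O : Type*} [CommRing O] [IsDedekindDomain O] (v : HeightOneSpectrum O)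
    {Q : Ideal O} (hQ : Q.IsMaximal) (hQ0 : Q ≠ ⊥) [Decidable (Q = v.asIdeal)] :
    mlt v Q = if Q = v.asIdeal then 1 else 0 := by
  split_ifs with h
  · rw [h, mlt_self]
  · let w : HeightOneSpectrum O := ⟨Q, hQ.isPrime, hQ0⟩
    have : w ≠ v := fun h1 => h (congrArg HeightOneSpectrum.asIdeal h1)
    exact mlt_eq_zero_of_ne this

open Classical in
theorem theta₂_pullback_single' {t : E} (ht : algebraMap E F t = (C.t₂ : F)) {x : Place L E}
    (hx : t ∈ x.toValuationSubring) (hxA : val x t ∈ A) (v : C.V₂) :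
    C.h₂.sys.theta L F v (Divisor.pullback F (Finsupp.single x 1)) =
      ((∑ w ∈ x.fiber F, if C.h₂.sys.bar (ctr (CR L (C.t₂ : F)) w) = v.asIdeal then
        w.ramificationIndex E else 0 : ℕ) : ℤ) := by
  rw [theta₂_pullback_single, Nat.cast_sum]
  refine Finset.sum_congr rfl fun w hw => ?_
  obtain ⟨hch, hgood⟩ := good_of_fiber ht hx hxA hw
  rw [RedSys.mu, mlt_isMaximal v (C.h₂.sys.isRat_bar (isRat_ctr C.rat₂ hch) hgood).isMaximal
    (C.h₂.sys.bar_ne_bot (ctr_ne_bot w))]
  split_ifs <;> simp

theorem theta₂_pullback_eq [Infinite (ResidueField A)] {t : E}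
    (ht : algebraMap E F t = (C.t₂ : F)) {x y : Place L E}
    (hx : t ∈ x.toValuationSubring) (hxA : val x t ∈ A)
    (hy : t ∈ y.toValuationSubring) (hyA : val y t ∈ A)
    (hxy : ∀ h : E, IntOver A t h → A.valuation (val x h - val y h) < 1) (v : C.V₂) :
    C.h₂.sys.theta L F v (Divisor.pullback F (Finsupp.single x 1)) =
      C.h₂.sys.theta L F v (Divisor.pullback F (Finsupp.single y 1)) := by
  classical
  rw [theta₂_pullback_single' C ht hx hxA, theta₂_pullback_single' C ht hy hyA]
  congr 1
  set S := C.h₂.sys with hS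
  set Q : Place L F → Ideal (CR (ResidueField A) (D.ρ C.t₂)) :=
    fun w => S.bar (ctr (CR L (C.t₂ : F)) w) with hQdef
  have hrat : ∀ w ∈ x.fiber F ∪ y.fiber F, IsRat (ResidueField A) (Q w) := by
    intro w hw
    rcases Finset.mem_union.mp hw with hw | hw
    · obtain ⟨hch, hgood⟩ := good_of_fiber ht hx hxA hw
      exact S.isRat_bar (isRat_ctr C.rat₂ hch) hgood
    · obtain ⟨hch, hgood⟩ := good_of_fiber ht hy hyA hw
      exact S.isRat_bar (isRat_ctr C.rat₂ hch) hgood
  -- chinese remainder theorem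
  set W := (x.fiber F ∪ y.fiber F).filter (fun w => Q w ≠ v.asIdeal) with hW
  have hcop : IsCoprime v.asIdeal (∏ w ∈ W, Q w) := by
    apply IsCoprime.prod_right
    intro w hw
    rw [hW, Finset.mem_filter] at hw
    haveI := (hrat w hw.1).isMaximal
    haveI := v.isMaximal
    exact Ideal.isCoprime_of_isMaximal (Ne.symm hw.2)
  obtain ⟨a', ha', b', hb', hab⟩ := Ideal.isCoprime_iff_exists.mp hcop
  have hb'Q : ∀ w ∈ W, b' ∈ Q w := by
    intro w hw
    exact (Ideal.prod_le_inf.trans (Finset.inf_le hw)) hb'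
  apply pow_eq_all (k := ResidueField A)
  intro c _
  obtain ⟨a, ha⟩ := S.surj (algebraMap _ _ c * b' + a')
  set g : Place L F → ResidueField A := fun w => if Q w = v.asIdeal then c else 1 with hg
  have hgQ : ∀ w ∈ x.fiber F ∪ y.fiber F, S.ρ a - algebraMap _ _ (g w) ∈ Q w := by
    intro w hw
    rw [ha, hg]
    by_cases h : Q w = v.asIdeal
    · simp only [if_pos h]
      rw [h]
      have h1 : algebraMap (ResidueField A) (CR (ResidueField A) (D.ρ C.t₂)) c * b' + a' -
          algebraMap _ _ c = (1 - algebraMap _ _ c) * a' := by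
        linear_combination
          (algebraMap (ResidueField A) (CR (ResidueField A) (D.ρ C.t₂)) c) * hab
      rw [h1]
      exact Ideal.mul_mem_left _ _ ha'
    · simp only [if_neg h, map_one]
      have h1 : algebraMap (ResidueField A) (CR (ResidueField A) (D.ρ C.t₂)) c * b' + a' -
          1 = (algebraMap _ _ c - 1) * b' := by
        linear_combination hab
      rw [h1]
      exact Ideal.mul_mem_left _ _ (hb'Q w (Finset.mem_filter.mpr ⟨hw, h⟩))
  obtain ⟨cx, hcx1, hcx2⟩ := exists_val_norm ht hx hxA a g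
    fun w hw => hgQ w (Finset.mem_union_left _ hw)
  obtain ⟨cy, hcy1, hcy2⟩ := exists_val_norm ht hy hyA a g
    fun w hw => hgQ w (Finset.mem_union_right _ hw)
  have hint : IntOver A t (Algebra.norm E (((a : CR L (C.t₂ : F)) : F))) := by
    apply intOver_norm
    rw [ht]
    exact a.2
  have h1 := hxy _ hint
  rw [← hcx1, ← hcy1] at h1
  have h2 : residue A cx = residue A cy := by
    rw [← sub_eq_zero, ← map_sub, residue_eq_zero_iff, mem_maximalIdeal, mem_nonunits_iff,
      A.valuation_eq_one_iff]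
    exact h1.ne
  rw [hcx2, hcy2] at h2
  have h3 : ∀ s : Finset (Place L F), ∏ w ∈ s, g w ^ w.ramificationIndex E =
      c ^ ∑ w ∈ s, if Q w = v.asIdeal then w.ramificationIndex E else 0 := by
    intro s
    rw [← Finset.prod_pow_eq_pow_sum]
    refine Finset.prod_congr rfl fun w _ => ?_
    rw [hg]
    by_cases h : Q w = v.asIdeal
    · simp only [if_pos h]
    · simp only [if_neg h, one_pow, pow_zero]
  rw [h3, h3] at h2
  exact h2

/-- **Two places with the same reduction.** -/
theorem redTo_pullback_sub [Infinite (ResidueField A)] {t : E}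
    (ht : algebraMap E F t = (C.t₂ : F)) {x y : Place L E}
    (hx : t ∈ x.toValuationSubring) (hxA : A.valuation (val x t) < 1)
    (hy : t ∈ y.toValuationSubring) (hyA : A.valuation (val y t) < 1)
    (hxy : ∀ h : E, IntOver A t h → A.valuation (val x h - val y h) < 1) :
    C.RedTo (Divisor.pullback F (Finsupp.single x 1) -
      Divisor.pullback F (Finsupp.single y 1)) 1 := by
  constructor
  · intro v
    rw [map_sub, theta₁_pullback_single, theta₁_pullback_single, Finset.sum_eq_zero,
      Finset.sum_eq_zero, ordv_one, sub_zero]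
    · intro w hw
      rw [mu₁_eq_zero_of_fiber ht hy hyA hw, Nat.cast_zero, mul_zero]
    · intro w hw
      rw [mu₁_eq_zero_of_fiber ht hx hxA hw, Nat.cast_zero, mul_zero]
  · intro v _
    rw [map_sub, theta₂_pullback_eq C ht hx ((A.valuation_le_one_iff _).mp hxA.le) hy
      ((A.valuation_le_one_iff _).mp hyA.le) hxy v, sub_self, ordv_one]

end Main

/-- two places in the residue disc `t = 0` with the same reduction modulo `A` -/
structure SameRed {L E : Type*} [Field L] [IsAlgClosed L] [CharZero L] [Field E] [Algebra L E]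
    [FunField L E] (A : ValuationSubring L) (t : E) (x y : Place L E) : Prop where
  memx : t ∈ x.toValuationSubring
  memy : t ∈ y.toValuationSubring
  valx : A.valuation (val x t) < 1
  valy : A.valuation (val y t) < 1
  cong : ∀ h : E, IntOver A t h → A.valuation (val x h - val y h) < 1

section Along

variable {L : Type*} [Field L] [IsAlgClosed L] [CharZero L] {A : ValuationSubring L}
  {E F Fb : Type*} [Field E] [Field F] [Field Fb] [Algebra L E] [Algebra L F]
  [FunField L E] [FunField L F]
  [Algebra (ResidueField A) Fb] {D : RedData A F Fb} (C : TwoCharts D)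

theorem redTo_pullbackAlong_sub [Infinite (ResidueField A)] (φ : E →ₐ[L] F)
    (hφ : φ.toRingHom.IsIntegral) (hfin : FiniteAlong L φ) {t : E}
    (ht : φ t = (C.t₂ : F)) {x y : Place L E}
    (hx : t ∈ x.toValuationSubring) (hxA : A.valuation (val x t) < 1)
    (hy : t ∈ y.toValuationSubring) (hyA : A.valuation (val y t) < 1)
    (hxy : ∀ h : E, IntOver A t h → A.valuation (val x h - val y h) < 1) :
    C.RedTo (Divisor.pullbackAlong φ hφ (Finsupp.single x 1) -
      Divisor.pullbackAlong φ hφ (Finsupp.single y 1)) 1 := by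
  letI := algebraAlong φ
  haveI := isScalarTower_along φ
  haveI := isIntegral_along φ hφ
  haveI : FiniteDimensional E F := hfin
  exact redTo_pullback_sub C ht hx hxA hy hyA hxy

theorem pullbackAlong_sub_mem_KDiv [Infinite (ResidueField A)] (φ : E →ₐ[L] F)
    (hφ : φ.toRingHom.IsIntegral) (hfin : FiniteAlong L φ) {t : E}
    (ht : φ t = (C.t₂ : F)) {x y : Place L E}
    (hx : t ∈ x.toValuationSubring) (hxA : A.valuation (val x t) < 1)
    (hy : t ∈ y.toValuationSubring) (hyA : A.valuation (val y t) < 1)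
    (hxy : ∀ h : E, IntOver A t h → A.valuation (val x h - val y h) < 1) :
    Divisor.pullbackAlong φ hφ (Finsupp.single x 1 - Finsupp.single y 1) ∈ C.KDiv := by
  refine ⟨1, one_ne_zero, ?_⟩
  rw [map_sub]
  exact redTo_pullbackAlong_sub C φ hφ hfin ht hx hxA hy hyA hxy

theorem SameRed.mem_KDiv [Infinite (ResidueField A)] {t : E} {x y : Place L E}
    (h : SameRed A t x y) (φ : E →ₐ[L] F)
    (hφ : φ.toRingHom.IsIntegral) (hfin : FiniteAlong L φ) (ht : φ t = (C.t₂ : F)) :
    Divisor.pullbackAlong φ hφ (Finsupp.single x 1 - Finsupp.single y 1) ∈ C.KDiv :=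
  pullbackAlong_sub_mem_KDiv C φ hφ hfin ht h.memx h.valx h.memy h.valy h.cong

/-- the class of `φ^*([x] - [y])` is in the kernel of reduction -/
theorem SameRed.mem_kernel [Infinite (ResidueField A)] {t : E} {x y : Place L E}
    (h : SameRed A t x y) (φ : E →ₐ[L] F)
    (hφ : φ.toRingHom.IsIntegral) (hfin : FiniteAlong L φ) (ht : φ t = (C.t₂ : F))
    {D' : Divisor.degZero (K := L) (F := F)}
    (hD' : (D' : Divisor L F) =
      Divisor.pullbackAlong φ hφ (Finsupp.single x 1 - Finsupp.single y 1)) :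
    Pic0.mk D' ∈ C.kernel := by
  rw [C.mk_mem_kernel, hD']
  exact h.mem_KDiv C φ hφ hfin ht

end Along

end Fermat.Agent.H09
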