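import Mathlib
import Fermat.Agent.H09.RedPull
import Fermat.Agent.WP.Recip2

set_option autoImplicit false
set_option linter.style.haveILetI false
set_option linter.unusedSectionVars false

/-! Values of integral functions at places where `t` is small. -/

noncomputable section

namespace Fermat.Agent.H09

open AlgebraicCurve IsDedekindDomain IsLocalRing Polynomial Fermat.Agent.H28 Fermat.Agent.FF
open scoped IntermediateField IntermediateField.algebraAdjoinAdjoin

section ValHom

variable {L : Type*} [Field L] [IsAlgClosed L] [CharZero L] {E : Type*} [Field E] [Algebra L E]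
  [FunField L E]

/-- evaluation at a place -/
def valHom (w : Place L E) : w.toValuationSubring →+* L where
  toFun f := val w (f : E)
  map_one' := val_one _
  map_zero' := val_zero _
  map_mul' f g := val_mul ((mem_iff_val_le_one w _).mp f.2) ((mem_iff_val_le_one w _).mp g.2)
  map_add' f g := val_add ((mem_iff_val_le_one w _).mp f.2) ((mem_iff_val_le_one w _).mp g.2)

theorem valHom_apply (w : Place L E) (f : w.toValuationSubring) : valHom w f = val w (f : E) := rfl

variable {A : ValuationSubring L}

/-- the constants -/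
def cHom (A : ValuationSubring L) (w : Place L E) : A →+* w.toValuationSubring :=
  ((algebraMap L E).comp A.subtype).codRestrict w.toValuationSubring
    fun a => w.algebraMap_mem' a

theorem evA_eq_coe {w : Place L E} {t : E} (ht : t ∈ w.toValuationSubring) (p : A[X]) :
    evA A t p = ((p.eval₂ (cHom A w) ⟨t, ht⟩ : w.toValuationSubring) : E) := by
  change _ = w.toValuationSubring.subtype _
  rw [Polynomial.hom_eval₂]
  rfl

theorem val_evA {w : Place L E} {t : E} (ht : t ∈ w.toValuationSubring) (p : A[X]) :
    val w (evA A t p) = p.eval₂ A.subtype (val w t) := by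
  rw [evA_eq_coe ht, ← valHom_apply, Polynomial.hom_eval₂]
  congr 1
  ext a
  exact val_algebraMap w _

theorem intOver_mem {w : Place L E} {t h : E} (ht : t ∈ w.toValuationSubring)
    (hh : IntOver A t h) : h ∈ w.toValuationSubring := by
  exact mem_valuationSubring_of_isIntegral w.toValuationSubring w.algebraMap_mem' ht hh.isIntegral

/-- integral functions take integral values where `t` does -/
theorem val_mem_of_intOver {w : Place L E} {t h : E} (ht : t ∈ w.toValuationSubring)
    (htA : val w t ∈ A) (hh : IntOver A t h) : val w h ∈ A := by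
  obtain ⟨q, hq, hq0⟩ := hh
  have hm := intOver_mem ht ⟨q, hq, hq0⟩
  -- the evaluation morphism
  let ev : A[X] →+* w.toValuationSubring := Polynomial.eval₂RingHom (cHom A w) ⟨t, ht⟩
  have hev : ∀ p : A[X], ((ev p : w.toValuationSubring) : E) = evA A t p := fun p =>
    (evA_eq_coe ht p).symm
  have h2 : (q.eval₂ ev ⟨h, hm⟩ : w.toValuationSubring) = 0 := by
    apply Subtype.ext
    change w.toValuationSubring.subtype _ = _
    rw [Polynomial.hom_eval₂]
    have : w.toValuationSubring.subtype.comp ev = evA A t := RingHom.ext hev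
    rw [this]
    exact hq0
  have h3 := congrArg (valHom w) h2
  rw [Polynomial.hom_eval₂, map_zero, valHom_apply] at h3
  let q' : A[X] := q.map (Polynomial.evalRingHom (⟨val w t, htA⟩ : A))
  have hq' : q'.Monic := hq.map _
  have h4 : (valHom w).comp ev = A.subtype.comp (Polynomial.evalRingHom (⟨val w t, htA⟩ : A)) := by
    apply Polynomial.ringHom_ext
    · intro a
      simp only [RingHom.comp_apply, ev, Polynomial.coe_eval₂RingHom, Polynomial.eval₂_C,
        Polynomial.coe_evalRingHom, Polynomial.eval_C]
      exact val_algebraMap w _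
    · simp only [RingHom.comp_apply, ev, Polynomial.coe_eval₂RingHom, Polynomial.eval₂_X,
        Polynomial.coe_evalRingHom, Polynomial.eval_X]
      rfl
  rw [h4, ← Polynomial.eval₂_map] at h3
  have hint : IsIntegral A (val w h) := ⟨q', hq', h3⟩
  obtain ⟨a, ha⟩ := IsIntegrallyClosed.isIntegral_iff.mp hint
  rw [← ha]
  exact a.2

end ValHom

section PolyInt

variable {L : Type*} [Field L] {E : Type*} [Field E] [Algebra L E] {A : ValuationSubring L}

attribute [local instance] Polynomial.algebra in
/-- integral elements of `L(s)` are polynomials in `s` with coefficients in `A` -/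
theorem exists_poly_of_intOver {s : E} (hs : Transcendental L s) {n : L⟮s⟯}
    (hn : IntOver A s (n : E)) : ∃ p : A[X], (n : E) = evA A s p := by
  have h1 : IsIntegral (Algebra.adjoin L {s}) (algebraMap L⟮s⟯ E n) := hn.isIntegral
  have h2 : IsIntegral (Algebra.adjoin L {s}) n :=
    (isIntegral_algebraMap_iff (algebraMap L⟮s⟯ E).injective).mp h1
  haveI := isPID_adjoin (K := L) (t := s)
  obtain ⟨y, hy⟩ := IsIntegrallyClosed.isIntegral_iff.mp h2
  have h3 : (n : E) = (y : E) := by rw [← hy]; rfl
  obtain ⟨p, hp⟩ := mem_adjoin_iff.mp y.2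
  rw [hp] at h3
  -- `p` is integral over `A[X]`
  have h4 : (Polynomial.mapRingHom A.subtype).IsIntegralElem p := by
    obtain ⟨q, hq, hq0⟩ := hn
    refine ⟨q, hq, ?_⟩
    have h5 : evA A s = ((aeval s : L[X] →ₐ[L] E) : L[X] →+* E).comp
        (Polynomial.mapRingHom A.subtype) := RingHom.ext fun a => evA_eq_aeval s a
    rw [h5, h3] at hq0
    have h6 : ((aeval s : L[X] →ₐ[L] E) : L[X] →+* E)
        (q.eval₂ (Polynomial.mapRingHom A.subtype) p) = 0 := by
      rw [Polynomial.hom_eval₂]
      exact hq0
    exact (transcendental_iff_injective.mp hs) (by rw [map_zero]; exact h6)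
  have h7 : IsIntegral A[X] p := h4
  have h8 : ∀ i, p.coeff i ∈ A := by
    intro i
    obtain ⟨a, ha⟩ := IsIntegrallyClosed.isIntegral_iff.mp (IsIntegral.coeff h7 i)
    rw [← ha]
    exact a.2
  have h9 : p ∈ Polynomial.lifts A.subtype := by
    rw [Polynomial.lifts_iff_coeff_lifts]
    intro i
    exact ⟨⟨p.coeff i, h8 i⟩, rfl⟩
  obtain ⟨p', hp'⟩ := h9
  refine ⟨p', ?_⟩
  rw [h3, evA_eq_aeval, ← hp']
  rfl

end PolyInt

section Cong

variable {L : Type*} [Field L] [IsAlgClosed L] [CharZero L] {E : Type*} [Field E] [Algebra L E]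
  [FunField L E] {A : ValuationSubring L}

/-- congruence of the values of polynomials -/
theorem valuation_eval_sub {τ : L} (hτ : A.valuation τ < 1) (p : A[X])
    (h0 : p.eval₂ A.subtype τ = 0) : A.valuation (p.eval₂ A.subtype 0) < 1 := by
  have hτA : τ ∈ A := (A.valuation_le_one_iff _).mp hτ.le
  have e1 : p.eval₂ A.subtype τ = ((p.eval ⟨τ, hτA⟩ : A) : L) :=
    Polynomial.eval₂_at_apply (p := p) A.subtype (⟨τ, hτA⟩ : A)
  have e2 : p.eval₂ A.subtype 0 = ((p.eval 0 : A) : L) := by
    have := Polynomial.eval₂_at_apply (p := p) A.subtype 0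
    rw [map_zero] at this
    exact this
  rw [e1] at h0
  have h1 : p.eval (⟨τ, hτA⟩ : A) = 0 := Subtype.ext h0
  obtain ⟨d, hd⟩ := Polynomial.sub_dvd_eval_sub (⟨τ, hτA⟩ : A) 0 p
  rw [h1, sub_zero, zero_sub] at hd
  have h2 : p.eval 0 = -(⟨τ, hτA⟩ * d) := by rw [← hd, neg_neg]
  have h3 : ((p.eval 0 : A) : L) = -(τ * (d : L)) := congrArg Subtype.val h2
  rw [e2, h3, Valuation.map_neg, map_mul]
  exact mul_lt_one_of_lt_of_le hτ ((A.valuation_le_one_iff _).mpr d.2)

theorem val_congr_or {t : E} (htr : Transcendental L t) {x : Place L E}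
    (hx : t ∈ x.toValuationSubring) (hxA : A.valuation (val x t) < 1) {P Q : Place L E}
    (hP : 0 < P.ord t) (hPQ : ∀ w : Place L E, 0 < w.ord t → w = P ∨ w = Q) {h : E}
    (hh : IntOver A t h) : A.valuation (val x h - val P h) < 1 ∨
      A.valuation (val x h - val Q h) < 1 := by
  classical
  haveI : FiniteDimensional L⟮t⟯ E := (isParam_of_transcendental htr).fin
  haveI : FunField L L⟮t⟯ := WP.funField_adjoin htr
  have hxA' : val x t ∈ A := (A.valuation_le_one_iff _).mp hxA.le
  have hcA : val x h ∈ A := val_mem_of_intOver hx hxA' hh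
  set c : A := ⟨val x h, hcA⟩ with hc
  set h' : E := h + -(algebraMap L E (c : L)) with hh'
  have hint : IntOver A t h' := hh.add (intOver_alg t c).neg
  set t0 : L⟮t⟯ := IntermediateField.AdjoinSimple.gen L t with ht0
  have ht0t : algebraMap L⟮t⟯ E t0 = t := IntermediateField.AdjoinSimple.algebraMap_gen L t
  set n : L⟮t⟯ := Algebra.norm L⟮t⟯ h' with hn
  have hn1 : IntOver A t0 n := by
    apply intOver_norm
    rw [ht0t]
    exact hint
  have hn2 : IntOver A t (algebraMap L⟮t⟯ E n) := by
    have := intOver_algebraMap (E := L⟮t⟯) (F := E) hn1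
    rwa [ht0t] at this
  obtain ⟨p, hp⟩ := exists_poly_of_intOver htr hn2
  have hp' : n = evA A t0 p := by
    apply (algebraMap L⟮t⟯ E).injective
    rw [← evA_algebraMap, ht0t]
    exact hp
  have hPt : t ∈ P.toValuationSubring := H18.mem_of_ord_nonneg P hP.le
  -- regularity
  have hreg : ∀ y : Place L E, t ∈ y.toValuationSubring → ∀ w : Place L E,
      w.restrict L⟮t⟯ = y.restrict L⟮t⟯ → t ∈ w.toValuationSubring := by
    intro y hy w hw
    rw [← ht0t, ← Place.mem_restrict_iff, hw, Place.mem_restrict_iff, ht0t]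
    exact hy
  have hval : ∀ y : Place L E, t ∈ y.toValuationSubring →
      val (y.restrict L⟮t⟯) t0 = val y t := by
    intro y hy
    have h1 : (y.restrict L⟮t⟯).adicValuation t0 ≤ 1 := by
      rw [← mem_iff_val_le_one, Place.mem_restrict_iff, ht0t]; exact hy
    rw [← WP.val_restrict y h1, ht0t]
  have hnorm : ∀ y : Place L E, t ∈ y.toValuationSubring →
      p.eval₂ A.subtype (val y t) =
        ∏ w ∈ (y.restrict L⟮t⟯).fiber E, val w h' ^ w.ramificationIndex L⟮t⟯ := by
    intro y hy
    have h1 : ∀ w : Place L E, w.restrict L⟮t⟯ = y.restrict L⟮t⟯ → w.adicValuation h' ≤ 1 := by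
      intro w hw
      rw [← mem_iff_val_le_one]
      exact intOver_mem (hreg y hy w hw) hint
    rw [← (WP.norm_regular_and_val (y.restrict L⟮t⟯) h' h1).2, ← hn, hp', val_evA, hval y hy]
    rw [Place.mem_restrict_iff, ht0t]
    exact hy
  have hhx : val x h' = 0 := by
    rw [hh', val_add ((mem_iff_val_le_one x _).mp (intOver_mem hx hh)), ← map_neg,
      val_algebraMap, hc, add_neg_cancel]
    rw [← map_neg]
    exact x.adicValuation_algebraMap_le_one _
  have h1 : p.eval₂ A.subtype (val x t) = 0 := by
    rw [hnorm x hx]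
    apply Finset.prod_eq_zero (Place.mem_fiber.mpr rfl : x ∈ (x.restrict L⟮t⟯).fiber E)
    rw [hhx, zero_pow (Place.ramificationIndex_pos x).ne']
  have hP0 : val P t = 0 := by
    rw [val_eq_zero_iff ((mem_iff_val_le_one P _).mp hPt), WP.val_lt_one_iff]
    exact Or.inr hP
  have h2 := valuation_eval_sub hxA p h1
  rw [← hP0, hnorm P hPt, map_prod] at h2
  -- one of the factors is small
  have h3 : ∃ w ∈ (P.restrict L⟮t⟯).fiber E, A.valuation (val w h') < 1 := by
    by_contra hcon
    push Not at hcon
    apply absurd h2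
    rw [not_lt]
    apply Finset.one_le_prod'
    intro w hw
    rw [map_pow]
    exact one_le_pow₀ (hcon w hw)
  obtain ⟨w, hw, hwh⟩ := h3
  have hw' := Place.mem_fiber.mp hw
  have hwt : t ∈ w.toValuationSubring := hreg P hPt w hw'
  have hword : 0 < w.ord t := by
    have e1 := w.ord_restrict (F := L⟮t⟯) t0
    have e2 := P.ord_restrict (F := L⟮t⟯) t0
    rw [ht0t] at e1 e2
    rw [hw'] at e1
    rw [e1]
    rw [e2] at hP
    have h5 : (0 : ℤ) < P.ramificationIndex L⟮t⟯ := by
      exact_mod_cast Place.ramificationIndex_pos P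
    have h6 : (0 : ℤ) < w.ramificationIndex L⟮t⟯ := by
      exact_mod_cast Place.ramificationIndex_pos w
    exact mul_pos h6 ((mul_pos_iff_of_pos_left h5).mp hP)
  have hwval : val w h' = val w h - val x h := by
    rw [hh', val_add ((mem_iff_val_le_one w _).mp (intOver_mem hwt hh)), ← map_neg,
      val_algebraMap, hc, sub_eq_add_neg]
    rw [← map_neg]
    exact w.adicValuation_algebraMap_le_one _
  rw [hwval, Valuation.map_sub_swap] at hwh
  rcases hPQ w hword with rfl | rfl
  · exact Or.inl hwh
  · exact Or.inr hwh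

/-- **Congruence of values**, with a separating function `u`. -/
theorem val_congr {t : E} (htr : Transcendental L t) {x : Place L E}
    (hx : t ∈ x.toValuationSubring) (hxA : A.valuation (val x t) < 1) {P Q : Place L E}
    (hP : 0 < P.ord t) (hQ : 0 < Q.ord t)
    (hPQ : ∀ w : Place L E, 0 < w.ord t → w = P ∨ w = Q) {u : E}
    (hu : IntOver A t u) (hPQu : ¬ A.valuation (val P u - val Q u) < 1)
    (hxu : A.valuation (val x u - val P u) < 1) {h : E}
    (hh : IntOver A t h) : A.valuation (val x h - val P h) < 1 := by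
  by_contra hcon
  have h1 := (val_congr_or htr hx hxA hP hPQ hh).resolve_left hcon
  have hPt : t ∈ P.toValuationSubring := H18.mem_of_ord_nonneg P hP.le
  have hQt : t ∈ Q.toValuationSubring := H18.mem_of_ord_nonneg Q hQ.le
  have e : ∀ w : Place L E, t ∈ w.toValuationSubring → val w (h + u) = val w h + val w u := by
    intro w hw
    exact val_add ((mem_iff_val_le_one w _).mp (intOver_mem hw hh))
      ((mem_iff_val_le_one w _).mp (intOver_mem hw hu))
  rcases val_congr_or htr hx hxA hP hPQ (hh.add hu) with h2 | h2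
  · rw [e x hx, e P hPt] at h2
    apply hcon
    have e1 : val x h - val P h = (val x h + val x u - (val P h + val P u)) -
        (val x u - val P u) := by ring
    rw [e1]
    exact (Valuation.map_sub _ _ _).trans_lt (max_lt h2 hxu)
  · rw [e x hx, e Q hQt] at h2
    apply hPQu
    have e1 : val P u - val Q u = (val x h + val x u - (val Q h + val Q u)) -
        (val x u - val P u) - (val x h - val Q h) := by ring
    rw [e1]
    exact (Valuation.map_sub _ _ _).trans_lt
      (max_lt ((Valuation.map_sub _ _ _).trans_lt (max_lt h2 hxu)) h1)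

end Cong

end Fermat.Agent.H09
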