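import Mathlib
import Fermat.Agent.H09.RedCong
import Fermat.Agent.H07.PhiDich
import Fermat.Agent.M5.Main

set_option autoImplicit false
set_option linter.style.haveILetI false
set_option linter.unusedSectionVars false

/-! Points of `X₀(N)` of potentially multiplicative type reduce to the cusps. -/

noncomputable section

namespace Fermat.Agent.H09

open AlgebraicCurve IsDedekindDomain IsLocalRing Polynomial Fermat.Agent.H28 Fermat.Agent.FF

section Rel

variable {L : Type*} [Field L] {E : Type*} [Field E] [Algebra L E] (A : ValuationSubring L)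

theorem inv_pow_mul_pow {J : E} (hJ : J ≠ 0) {m n : ℕ} (h : m ≤ n) :
    J⁻¹ ^ m * J ^ n = J ^ (n - m) := by
  obtain ⟨k, rfl⟩ := Nat.exists_eq_add_of_le h
  rw [Nat.add_sub_cancel_left, pow_add, ← mul_assoc, ← mul_pow, inv_mul_cancel₀ hJ, one_pow,
    one_mul]

/-- the monic relation satisfied by `Y / J ^ r` over `A[1 / J]` -/
def uPoly (r : ℕ) (z : ℕ → ℕ → ℤ) : A[X][X] :=
  (X : A[X][X]) ^ (r + 1) + (-(X : A[X][X]) ^ r + C ((X : A[X]) ^ (r ^ 2 - 1)) +
    ∑ b ∈ Finset.range (r + 1), ∑ a ∈ Finset.range (r + 1),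
      C (C (z a b : A) * (X : A[X]) ^ ((r - a) + r * (r - b))) * (X : A[X][X]) ^ b)

theorem uPoly_monic (r : ℕ) (z : ℕ → ℕ → ℤ) : (uPoly A r z).Monic := by
  apply Polynomial.monic_X_pow_add
  rw [← Polynomial.mem_degreeLT]
  refine Submodule.add_mem _ (Submodule.add_mem _ ?_ ?_)
    (Submodule.sum_mem _ fun b hb => Submodule.sum_mem _ fun a _ => ?_)
  · rw [Polynomial.mem_degreeLT, degree_neg, degree_X_pow]
    exact_mod_cast Nat.lt_succ_self r
  · rw [Polynomial.mem_degreeLT]
    refine (degree_C_le).trans_lt ?_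
    exact_mod_cast Nat.succ_pos r
  · rw [Polynomial.mem_degreeLT]
    refine (degree_C_mul_X_pow_le _ _).trans_lt ?_
    exact_mod_cast Finset.mem_range.mp hb

theorem intOver_u {r : ℕ} (hr : 1 ≤ r) {z : ℕ → ℕ → ℤ} {J Y : E} (hJ : J ≠ 0)
    (hrel : Y ^ (r + 1) + J ^ (r + 1) - J ^ r * Y ^ r + H07.lowSum r z J Y = 0) :
    IntOver A J⁻¹ (Y * J⁻¹ ^ r) := by
  refine ⟨uPoly A r z, uPoly_monic A r z, ?_⟩
  have hJn : J ^ (r * (r + 1)) ≠ 0 := pow_ne_zero _ hJ
  apply mul_right_cancel₀ hJn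
  rw [zero_mul, uPoly]
  simp only [eval₂_add, eval₂_neg, eval₂_mul, eval₂_pow, eval₂_X, eval₂_C, eval₂_finsetSum,
    map_mul, map_pow, evA_X, evA_C]
  rw [← hrel, H07.lowSum]
  rw [add_mul, add_mul, add_mul, Finset.sum_mul]
  have e1 : (Y * J⁻¹ ^ r) ^ (r + 1) * J ^ (r * (r + 1)) = Y ^ (r + 1) := by
    rw [mul_pow, ← pow_mul, mul_assoc, inv_pow_mul_pow hJ le_rfl, Nat.sub_self, pow_zero, mul_one]
  have e2 : -(Y * J⁻¹ ^ r) ^ r * J ^ (r * (r + 1)) = -(J ^ r * Y ^ r) := by
    rw [neg_mul, mul_pow, ← pow_mul, mul_assoc, inv_pow_mul_pow hJ (by nlinarith)]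
    have : r * (r + 1) - r * r = r := by
      rw [mul_add, mul_one, Nat.add_sub_cancel_left]
    rw [this, mul_comm]
  have e3 : J⁻¹ ^ (r ^ 2 - 1) * J ^ (r * (r + 1)) = J ^ (r + 1) := by
    rw [inv_pow_mul_pow hJ (by
      have : r ^ 2 - 1 ≤ r ^ 2 := Nat.sub_le _ _
      nlinarith)]
    congr 1
    have h1 : 1 ≤ r ^ 2 := Nat.one_le_pow _ _ hr
    have h2 : r * (r + 1) = r ^ 2 + r := by ring
    omega
  have e4 : ∀ b ∈ Finset.range (r + 1), (∑ a ∈ Finset.range (r + 1),
      algebraMap L E (((z a b : A) : L)) * J⁻¹ ^ ((r - a) + r * (r - b)) * (Y * J⁻¹ ^ r) ^ b) *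
        J ^ (r * (r + 1)) =
      ∑ a ∈ Finset.range (r + 1), (z a b : E) * J ^ a * Y ^ b := by
    intro b hb
    rw [Finset.sum_mul]
    refine Finset.sum_congr rfl fun a ha => ?_
    have ha' := Nat.lt_succ_iff.mp (Finset.mem_range.mp ha)
    have hb' := Nat.lt_succ_iff.mp (Finset.mem_range.mp hb)
    have hz : algebraMap L E (((z a b : A) : L)) = (z a b : E) := by
      have : ((z a b : A) : L) = (z a b : L) := by
        exact map_intCast A.subtype (z a b)
      rw [this, map_intCast]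
    rw [hz, mul_pow, ← pow_mul]
    have e5 : J⁻¹ ^ ((r - a) + r * (r - b)) * J⁻¹ ^ (r * b) * J ^ (r * (r + 1)) = J ^ a := by
      rw [← pow_add]
      have h1 : (r - a) + r * (r - b) + r * b = (r - a) + r * r := by
        rw [add_assoc, ← mul_add, Nat.sub_add_cancel hb']
      rw [h1, inv_pow_mul_pow hJ (by
        have : r - a ≤ r := Nat.sub_le _ _
        nlinarith)]
      congr 1
      have h2 : r * (r + 1) = r * r + r := by ring
      omega
    rw [← e5]
    ring
  rw [e1, e2, e3, Finset.sum_congr rfl e4]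
  ring

end Rel

section Cusps

open M5 ModularCurve

variable {L : Type*} [Field L] [Algebra ℚ L] [IsAlgClosed L] [Algebra.IsAlgebraic ℚ L]
  {N : ℕ} [NeZero N] [hN : Fact N.Prime]

theorem modPoly_jB (L : Type*) [Field L] [Algebra ℚ L] (N : ℕ) [NeZero N] [hN : Fact N.Prime] :
    (Igusa.modPoly N).eval₂ (Igusa.evZ (jB L (one_dvd N))) (jB L (dvd_refl N)) = 0 := by
  apply (algebraMap (FB L N) (LaurentSeries L)).injective
  rw [Igusa.eval₂_evZ_map, map_zero]
  have h1 := Igusa.modPoly_eval N L 1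
  have h2 : Igusa.jd L (1 * N) = Igusa.jd L N := Igusa.jd_congr L (one_mul N)
  rw [h2] at h1
  exact h1

theorem jB_ne_zero (L : Type*) [Field L] [Algebra ℚ L] {N d : ℕ} [NeZero d] (hd : d ∣ N) :
    jB L hd ≠ 0 := by
  intro h
  exact Igusa.jd_ne_zero (R := L) d (congrArg Subtype.val h)

theorem transcendental_of_ord_pos {L E : Type*} [Field L] [IsAlgClosed L] [Field E] [Algebra L E]
    {P : Place L E} {t : E} (ht : 0 < P.ord t) : Transcendental L t := by
  apply transcendental_of_not_mem_range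
  rintro ⟨c, rfl⟩
  rw [H18.ord_algebraMap] at ht
  exact lt_irrefl _ ht

/-- the function `j(q^N) / j ^ N`, integral over `ℤ[1/j]` -/
def uF (L : Type*) [Field L] [Algebra ℚ L] (N : ℕ) [NeZero N] : FB L N :=
  jB L (dvd_refl N) * (jB L (one_dvd N))⁻¹ ^ N

theorem one_lt_valuation_iff {L E : Type*} [Field L] [Field E] [Algebra L E]
    {P : Place L E} {f : E} (hf : f ≠ 0) (n : ℤ) (h : P.ord f = -n) :
    P.adicValuation f = WithZero.exp n := by
  rw [P.adicValuation_eq_exp_neg_ord hf, h, neg_neg]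

theorem cInf_val_uF [Fact (N ≠ 2)] : val (cInf L N) (uF L N) = 1 := by
  haveI : CharZero L := charZero_of_injective_algebraMap (algebraMap ℚ L).injective
  obtain ⟨z, hz, hΦ⟩ := H07.modPoly_eq N Fact.out
  have hrel := modPoly_jB L N
  rw [H07.eval_modPoly N hΦ] at hrel
  have hJ := jB_ne_zero L (one_dvd N)
  have hY := jB_ne_zero L (dvd_refl N)
  have hvJ : (cInf L N).adicValuation (jB L (one_dvd N)) = WithZero.exp (1 : ℤ) :=
    one_lt_valuation_iff hJ 1 (by rw [cInf_ord_jB]; simp)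
  have hvY : (cInf L N).adicValuation (jB L (dvd_refl N)) = WithZero.exp (N : ℤ) :=
    one_lt_valuation_iff hY N (cInf_ord_jB L (dvd_refl N))
  have h1 : 1 < (cInf L N).adicValuation (jB L (one_dvd N)) := by
    rw [hvJ, ← WithZero.exp_zero, WithZero.exp_lt_exp]
    exact one_pos
  have h2 : (cInf L N).adicValuation (jB L (dvd_refl N)) =
      (cInf L N).adicValuation (jB L (one_dvd N)) ^ N := by
    rw [hvJ, hvY, ← WithZero.exp_nsmul]
    simp
  have h3 := H07.close_core (cInf L N).adicValuation hN.out.two_le hz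
    (fun n => by
      have := (cInf L N).adicValuation_algebraMap_le_one (n : L)
      rwa [map_intCast] at this) h1 hrel h2
  apply val_eq_of_lt
  rw [map_one]
  have e1 : uF L N - 1 = (jB L (dvd_refl N) - jB L (one_dvd N) ^ N) *
      (jB L (one_dvd N) ^ N)⁻¹ := by
    rw [uF, sub_mul, mul_inv_cancel₀ (pow_ne_zero _ hJ), inv_pow]
  rw [e1, map_mul, map_inv₀, map_pow]
  have h4 : 0 < (cInf L N).adicValuation (jB L (one_dvd N)) ^ N :=
    pow_pos (zero_lt_one.trans h1) _
  rw [mul_inv_lt_iff₀ h4, one_mul]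
  exact h3

theorem cZero_val_uF : val (cZero L N) (uF L N) = 0 := by
  haveI : CharZero L := charZero_of_injective_algebraMap (algebraMap ℚ L).injective
  have hJ := jB_ne_zero L (one_dvd N)
  have hY := jB_ne_zero L (dvd_refl N)
  have hord : 0 < (cZero L N).ord (uF L N) := by
    rw [uF, Place.ord_mul _ hY (pow_ne_zero _ (inv_ne_zero hJ)), ← zpow_natCast, Place.ord_zpow,
      Place.ord_inv,
      cZero_ord_jB, cZero_ord_jB', neg_neg]
    have h2 : (2 : ℤ) ≤ N := by exact_mod_cast hN.out.two_le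
    nlinarith
  apply val_eq_of_lt
  rw [map_zero, sub_zero, WP.val_lt_one_iff]
  exact Or.inr hord

theorem cInf_ord_inv : 0 < (cInf L N).ord (jB L (one_dvd N))⁻¹ := by
  rw [Place.ord_inv, cInf_ord_jB]; simp

theorem cZero_ord_inv : 0 < (cZero L N).ord (jB L (one_dvd N))⁻¹ := by
  rw [Place.ord_inv, cZero_ord_jB, neg_neg]
  exact_mod_cast hN.out.pos

theorem intOver_uF [Fact (N ≠ 2)] (A : ValuationSubring L) :
    IntOver A (jB L (one_dvd N))⁻¹ (uF L N) := by
  obtain ⟨z, hz, hΦ⟩ := H07.modPoly_eq N Fact.out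
  have hrel := modPoly_jB L N
  rw [H07.eval_modPoly N hΦ] at hrel
  exact intOver_u A hN.out.one_le (jB_ne_zero L (one_dvd N)) hrel

section Point

variable {A : ValuationSubring L} {x : Place L (FB L N)} {c y : L}

omit hN in
theorem val_eq_of_ord_pos {L E : Type*} [Field L] [IsAlgClosed L] [CharZero L] [Field E]
    [Algebra L E] [FunField L E] {x : Place L E} {f : E} {c : L} (h : 0 < x.ord (f - algebraMap L E c)) :
    f ∈ x.toValuationSubring ∧ val x f = c := by
  have h1 : x.adicValuation (f - algebraMap L E c) < 1 := WP.val_lt_one_iff.mpr (Or.inr h)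
  refine ⟨?_, val_eq_of_lt h1⟩
  have h2 := x.toValuationSubring.add_mem _ _ (H18.mem_of_ord_nonneg x h.le)
    (x.algebraMap_mem' c)
  simpa using h2

variable (hc : 0 < x.ord (jB L (one_dvd N) - algebraMap L _ c))
  (hy : 0 < x.ord (jB L (dvd_refl N) - algebraMap L _ y))

include hc hy in
/-- the coordinates satisfy the modular equation -/
theorem modPoly_eval_coord : (Igusa.modPoly N).eval₂ (Igusa.evZ c) y = 0 := by
  haveI : CharZero L := charZero_of_injective_algebraMap (algebraMap ℚ L).injective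
  obtain ⟨h1, h2⟩ := val_eq_of_ord_pos hc
  obtain ⟨h3, h4⟩ := val_eq_of_ord_pos hy
  have hrel := modPoly_jB L N
  have h5 : (Igusa.modPoly N).eval₂ (Igusa.evZ (⟨_, h1⟩ : x.toValuationSubring))
      (⟨_, h3⟩ : x.toValuationSubring) = 0 := by
    apply Subtype.ext
    change x.toValuationSubring.subtype _ = _
    rw [Igusa.eval₂_evZ_map]
    exact hrel
  have h6 := congrArg (valHom x) h5
  rw [Igusa.eval₂_evZ_map, map_zero, valHom_apply, valHom_apply, h2, h4] at h6
  exact h6

include hc in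
theorem inv_jB_facts (hcA : c ∉ A) : (jB L (one_dvd N))⁻¹ ∈ x.toValuationSubring ∧
    val x (jB L (one_dvd N))⁻¹ = c⁻¹ ∧ A.valuation (c⁻¹) < 1 := by
  haveI : CharZero L := charZero_of_injective_algebraMap (algebraMap ℚ L).injective
  obtain ⟨h1, h2⟩ := val_eq_of_ord_pos hc
  have hc0 : c ≠ 0 := by
    rintro rfl
    exact hcA A.zero_mem
  have h3 : x.adicValuation (jB L (one_dvd N)) = 1 := by
    rw [← val_ne_zero_iff ((mem_iff_val_le_one x _).mp h1), h2]
    exact hc0
  refine ⟨?_, ?_, ?_⟩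
  · rw [mem_iff_val_le_one, map_inv₀, h3, inv_one]
  · rw [val_inv h3, h2]
  · rw [map_inv₀]
    apply inv_lt_one_of_one_lt₀
    rwa [← not_le, A.valuation_le_one_iff]

include hc hy in
theorem val_uF (hcA : c ∉ A) : val x (uF L N) = y * c⁻¹ ^ N := by
  haveI : CharZero L := charZero_of_injective_algebraMap (algebraMap ℚ L).injective
  obtain ⟨h1, h2, -⟩ := inv_jB_facts hc hcA
  obtain ⟨h3, h4⟩ := val_eq_of_ord_pos hy
  rw [uF, val_mul ((mem_iff_val_le_one x _).mp h3)
    ((mem_iff_val_le_one x _).mp (pow_mem h1 N)), h4, val_pow ((mem_iff_val_le_one x _).mp h1), h2]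

/-- **Type I points reduce to the cusp `∞`.** -/
theorem red_typeI [Fact (N ≠ 2)]
    (hc : 0 < x.ord (jB L (one_dvd N) - algebraMap L _ c))
    (hy : 0 < x.ord (jB L (dvd_refl N) - algebraMap L _ y)) (hcA : c ∉ A)
    (hyc : A.valuation y = A.valuation c ^ N) {h : FB L N}
    (hh : IntOver A (jB L (one_dvd N))⁻¹ h) :
    A.valuation (val x h - val (cInf L N) h) < 1 := by
  haveI : CharZero L := charZero_of_injective_algebraMap (algebraMap ℚ L).injective
  obtain ⟨h1, h2, h3⟩ := inv_jB_facts hc hcA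
  refine val_congr (transcendental_of_ord_pos (cInf_ord_inv (L := L) (N := N))) h1
    (by rw [h2]; exact h3) cInf_ord_inv (cZero_ord_inv (L := L) (N := N)) ?_ (intOver_uF A) ?_ ?_ hh
  · intro w hw
    apply cusp_cases L hN.out
    rw [Place.ord_inv] at hw
    omega
  · rw [cInf_val_uF, cZero_val_uF, sub_zero, map_one]
    exact lt_irrefl _
  · rw [cInf_val_uF, val_uF hc hy hcA]
    have h4 := H07.close_of_case_one N A Fact.out hcA (modPoly_eval_coord hc hy) hyc
    have hc0 : c ≠ 0 := by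
      rintro rfl
      exact hcA A.zero_mem
    have e1 : y * c⁻¹ ^ N - 1 = (y - c ^ N) * (c ^ N)⁻¹ := by
      rw [sub_mul, mul_inv_cancel₀ (pow_ne_zero _ hc0), inv_pow]
    rw [e1, map_mul, map_inv₀, map_pow]
    have h5 : 0 < A.valuation c ^ N :=
      pow_pos (zero_lt_iff.mpr ((Valuation.ne_zero_iff _).mpr hc0)) _
    rw [mul_inv_lt_iff₀ h5, one_mul]
    exact h4

/-- **Type II points reduce to the cusp `0`.** -/
theorem red_typeII [Fact (N ≠ 2)]
    (hc : 0 < x.ord (jB L (one_dvd N) - algebraMap L _ c))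
    (hy : 0 < x.ord (jB L (dvd_refl N) - algebraMap L _ y)) (hcA : c ∉ A)
    (hyc : A.valuation y ^ N = A.valuation c) {h : FB L N}
    (hh : IntOver A (jB L (one_dvd N))⁻¹ h) :
    A.valuation (val x h - val (cZero L N) h) < 1 := by
  haveI : CharZero L := charZero_of_injective_algebraMap (algebraMap ℚ L).injective
  obtain ⟨h1, h2, h3⟩ := inv_jB_facts hc hcA
  refine val_congr (transcendental_of_ord_pos (cInf_ord_inv (L := L) (N := N))) h1
    (by rw [h2]; exact h3) (cZero_ord_inv (L := L) (N := N)) cInf_ord_inv ?_ (intOver_uF A) ?_ ?_ hh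
  · intro w hw
    apply Or.symm
    apply cusp_cases L hN.out
    rw [Place.ord_inv] at hw
    omega
  · rw [cInf_val_uF, cZero_val_uF, zero_sub, Valuation.map_neg, map_one]
    exact lt_irrefl _
  · rw [cZero_val_uF, val_uF hc hy hcA, sub_zero, map_mul, map_pow, map_inv₀, ← hyc]
    have hc1 : 1 < A.valuation c := by rwa [← not_le, A.valuation_le_one_iff]
    have hy1 : 1 < A.valuation y := by
      by_contra hcon
      push Not at hcon
      rw [← hyc] at hc1
      exact absurd (pow_le_one₀ zero_le hcon) (not_le.mpr hc1)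
    have hy0 : 0 < A.valuation y := zero_lt_one.trans hy1
    rw [inv_pow, ← pow_mul, mul_inv_lt_iff₀ (pow_pos hy0 _), one_mul]
    calc A.valuation y = A.valuation y ^ 1 := (pow_one _).symm
      _ < A.valuation y ^ (N * N) := by
        apply pow_lt_pow_right₀ hy1
        have := hN.out.two_le
        nlinarith

theorem sameRed_typeI [CharZero L] [Fact (N ≠ 2)]
    (hc : 0 < x.ord (jB L (one_dvd N) - algebraMap L _ c))
    (hy : 0 < x.ord (jB L (dvd_refl N) - algebraMap L _ y)) (hcA : c ∉ A)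
    (hyc : A.valuation y = A.valuation c ^ N) :
    SameRed A (jB L (one_dvd N))⁻¹ x (cInf L N) := by
  obtain ⟨h1, h2, h3⟩ := inv_jB_facts hc hcA
  have h4 : (jB L (one_dvd N))⁻¹ ∈ (cInf L N).toValuationSubring :=
    H18.mem_of_ord_nonneg _ cInf_ord_inv.le
  refine ⟨h1, h4, by rw [h2]; exact h3, ?_, fun h hh => red_typeI hc hy hcA hyc hh⟩
  rw [(val_eq_zero_iff ((mem_iff_val_le_one _ _).mp h4)).mpr
    (WP.val_lt_one_iff.mpr (Or.inr cInf_ord_inv)), map_zero]
  exact zero_lt_one

theorem sameRed_typeII [CharZero L] [Fact (N ≠ 2)]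
    (hc : 0 < x.ord (jB L (one_dvd N) - algebraMap L _ c))
    (hy : 0 < x.ord (jB L (dvd_refl N) - algebraMap L _ y)) (hcA : c ∉ A)
    (hyc : A.valuation y ^ N = A.valuation c) :
    SameRed A (jB L (one_dvd N))⁻¹ x (cZero L N) := by
  obtain ⟨h1, h2, h3⟩ := inv_jB_facts hc hcA
  have h4 : (jB L (one_dvd N))⁻¹ ∈ (cZero L N).toValuationSubring :=
    H18.mem_of_ord_nonneg _ cZero_ord_inv.le
  refine ⟨h1, h4, by rw [h2]; exact h3, ?_, fun h hh => red_typeII hc hy hcA hyc hh⟩
  rw [(val_eq_zero_iff ((mem_iff_val_le_one _ _).mp h4)).mpr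
    (WP.val_lt_one_iff.mpr (Or.inr cZero_ord_inv)), map_zero]
  exact zero_lt_one

end Point

end Cusps

end Fermat.Agent.H09
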