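import Mathlib

set_option autoImplicit false

/-!
# Power sums of `1 / (1 - ζ)` over the nontrivial `N`-th roots of unity
-/

namespace Fermat.Agent.H09

open Polynomial

section Newton

variable {ι R : Type*} [CommRing R]

/-- the generating polynomial of the elementary symmetric functions -/
noncomputable def genPoly (s : Finset ι) (w : ι → R) : R[X] := ∏ i ∈ s, (1 + C (w i) * X)

theorem coeff_mul_one_add (P : R[X]) (w : R) (k : ℕ) :
    ((1 + C w * X) * P).coeff (k + 1) = P.coeff (k + 1) + w * P.coeff k := by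
  rw [add_mul, one_mul, coeff_add, mul_assoc, coeff_C_mul, coeff_X_mul]

theorem coeff_zero_genPoly (s : Finset ι) (w : ι → R) : (genPoly s w).coeff 0 = 1 := by
  classical
  unfold genPoly
  rw [coeff_zero_prod]
  apply Finset.prod_eq_one
  intro i _
  simp

/-- Newton's identities up to order 4 -/
theorem newton_four (s : Finset ι) (w : ι → R) :
    ∑ i ∈ s, w i = (genPoly s w).coeff 1 ∧
    ∑ i ∈ s, w i ^ 2 = (genPoly s w).coeff 1 * ∑ i ∈ s, w i - 2 * (genPoly s w).coeff 2 ∧
    ∑ i ∈ s, w i ^ 3 = (genPoly s w).coeff 1 * ∑ i ∈ s, w i ^ 2 -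
      (genPoly s w).coeff 2 * ∑ i ∈ s, w i + 3 * (genPoly s w).coeff 3 ∧
    ∑ i ∈ s, w i ^ 4 = (genPoly s w).coeff 1 * ∑ i ∈ s, w i ^ 3 -
      (genPoly s w).coeff 2 * ∑ i ∈ s, w i ^ 2 + (genPoly s w).coeff 3 * ∑ i ∈ s, w i -
      4 * (genPoly s w).coeff 4 := by
  classical
  induction s using Finset.induction_on with
  | empty => simp [genPoly, coeff_one]
  | insert a s ha ih =>
    obtain ⟨h1, h2, h3, h4⟩ := ih
    have hgen : genPoly (insert a s) w = (1 + C (w a) * X) * genPoly s w := by
      unfold genPoly; rw [Finset.prod_insert ha]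
    have h0 := coeff_zero_genPoly s w
    have c1 : (genPoly (insert a s) w).coeff 1 = (genPoly s w).coeff 1 + w a := by
      rw [hgen, coeff_mul_one_add, h0, mul_one]
    have c2 : (genPoly (insert a s) w).coeff 2 =
        (genPoly s w).coeff 2 + w a * (genPoly s w).coeff 1 := by
      rw [hgen, coeff_mul_one_add]
    have c3 : (genPoly (insert a s) w).coeff 3 =
        (genPoly s w).coeff 3 + w a * (genPoly s w).coeff 2 := by
      rw [hgen, coeff_mul_one_add]
    have c4 : (genPoly (insert a s) w).coeff 4 =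
        (genPoly s w).coeff 4 + w a * (genPoly s w).coeff 3 := by
      rw [hgen, coeff_mul_one_add]
    rw [c1, c2, c3, c4, Finset.sum_insert ha, Finset.sum_insert ha, Finset.sum_insert ha,
      Finset.sum_insert ha]
    generalize (genPoly s w).coeff 1 = e1 at *
    generalize (genPoly s w).coeff 2 = e2 at *
    generalize (genPoly s w).coeff 3 = e3 at *
    generalize (genPoly s w).coeff 4 = e4 at *
    generalize ∑ i ∈ s, w i = p1 at *
    generalize ∑ i ∈ s, w i ^ 2 = p2 at *
    generalize ∑ i ∈ s, w i ^ 3 = p3 at *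
    generalize ∑ i ∈ s, w i ^ 4 = p4 at *
    generalize w a = x at *
    refine ⟨?_, ?_, ?_, ?_⟩
    · linear_combination h1
    · linear_combination h2 - x * h1
    · linear_combination h3 - x * h2
    · linear_combination h4 - x * h3

end Newton

section Roots

variable {k : Type*} [Field k]

/-- `s = ζ / (1 - ζ)²` summed over nontrivial roots of unity: `1 + 120 Σ (6 s² + s) = N⁴`. -/
theorem sum_roots {ι : Type*} {N : ℕ} (hN0 : (N : k) ≠ 0) (h30 : (30 : k) ≠ 0) (S : Finset ι)
    (z : ι → k) (hz : ∀ i ∈ S, z i ≠ 1)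
    (hprod : (X - 1) * ∏ i ∈ S, (X - C (z i)) = (X ^ N - 1 : k[X])) :
    1 + 120 * ∑ i ∈ S, (6 * (z i / (1 - z i) ^ 2) ^ 2 + z i / (1 - z i) ^ 2) = (N : k) ^ 4 := by
  classical
  set w : ι → k := fun i => (1 - z i)⁻¹ with hw
  -- `z / (1 - z)² = w² - w`
  have hs : ∀ i ∈ S, z i / (1 - z i) ^ 2 = w i ^ 2 - w i := by
    intro i hi
    have h1 : (1 - z i) ≠ 0 := sub_ne_zero.mpr (hz i hi).symm
    rw [hw]; field_simp; ring
  have hsum : ∑ i ∈ S, (6 * (z i / (1 - z i) ^ 2) ^ 2 + z i / (1 - z i) ^ 2) =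
      6 * ∑ i ∈ S, w i ^ 4 - 12 * ∑ i ∈ S, w i ^ 3 + 7 * ∑ i ∈ S, w i ^ 2 - ∑ i ∈ S, w i := by
    rw [Finset.mul_sum, Finset.mul_sum, Finset.mul_sum, ← Finset.sum_sub_distrib,
      ← Finset.sum_add_distrib, ← Finset.sum_sub_distrib]
    apply Finset.sum_congr rfl
    intro i hi
    rw [hs i hi]; ring
  -- shift by one
  have hshift : X * ∏ i ∈ S, (X + C (1 - z i)) = ((X + 1) ^ N - 1 : k[X]) := by
    have := congrArg (fun P : k[X] => P.comp (X + 1)) hprod
    simp only [mul_comp, sub_comp, X_comp, one_comp, prod_comp, C_comp, pow_comp] at this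
    rw [← this]
    congr 1
    · ring
    · apply Finset.prod_congr rfl
      intro i _
      rw [map_sub, map_one]; ring
  set c : k := ∏ i ∈ S, (1 - z i) with hc
  have hfac : ∏ i ∈ S, (X + C (1 - z i)) = C c * genPoly S w := by
    unfold genPoly
    rw [hc, map_prod, ← Finset.prod_mul_distrib]
    apply Finset.prod_congr rfl
    intro i hi
    have h1 : (1 - z i) ≠ 0 := sub_ne_zero.mpr (hz i hi).symm
    rw [mul_add, mul_one, ← mul_assoc, ← C_mul, hw]
    rw [mul_inv_cancel₀ h1, C_1, one_mul, add_comm]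
  have hcoef : ∀ j : ℕ, c * (genPoly S w).coeff j = (N.choose (j + 1) : k) := by
    intro j
    have h1 := congrArg (fun P : k[X] => P.coeff (j + 1)) hshift
    rw [coeff_X_mul, hfac, coeff_C_mul] at h1
    rw [h1, coeff_sub, coeff_X_add_one_pow, coeff_one, if_neg (Nat.succ_ne_zero j), sub_zero]
  have hcN : c = N := by
    have := hcoef 0
    rw [coeff_zero_genPoly, mul_one] at this
    rw [this]; simp
  rw [hcN] at hcoef
  obtain ⟨p1, p2, p3, p4⟩ := newton_four S w
  rw [hsum]
  -- binomial coefficients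
  have hch : ∀ j : ℕ, ((j + 1).factorial : k) * (N.choose (j + 1) : k) =
      (N.descFactorial (j + 1) : k) := by
    intro j
    rw [Nat.descFactorial_eq_factorial_mul_choose]; push_cast; ring
  have hdesc : ∀ j : ℕ, (N.descFactorial (j + 1) : k) = (N - j : k) * (N.descFactorial j : k) := by
    intro j
    rw [Nat.descFactorial_succ]
    by_cases h : j ≤ N
    · rw [Nat.cast_mul, Nat.cast_sub h]
    · have : N.descFactorial j = 0 := Nat.descFactorial_eq_zero_iff_lt.mpr (by omega)
      rw [this]; simp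
  have d1 : (N.descFactorial 1 : k) = N := by simp
  have d2 : (N.descFactorial 2 : k) = (N - 1) * N := by rw [hdesc 1, d1]; norm_num
  have d3 : (N.descFactorial 3 : k) = (N - 2) * ((N - 1) * N) := by rw [hdesc 2, d2]; norm_num
  have d4 : (N.descFactorial 4 : k) = (N - 3) * ((N - 2) * ((N - 1) * N)) := by
    rw [hdesc 3, d3]; norm_num
  have d5 : (N.descFactorial 5 : k) = (N - 4) * ((N - 3) * ((N - 2) * ((N - 1) * N))) := by
    rw [hdesc 4, d4]; norm_num
  have f2 : 2 * (genPoly S w).coeff 1 = N - 1 := by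
    apply mul_left_cancel₀ hN0
    have h1 := hcoef 1
    have h2 := hch 1
    rw [d2] at h2
    have e2 : ((1 + 1).factorial : k) = 2 := by norm_num [Nat.factorial]
    rw [e2] at h2
    linear_combination 2 * h1 + h2
  have f3 : 6 * (genPoly S w).coeff 2 = (N - 2) * (N - 1) := by
    apply mul_left_cancel₀ hN0
    have h1 := hcoef 2
    have h2 := hch 2
    rw [d3] at h2
    have e2 : ((2 + 1).factorial : k) = 6 := by norm_num [Nat.factorial]
    rw [e2] at h2
    linear_combination 6 * h1 + h2
  have f4 : 24 * (genPoly S w).coeff 3 = (N - 3) * (N - 2) * (N - 1) := by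
    apply mul_left_cancel₀ hN0
    have h1 := hcoef 3
    have h2 := hch 3
    rw [d4] at h2
    have e2 : ((3 + 1).factorial : k) = 24 := by norm_num [Nat.factorial]
    rw [e2] at h2
    linear_combination 24 * h1 + h2
  have f5 : 120 * (genPoly S w).coeff 4 = (N - 4) * (N - 3) * (N - 2) * (N - 1) := by
    apply mul_left_cancel₀ hN0
    have h1 := hcoef 4
    have h2 := hch 4
    rw [d5] at h2
    have e2 : ((4 + 1).factorial : k) = 120 := by norm_num [Nat.factorial]
    rw [e2] at h2
    linear_combination 120 * h1 + h2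
  have h2 : (2 : k) ≠ 0 := by
    intro h; apply h30
    have : (30 : k) = 2 * 15 := by norm_num
    rw [this, h, zero_mul]
  have h3 : (3 : k) ≠ 0 := by
    intro h; apply h30
    have : (30 : k) = 3 * 10 := by norm_num
    rw [this, h, zero_mul]
  have h5 : (5 : k) ≠ 0 := by
    intro h; apply h30
    have : (30 : k) = 5 * 6 := by norm_num
    rw [this, h, zero_mul]
  generalize (genPoly S w).coeff 1 = e1 at *
  generalize (genPoly S w).coeff 2 = e2 at *
  generalize (genPoly S w).coeff 3 = e3 at *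
  generalize (genPoly S w).coeff 4 = e4 at *
  rw [p4, p3, p2, p1]
  have g2 : e1 = (N - 1) / 2 := by field_simp; linear_combination f2
  have h6 : (6 : k) ≠ 0 := by
    have : (6 : k) = 2 * 3 := by norm_num
    rw [this]; exact mul_ne_zero h2 h3
  have h24 : (24 : k) ≠ 0 := by
    have : (24 : k) = 2 * 2 * 6 := by norm_num
    rw [this]; exact mul_ne_zero (mul_ne_zero h2 h2) h6
  have h120 : (120 : k) ≠ 0 := by
    have : (120 : k) = 5 * 24 := by norm_num
    rw [this]; exact mul_ne_zero h5 h24
  have g3 : e2 = (N - 2) * (N - 1) / 6 := by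
    rw [eq_div_iff h6]; linear_combination f3
  have g4 : e3 = (N - 3) * (N - 2) * (N - 1) / 24 := by
    rw [eq_div_iff h24]; linear_combination f4
  have g5 : e4 = (N - 4) * (N - 3) * (N - 2) * (N - 1) / 120 := by
    rw [eq_div_iff h120]; linear_combination f5
  rw [g2, g3, g4, g5]
  field_simp
  ring

end Roots

end Fermat.Agent.H09
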