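import Mathlib
import Fermat.Agent.H09.UChar
import Fermat.Agent.H09.RootSums
import Fermat.Agent.H09.ZeroComp
import Fermat.Agent.H09.Endgame

set_option autoImplicit false

/-!
# Types I and II: valuations of Velu's `c₄` and of `ψ₂` on a cyclic subgroup
-/

namespace Fermat.Agent.H09

open Polynomial WeierstrassCurve WeierstrassCurve.Affine WeierstrassCurve.Affine.Point
open Fermat.Agent.H08

section

theorem prod_pow_primitive {k : Type*} [Field k] {ζ : k} {N : ℕ} (hN : 0 < N)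
    (h : IsPrimitiveRoot ζ N) :
    (X - 1) * ∏ i ∈ Finset.Ico 1 N, (X - C (ζ ^ i)) = (X ^ N - 1 : k[X]) := by
  classical
  have himg : (Finset.range N).image (fun i => ζ ^ i) = nthRootsFinset N (1 : k) := by
    apply Finset.eq_of_subset_of_card_le
    · intro z hz
      obtain ⟨i, -, rfl⟩ := Finset.mem_image.mp hz
      rw [mem_nthRootsFinset hN, ← pow_mul, mul_comm, pow_mul, h.pow_eq_one, one_pow]
    · rw [h.card_nthRootsFinset, Finset.card_image_of_injOn, Finset.card_range]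
      intro i hi j hj hij
      exact h.pow_inj (Finset.mem_range.mp hi) (Finset.mem_range.mp hj) hij
  rw [X_pow_sub_one_eq_prod hN h, ← himg, Finset.prod_image, Finset.range_eq_Ico,
    Finset.prod_eq_prod_Ico_succ_bot hN]
  · simp
  · intro i hi j hj hij
    exact h.pow_inj (Finset.mem_range.mp hi) (Finset.mem_range.mp hj) hij

end

section

variable {F : Type*} [Field F] [DecidableEq F] {W : WeierstrassCurve.Affine F} {r t α β : F}

/-- Velu's `c₄` of the quotient by the group `S ∪ {0}` -/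
noncomputable def veluC4 (W : WeierstrassCurve.Affine F) (S : Finset W.Point) : F :=
  W.c₄ + ∑ Q ∈ S, 120 * (6 * px Q ^ 2 + W.b₂ * px Q + W.b₄)

omit [DecidableEq F] in
theorem veluC4_eq [CharZero F] (S : Finset W.Point) :
    veluC4 W S = W.c₄ + ∑ Q ∈ S, (720 * (px Q + W.b₂ / 12) ^ 2 - 5 * W.c₄) := by
  unfold veluC4
  congr 1
  apply Finset.sum_congr rfl
  intro Q _
  rw [WeierstrassCurve.c₄]
  field_simp
  ring

variable {Γ₀ : Type*} [LinearOrderedCommGroupWithZero Γ₀] {v : Valuation F Γ₀}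

omit [DecidableEq F] in
theorem NodeData.b₂_shift (h : NodeData v W r t α β) :
    (shiftCurve W r t).b₂ = (β - α) ^ 2 := by
  have h1 : α + β = -(shiftCurve W r t).a₁ := h.slopes.sum
  have h2 : α * β = -(shiftCurve W r t).a₂ := h.slopes.prod
  rw [WeierstrassCurve.b₂]
  linear_combination ((shiftCurve W r t).a₁ - α - β) * h1 + 4 * h2

omit [DecidableEq F] in
theorem NodeData.velu_term (h : NodeData v W r t α β) (x : F) :
    6 * x ^ 2 + W.b₂ * x + W.b₄ = 6 * (x - r) ^ 2 + (β - α) ^ 2 * (x - r) := by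
  have hb₂ := h.b₂_shift
  have hb₄ : (shiftCurve W r t).b₄ = 0 := by
    rw [WeierstrassCurve.b₄, h.slopes.a₃, h.slopes.a₄]; ring
  have e2 : (shiftCurve W r t).b₂ = W.b₂ + 12 * r := by
    simp only [shiftCurve, WeierstrassCurve.b₂]; ring
  have e4 : (shiftCurve W r t).b₄ = W.b₄ + r * W.b₂ + 6 * r ^ 2 := by
    simp only [shiftCurve, WeierstrassCurve.b₂, WeierstrassCurve.b₄]; ring
  rw [← hb₂, e2]
  linear_combination hb₄ - e4

omit [DecidableEq F] in
theorem NodeData.c₄_eq (h : NodeData v W r t α β) : W.c₄ = (β - α) ^ 4 := by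
  have hb₂ := h.b₂_shift
  have hb₄ : (shiftCurve W r t).b₄ = 0 := by
    rw [WeierstrassCurve.b₄, h.slopes.a₃, h.slopes.a₄]; ring
  have e2 : (shiftCurve W r t).b₂ = W.b₂ + 12 * r := by
    simp only [shiftCurve, WeierstrassCurve.b₂]; ring
  have e4 : (shiftCurve W r t).b₄ = W.b₄ + r * W.b₂ + 6 * r ^ 2 := by
    simp only [shiftCurve, WeierstrassCurve.b₂, WeierstrassCurve.b₄]; ring
  have : W.c₄ = (shiftCurve W r t).b₂ ^ 2 - 24 * (shiftCurve W r t).b₄ := by
    rw [e2, e4, WeierstrassCurve.c₄]; ring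
  rw [this, hb₄, hb₂]; ring

omit [DecidableEq F] in
theorem NodeData.val_diff (h : NodeData v W r t α β) : v (β - α) = 1 := h.slopes.diff

omit [DecidableEq F] in
/-- a point outside `E₀` is congruent to the node -/
theorem NodeData.val_of_not_nodeE0 (h : NodeData v W r t α β) {P : W.Point}
    (hP : ¬ NodeE0 v r t P) : P ≠ 0 ∧ v (px P - r) < 1 ∧ v (py P - t) < 1 := by
  have h0 : P ≠ 0 := by
    rintro rfl; exact hP NodeE0.zero
  have hlt : v (px P - r) < 1 := by
    rw [nodeE0_iff h0] at hP; exact not_le.mp hP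
  have hx : v (px P) ≤ 1 := by
    have : px P = (px P - r) + r := by ring
    rw [this]
    exact v_add_le_one hlt.le h.hr
  have hQ0 : shiftPt W r t P ≠ 0 := fun h' => h0 (shiftPt_eq_zero.mp h')
  have ex : px (shiftPt W r t P) = px P - r := px_shiftPt h0
  have ey : py (shiftPt W r t P) = py P - t := py_shiftPt h0
  refine ⟨h0, hlt, ?_⟩
  have e := eqn_of_ne_zero hQ0
  rw [ex, ey] at e
  have h3 : (shiftCurve W r t).a₃ = 0 := h.slopes.a₃
  have h4 : (shiftCurve W r t).a₄ = 0 := h.slopes.a₄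
  rw [h3, h4] at e
  have hyle : v (py P - t) ≤ 1 := v_sub_le_one (val_py_le_one h.int hx) h.ht
  have e2 : (py P - t) ^ 2 = (px P - r) ^ 3 + (shiftCurve W r t).a₂ * (px P - r) ^ 2 +
      (shiftCurve W r t).a₆ - (shiftCurve W r t).a₁ * (px P - r) * (py P - t) := by
    linear_combination e
  have e3 : v ((py P - t) ^ 2) < 1 := by
    rw [e2]
    refine v_sub_lt_one (v_add_lt_one (v_add_lt_one (v_pow_lt_one hlt three_ne_zero)
      (v_mul_lt_one_right h.int_shift.h₂ (v_pow_lt_one hlt two_ne_zero))) h.a₆) ?_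
    exact v_mul_lt_one_left (v_mul_lt_one_right h.int_shift.h₁ hlt) hyle
  by_contra hcon
  push Not at hcon
  have : v (py P - t) = 1 := le_antisymm hyle hcon
  rw [map_pow, this, one_pow] at e3
  exact lt_irrefl _ e3

omit [DecidableEq F] in
/-- `ψ₂` is small at points outside `E₀` -/
theorem NodeData.val_psi2_lt (h : NodeData v W r t α β) {P : W.Point}
    (hP : ¬ NodeE0 v r t P) : v (H08.psi2 P) < 1 := by
  obtain ⟨h0, hx, hy⟩ := h.val_of_not_nodeE0 hP
  have h3 : (shiftCurve W r t).a₃ = 0 := h.slopes.a₃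
  have e3 : (shiftCurve W r t).a₃ = W.a₃ + r * W.a₁ + 2 * t := rfl
  have e : H08.psi2 P = 2 * (py P - t) + W.a₁ * (px P - r) := by
    rw [H08.psi2]; linear_combination h3 - e3
  rw [e]
  exact v_add_lt_one (v_mul_lt_one_right (v_ofNat_le_one v 2) hy)
    (v_mul_lt_one_right h.int.h₁ hx)

/-- `ψ₂` is a unit at points of `E₀` of odd order prime to the residue characteristic -/
theorem NodeData.val_psi2_eq_one (h : NodeData v W r t α β) {P : W.Point} {n : ℕ} (hn : Odd n)
    (hnP : n • P = 0) (hvn : v (n : F) = 1) (hP0 : P ≠ 0) (hP : NodeE0 v r t P) :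
    v (H08.psi2 P) = 1 := by
  have hx : v (px P) ≤ 1 := val_px_le_one_of_torsion h.int hnP hvn
  have hy := val_py_le_one h.int hx
  have hle : v (H08.psi2 P) ≤ 1 := by
    unfold H08.psi2
    exact v_add_le_one (v_add_le_one (v_mul_le_one (v_ofNat_le_one v 2) hy)
      (v_mul_le_one h.int.h₁ hx)) h.int.h₃
  by_contra hne
  have hlt := lt_of_le_of_ne hle hne
  have hneg0 : -P ≠ 0 := fun h' => hP0 (by
    have := congrArg (fun Q => -Q) h'
    simpa using this)
  have h1 : InE1 v (P - -P) := by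
    apply inE1_sub_of_congr h.int hP0 hneg0 hx
    · rw [px_neg, sub_self]; simp
    · rw [py_neg hP0]
      have : py P - (-py P - W.a₁ * px P - W.a₃) = H08.psi2 P := by
        unfold H08.psi2; ring
      rw [this]; exact hlt
    · exact hP.nonsingularRed h hP0 hx
  rw [sub_neg_eq_add] at h1
  obtain ⟨m, hm⟩ := hn
  have h2 : P = (m + 1) • (P + P) := by
    have : (m + 1) • (P + P) = n • P + P := by
      rw [hm, ← two_nsmul, ← mul_nsmul, ← succ_nsmul]; congr 1
    rw [this, hnP, zero_add]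
  have h3 : P ∈ E1 v W h.int := by
    rw [h2]
    exact AddSubgroup.nsmul_mem _ (show P + P ∈ E1 v W h.int from h1) _
  have h4 : InE1 v P := h3
  exact hP0 (h4.eq_zero_of_torsion h.int hnP hvn)

theorem mem_cyc {p : ℕ} {P₀ : W.Point} (hord : addOrderOf P₀ = p) {Q : W.Point}
    (hQ : Q ∈ cyc p P₀) : ∃ k, 1 ≤ k ∧ k < p ∧ Q = k • P₀ ∧ Q ≠ 0 ∧ p • Q = 0 := by
  obtain ⟨k, hk, rfl⟩ := Finset.mem_image.mp hQ
  rw [Finset.mem_Ico] at hk
  refine ⟨k, hk.1, hk.2, rfl, ?_, ?_⟩
  · intro h0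
    have : p ∣ k := by rw [← hord]; exact addOrderOf_dvd_of_nsmul_eq_zero h0
    have := Nat.le_of_dvd (by omega) this
    omega
  · have hpP : p • P₀ = 0 := by rw [← hord]; exact addOrderOf_nsmul_eq_zero P₀
    rw [smul_comm, hpP, smul_zero]

omit [DecidableEq F] in
/-- type II: `c₄' ≡ c₄` -/
theorem NodeData.val_veluC4_sub (h : NodeData v W r t α β) {S : Finset W.Point}
    (hS : ∀ Q ∈ S, ¬ NodeE0 v r t Q) : v (veluC4 W S - W.c₄) < 1 := by
  unfold veluC4
  rw [add_sub_cancel_left]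
  refine Valuation.map_sum_lt v one_ne_zero ?_
  intro Q hQ
  rw [h.velu_term]
  obtain ⟨h0, hx, hy⟩ := h.val_of_not_nodeE0 (hS Q hQ)
  have hD : v ((β - α) ^ 2) ≤ 1 := by rw [map_pow, h.val_diff, one_pow]
  exact v_mul_lt_one_right (v_ofNat_le_one v 120) (v_add_lt_one (v_mul_lt_one_right
    (v_ofNat_le_one v 6) (v_pow_lt_one hx two_ne_zero)) (v_mul_lt_one_right hD hx))

end

section

variable {F : Type*} [Field F] [DecidableEq F] {A : ValuationSubring F}
  {W : WeierstrassCurve.Affine F} {r t α β : F}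

/-- type I: `c₄'` is a unit -/
theorem NodeData.val_veluC4_eq_one (h : NodeData A.valuation W r t α β) {N : ℕ} (hN : N.Prime)
    (hvN : A.valuation (N : F) = 1) {P₀ : W.Point} (hord : addOrderOf P₀ = N)
    (hE0 : NodeE0 A.valuation r t P₀) : A.valuation (veluC4 W (cyc N P₀)) = 1 := by
  have hNP : N • P₀ = 0 := by rw [← hord]; exact addOrderOf_nsmul_eq_zero P₀
  have hP0 : P₀ ≠ 0 := by
    rintro rfl
    rw [addOrderOf_zero] at hord
    exact hN.one_lt.ne hord
  have htor : ∀ k : ℕ, N • (k • P₀) = 0 := fun k => by rw [smul_comm, hNP, smul_zero]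
  have hx1 : ∀ k : ℕ, A.valuation (px (k • P₀)) ≤ 1 := fun k =>
    val_px_le_one_of_torsion h.int (htor k) hvN
  have hxr : ∀ k : ℕ, A.valuation (px (k • P₀) - r) ≤ 1 := fun k => v_sub_le_one (hx1 k) h.hr
  have hne : ∀ k ∈ Finset.Ico 1 N, k • P₀ ≠ 0 := by
    intro k hk h0
    rw [Finset.mem_Ico] at hk
    have : N ∣ k := by rw [← hord]; exact addOrderOf_dvd_of_nsmul_eq_zero h0
    have := Nat.le_of_dvd (by omega) this
    omega
  have hkE0 : ∀ k : ℕ, NodeE0 A.valuation r t (k • P₀) := fun k => hE0.nsmul h k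
  have hsh : ∀ k : ℕ, shiftPt W r t (k • P₀) = k • shiftPt W r t P₀ := fun k =>
    map_nsmul (shiftHom W r t) k P₀
  have hIE0 : ∀ k : ℕ, InE0 A.valuation (shiftPt W r t (k • P₀)) := fun k => hkE0 k
  have hu1 : ∀ k : ℕ, A.valuation (uFun α β (shiftPt W r t (k • P₀))) = 1 := fun k =>
    val_uFun h.slopes h.a₆ (hIE0 k)
  -- lifts to the valuation ring
  let uA : ℕ → A := fun k => ⟨uFun α β (shiftPt W r t (k • P₀)),
    (A.valuation_le_one_iff _).mp (hu1 k).le⟩
  let xA : ℕ → A := fun k => ⟨px (k • P₀) - r, (A.valuation_le_one_iff _).mp (hxr k)⟩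
  have hD1 : A.valuation ((β - α) ^ 2) = 1 := by rw [map_pow, h.val_diff, one_pow]
  let DA : A := ⟨(β - α) ^ 2, (A.valuation_le_one_iff _).mp hD1.le⟩
  let R := IsLocalRing.residue A
  have hRlt : ∀ z : A, R z = 0 ↔ A.valuation (z : F) < 1 := fun z => by
    change IsLocalRing.residue A z = 0 ↔ _
    rw [IsLocalRing.residue_eq_zero_iff, ValuationSubring.valuation_lt_one_iff]
  -- the root of unity
  set ζ := R (uA 1) with hζ
  have hζk : ∀ k : ℕ, R (uA k) = ζ ^ k := by
    intro k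
    rw [hζ, ← map_pow, ← sub_eq_zero, ← map_sub, hRlt]
    have h1 := uFun_nsmul h.slopes h.int_shift h.a₆ h.b₄ h.b₆ h.b₈ (P := shiftPt W r t P₀)
      hE0 k
    rw [← hsh] at h1
    have e : ((uA k - uA 1 ^ k : A) : F) = uFun α β (shiftPt W r t (k • P₀)) -
        uFun α β (shiftPt W r t ((1 : ℕ) • P₀)) ^ k := rfl
    rw [e, one_smul]
    exact h1
  have hζN : ζ ^ N = 1 := by
    rw [← hζk, ← sub_eq_zero, ← map_one R, ← map_sub, hRlt]
    have e : ((uA N - 1 : A) : F) = uFun α β (shiftPt W r t (N • P₀)) - 1 := rfl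
    rw [e, hNP]
    have : shiftPt W r t (0 : W.Point) = 0 := rfl
    rw [this, uFun_zero, sub_self]; simp
  have hζ1 : ζ ≠ 1 := by
    intro h1
    rw [hζ, ← sub_eq_zero, ← map_one R, ← map_sub, hRlt] at h1
    have e : ((uA 1 - 1 : A) : F) = uFun α β (shiftPt W r t ((1 : ℕ) • P₀)) - 1 := rfl
    rw [e, one_smul] at h1
    have h2 : InE1 A.valuation (shiftPt W r t P₀) := inE1_of_uFun h.slopes h.a₆ hE0 h1
    have hQ0 : shiftPt W r t P₀ ≠ 0 := fun h' => hP0 (shiftPt_eq_zero.mp h')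
    have h3 : 1 < A.valuation (px (shiftPt W r t P₀)) := h2.resolve_left hQ0
    rw [px_shiftPt hP0] at h3
    have := hxr 1
    rw [one_smul] at this
    exact absurd h3 (not_lt.mpr this)
  have hprim : IsPrimitiveRoot ζ N := by
    have : Fact N.Prime := ⟨hN⟩
    rw [← orderOf_eq_prime hζN hζ1]
    exact IsPrimitiveRoot.orderOf ζ
  -- the abscissa in terms of the root of unity
  have hxζ : ∀ k ∈ Finset.Ico 1 N, R (xA k) = R DA * (ζ ^ k / (1 - ζ ^ k) ^ 2) := by
    intro k hk
    have h0 := hne k hk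
    have hQ0 : shiftPt W r t (k • P₀) ≠ 0 := fun h' => h0 (shiftPt_eq_zero.mp h')
    have hζk1 : ζ ^ k ≠ 1 := by
      rw [Finset.mem_Ico] at hk
      exact hprim.pow_ne_one_of_pos_of_lt (by omega) hk.2
    have ex : px (shiftPt W r t (k • P₀)) = px (k • P₀) - r := px_shiftPt h0
    have hx0 : A.valuation (px (k • P₀) - r) = 1 := by
      refine le_antisymm (hxr k) ?_
      exact (nodeE0_iff h0).mp (hkE0 k)
    -- relation
    set X' := px (shiftPt W r t (k • P₀)) with hX'
    set Y' := py (shiftPt W r t (k • P₀)) with hY'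
    have hval := h.slopes.val_eq h.a₆ hQ0 (by rw [← hX', ex, hx0])
    have hb0 : A.valuation (Y' - β * X') = 1 := by
      apply pow_inj two_ne_zero
      rw [hval.2, ← hX', ex, hx0]; simp
    have hb0' : Y' - β * X' ≠ 0 := by
      intro h1; rw [h1, _root_.map_zero] at hb0; exact zero_ne_one hb0
    have hmul := h.slopes.mul_eq hQ0
    rw [← hX', ← hY'] at hmul
    have hu : uFun α β (shiftPt W r t (k • P₀)) = (Y' - α * X') / (Y' - β * X') :=
      uFun_of_ne hQ0
    have e1 : (uFun α β (shiftPt W r t (k • P₀)) - 1) ^ 2 * X' ^ 3 -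
        (β - α) ^ 2 * X' ^ 2 * uFun α β (shiftPt W r t (k • P₀)) =
        -((uFun α β (shiftPt W r t (k • P₀)) - 1) ^ 2 * (shiftCurve W r t).a₆) := by
      set u := uFun α β (shiftPt W r t (k • P₀)) with hudef
      have h7 : u * (Y' - β * X') = Y' - α * X' := by rw [hu, div_mul_cancel₀ _ hb0']
      have h8 : (u - 1) * (Y' - β * X') = (β - α) * X' := by linear_combination h7
      linear_combination (-(u - 1) ^ 2) * hmul - (u - 1) ^ 2 * (Y' - β * X') * h7 +
        u * ((u - 1) * (Y' - β * X') + (β - α) * X') * h8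
    have e2 : A.valuation ((uFun α β (shiftPt W r t (k • P₀)) - 1) ^ 2 * X' ^ 3 -
        (β - α) ^ 2 * X' ^ 2 * uFun α β (shiftPt W r t (k • P₀))) < 1 := by
      rw [e1, Valuation.map_neg]
      exact v_mul_lt_one_right (v_pow_le_one (v_sub_le_one (hu1 k).le (by simp)) 2) h.a₆
    have e3 : R ((uA k - 1) ^ 2 * xA k ^ 3 - DA * xA k ^ 2 * uA k) = 0 := by
      rw [hRlt]
      have e : (((uA k - 1) ^ 2 * xA k ^ 3 - DA * xA k ^ 2 * uA k : A) : F) =
          (uFun α β (shiftPt W r t (k • P₀)) - 1) ^ 2 * (px (k • P₀) - r) ^ 3 -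
          (β - α) ^ 2 * (px (k • P₀) - r) ^ 2 * uFun α β (shiftPt W r t (k • P₀)) := rfl
      rw [e, ← ex]; exact e2
    simp only [map_sub, map_mul, map_pow, map_one] at e3
    rw [hζk] at e3
    have hRx : R (xA k) ≠ 0 := by
      rw [Ne, hRlt, not_lt]; exact hx0.ge
    have e4 : (ζ ^ k - 1) ^ 2 * R (xA k) = R DA * ζ ^ k := by
      have h5 : R (xA k) ^ 2 ≠ 0 := pow_ne_zero 2 hRx
      apply mul_left_cancel₀ h5
      linear_combination e3
    have h6 : (1 - ζ ^ k) ^ 2 ≠ 0 := pow_ne_zero 2 (sub_ne_zero.mpr hζk1.symm)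
    rw [← mul_div_assoc, eq_div_iff h6]
    linear_combination e4
  -- the sum
  let cA : A := DA ^ 2 + ∑ k ∈ Finset.Ico 1 N, 120 * (6 * xA k ^ 2 + DA * xA k)
  have hcA : (cA : F) = veluC4 W (cyc N P₀) := by
    unfold veluC4 cyc
    rw [Finset.sum_image (cyc_injOn hord), h.c₄_eq]
    have e : (cA : F) = ((β - α) ^ 2) ^ 2 + ∑ k ∈ Finset.Ico 1 N,
        (120 : F) * (6 * (px (k • P₀) - r) ^ 2 + (β - α) ^ 2 * (px (k • P₀) - r)) := by
      have : (cA : F) = A.subtype cA := rfl
      rw [this]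
      simp only [cA, map_add, map_pow, map_sum, map_mul, map_ofNat]
      rfl
    rw [e]
    congr 1
    · ring
    · apply Finset.sum_congr rfl
      intro k _
      rw [h.velu_term]
  have hRD : R DA ≠ 0 := by
    rw [Ne, hRlt, not_lt]; exact hD1.ge
  have hRN : (N : IsLocalRing.ResidueField A) ≠ 0 := by
    have : (N : IsLocalRing.ResidueField A) = R (N : A) := by simp
    rw [this, Ne, hRlt, not_lt]
    have e : ((N : A) : F) = (N : F) := by simp
    rw [e, hvN]
  have hRc : R cA ≠ 0 := by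
    have e : R cA = R DA ^ 2 * (1 + 120 * ∑ k ∈ Finset.Ico 1 N,
        (6 * (ζ ^ k / (1 - ζ ^ k) ^ 2) ^ 2 + ζ ^ k / (1 - ζ ^ k) ^ 2)) := by
      simp only [cA, map_add, map_pow, map_sum, map_mul, map_ofNat]
      rw [mul_add, mul_one, Finset.mul_sum, Finset.mul_sum]
      congr 1
      apply Finset.sum_congr rfl
      intro k hk
      rw [hxζ k hk]; ring
    rw [e]
    apply mul_ne_zero (pow_ne_zero 2 hRD)
    by_cases h30 : (30 : IsLocalRing.ResidueField A) = 0
    · have : (120 : IsLocalRing.ResidueField A) = 4 * 30 := by norm_num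
      rw [this, h30, mul_zero, zero_mul, add_zero]
      exact one_ne_zero
    · rw [sum_roots hRN h30 (Finset.Ico 1 N) (fun k => ζ ^ k) (fun k hk => by
        rw [Finset.mem_Ico] at hk
        exact hprim.pow_ne_one_of_pos_of_lt (by omega) hk.2)
        (prod_pow_primitive hN.pos hprim)]
      exact pow_ne_zero 4 hRN
  rw [← hcA]
  refine le_antisymm (A.valuation_le_one cA) ?_
  rw [Ne, hRlt, not_lt] at hRc
  exact hRc

end

end Fermat.Agent.H09
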