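import Mathlib
import Fermat.Agent.H09.TypeVal
import Fermat.Agent.H09.S12Red
import Fermat.Agent.H24.Velu
import Fermat.Agent.H24.Velu2

set_option autoImplicit false

/-!
# Types I and II: valuation of the `j`-invariant of the quotient
-/

namespace Fermat.Agent.H09

open Polynomial WeierstrassCurve WeierstrassCurve.Affine WeierstrassCurve.Affine.Point
open Fermat.Agent.H08

local notation "Qb" => AlgebraicClosure ℚ

section

variable {F : Type*} [Field F] {W : WeierstrassCurve.Affine F}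

theorem ps_eq_psi2 {P : W.Point} (hP : P ≠ 0) : H24.ps P = H08.psi2 P := by
  rcases P with _ | ⟨x, y, h⟩
  · exact absurd rfl hP
  · rfl

theorem t4_eq [CharZero F] {P : W.Point} (hP : P ≠ 0) :
    H24.t4 P = 120 * (6 * px P ^ 2 + W.b₂ * px P + W.b₄) := by
  rcases P with _ | ⟨x, y, h⟩
  · exact absurd rfl hP
  · rw [H24.t4_some, WeierstrassCurve.c₄]
    change _ = 120 * (6 * x ^ 2 + W.b₂ * x + W.b₄)
    field_simp
    ring

variable [DecidableEq F]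

theorem veluC4_eq_velu [CharZero F] {N : ℕ} (hN : N.Prime) {C : AddSubgroup W.Point}
    (hC : Nat.card C = N) {P : W.Point} (hP : P ∈ C) (hP0 : P ≠ 0) (hord : addOrderOf P = N) :
    H24.veluC4 W (C : Set W.Point) = veluC4 W (cyc N P) := by
  rw [H24.veluC4, H24.finsum_subgroup hN hC hP hP0, Finset.range_eq_Ico,
    Finset.sum_eq_sum_Ico_succ_bot hN.pos, zero_nsmul, H24.t4_zero, _root_.zero_add]
  unfold veluC4 cyc
  rw [Finset.sum_image (cyc_injOn hord)]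
  congr 1
  apply Finset.sum_congr rfl
  intro k hk
  apply t4_eq
  intro h0
  rw [Finset.mem_Ico] at hk
  have : N ∣ k := by rw [← hord]; exact addOrderOf_dvd_of_nsmul_eq_zero h0
  have := Nat.le_of_dvd (by omega) this
  omega

theorem prodPs_eq {N : ℕ} (hN : N.Prime) {C : AddSubgroup W.Point}
    (hC : Nat.card C = N) {P : W.Point} (hP : P ∈ C) (hP0 : P ≠ 0) (hord : addOrderOf P = N) :
    ∏ᶠ Q ∈ (C : Set W.Point), H24.ps Q ^ 4 = ∏ Q ∈ cyc N P, H08.psi2 Q ^ 4 := by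
  rw [H24.finprod_subgroup hN hC hP hP0, Finset.range_eq_Ico,
    Finset.prod_eq_prod_Ico_succ_bot hN.pos, zero_nsmul, H24.ps_zero, one_pow, one_mul]
  unfold cyc
  rw [Finset.prod_image (cyc_injOn hord)]
  apply Finset.prod_congr rfl
  intro k hk
  rw [ps_eq_psi2]
  intro h0
  rw [Finset.mem_Ico] at hk
  have : N ∣ k := by rw [← hord]; exact addOrderOf_dvd_of_nsmul_eq_zero h0
  have := Nat.le_of_dvd (by omega) this
  omega

/-- outside `E₀` for one nonzero point means outside `E₀` for all -/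
theorem not_nodeE0_cyc {Γ₀ : Type*} [LinearOrderedCommGroupWithZero Γ₀] {v : Valuation F Γ₀}
    {r t α β : F} (h : NodeData v W r t α β) {N : ℕ} (hN : N.Prime) {P₀ : W.Point}
    (hord : addOrderOf P₀ = N) (hE0 : ¬ NodeE0 v r t P₀) :
    ∀ Q ∈ cyc N P₀, ¬ NodeE0 v r t Q := by
  intro Q hQ hQE
  obtain ⟨k, hk1, hk2, rfl, h0, hN0⟩ := mem_cyc hord hQ
  apply hE0
  have hcop : Nat.Coprime k N := by
    rw [Nat.coprime_comm]
    exact (Nat.Prime.coprime_iff_not_dvd hN).mpr (Nat.not_dvd_of_pos_of_lt (by omega) hk2)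
  obtain ⟨m, hm⟩ := Nat.exists_mul_mod_eq_one_of_coprime hcop hN.one_lt
  have e : P₀ = m • (k • P₀) := by
    rw [← mul_nsmul, ← mod_addOrderOf_nsmul, hord, hm.2, one_nsmul]
  rw [e]
  exact hQE.nsmul h m

end

section

variable {F : Type*} [Field F] [CharZero F] [DecidableEq F] {A : ValuationSubring F}
  {W : WeierstrassCurve.Affine F} {r t α β : F}

/-- type I -/
theorem typeI_core (h : NodeData A.valuation W r t α β) {N : ℕ} (hN : N.Prime) (hN2 : N ≠ 2)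
    (hvN : A.valuation (N : F) = 1) {C : AddSubgroup W.Point} (hC : Nat.card C = N)
    (hI : ∀ Q ∈ C, NodeE0 A.valuation r t Q) :
    A.valuation (H24.veluC4 W (C : Set W.Point)) = 1 ∧
      A.valuation (∏ᶠ Q ∈ (C : Set W.Point), H24.ps Q ^ 4) = 1 := by
  obtain ⟨P, hPC, hP0, hPN⟩ := H24.exists_gen_of_card hN hC
  have : Fact N.Prime := ⟨hN⟩
  have hord : addOrderOf P = N := addOrderOf_eq_prime hPN hP0
  constructor
  · rw [veluC4_eq_velu hN hC hPC hP0 hord]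
    exact h.val_veluC4_eq_one hN hvN hord (hI P hPC)
  · rw [prodPs_eq hN hC hPC hP0 hord, map_prod]
    apply Finset.prod_eq_one
    intro Q hQ
    obtain ⟨k, hk1, hk2, rfl, h0, hN0⟩ := mem_cyc hord hQ
    rw [map_pow, h.val_psi2_eq_one (hN.odd_of_ne_two hN2) hN0 hvN h0
      (hI _ (C.nsmul_mem hPC k)), one_pow]

/-- type II -/
theorem typeII_core (h : NodeData A.valuation W r t α β) (hc₄ : A.valuation W.c₄ = 1)
    {N : ℕ} (hN : N.Prime) {C : AddSubgroup W.Point} (hC : Nat.card C = N)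
    (hII : ¬ ∀ Q ∈ C, NodeE0 A.valuation r t Q) :
    A.valuation (H24.veluC4 W (C : Set W.Point)) = 1 ∧
      A.valuation (∏ᶠ Q ∈ (C : Set W.Point), H24.ps Q ^ 4) < 1 := by
  push Not at hII
  obtain ⟨P, hPC, hPE⟩ := hII
  have hP0 : P ≠ 0 := by rintro rfl; exact hPE NodeE0.zero
  have : Fact N.Prime := ⟨hN⟩
  have hfin : Finite C := Nat.finite_of_card_ne_zero (by rw [hC]; exact hN.ne_zero)
  have hord : addOrderOf P = N := by
    have h1 : addOrderOf P ∣ N := by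
      rw [← hC, ← AddSubgroup.addOrderOf_mk P hPC]
      exact addOrderOf_dvd_natCard _
    rcases (Nat.dvd_prime hN).mp h1 with h | h
    · exact absurd (AddMonoid.addOrderOf_eq_one_iff.mp h) hP0
    · exact h
  have hall := not_nodeE0_cyc h hN hord hPE
  constructor
  · rw [veluC4_eq_velu hN hC hPC hP0 hord]
    have h1 := h.val_veluC4_sub hall
    have e : veluC4 W (cyc N P) = (veluC4 W (cyc N P) - W.c₄) + W.c₄ := by ring
    rw [e, Valuation.map_add_eq_of_lt_right, hc₄]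
    rw [hc₄]; exact h1
  · rw [prodPs_eq hN hC hPC hP0 hord, map_prod]
    have h1 : ∀ Q ∈ cyc N P, A.valuation (H08.psi2 Q ^ 4) < 1 := fun Q hQ => by
      rw [map_pow]
      exact pow_lt_one₀ zero_le (h.val_psi2_lt (hall Q hQ)) four_ne_zero
    have hmem : P ∈ cyc N P := by
      unfold cyc
      refine Finset.mem_image.mpr ⟨1, ?_, one_smul _ _⟩
      rw [Finset.mem_Ico]
      exact ⟨le_rfl, hN.one_lt⟩
    rw [← Finset.mul_prod_erase _ _ hmem]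
    refine lt_of_le_of_lt (mul_le_mul_right (Finset.prod_le_one (fun _ _ => zero_le)
      (fun Q hQ => (h1 Q (Finset.mem_of_mem_erase hQ)).le)) _) ?_
    rw [mul_one]
    exact h1 P hmem

end

section

variable {W : WeierstrassCurve ℤ} {N ℓ : ℕ} {A : ValuationSubring Qb}
  {C : AddSubgroup ((W.map (Int.castRingHom ℚ))⁄Qb).Point}

theorem val_j_eq (hℓ : ℓ.Prime) (hℓc₄ : ¬ (ℓ : ℤ) ∣ W.c₄)
    (hA : A.LiesOverPrime ℓ) :
    A.valuation (((W.map (Int.castRingHom ℚ))⁄Qb).c₄ ^ 3 /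
      ((W.map (Int.castRingHom ℚ))⁄Qb).Δ) =
      (A.valuation ((W.map (Int.castRingHom ℚ))⁄Qb).Δ)⁻¹ := by
  have h2 : A.valuation ((W.map (Int.castRingHom ℚ))⁄Qb).c₄ = 1 := by
    rw [← map_int_Qb, map_c₄]; exact val_intCast_eq_one hℓ hA hℓc₄
  rw [map_div₀, map_pow, h2, one_pow, one_div]

/-- **Type I**: `v(j') = N v(j)`, given the product formula. -/
theorem typeI_veluJ (hΔ : W.Δ ≠ 0) (hN : N.Prime) (hN2 : N ≠ 2) (hC : Nat.card C = N)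
    (hℓ : ℓ.Prime) (hℓN : ℓ ≠ N) (hℓΔ : (ℓ : ℤ) ∣ W.Δ) (hℓc₄ : ¬ (ℓ : ℤ) ∣ W.c₄)
    (hA : A.LiesOverPrime ℓ) (hI : ∀ Q ∈ C, W.InZeroComponentAt A Q)
    (hprod : H24.veluD ((W.map (Int.castRingHom ℚ))⁄Qb) (C : Set _) *
      ∏ᶠ Q ∈ (C : Set ((W.map (Int.castRingHom ℚ))⁄Qb).Point), H24.ps Q ^ 4 =
      ((W.map (Int.castRingHom ℚ))⁄Qb).Δ ^ N) :
    A.valuation (H24.veluJ ((W.map (Int.castRingHom ℚ))⁄Qb) (C : Set _)) =
      A.valuation (((W.map (Int.castRingHom ℚ))⁄Qb).c₄ ^ 3 /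
        ((W.map (Int.castRingHom ℚ))⁄Qb).Δ) ^ N := by
  obtain ⟨hc₄, r, t, α, β, h⟩ := exists_nodeData_int hΔ hℓ hℓΔ hℓc₄ hA
  obtain ⟨h1, h2⟩ := typeI_core h hN hN2 (val_prime_eq_one hN hℓ hℓN hA) hC (fun Q hQ =>
    (nodeE0_iff_nonsingularRed h).mpr (inZeroComponentAt_iff.mp (hI Q hQ)))
  have h3 := congrArg A.valuation hprod
  rw [map_mul, h2, mul_one, map_pow] at h3
  rw [val_j_eq hℓ hℓc₄ hA, H24.veluJ, map_div₀, map_pow, h1, h3, one_pow, one_div, inv_pow]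

/-- **Type II**: `v(j') > N v(j)` (additively), given the product formula. -/
theorem typeII_veluJ_lt (hΔ : W.Δ ≠ 0) (hN : N.Prime) (hC : Nat.card C = N)
    (hℓ : ℓ.Prime) (hℓΔ : (ℓ : ℤ) ∣ W.Δ) (hℓc₄ : ¬ (ℓ : ℤ) ∣ W.c₄)
    (hA : A.LiesOverPrime ℓ) (hII : ¬ ∀ Q ∈ C, W.InZeroComponentAt A Q)
    (hprod : H24.veluD ((W.map (Int.castRingHom ℚ))⁄Qb) (C : Set _) *
      ∏ᶠ Q ∈ (C : Set ((W.map (Int.castRingHom ℚ))⁄Qb).Point), H24.ps Q ^ 4 =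
      ((W.map (Int.castRingHom ℚ))⁄Qb).Δ ^ N) :
    A.valuation (H24.veluJ ((W.map (Int.castRingHom ℚ))⁄Qb) (C : Set _)) <
      A.valuation (((W.map (Int.castRingHom ℚ))⁄Qb).c₄ ^ 3 /
        ((W.map (Int.castRingHom ℚ))⁄Qb).Δ) ^ N := by
  obtain ⟨hc₄, r, t, α, β, h⟩ := exists_nodeData_int hΔ hℓ hℓΔ hℓc₄ hA
  have hII' : ¬ ∀ Q ∈ C, NodeE0 A.valuation r t Q := by
    intro hI
    exact hII fun Q hQ =>
      inZeroComponentAt_iff.mpr ((nodeE0_iff_nonsingularRed h).mp (hI Q hQ))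
  obtain ⟨h1, h2⟩ := typeII_core h hc₄ hN hC hII'
  have h3 := congrArg A.valuation hprod
  rw [map_mul, map_pow] at h3
  have hv0 : A.valuation ((W.map (Int.castRingHom ℚ))⁄Qb).Δ ≠ 0 :=
    (Valuation.ne_zero_iff _).mpr (Δ_Qb_ne_zero hΔ)
  have hvN0 : 0 < A.valuation ((W.map (Int.castRingHom ℚ))⁄Qb).Δ ^ N :=
    pow_pos (zero_lt_iff.mpr hv0) N
  have hD0 : A.valuation (H24.veluD ((W.map (Int.castRingHom ℚ))⁄Qb) (C : Set _)) ≠ 0 := by
    intro h0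
    rw [h0, zero_mul] at h3
    exact hvN0.ne h3
  have h4 : A.valuation ((W.map (Int.castRingHom ℚ))⁄Qb).Δ ^ N <
      A.valuation (H24.veluD ((W.map (Int.castRingHom ℚ))⁄Qb) (C : Set _)) := by
    rw [← h3]
    calc _ < A.valuation (H24.veluD ((W.map (Int.castRingHom ℚ))⁄Qb) (C : Set _)) * 1 :=
          mul_lt_mul_of_pos_left h2 (zero_lt_iff.mpr hD0)
      _ = _ := mul_one _
  rw [val_j_eq hℓ hℓc₄ hA, H24.veluJ, map_div₀, map_pow, h1, one_pow, one_div, inv_pow]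
  exact (inv_lt_inv₀ (zero_lt_iff.mpr hD0) hvN0).mpr h4

/-- the product formula for an integral Weierstrass curve -/
theorem velu_disc_int (hΔ : W.Δ ≠ 0) (hN : N.Prime) (hN2 : N ≠ 2) (hC : Nat.card C = N) :
    H24.veluD ((W.map (Int.castRingHom ℚ))⁄Qb) (C : Set _) *
      ∏ᶠ Q ∈ (C : Set ((W.map (Int.castRingHom ℚ))⁄Qb).Point), H24.ps Q ^ 4 =
      ((W.map (Int.castRingHom ℚ))⁄Qb).Δ ^ N := by
  have : NeZero N := ⟨hN.ne_zero⟩
  have halg : Algebra.IsAlgebraic ℚ Qb := AlgebraicClosure.isAlgebraic ℚ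
  let f : Qb →ₐ[ℚ] ℂ := IsAlgClosed.lift (R := ℚ) (S := Qb) (M := ℂ)
  have hΔQ : (W.map (Int.castRingHom ℚ)).Δ ≠ 0 := by
    rw [map_Δ]; simpa using hΔ
  exact H24.velu_disc' f hΔQ hN hN2 hC

/-- **Type I**: `v(j') = N v(j)`. -/
theorem typeI_j (hΔ : W.Δ ≠ 0) (hN : N.Prime) (hN2 : N ≠ 2) (hC : Nat.card C = N)
    (hℓ : ℓ.Prime) (hℓN : ℓ ≠ N) (hℓΔ : (ℓ : ℤ) ∣ W.Δ) (hℓc₄ : ¬ (ℓ : ℤ) ∣ W.c₄)
    (hA : A.LiesOverPrime ℓ) (hI : ∀ Q ∈ C, W.InZeroComponentAt A Q) :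
    A.valuation (H24.veluJ ((W.map (Int.castRingHom ℚ))⁄Qb) (C : Set _)) =
      A.valuation (((W.map (Int.castRingHom ℚ))⁄Qb).c₄ ^ 3 /
        ((W.map (Int.castRingHom ℚ))⁄Qb).Δ) ^ N :=
  typeI_veluJ hΔ hN hN2 hC hℓ hℓN hℓΔ hℓc₄ hA hI (velu_disc_int hΔ hN hN2 hC)

/-- **Type II**. -/
theorem typeII_j_lt (hΔ : W.Δ ≠ 0) (hN : N.Prime) (hN2 : N ≠ 2) (hC : Nat.card C = N)
    (hℓ : ℓ.Prime) (hℓΔ : (ℓ : ℤ) ∣ W.Δ) (hℓc₄ : ¬ (ℓ : ℤ) ∣ W.c₄)
    (hA : A.LiesOverPrime ℓ) (hII : ¬ ∀ Q ∈ C, W.InZeroComponentAt A Q) :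
    A.valuation (H24.veluJ ((W.map (Int.castRingHom ℚ))⁄Qb) (C : Set _)) <
      A.valuation (((W.map (Int.castRingHom ℚ))⁄Qb).c₄ ^ 3 /
        ((W.map (Int.castRingHom ℚ))⁄Qb).Δ) ^ N :=
  typeII_veluJ_lt hΔ hN hC hℓ hℓΔ hℓc₄ hA hII (velu_disc_int hΔ hN hN2 hC)

/-- `v(j) < 0` -/
theorem one_lt_val_j (hΔ : W.Δ ≠ 0) (hℓ : ℓ.Prime) (hℓΔ : (ℓ : ℤ) ∣ W.Δ)
    (hℓc₄ : ¬ (ℓ : ℤ) ∣ W.c₄) (hA : A.LiesOverPrime ℓ) :
    1 < A.valuation (((W.map (Int.castRingHom ℚ))⁄Qb).c₄ ^ 3 /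
        ((W.map (Int.castRingHom ℚ))⁄Qb).Δ) := by
  rw [val_j_eq hℓ hℓc₄ hA]
  have hv0 : A.valuation ((W.map (Int.castRingHom ℚ))⁄Qb).Δ ≠ 0 :=
    (Valuation.ne_zero_iff _).mpr (Δ_Qb_ne_zero hΔ)
  apply (one_lt_inv₀ (zero_lt_iff.mpr hv0)).mpr
  rw [← map_int_Qb, map_Δ]
  exact val_intCast_lt_one hA hℓΔ

end

end Fermat.Agent.H09
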