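import Mathlib
import Fermat.Agent.H09.RedCusp
import Fermat.Agent.H24.PlaceGal

set_option autoImplicit false
set_option linter.style.haveILetI false
set_option linter.unusedSectionVars false

/-! M4: the rational point of `X₀(N)` attached to `(W, C)` and its reductions. -/

noncomputable section

namespace Fermat.Agent.H09

open AlgebraicCurve IsDedekindDomain IsLocalRing Polynomial Fermat.Agent.H28 Fermat.Agent.FF
open ModularCurve (modularFunctionFieldBar modularFunctionFieldFull arithmeticGalois)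
open WeierstrassCurve WeierstrassCurve.Affine WeierstrassCurve.Affine.Point

local notation "Qb" => AlgebraicClosure ℚ

variable {N : ℕ} [NeZero N] [hN : Fact N.Prime] {W : WeierstrassCurve ℤ}
  {C : AddSubgroup ((W.map (Int.castRingHom ℚ))⁄Qb).Point}

/-- **M4**: the place of `X₀(N)` attached to `(W, C)` is rational, and reduces to the cusp `∞`
at the primes of multiplicative reduction of type I and to the cusp `0` at those of type II. -/
theorem exists_place_sameRed (hN2 : N ≠ 2) (hΔ : W.Δ ≠ 0) {ℓ₀ : ℕ} (hℓ₀ : ℓ₀.Prime)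
    (hℓ₀Δ : (ℓ₀ : ℤ) ∣ W.Δ) (hℓ₀c₄ : ¬ (ℓ₀ : ℤ) ∣ W.c₄) (hC : Nat.card C = N)
    (hst : ∀ (σ : Qb ≃ₐ[ℚ] Qb), ∀ Q ∈ C, σ • Q ∈ C) :
    ∃ x : Place Qb (modularFunctionFieldBar N),
      (∀ σ : Qb ≃ₐ[ℚ] Qb, arithmeticGalois (modularFunctionFieldFull N) σ • x = x) ∧
      ∀ ℓ : ℕ, ℓ.Prime → ℓ ≠ N → (ℓ : ℤ) ∣ W.Δ → ¬ (ℓ : ℤ) ∣ W.c₄ →
        ∀ A : ValuationSubring Qb, A.LiesOverPrime ℓ →
        ((∀ Q ∈ C, W.InZeroComponentAt A Q) →
          SameRed A (M5.jB Qb (one_dvd N))⁻¹ x (M5.c₁ N)) ∧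
        ((¬ ∀ Q ∈ C, W.InZeroComponentAt A Q) →
          SameRed A (M5.jB Qb (one_dvd N))⁻¹ x (M5.c₂ N)) := by
  haveI : Fact (N ≠ 2) := ⟨hN2⟩
  obtain ⟨x, hx, hgal⟩ := H24.exists_place hN2 hΔ hℓ₀ hℓ₀Δ hℓ₀c₄ hC hst
  refine ⟨x, hgal, ?_⟩
  intro ℓ hℓ hℓN hℓΔ hℓc₄ A hA
  set c := ((W.map (Int.castRingHom ℚ))⁄Qb).c₄ ^ 3 / ((W.map (Int.castRingHom ℚ))⁄Qb).Δ with hc
  set y := H24.veluJ ((W.map (Int.castRingHom ℚ))⁄Qb) (C : Set _) with hy
  have hcA : c ∉ A := by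
    rw [← A.valuation_le_one_iff, not_le]
    exact one_lt_val_j hΔ hℓ hℓΔ hℓc₄ hA
  have h1 : 0 < x.ord (M5.jB Qb (one_dvd N) - algebraMap Qb _ c) := hx.hu
  have h2 : 0 < x.ord (M5.jB Qb (dvd_refl N) - algebraMap Qb _ y) := hx.hv
  constructor
  · intro hI
    exact sameRed_typeI h1 h2 hcA (typeI_j hΔ hN.out hN2 hC hℓ hℓN hℓΔ hℓc₄ hA hI)
  · intro hII
    refine sameRed_typeII h1 h2 hcA ?_
    have h3 := typeII_j_lt hΔ hN.out hN2 hC hℓ hℓΔ hℓc₄ hA hII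
    rcases H07.dichotomy N A hN2 hcA (modPoly_eval_coord h1 h2) with h4 | h4
    · exact absurd h4 h3.ne
    · exact h4

end Fermat.Agent.H09
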