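import Mathlib
import Fermat.Agent.H09.M4Final
import Fermat.Agent.H12.Wire
import Fermat.Agent.H28.ModCharts
import Fermat.Agent.H28.KernelMod
import Fermat.Agent.Q.Transfer

set_option autoImplicit false
set_option linter.style.haveILetI false
set_option linter.unusedSectionVars false

/-! The dictionary of PROGRAM M. -/

noncomputable section

namespace Fermat.Agent.H09

open AlgebraicCurve IsDedekindDomain IsLocalRing Polynomial Fermat.Agent.H28 Fermat.Agent.FF
open ModularCurve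

local notation "Qb" => AlgebraicClosure ℚ

variable {N : ℕ} [NeZero N]

theorem smul_cl_of_fixed {x y : Place Qb (modularFunctionFieldBar N)} (σ : Qb ≃ₐ[ℚ] Qb)
    (hx : arithmeticGalois (modularFunctionFieldFull N) σ • x = x)
    (hy : arithmeticGalois (modularFunctionFieldFull N) σ • y = y) :
    σ • (M5.cl Qb x y : JZero N) = M5.cl Qb x y := by
  change Pic0.mk _ = Pic0.mk _
  congr 1
  apply Subtype.ext
  change arithmeticGalois (modularFunctionFieldFull N) σ •
    (Finsupp.single x (1 : ℤ) - Finsupp.single y (1 : ℤ)) =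
    Finsupp.single x 1 - Finsupp.single y 1
  rw [smul_sub, SemilinearAut.smul_single, SemilinearAut.smul_single, hx, hy]

theorem cl_sub_cl (x y z : Place Qb (modularFunctionFieldBar N)) :
    (M5.cl Qb x y : JZero N) - M5.cl Qb x z = M5.cl Qb z y := by
  change Pic0.mk (_ - _) = Pic0.mk _
  congr 1
  apply Subtype.ext
  change (Finsupp.single x (1 : ℤ) - Finsupp.single y (1 : ℤ)) -
    (Finsupp.single x (1 : ℤ) - Finsupp.single z (1 : ℤ)) =
    Finsupp.single z (1 : ℤ) - Finsupp.single y (1 : ℤ)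
  abel

/-- **The dictionary**. -/
theorem dictionary_of (hN : N.Prime) (hN2 : N ≠ 2)
    {J1 : ℕ → ℕ → ValuationSubring Qb → AddSubgroup (JZero N)}
    (hJ : ∀ r : ℕ, r.Prime → r ∣ N - 1 → ∀ ℓ : ℕ, ℓ.Prime → ℓ ≠ N →
      ∀ A : ValuationSubring Qb, A.LiesOverPrime ℓ →
      ∀ x y : Place Qb (modularFunctionFieldBar N),
        SameRed A (M5.jB Qb (one_dvd N))⁻¹ x y → M5.cl Qb x y ∈ J1 r ℓ A) :
    H12.Dictionary N J1 := by
  intro W hΔ h2Δ h2c₄ C hC hst
  haveI : Fact N.Prime := ⟨hN⟩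
  obtain ⟨x, hgal, hx⟩ := exists_place_sameRed (N := N) (C := C) hN2 hΔ Nat.prime_two
    (by exact_mod_cast h2Δ) (by exact_mod_cast h2c₄) hC hst
  refine ⟨M5.cl Qb x (M5.c₁ N), M5.cl Qb x (M5.c₂ N), fun σ => ?_, fun σ => ?_, ?_, ?_⟩
  · exact smul_cl_of_fixed σ (hgal σ) (M5.smul_c₁ σ)
  · exact smul_cl_of_fixed σ (hgal σ) (M5.smul_c₂ hN σ)
  · exact cl_sub_cl _ _ _
  · intro r hr hrN ℓ hℓ hℓN hℓΔ hℓc₄ A hA
    obtain ⟨h1, h2⟩ := hx ℓ hℓ hℓN hℓΔ hℓc₄ A hA
    exact ⟨fun hI => hJ r hr hrN ℓ hℓ hℓN A hA _ _ (h1 hI),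
      fun hII => hJ r hr hrN ℓ hℓ hℓN A hA _ _ (h2 hII)⟩

/-- points with the same reduction differ by a class in the kernel of reduction at level `N'` -/
theorem SameRed.mem_comap_pullN {N' s : ℕ} [NeZero N'] [Fact s.Prime] (hN' : N' = N * s)
    (h : N ∣ N') {A : ValuationSubring Qb}
    (h₁ : (modRed N' A).IsChart (jZ N' A)) (h₂ : (modRed N' A).IsChart (jinvZ N' A))
    {x y : Place Qb (modularFunctionFieldBar N)}
    (hxy : SameRed A (M5.jB Qb (one_dvd N))⁻¹ x y) :
    M5.cl Qb x y ∈ (modCharts N' A h₁ h₂).kernel.comap (Q.pullN hN' h) := by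
  haveI : IsAlgClosed (ResidueField A) := isAlgClosed_residueField A
  haveI : Infinite (ResidueField A) := IsAlgClosed.instInfinite
  rw [AddSubgroup.mem_comap]
  refine hxy.mem_kernel (modCharts N' A h₁ h₂) (Q.incN h) (Q.int_incN hN' h) (Q.fin_incN hN' h)
    (D' := ⟨Divisor.pullbackAlong (Q.incN h) (Q.int_incN hN' h)
      (Finsupp.single x 1 - Finsupp.single y 1), Divisor.pullbackAlong_mem_degZero _ _
      (H05.fundamentalIdentityAlong_of _ (Q.int_incN hN' h) (Q.fin_incN hN' h))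
        (M5.mem_degZero_single_sub Qb x y)⟩) ?_ rfl
  apply Subtype.ext
  rw [map_inv₀]
  rw [IntermediateField.coe_inv, Q.coe_incN, M5.coe_jB]
  change _ = (((jBar N')⁻¹ : modularFunctionFieldBar N') : LaurentSeries Qb)
  rw [IntermediateField.coe_inv]
  congr 1
  exact Igusa.jd_one Qb

end Fermat.Agent.H09
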