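import Mathlib
import Fermat.Agent.H09.WBar

set_option autoImplicit false
set_option linter.style.haveILetI false
set_option linter.unusedSectionVars false

/-! The degrees of the two degeneracy maps in characteristic `ℓ`. -/

noncomputable section

namespace Fermat.Agent.H09

open ModularCurve HahnSeries AlgebraicCurve
open Fermat.Agent.Q (Red Idx gen sw wQ intL redL)
open Fermat.Agent.Igusa (cc TT jd)

local notation "kk" => IsLocalRing.ResidueField

section Degree

variable (k : Type*) [Field k] (M r : ℕ) [NeZero M] [NeZero r]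

/-- the inclusion of function fields -/
def alphaC : modularFunctionFieldFullC k M →ₐ[k] modularFunctionFieldFullC k (M * r) :=
  IntermediateField.inclusion (full_degeneracyC_le k (dvd_mul_right M r))

theorem coe_alphaC (x : modularFunctionFieldFullC k M) :
    (alphaC k M r x : LaurentSeries k) = x := IntermediateField.coe_inclusion _ x

theorem betaC_mem (x : modularFunctionFieldFullC k M) :
    ((qExpandAlgHomC k r).comp (modularFunctionFieldFullC k M).val) x ∈
      (modularFunctionFieldFullC k (M * r)).toSubalgebra :=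
  full_degeneracyC_map_le k M r ⟨x, x.2, rfl⟩

/-- the map `q ↦ q ^ r` -/
def betaC : modularFunctionFieldFullC k M →ₐ[k] modularFunctionFieldFullC k (M * r) :=
  ((qExpandAlgHomC k r).comp (modularFunctionFieldFullC k M).val).codRestrict
    (modularFunctionFieldFullC k (M * r)).toSubalgebra (betaC_mem k M r)

theorem coe_betaC (x : modularFunctionFieldFullC k M) :
    (betaC k M r x : LaurentSeries k) = qExpand k r x := rfl

theorem finrankAlong_alphaC [hr : Fact r.Prime] (hrM : ¬ r ∣ M) (hk : ((M * r : ℕ) : k) ≠ 0) :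
    finrankAlong k (alphaC k M r) = r + 1 := by
  have hM : (M : k) ≠ 0 := fun h => hk (by rw [Nat.cast_mul, h, zero_mul])
  have h1 := Igusa.relrank_prime_step r M hk (Igusa.relrank_full M hM)
  rw [if_neg hrM] at h1
  exact Igusa.finrankAlong_inclusion _ _ _ h1

end Degree

section DegreeBeta

variable {K : Type*} [Field K] {A : ValuationSubring K} [Algebra ℚ K] [Algebra.IsAlgebraic ℚ K]
  [CharZero K] {M r : ℕ} [NeZero M] [NeZero r]

theorem wb_alphaC {wb : modularFunctionFieldFullC (kk A) (M * r) ≃ₐ[kk A]
        modularFunctionFieldFullC (kk A) (M * r)}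
    (h1 : ∀ (x : LaurentSeries (kk A)) (_ : x ∈ modularFunctionFieldFullC (kk A) M)
        (hx' : x ∈ modularFunctionFieldFullC (kk A) (M * r)),
        (wb ⟨x, hx'⟩ : LaurentSeries (kk A)) = qExpand (kk A) r x)
    (x : modularFunctionFieldFullC (kk A) M) :
    wb (alphaC (kk A) M r x) = betaC (kk A) M r x := by
  apply Subtype.ext
  have h2 : alphaC (kk A) M r x =
      ⟨(x : LaurentSeries (kk A)), full_degeneracyC_le (kk A) (dvd_mul_right M r) x.2⟩ :=
    Subtype.ext (coe_alphaC (kk A) M r x)
  rw [h2, h1 _ x.2, coe_betaC]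

theorem finrankAlong_betaC [hr : Fact r.Prime] {ℓ : ℕ} (hℓ : ℓ.Prime) (hA : A.LiesOverPrime ℓ)
    (hrM : ¬ r ∣ M) (hk : ((M * r : ℕ) : kk A) ≠ 0) :
    finrankAlong (kk A) (betaC (kk A) M r) = r + 1 := by
  obtain ⟨wb, -, -, h1, -⟩ := exists_wBar (K := K) hℓ hA
    ((hr.out.coprime_iff_not_dvd).mpr hrM) hk
  rw [← finrankAlong_alphaC (kk A) M r hrM hk]
  exact (Igusa.finrankAlong_comp_equiv _ _ wb (wb_alphaC h1)).symm

end DegreeBeta

end Fermat.Agent.H09
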