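import Fermat.Agent.H11N.MZ
import Fermat.Agent.H12.PullAl
import Fermat.Agent.H05.Toric

/-!
# Pull-back and push-forward between the levels `M r` and `M s r`, and the reduction of functions
-/

set_option autoImplicit false
set_option linter.style.haveILetI false
set_option linter.unusedSectionVars false
set_option maxSynthPendingDepth 3

noncomputable section

attribute [-instance] HahnSeries.instModule HahnSeries.instSMul HahnSeries.instDistribMulAction
  HahnSeries.instSMulZeroClass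

namespace Fermat.Agent.H09.M2

open H29 in
attribute [local instance 10000] instLS instIF instIF2

open ModularCurve AlgebraicCurve Fermat.Agent.Igusa Fermat.Agent.Q Fermat.Agent.H11N

local notation "kk" => IsLocalRing.ResidueField
local notation "Qb" => AlgebraicClosure ℚ

attribute [local instance] H12.isAlgClosed_kk

section Level

variable {N N' : ℕ} [NeZero N] [NeZero N'] {s : ℕ} [hs : Fact s.Prime]

/-- push-forward of classes -/
def pushN (hN' : N' = N * s) (h : N ∣ N') : JZero N' →+ JZero N :=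
  pushHom (incN h) (int_incN hN' h) (fin_incN hN' h) (H05.normFormulaAlong_of _ _)

theorem kum_pushN (hN' : N' = N * s) (h : N ∣ N') {m : ℕ} {x : JZero N'}
    {f : modularFunctionFieldBar N'} (hf : H05.Kum m x f) :
    H05.Kum m (pushN hN' h x) (H05.normAlong (incN h) f) := kum_pushHom _ _ _ _ hf

theorem pushN_pullN (hN' : N' = N * s) (hsN : ¬ s ∣ N) (h : N ∣ N') {m : ℕ} (hm : m ≠ 0)
    {x : JZero N} (hx : m • x = 0) : pushN hN' h (pullN hN' h x) = (s + 1) • x := by
  obtain ⟨f, hf⟩ := H05.exists_kum hx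
  have h1 := kum_pushN hN' h (kum_pullN hN' h hf)
  rw [normAlong_self, finrank_incN hN' hsN h] at h1
  exact h1.unique_left hm (kum_nsmul hf _)

theorem pullN_hecke (hN' : N' = N * s) (h : N ∣ N') (l : Nat.Primes) (hsl : s ≠ l)
    (x : JZero N) :
    pullN hN' h (heckeOperatorBar N l x) = heckeOperatorBar N' l (pullN hN' h x) := by
  subst hN'
  haveI : NeZero s := ⟨hs.out.ne_zero⟩
  exact H12.pullA_hecke N s hs.out l.2 hsl x

theorem pushN_hecke (hN' : N' = N * s) (h : N ∣ N') (l : Nat.Primes) (hsl : s ≠ l)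
    (x : JZero N') :
    pushN hN' h (heckeOperatorBar N' l x) = heckeOperatorBar N l (pushN hN' h x) := by
  subst hN'
  haveI : NeZero s := ⟨hs.out.ne_zero⟩
  haveI : NeZero (l : ℕ) := ⟨l.2.ne_zero⟩
  have h0 : ∀ y : JZero (N * s), pushN rfl h y = H05.degPush Qb N s y :=
    fun y => H05.aStar_eq_degPush N s y
  rw [h0, h0, heckeOperatorBar_apply, heckeOperatorBar_apply]
  exact H05.degPush_hecke Qb l.2 hs.out hsl x

/-- compatibility with the abstract Hecke algebra -/
theorem heckeJ_comm (φ : JZero N →+ JZero N') {D : ℕ}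
    (h : ∀ l : Nat.Primes, ¬ (l : ℕ) ∣ D → ∀ x, φ (heckeOperatorBar N l x) =
      heckeOperatorBar N' l (φ x)) {t : HeckeAlg} (ht : t ∈ heckeAway D) (x : JZero N) :
    φ (heckeJ N t x) = heckeJ N' t (φ x) := by
  rw [heckeAway] at ht
  induction ht using Algebra.adjoin_induction generalizing x with
  | mem t ht =>
    obtain ⟨l, hl, rfl⟩ := ht
    rw [heckeJ_gen, heckeJ_gen]
    exact h l hl x
  | algebraMap n =>
    have h1 : (algebraMap ℤ HeckeAlg) n = (n : HeckeAlg) := by simp
    rw [h1, map_intCast, map_intCast, Module.End.intCast_apply, Module.End.intCast_apply]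
    exact map_zsmul φ n x
  | add t t' _ _ ht ht' =>
    rw [map_add, map_add, LinearMap.add_apply, LinearMap.add_apply, map_add, ht, ht']
  | mul t t' _ _ ht ht' =>
    rw [map_mul, map_mul, Module.End.mul_apply, Module.End.mul_apply, ht, ht']

theorem pullN_heckeJ (hN' : N' = N * s) (h : N ∣ N') {D : ℕ} (hsD : s ∣ D) {t : HeckeAlg}
    (ht : t ∈ heckeAway D) (x : JZero N) :
    pullN hN' h (heckeJ N t x) = heckeJ N' t (pullN hN' h x) :=
  heckeJ_comm _ (fun l hl x => pullN_hecke hN' h l (fun h => hl (h ▸ hsD)) x) ht x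

theorem pushN_heckeJ (hN' : N' = N * s) (h : N ∣ N') {D : ℕ} (hsD : s ∣ D) {t : HeckeAlg}
    (ht : t ∈ heckeAway D) (x : JZero N') :
    pushN hN' h (heckeJ N' t x) = heckeJ N t (pushN hN' h x) :=
  heckeJ_comm _ (fun l hl x => pushN_hecke hN' h l (fun h => hl (h ▸ hsD)) x) ht x

/-- the reduction of norms -/
theorem norm_incN_red {A : ValuationSubring Qb} {r : ℕ} (hr : r.Prime) (hA : A.LiesOverPrime r)
    {M : ℕ} [NeZero M] (hN' : N' = N * s) (h : N ∣ N')
    (hκ₀ : ∀ x ∈ modularFunctionFieldFullC Qb N, ∀ u, Red A x u →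
      u ∈ modularFunctionFieldFullC (kk A) M)
    (hκ₁ : ∀ x ∈ modularFunctionFieldFullC Qb N', ∀ u, Red A x u →
      u ∈ modularFunctionFieldFullC (kk A) (M * s))
    (hMN : M ∣ N) (hsN : ¬ s ∣ N) (hk : ((M * s : ℕ) : kk A) ≠ 0)
    (x : modularFunctionFieldBar N')
    (u : modularFunctionFieldFullC (kk A) (M * s))
    (hxu : Red A (x : LaurentSeries Qb) (u : LaurentSeries (kk A))) :
    Red A ((H05.normAlong (incN h) x : modularFunctionFieldBar N) : LaurentSeries Qb)
      ((H05.normAlong (Q.incl (kk A) M s) u : modularFunctionFieldFullC (kk A) M) :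
        LaurentSeries (kk A)) := by
  subst hN'
  exact norm_incl_red hr hA N M hκ₀ hκ₁ hMN hsN hk x u hxu

end Level

section Along

variable {K F F' : Type*} [Field K] [Field F] [Field F'] [Algebra K F] [Algebra K F']

theorem normAlong_mul (φ : F →ₐ[K] F') (x y : F') :
    H05.normAlong φ (x * y) = H05.normAlong φ x * H05.normAlong φ y := by
  letI := algebraAlong φ
  exact map_mul (Algebra.norm F) x y

theorem normAlong_algebraMap (φ : F →ₐ[K] F') (c : K) :
    H05.normAlong φ (algebraMap K F' c) = algebraMap K F (c ^ finrankAlong K φ) := by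
  rw [← φ.commutes, normAlong_self, map_pow]

end Along

section Toric

variable {M r s : ℕ} [NeZero M] [hr : Fact r.Prime] [hs : Fact s.Prime] {A : ValuationSubring Qb}
  {m : ℕ}

/-- pull-back from level `M r` to level `M s r` -/
abbrev pullU (M r s : ℕ) [NeZero M] [hr : Fact r.Prime] [hs : Fact s.Prime] :
    JZero (M * r) →+ JZero (M * s * r) := pullT (r := r) (M := M) (M' := M * s) (ℓ := s) rfl

/-- push-forward from level `M s r` to level `M r` -/
def pushU (M r s : ℕ) [NeZero M] [hr : Fact r.Prime] [hs : Fact s.Prime] :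
    JZero (M * s * r) →+ JZero (M * r) :=
  pushN (N := M * r) (N' := M * s * r) (s := s) (mul_eq_mul rfl) (mul_dvd_mul' (ℓ := s) rfl)

theorem kum_pushU {x : JZero (M * s * r)} {f : modularFunctionFieldBar (M * s * r)}
    (hf : H05.Kum m x f) : H05.Kum m (pushU M r s x)
      (H05.normAlong (incN (mul_dvd_mul' (r := r) (M := M) (M' := M * s) (ℓ := s) rfl)) f) :=
  kum_pushN _ _ hf

theorem pushU_pullU (hsN : ¬ s ∣ M * r) (hm : m ≠ 0) {x : JZero (M * r)} (hx : m • x = 0) :
    pushU M r s (pullU M r s x) = (s + 1) • x := pushN_pullN _ hsN _ hm hx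

theorem pullU_heckeJ {D : ℕ} (hsD : s ∣ D) {t : HeckeAlg}
    (ht : t ∈ heckeAway D) (x : JZero (M * r)) :
    pullU M r s (heckeJ (M * r) t x) = heckeJ (M * s * r) t (pullU M r s x) :=
  pullN_heckeJ _ _ hsD ht x

theorem pushU_heckeJ {D : ℕ} (hsD : s ∣ D) {t : HeckeAlg}
    (ht : t ∈ heckeAway D) (x : JZero (M * s * r)) :
    pushU M r s (heckeJ (M * s * r) t x) = heckeJ (M * r) t (pushU M r s x) :=
  pushN_heckeJ _ _ hsD ht x

theorem RedK.pull {x : JZero (M * r)} {u : modularFunctionFieldFullC (kk A) M}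
    (h : RedK A M r m x u) :
    RedK A (M * s) r m (pullU M r s x) (Q.incl (kk A) M s u) := by
  obtain ⟨hu, f, c, hf, hc, hred⟩ := h
  refine ⟨(map_ne_zero_iff _ (Q.incl (kk A) M s).toRingHom.injective).mpr hu, incN _ f, c,
    kum_pullN _ (mul_dvd_mul' rfl) hf, hc, ?_⟩
  rw [coe_incN, Q.coe_incl]
  exact hred

theorem coprime_mul (hA : A.LiesOverPrime r) (hrM : Nat.Coprime r M) (hsN : ¬ s ∣ M * r) :
    Nat.Coprime r (M * s) := by
  refine Nat.Coprime.mul_right hrM ?_
  rw [Nat.coprime_primes hr.out hs.out]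
  rintro rfl
  exact hsN (dvd_mul_left _ _)

theorem RedK.push (hA : A.LiesOverPrime r) (hrM : Nat.Coprime r M) (hsN : ¬ s ∣ M * r)
    {x : JZero (M * s * r)} {u : modularFunctionFieldFullC (kk A) (M * s)}
    (h : RedK A (M * s) r m x u) :
    RedK A M r m (pushU M r s x) (H05.normAlong (Q.incl (kk A) M s) u) := by
  have hrMs := coprime_mul hA hrM hsN
  have hk : ((M * s : ℕ) : kk A) ≠ 0 := natCast_residue_ne_zero hr.out hA hrMs
  obtain ⟨hu, f, c, hf, hc, hred⟩ := h
  refine ⟨normAlong_ne_zero _ (H12.finite_alphaC (kk A) M s) hu, _, c ^ (s + 1), kum_pushU hf,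
    pow_ne_zero _ hc, ?_⟩
  rw [← C_mul_eq] at hred
  have h1 := norm_incN_red hr.out hA (N := M * r) (N' := M * s * r) (s := s) (M := M)
    (mul_eq_mul rfl) (mul_dvd_mul' (ℓ := s) rfl)
    (fun z hz w hw => red_mem_full_mul hA hrM hz hw)
    (fun z hz w hw => red_mem_full_mul hA hrMs hz hw) (Dvd.intro r rfl) hsN hk _ u hred
  rw [normAlong_mul, normAlong_algebraMap, finrank_incN (mul_eq_mul rfl) hsN, C_mul_eq] at h1
  exact h1

theorem mem_KInf_iff {x : JZero (M * r)} : x ∈ KInf A M r m ↔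
    ∃ w : modularFunctionFieldFullC (kk A) M, w ≠ 0 ∧ RedK A M r m x (w ^ m) := by
  constructor
  · rintro ⟨f, hf, c, hc, u, hu, hu0, h⟩
    have hw : (⟨u, hu⟩ : modularFunctionFieldFullC (kk A) M) ≠ 0 :=
      fun h => hu0 (congrArg Subtype.val h)
    exact ⟨⟨u, hu⟩, hw, pow_ne_zero _ hw, f, c, hf, hc, h⟩
  · rintro ⟨w, hw, hw0, f, c, hf, hc, h⟩
    exact ⟨f, hf, c, hc, w, w.2, fun h => hw (Subtype.ext h), h⟩

theorem KInf.push (hA : A.LiesOverPrime r) (hrM : Nat.Coprime r M) (hsN : ¬ s ∣ M * r)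
    {x : JZero (M * s * r)} (h : x ∈ KInf A (M * s) r m) : pushU M r s x ∈ KInf A M r m := by
  rw [mem_KInf_iff] at h ⊢
  obtain ⟨w, hw, h⟩ := h
  have h1 := RedK.push hA hrM hsN h
  rw [normAlong_pow] at h1
  exact ⟨_, normAlong_ne_zero _ (H12.finite_alphaC (kk A) M s) hw, h1⟩

theorem incN_wS (hrM : Nat.Coprime r M) (hrMs : Nat.Coprime r (M * s))
    (f : modularFunctionFieldBar (M * r)) :
    incN (mul_dvd_mul' (r := r) (M := M) (M' := M * s) (ℓ := s) rfl) (wS M r hrM • f) =
      wS (M * s) r hrMs • incN (mul_dvd_mul' (r := r) (M := M) (M' := M * s) (ℓ := s) rfl) f := by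
  apply Subtype.ext
  rw [coe_incN, wS_smul_fun, wS_smul_fun]
  exact (wBar_incN hrM hrMs (dvd_mul_right _ _) _ f).symm

theorem norm_wS (hrM : Nat.Coprime r M) (hrMs : Nat.Coprime r (M * s))
    (f : modularFunctionFieldBar (M * s * r)) :
    H05.normAlong (incN (mul_dvd_mul' (r := r) (M := M) (M' := M * s) (ℓ := s) rfl))
      (wS (M * s) r hrMs • f) =
    wS M r hrM • H05.normAlong
      (incN (mul_dvd_mul' (r := r) (M := M) (M' := M * s) (ℓ := s) rfl)) f :=
  NN.normAlong_ringEquiv (incN (mul_dvd_mul' (r := r) (M := M) (M' := M * s) (ℓ := s) rfl))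
    (SemilinearAut.toRingAut (wS M r hrM)) (SemilinearAut.toRingAut (wS (M * s) r hrMs))
    (fun x => (incN_wS hrM hrMs x).symm) f

theorem pushU_wS (hrM : Nat.Coprime r M) (hrMs : Nat.Coprime r (M * s)) (hm : m ≠ 0)
    {x : JZero (M * s * r)} (hx : m • x = 0) :
    pushU M r s (wS (M * s) r hrMs • x) = wS M r hrM • pushU M r s x := by
  obtain ⟨f, hf⟩ := H05.exists_kum hx
  have h1 := kum_pushU (hf.smul (wS (M * s) r hrMs))
  have h2 := (kum_pushU hf).smul (wS M r hrM)
  rw [norm_wS hrM hrMs] at h1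
  exact h1.unique_left hm h2

theorem pullU_wS (hrM : Nat.Coprime r M) (hrMs : Nat.Coprime r (M * s)) (hm : m ≠ 0)
    {x : JZero (M * r)} (hx : m • x = 0) :
    pullU M r s (wS M r hrM • x) = wS (M * s) r hrMs • pullU M r s x :=
  pullT_wS rfl hrM hrMs hm hx

theorem pullU_galois (hm : m ≠ 0) (σ : Qb ≃ₐ[ℚ] Qb) {x : JZero (M * r)} (hx : m • x = 0) :
    pullU M r s (σ • x) = σ • pullU M r s x := pullT_galois rfl hm σ hx

end Toric

end Fermat.Agent.H09.M2
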