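import Fermat.Agent.H09.M2A
import Fermat.Agent.H11N.Lift

/-!
# Occurrence of systems of eigenvalues at a level `M` without charts
-/

set_option autoImplicit false
set_option linter.style.haveILetI false
set_option linter.unusedSectionVars false
set_option maxSynthPendingDepth 3
set_option synthInstance.maxHeartbeats 400000

noncomputable section

attribute [-instance] HahnSeries.instModule HahnSeries.instSMul HahnSeries.instDistribMulAction
  HahnSeries.instSMulZeroClass

namespace Fermat.Agent.H09.M2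

open H29 in
attribute [local instance 10000] instLS instIF instIF2

open ModularCurve AlgebraicCurve Fermat.Agent.Igusa Fermat.Agent.Q Fermat.Agent.H11N

local notation "kk" => IsLocalRing.ResidueField
local notation "Qb" => AlgebraicClosure ℚ

attribute [local instance] H12.isAlgClosed_kk

section RedJ

variable {A : ValuationSubring Qb} {N : ℕ} [NeZero N]

theorem red_of_Z (f : (H28.modRed N A).Z) : Red A ((f : modularFunctionFieldBar N) :
    LaurentSeries Qb) ((H28.modRed N A).ρ f : LaurentSeries (kk A)) := by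
  obtain ⟨y, hy, hyk⟩ := H28.mem_laurentRed.mp f.2
  rw [H28.laurentRed_ρ f hy]
  have h1 : coeffMap A.subtype y ∈ intL A := by
    rw [mem_intL]
    intro n
    exact (y.coeff n).2
  have h2 := Red.of_intL (⟨_, h1⟩ : intL A)
  rw [redL_coeffMap] at h2
  rw [← hy]
  exact h2

/-- the reduction of a Kummer function is a Kummer function of the reduction -/
theorem kum_redJ (C : H28.TwoCharts (H28.modRed N A)) {m : ℕ} {y : JZero N}
    {g : modularFunctionFieldBar N} (hg : H05.Kum m y g) {c : Qb}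
    {v : modularFunctionFieldFullC (kk A) N} (hv : v ≠ 0)
    (hred : Red A (HahnSeries.C c * (g : LaurentSeries Qb)) (v : LaurentSeries (kk A))) :
    H05.Kum m (redJ C y) v := by
  obtain ⟨hg0, D, rfl, hD⟩ := hg
  obtain ⟨d, a, b, hd, ha, hb, h⟩ := C.h₁.exists_frac hg0
  have ha'' := C.h₁.ρ_toZ_ne ha
  have hb'' := C.h₁.ρ_toZ_ne hb
  have hE : ∀ P, (m • (D : Divisor Qb (modularFunctionFieldBar N))) P = P.ord g := by
    intro P
    rw [← hD]
    simp
  have hQ := C.redTo_iff.mp (C.redTo_div hE hd (a := C.h₁.toZ a) (b := C.h₁.toZ b) ha'' hb'' h)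
  have hra := red_of_Z (C.h₁.toZ a)
  have hrb := red_of_Z (C.h₁.toZ b)
  have h1 := hred.mul hrb
  have h2 : HahnSeries.C c * (g : LaurentSeries Qb) *
      (((C.h₁.toZ b : (H28.modRed N A).Z) : modularFunctionFieldBar N) : LaurentSeries Qb) =
      HahnSeries.C (c * d) * (((C.h₁.toZ a : (H28.modRed N A).Z) : modularFunctionFieldBar N) :
        LaurentSeries Qb) := by
    have h3 := congrArg (fun z : modularFunctionFieldBar N => (z : LaurentSeries Qb)) h
    have h4 : (g : LaurentSeries Qb) * (((C.h₁.toZ b : (H28.modRed N A).Z) :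
        modularFunctionFieldBar N) : LaurentSeries Qb) = HahnSeries.C d *
        (((C.h₁.toZ a : (H28.modRed N A).Z) : modularFunctionFieldBar N) :
        LaurentSeries Qb) := by
      rw [← algebraMap_eq_C]
      exact h3
    rw [mul_assoc, h4, map_mul, mul_assoc]
  rw [h2] at h1
  have hane : ((H28.modRed N A).ρ (C.h₁.toZ a) : LaurentSeries (kk A)) ≠ 0 :=
    fun h0 => ha'' (Subtype.ext h0)
  obtain ⟨e, h5⟩ : ∃ e : kk A, (v : LaurentSeries (kk A)) *
      ((H28.modRed N A).ρ (C.h₁.toZ b) : LaurentSeries (kk A)) =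
      HahnSeries.C e * ((H28.modRed N A).ρ (C.h₁.toZ a) : LaurentSeries (kk A)) := by
    obtain ⟨he, h5⟩ := h1.scale hra hane
    exact ⟨_, h5⟩
  have hvb : (v : LaurentSeries (kk A)) * ((H28.modRed N A).ρ (C.h₁.toZ b) :
      LaurentSeries (kk A)) ≠ 0 :=
    mul_ne_zero (fun h0 => hv (Subtype.ext h0)) (fun h0 => hb'' (Subtype.ext h0))
  have he0 : e ≠ 0 := by
    intro h0
    rw [h0, map_zero, zero_mul] at h5
    exact hvb h5
  have h6 : v * (H28.modRed N A).ρ (C.h₁.toZ b) =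
      algebraMap (kk A) (modularFunctionFieldFullC (kk A) N) e *
        (H28.modRed N A).ρ (C.h₁.toZ a) := by
    apply Subtype.ext
    change (v : LaurentSeries (kk A)) * ((H28.modRed N A).ρ (C.h₁.toZ b) :
      LaurentSeries (kk A)) = algebraMap (kk A) (LaurentSeries (kk A)) e * _
    rw [algebraMap_eq_C]
    exact h5
  refine ⟨hv, reductionDegZeroAlong C.redPl (H28.isPlaceReduction_redPl C).1 D,
    (redJ_mk C D).symm, fun Q => ?_⟩
  have h7 : Q.ord v = Q.ord ((H28.modRed N A).ρ (C.h₁.toZ a) *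
      ((H28.modRed N A).ρ (C.h₁.toZ b))⁻¹) := by
    have h8 := congrArg Q.ord h6
    rw [Q.ord_mul hv hb'', Q.ord_mul ((_root_.map_ne_zero _).mpr he0) ha'',
      H18.ord_algebraMap] at h8
    rw [Q.ord_mul ha'' (inv_ne_zero hb''), Q.ord_inv]
    omega
  rw [h7, ← hQ Q, coe_reductionDegZeroAlong]
  have h9 : Finsupp.mapDomain C.redPl (m • (D : Divisor Qb (modularFunctionFieldBar N))) =
      m • Finsupp.mapDomain C.redPl (D : Divisor Qb (modularFunctionFieldBar N)) := by
    exact Finsupp.mapDomain_smul m _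
  rw [h9]
  simp

/-- every function of level `N` prime to `r` has, up to scaling, a nonzero reduction -/
theorem exists_red_good {r : ℕ} (hr : r.Prime) (hA : A.LiesOverPrime r) (hN : (N : kk A) ≠ 0)
    {g : modularFunctionFieldBar N} (hg : g ≠ 0) :
    ∃ c : Qb, c ≠ 0 ∧ ∃ v : modularFunctionFieldFullC (kk A) N, v ≠ 0 ∧
      Red A (HahnSeries.C c * (g : LaurentSeries Qb)) (v : LaurentSeries (kk A)) := by
  have hg' := mem_full_of_bar g.2
  obtain ⟨c, hc, u, hu0, h⟩ := exists_red hr hA (full_le_FL (A := A) N hg')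
    (fun h => hg (Subtype.ext h))
  refine ⟨c, hc, ⟨u, ?_⟩, fun h => hu0 (congrArg Subtype.val h), h⟩
  refine red_mem_full hr hA hN (mul_mem ?_ hg') h
  rw [← algebraMap_eq_C]
  exact (modularFunctionFieldFullC Qb N).algebraMap_mem _

theorem kum_unique_kk (C : H28.TwoCharts (H28.modRed N A)) {m : ℕ} (hm : m ≠ 0)
    {d : JZeroC (kk A) N} {u v : modularFunctionFieldFullC (kk A) N} (hu : H05.Kum m d u)
    (hv : H05.Kum m d v) : ∃ w : modularFunctionFieldFullC (kk A) N, w ≠ 0 ∧ u = v * w ^ m := by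
  obtain ⟨P⟩ : Nonempty (Place Qb (modularFunctionFieldBar N)) := by
    obtain ⟨v, -⟩ := H05.exists_place_infinity_bc Qb N
    exact ⟨v⟩
  exact H05.Kum.exists_of_eq (FF.deg_eq_one (C.redPl P)) hm hu hv

end RedJ

section Main

variable {M r s : ℕ} [NeZero M] [hr : Fact r.Prime] [hs : Fact s.Prime] {A : ValuationSubring Qb}
  {m : ℕ}

theorem incl_ne_zero {u : modularFunctionFieldFullC (kk A) M} (hu : u ≠ 0) :
    Q.incl (kk A) M s u ≠ 0 :=
  (map_ne_zero_iff _ (Q.incl (kk A) M s).toRingHom.injective).mpr hu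

/-- torsion points of `J₀(M s)` whose reduction comes from level `M` -/
theorem pull_push_eq (hA : A.LiesOverPrime r) (hrM : Nat.Coprime r M) (hsN : ¬ s ∣ M * r)
    (hyp' : ¬ r ∣ M * s ∧ ((2 ∣ M * s ∧ r ≠ 2) ∨ (3 ∣ M * s ∧ r ≠ 3))) (hm0 : m ≠ 0)
    (hm : ¬ r ∣ m) {y : JZero (M * s)} (hy : m • y = 0)
    {u : modularFunctionFieldFullC (kk A) M}
    (hu : H05.Kum m (redJ (H28.charts hr.out hA hyp') y) (Q.incl (kk A) M s u)) :
    pullN (N := M) (N' := M * s) (ℓ := s) rfl (dvd_mul_right M s)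
      (pushN (N := M) (N' := M * s) (s := s) rfl (dvd_mul_right M s) y) = (s + 1) • y := by
  have hrMs : Nat.Coprime r (M * s) := coprime_mul hA hrM hsN
  have hMs : ((M * s : ℕ) : kk A) ≠ 0 := natCast_residue_ne_zero hr.out hA hrMs
  have hM : (M : kk A) ≠ 0 := natCast_residue_ne_zero hr.out hA hrM
  have hsM : ¬ s ∣ M := fun h => hsN (h.mul_right r)
  obtain ⟨g, hg⟩ := H05.exists_kum hy
  obtain ⟨c, hc, v, hv, hred⟩ := exists_red_good hr.out hA hMs hg.ne_zero
  have h1 := kum_redJ (H28.charts hr.out hA hyp') hg hv hred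
  obtain ⟨w, hw, hvw⟩ := kum_unique_kk (H28.charts hr.out hA hyp') hm0 h1 hu
  rw [← C_mul_eq] at hred
  have h2 := norm_incN_red hr.out hA (N := M) (N' := M * s) (s := s) (M := M) rfl
    (dvd_mul_right M s) (fun z hz w hw => red_mem_full hr.out hA hM hz hw)
    (fun z hz w hw => red_mem_full hr.out hA hMs hz hw) dvd_rfl hsM hMs _ v hred
  rw [normAlong_mul, normAlong_algebraMap, finrank_incN rfl hsM, C_mul_eq] at h2
  have h3 := kum_pullN (N := M) (N' := M * s) (ℓ := s) rfl (dvd_mul_right M s)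
    (kum_pushN (N := M) (N' := M * s) (s := s) rfl (dvd_mul_right M s) hg)
  have hNv : H05.normAlong (Q.incl (kk A) M s) v ≠ 0 :=
    normAlong_ne_zero _ (H12.finite_alphaC (kk A) M s) hv
  have hNw : H05.normAlong (Q.incl (kk A) M s) w ≠ 0 :=
    normAlong_ne_zero _ (H12.finite_alphaC (kk A) M s) hw
  have h4 := kum_redJ (H28.charts hr.out hA hyp') h3 (c := c ^ (s + 1))
    (v := Q.incl (kk A) M s (H05.normAlong (Q.incl (kk A) M s) v)) (incl_ne_zero hNv) (by
      rw [coe_incN, Q.coe_incl]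
      exact h2)
  have h5 : Q.incl (kk A) M s (H05.normAlong (Q.incl (kk A) M s) v) =
      Q.incl (kk A) M s u ^ (s + 1) *
        (Q.incl (kk A) M s (H05.normAlong (Q.incl (kk A) M s) w)) ^ m := by
    rw [hvw, normAlong_mul, normAlong_self, normAlong_pow, H12.finrank_alphaC (kk A) M s hMs hsM,
      map_mul, map_pow, map_pow]
  rw [h5] at h4
  have h6 := (kum_nsmul hu (s + 1)).mul_pow' (incl_ne_zero (s := s) hNw)
  have h7 := h4.unique_left hm0 h6
  refine sub_eq_zero.mp (redJ_injOn hA hyp' hm (y := _) ?_ ?_)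
  · rw [smul_sub, ← map_nsmul, ← map_nsmul, hy, map_zero, map_zero, smul_comm, hy, smul_zero,
      sub_zero]
  · rw [map_sub, h7, map_nsmul, sub_self]

theorem mem_of_nsmul_mem {J : Type*} [AddCommGroup J] (S : AddSubgroup J) {m k : ℕ}
    (h : Nat.Coprime k m) {x : J} (hx : m • x = 0) (hk : k • x ∈ S) : x ∈ S := by
  have h1 : (1 : ℤ) = (k : ℤ) * Nat.gcdA k m + (m : ℤ) * Nat.gcdB k m := by
    have h2 := Nat.gcd_eq_gcd_ab k m
    rw [h] at h2
    exact_mod_cast h2
  have h2 : x = (Nat.gcdA k m) • (k • x) + (Nat.gcdB k m) • (m • x) := by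
    rw [← natCast_zsmul x k, ← natCast_zsmul x m, smul_smul, smul_smul, ← add_smul]
    have h3 : Nat.gcdA k m * (k : ℤ) + Nat.gcdB k m * (m : ℤ) = 1 := by linarith
    rw [h3, one_smul]
  rw [h2, hx, smul_zero, add_zero]
  exact S.zsmul_mem hk _

/-- **Occurrence at level `M`, for cusp forms**, without charts at level `M`. -/
theorem occurrence_forms' (hA : A.LiesOverPrime r) (hrM : Nat.Coprime r M) (hsN : ¬ s ∣ M * r)
    (hyp' : ¬ r ∣ M * s ∧ ((2 ∣ M * s ∧ r ≠ 2) ∨ (3 ∣ M * s ∧ r ≠ 3)))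
    {p : ℕ} (hp : p.Prime) (hpr : p ≠ r) (hps : ¬ p ∣ s + 1) {k : ℕ} {x : JZero (M * r)}
    {u : modularFunctionFieldFullC (kk A) M} (hx : RedK A M r (p ^ k) x u)
    (hord : ∀ v : Place (kk A) (modularFunctionFieldFullC (kk A) M),
      ((p ^ k : ℕ) : ℤ) ∣ v.ord u)
    {t : HeckeAlg} (ht : t ∈ heckeAway (M * s * r)) (h0 : CuspForm.heckeEvalForms M 2 t = 0) :
    heckeJ (M * r) t x ∈ KInf A M r (p ^ k) := by
  have hrMs : Nat.Coprime r (M * s) := coprime_mul hA hrM hsN
  have hMs : ((M * s : ℕ) : kk A) ≠ 0 := natCast_residue_ne_zero hr.out hA hrMs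
  have hM : (M : kk A) ≠ 0 := natCast_residue_ne_zero hr.out hA hrM
  have hsM : ¬ s ∣ M := fun h => hsN (h.mul_right r)
  have hm0 : p ^ k ≠ 0 := pow_ne_zero _ hp.ne_zero
  have hrm : ∀ n : ℕ, ¬ r ∣ p ^ n := fun n hd => hpr
    ((Nat.prime_dvd_prime_iff_eq hr.out hp).1 (hr.out.dvd_of_dvd_pow hd)).symm
  have hcop : Nat.Coprime (s + 1) (p ^ k) :=
    (Nat.Coprime.pow_left k ((Nat.Prime.coprime_iff_not_dvd hp).2 hps)).symm
  have hsD : s ∣ M * s * r := (dvd_mul_left s M).mul_right r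
  -- the class on the special fibre
  obtain ⟨d, hd⟩ := H05.exists_kum_of_dvd (K := kk A) hm0 hx.1 hord
  have hd' := kum_pullHom (Q.incl (kk A) M s) (H12.integral_alphaC (kk A) M s)
    (H12.fi_alphaC hMs) hd
  obtain ⟨y₀, hy₀⟩ := redJ_surjective (H28.charts hr.out hA hyp')
    (pullHom (Q.incl (kk A) M s) (H12.integral_alphaC (kk A) M s) (H12.fi_alphaC hMs) d)
  rw [← hy₀] at hd'
  obtain ⟨y, ⟨n, hn⟩, hyy⟩ := exists_torsion_lift hA hyp' hp hpr (y := y₀) (s := k)
    hd'.nsmul_eq_zero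
  rw [← hyy] at hd'
  have hy : p ^ k • y = 0 := by
    refine redJ_injOn hA hyp' (hrm n) (y := p ^ k • y) ?_ ?_
    · rw [smul_comm, hn, smul_zero]
    · rw [map_nsmul]
      exact hd'.nsmul_eq_zero
  have h1 := pull_push_eq hA hrM hsN hyp' hm0 (hrm k) hy hd'
  -- the Hecke operator kills `y`
  have h2 : heckeJ (M * s) t y = 0 := by
    have h3 : (s + 1) • heckeJ (M * s) t y = 0 := by
      rw [← map_nsmul, ← h1, ← pullN_heckeJ (N := M) (N' := M * s) (s := s) rfl
        (dvd_mul_right M s) hsD ht,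
        heckeJ_torsion h0 hm0 (by rw [← map_nsmul, hy, map_zero]), map_zero]
    have h4 : p ^ k • heckeJ (M * s) t y = 0 := by rw [← map_nsmul, hy, map_zero]
    have h5 := mem_of_nsmul_mem (⊥ : AddSubgroup (JZero (M * s))) hcop h4
      (by rw [h3]; exact zero_mem _)
    exact (AddSubgroup.mem_bot).mp h5
  -- occurrence at level `M s`
  have h3 : Occ (H28.charts hr.out hA hyp') (p ^ k) r (pullU M r s x) y :=
    ⟨_, RedK.pull hx, hd'⟩
  have h4 := h3.smul hA hrMs ht
  rw [h2] at h4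
  have h5 := KInf.push hA hrM hsN (h4.mem_KInf hm0)
  have hmx : p ^ k • x = 0 := by
    obtain ⟨-, f, c, hf, -⟩ := hx
    exact hf.nsmul_eq_zero
  have hmtx : p ^ k • heckeJ (M * r) t x = 0 := by rw [← map_nsmul, hmx, map_zero]
  rw [← pullU_heckeJ hsD ht, pushU_pullU hsN hm0 hmtx] at h5
  exact mem_of_nsmul_mem _ hcop hmtx h5

end Main

end Fermat.Agent.H09.M2
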