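import Fermat.Agent.H09.M2B
import Fermat.Agent.H11N.MZCurve
import Fermat.Agent.H18R.Top
import Fermat.Agent.H18O.StepU

/-!
# Mazur's principle from its geometric input, at arbitrary levels
-/

set_option autoImplicit false
set_option linter.style.haveILetI false
set_option linter.unusedSectionVars false
set_option maxSynthPendingDepth 3
set_option synthInstance.maxHeartbeats 400000

noncomputable section

attribute [-instance] HahnSeries.instModule HahnSeries.instSMul HahnSeries.instDistribMulAction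
  HahnSeries.instSMulZeroClass

namespace Fermat.Agent.H09.M2

open H29 in
attribute [local instance 10000] instLS instIF instIF2

open ModularCurve AlgebraicCurve Fermat.Agent.Igusa Fermat.Agent.Q Fermat.Agent.H11N

local notation "kk" => IsLocalRing.ResidueField
local notation "Qb" => AlgebraicClosure ℚ
local notation "Γq" => AlgebraicClosure ℚ ≃ₐ[ℚ] AlgebraicClosure ℚ

attribute [local instance] H12.isAlgClosed_kk

/-- **(N2)**, the geometric input of Mazur's principle -/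
def N2Core (A : ValuationSubring Qb) (M r : ℕ) [NeZero M] [Fact r.Prime] (hrM : Nat.Coprime r M)
    (m c₀ c D : ℕ) : Prop :=
  ∀ x : JZero (M * r), m • x = 0 → (∀ σ ∈ A.inertiaSubgroupIn ℚ, σ • x = x) →
    ∀ l : Nat.Primes, ¬ (l : ℕ) ∣ D →
    ∃ u : Fin 2 → modularFunctionFieldFullC (kk A) M,
      RedK A M r m (c₀ • (heckeOperatorBar (M * r) l x - ((l : ℕ) + 1) • x)) (u 0) ∧
      RedK A M r m (wS M r hrM •
        (c₀ • (heckeOperatorBar (M * r) l x - ((l : ℕ) + 1) • x))) (u 1) ∧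
      ∀ (j : Fin 2) (v : Place (kk A) (modularFunctionFieldFullC (kk A) M)),
        (m : ℤ) ∣ c * v.ord (u j)

/-- occurrence of the systems of eigenvalues at the level `M` -/
def OccIn (A : ValuationSubring Qb) (M r : ℕ) [NeZero M] [Fact r.Prime] (m D : ℕ) : Prop :=
  ∀ (x : JZero (M * r)) (u : modularFunctionFieldFullC (kk A) M), RedK A M r m x u →
    (∀ v : Place (kk A) (modularFunctionFieldFullC (kk A) M), (m : ℤ) ∣ v.ord u) →
    ∀ t ∈ heckeAway D, CuspForm.heckeEvalForms M 2 t = 0 → heckeJ (M * r) t x ∈ KInf A M r m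

variable {M r s : ℕ} [NeZero M] [hr : Fact r.Prime] [hs : Fact s.Prime] {A : ValuationSubring Qb}
  {m : ℕ} {hrM : Nat.Coprime r M}

theorem RedK.npow {x : JZero (M * r)} {u : modularFunctionFieldFullC (kk A) M}
    (h : RedK A M r m x u) (n : ℕ) : RedK A M r m (n • x) (u ^ n) := by
  induction n with
  | zero => rw [zero_smul, pow_zero]; exact RedK.one
  | succ n ih => rw [succ_nsmul, pow_succ]; exact ih.mul h

theorem away_mono {D D' : ℕ} (h : D' ∣ D) {t : HeckeAlg} (ht : t ∈ heckeAway D) :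
    t ∈ heckeAway D' := by
  refine Algebra.adjoin_mono ?_ ht
  rintro _ ⟨l', hl', rfl⟩
  exact ⟨l', fun h' => hl' (h'.trans h), rfl⟩

/-- the form of the input used by Mazur's principle -/
theorem toric_of_core {c₀ c D : ℕ} (hcore : N2Core A M r hrM m c₀ c D) (hocc : OccIn A M r m D)
    (hMD : M * r ∣ D) {x : JZero (M * r)} (hx : m • x = 0)
    (hI : ∀ σ ∈ A.inertiaSubgroupIn ℚ, σ • x = x) (l : Nat.Primes) (hl : ¬ (l : ℕ) ∣ D)
    {t : HeckeAlg} (ht : t ∈ heckeAway D) (h0 : CuspForm.heckeEvalForms M 2 t = 0) :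
    heckeJ (M * r) t (c • (c₀ • (heckeOperatorBar (M * r) l x - ((l : ℕ) + 1) • x))) ∈
      TSub A M r m hrM := by
  obtain ⟨u, hu0, hu1, hv⟩ := hcore x hx hI l hl
  have hne0 : u 0 ≠ 0 := hu0.1
  have hne1 : u 1 ≠ 0 := hu1.1
  have hv' : ∀ (j : Fin 2), u j ≠ 0 → ∀ v : Place (kk A) (modularFunctionFieldFullC (kk A) M),
      (m : ℤ) ∣ v.ord (u j ^ c) := by
    intro j _ v
    rw [H18.ord_pow]
    exact hv j v
  rw [mem_TSub]
  refine ⟨hocc _ _ (RedK.npow hu0 c) (hv' 0 hne0) t ht h0, ?_⟩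
  rw [← NN.heckeJ_wS hrM (away_mono hMD ht), ← nsmul_wS]
  exact hocc _ _ (RedK.npow hu1 c) (hv' 1 hne1) t ht h0

/-- **Mazur's principle** for a system of eigenvalues -/
theorem relations_of_core {D : ℕ} {a : ℕ → ℤ} {p : ℕ} [hp : Fact p.Prime] {c₀ c : ℕ}
    (hc₀ : ¬ p ∣ c₀) (hc : ¬ p ∣ c) (hcore : N2Core A M r hrM p c₀ c D)
    (hocc : OccIn A M r p D) (hA : A.LiesOverPrime r)
    (hrp : r ≠ p) (hr1 : ¬ r ≡ 1 [MOD p]) (hD : D ≠ 0) (hMD : M * r ∣ D) (hpD : p ∣ D)
    (P : MRep p D a)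
    (hdet : ∀ φ : Γq, A.IsFrobeniusAt φ r → (P.ρ φ).det = (r : ZMod p))
    (hunr : ∀ σ ∈ A.inertiaSubgroupIn ℚ, P.ρ σ = 1)
    (hne : ∃ x ∈ EigSub (M * r) p D a, x ≠ 0) :
    ∀ t ∈ heckeAway D, CuspForm.heckeEvalForms M 2 t = 0 → (p : ℤ) ∣ evalAt a t := by
  intro t ht h0
  by_contra hcon
  apply hr1
  refine eq_one_of_toric hrM hA hrp hD hMD hpD P hdet hne fun x hx => ?_
  obtain ⟨Φ, hΦ⟩ := blr P.ρ (galEig (M * r) p D a)
    (P.rel hp.out.ne_zero hD hMD hpD) P.span
  have hI : ∀ σ ∈ A.inertiaSubgroupIn ℚ, σ • x = x := by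
    intro σ hσ
    have h1 := hΦ σ
    rw [hunr σ hσ, map_one] at h1
    have h3 := congrArg (fun f : Module.End (ZMod p) (EigSub (M * r) p D a) =>
      ((f ⟨x, hx⟩ : EigSub (M * r) p D a) : JZero (M * r))) h1
    exact h3.symm
  obtain ⟨l, hl, hlD, hal⟩ := P.exists_l hp.out.one_lt hD
  have h1 := toric_of_core hcore hocc hMD hx.1 hI ⟨l, hl⟩ hlD ht h0
  rw [hx.2 ⟨l, hl⟩ hlD] at h1
  have h3 : (c : ℕ) • (c₀ • (a l • x - (l + 1) • x)) =
      ((c : ℤ) * c₀ * (a l - (l + 1)) : ℤ) • x := by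
    have e1 : ((l : ℤ) + 1) • x = (l + 1) • x := by
      rw [← natCast_zsmul]
      push_cast
      rfl
    rw [mul_smul, sub_smul, mul_smul, natCast_zsmul, natCast_zsmul, e1]
  have h1' : heckeJ (M * r) t ((c : ℕ) • (c₀ • (a l • x - (l + 1) • x))) ∈
      TSub A M r p hrM := h1
  rw [h3, map_zsmul, heckeJ_eq_evalAt ht hx.2, smul_smul] at h1'
  have hpp : Prime (p : ℤ) := Nat.prime_iff_prime_int.mp hp.out
  -- the coefficient is prime to `p`
  have h4 : ¬ (p : ℤ) ∣ (c : ℤ) * c₀ * (a l - (l + 1)) * evalAt a t := by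
    intro h
    rcases hpp.dvd_or_dvd h with h | h
    · rcases hpp.dvd_or_dvd h with h | h
      · rcases hpp.dvd_or_dvd h with h | h
        · exact hc (by exact_mod_cast h)
        · exact hc₀ (by exact_mod_cast h)
      · apply hal
        rw [← ZMod.intCast_zmod_eq_zero_iff_dvd] at h
        push_cast at h
        linear_combination h
    · exact hcon h
  have h5 : IsCoprime ((c : ℤ) * c₀ * (a l - (l + 1)) * evalAt a t) (p : ℤ) :=
    ((Nat.prime_iff_prime_int.mp hp.out).coprime_iff_not_dvd.2 h4).symm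
  obtain ⟨u, v, huv⟩ := h5
  have h6 : x = u • (((c : ℤ) * c₀ * (a l - (l + 1)) * evalAt a t) • x) := by
    rw [smul_smul]
    have h7 : u * ((c : ℤ) * c₀ * (a l - (l + 1)) * evalAt a t) = 1 - v * p := by linarith
    rw [h7, sub_smul, one_smul, mul_smul, natCast_zsmul, hx.1, smul_zero, sub_zero]
  rw [h6]
  exact (TSub A M r p hrM).zsmul_mem h1' u

end Fermat.Agent.H09.M2
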