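import Fermat.Agent.H09.M2C

/-!
# Mazur's principle at `2`, odd levels, from the geometric input at the levels divisible by `3`
-/

set_option autoImplicit false
set_option linter.style.haveILetI false
set_option linter.unusedSectionVars false
set_option maxSynthPendingDepth 3
set_option synthInstance.maxHeartbeats 400000

noncomputable section

attribute [-instance] HahnSeries.instModule HahnSeries.instSMul HahnSeries.instDistribMulAction
  HahnSeries.instSMulZeroClass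

namespace Fermat.Agent.H09.M2

open H29 in
attribute [local instance 10000] instLS instIF instIF2

open ModularCurve AlgebraicCurve Fermat.Agent.Igusa Fermat.Agent.Q Fermat.Agent.H11N
open Fermat.Agent.Ell Fermat.Agent.H12.LL

local notation "kk" => IsLocalRing.ResidueField
local notation "Qb" => AlgebraicClosure ℚ
local notation "Γq" => AlgebraicClosure ℚ ≃ₐ[ℚ] AlgebraicClosure ℚ

attribute [local instance] H12.isAlgClosed_kk

section Push

variable {M r s : ℕ} [NeZero M] [hr : Fact r.Prime] [hs : Fact s.Prime] {A : ValuationSubring Qb}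
  {m : ℕ}

theorem dvd_ord_norm (hMs : ((M * s : ℕ) : kk A) ≠ 0) (hm : m ≠ 0) {c : ℕ}
    {g : modularFunctionFieldFullC (kk A) (M * s)} (hg : g ≠ 0)
    (h : ∀ w : Place (kk A) (modularFunctionFieldFullC (kk A) (M * s)), (m : ℤ) ∣ c * w.ord g)
    (v : Place (kk A) (modularFunctionFieldFullC (kk A) M)) :
    (m : ℤ) ∣ c * v.ord (H05.normAlong (Q.incl (kk A) M s) g) := by
  obtain ⟨d, hd⟩ := H05.exists_kum_of_dvd (K := kk A) hm (pow_ne_zero c hg) (fun w => by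
    rw [H18.ord_pow]; exact h w)
  have h1 := (kum_pushHom (Q.incl (kk A) M s) (H12.integral_alphaC (kk A) M s)
    (H12.finite_alphaC (kk A) M s) (H12.nf_alphaC hMs) hd).dvd v
  rw [normAlong_pow, H18.ord_pow] at h1
  exact h1

theorem N2Core.push (hA : A.LiesOverPrime r) (hrM : Nat.Coprime r M)
    (hrMs : Nat.Coprime r (M * s)) (hsN : ¬ s ∣ M * r) (hm : m ≠ 0) {c₀ c D : ℕ} (hsD : s ∣ D)
    (hcore : N2Core A (M * s) r hrMs m c₀ c D) : N2Core A M r hrM m (c₀ * (s + 1)) c D := by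
  have hMs : ((M * s : ℕ) : kk A) ≠ 0 := natCast_residue_ne_zero hr.out hA hrMs
  intro x hx hI l hl
  have hsl : s ≠ l := fun h => hl (h ▸ hsD)
  obtain ⟨u, hu0, hu1, hv⟩ := hcore (pullU M r s x) (by rw [← map_nsmul, hx, map_zero])
    (fun σ hσ => by rw [← pullU_galois hm σ hx, hI σ hσ]) l hl
  have e1 : heckeOperatorBar (M * s * r) l (pullU M r s x) - ((l : ℕ) + 1) • pullU M r s x =
      pullU M r s (heckeOperatorBar (M * r) l x - ((l : ℕ) + 1) • x) := by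
    rw [map_sub, map_nsmul]
    congr 1
    exact (pullN_hecke (N := M * r) (N' := M * s * r) (s := s) (mul_eq_mul rfl)
      (mul_dvd_mul' (ℓ := s) rfl) l hsl x).symm
  set z := heckeOperatorBar (M * r) l x - ((l : ℕ) + 1) • x with hz
  have hmz : m • z = 0 := by
    rw [hz, smul_sub, ← map_nsmul, hx, map_zero, smul_comm, hx, smul_zero, sub_zero]
  rw [e1] at hu0 hu1
  have hmp : m • (c₀ • pullU M r s z) = 0 := by
    rw [smul_comm, ← map_nsmul, hmz, map_zero, smul_zero]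
  have e2 : pushU M r s (c₀ • pullU M r s z) = (c₀ * (s + 1)) • z := by
    rw [map_nsmul, pushU_pullU hsN hm hmz, mul_smul]
  refine ⟨fun j => H05.normAlong (Q.incl (kk A) M s) (u j), ?_, ?_, fun j v => ?_⟩
  · have h1 := RedK.push hA hrM hsN hu0
    rw [e2] at h1
    exact h1
  · have h1 := RedK.push hA hrM hsN hu1
    rw [pushU_wS hrM hrMs hm hmp, e2] at h1
    exact h1
  · have hne : u j ≠ 0 := by
      fin_cases j
      · exact hu0.1
      · exact hu1.1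
    exact dvd_ord_norm hMs hm hne (hv j) v

theorem N2Core.mono {hrM : Nat.Coprime r M} {c₀ c D D' : ℕ} (hDD' : D ∣ D')
    (h : N2Core A M r hrM m c₀ c D) : N2Core A M r hrM m c₀ c D' :=
  fun x hx hI l hl => h x hx hI l fun h' => hl (h'.trans hDD')

end Push

section Two

variable {M : ℕ} [NeZero M] {A : ValuationSubring Qb}

theorem occIn_three (hA : A.LiesOverPrime 2) (hM : Nat.Coprime 2 M) (h3 : 3 ∣ M) {m : ℕ}
    (hm : m ≠ 0) {D : ℕ} (hD : M * 2 ∣ D) : OccIn A M 2 m D :=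
  fun _ _ hx hord _ ht h0 => occurrence_forms hA hM (Or.inr h3) hm hx hord (away_mono hD ht) h0

theorem occIn_nthree (hA : A.LiesOverPrime 2) (hM : Nat.Coprime 2 M) (h3 : ¬ 3 ∣ M) {p : ℕ}
    (hp : p.Prime) (hp2 : p ≠ 2) {D : ℕ} (hD : M * 3 * 2 ∣ D) : OccIn A M 2 p D := by
  intro x u hx hord t ht h0
  haveI : Fact (Nat.Prime 3) := ⟨Nat.prime_three⟩
  have hsN : ¬ 3 ∣ M * 2 := by
    intro h
    rcases (Nat.Prime.dvd_mul Nat.prime_three).1 h with h | h
    · exact h3 h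
    · omega
  have hyp' : ¬ 2 ∣ M * 3 ∧ ((2 ∣ M * 3 ∧ (2 : ℕ) ≠ 2) ∨ (3 ∣ M * 3 ∧ (2 : ℕ) ≠ 3)) := by
    refine ⟨fun h => ?_, Or.inr ⟨dvd_mul_left _ _, by norm_num⟩⟩
    have h1 := (Nat.Prime.coprime_iff_not_dvd Nat.prime_two).1 hM
    rcases (Nat.Prime.dvd_mul Nat.prime_two).1 h with h | h
    · exact h1 h
    · omega
  have hp4 : ¬ p ∣ 3 + 1 := by
    intro h
    have h1 : p ∣ 2 ^ 2 := h
    exact hp2 ((Nat.prime_dvd_prime_iff_eq hp Nat.prime_two).1 (hp.dvd_of_dvd_pow h1))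
  have h1 := occurrence_forms' (M := M) (r := 2) (s := 3) hA hM hsN hyp' hp hp2 hp4 (k := 1)
    (x := x) (u := u) (by rw [pow_one]; exact hx) (by rw [pow_one]; exact hord)
    (away_mono hD ht) h0
  rw [pow_one] at h1
  exact h1

end Two

section Curve

variable {W : WeierstrassCurve ℤ} {p : ℕ} [hp : Fact p.Prime]

/-- **Mazur's principle at `2`** at the odd level `M`, from its geometric input. -/
theorem rm_of_core (hΔ : W.Δ ≠ 0) (hirr : W.ModRepIsIrreducible p) (hp2 : p ≠ 2)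
    {M : ℕ} [NeZero M] (hM2 : Nat.Coprime 2 M) {c₀ c D : ℕ} (hc₀ : ¬ p ∣ c₀) (hc : ¬ p ∣ c)
    (hD : D ≠ 0) (hMD : M * 2 ∣ D) (hpD : p ∣ D) (hΔD : W.Δ.natAbs ∣ D)
    (hcore : ∀ A : ValuationSubring Qb, A.LiesOverPrime 2 → N2Core A M 2 hM2 p c₀ c D)
    (hocc : ∀ A : ValuationSubring Qb, A.LiesOverPrime 2 → OccIn A M 2 p D)
    (hunr : UnrAt W p 2) (hmod : W.IsResiduallyModularOfLevel p (M * 2)) :
    W.IsResiduallyModularOfLevel p M := by
  haveI := isElliptic_WQ hΔ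
  have hMD' : M ∣ D := (dvd_mul_right M 2).trans hMD
  obtain ⟨A, hA⟩ := H05.exists_liesOverPrime Qb Nat.prime_two
  have hq1 : ¬ 2 ≡ 1 [MOD p] := by
    intro h
    have h1 := (Nat.modEq_iff_dvd' (by norm_num : 1 ≤ 2)).1 h.symm
    exact hp.out.one_lt.ne' (Nat.dvd_one.1 h1)
  refine H18R.isResiduallyModular_of_RMs hΔ hirr (NeZero.ne M) (rms_of_relations hMD' hD
    (relations_of_core hc₀ hc (hcore A hA) (hocc A hA) hA hp2.symm hq1 hD hMD hpD
      (mrepCurve hΔ hirr hp2 hpD hΔD)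
      (fun φ hφ => det_MR_frob hΔ hirr Nat.prime_two hp2.symm hA hφ)
      (fun σ hσ => ?_) (exists_eigen_of_residual hmod hMD hpD hΔD)))
  rw [mrepCurve_ρ, MR_toZMod_eq_one_iff]
  exact hunr A hA σ hσ

/-- the auxiliary prime, for `p = 3` -/
def Aux3 (p M : ℕ) : Prop := p = 3 → ∃ r : ℕ, r.Prime ∧ r % 3 = 2 ∧ r ∣ M

/-- **(MZ2)** from the geometric input at the levels divisible by `3` -/
theorem mz2_of (hΔ : W.Δ ≠ 0) (hirr : W.ModRepIsIrreducible p) (hp2 : p ≠ 2) {c : ℕ}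
    (hc : ¬ p ∣ c)
    (hin : ∀ (M : ℕ) [NeZero M] (hM : Nat.Coprime 2 M), 3 ∣ M → Aux3 p M →
      ∀ A : ValuationSubring Qb, A.LiesOverPrime 2 → N2Core A M 2 hM p 1 c (M * 2)) :
    H18O.Mz2 W p := by
  intro M h2M _ haux hunr hmod
  have hM0 : M ≠ 0 := fun h => h2M (h ▸ dvd_zero 2)
  haveI : NeZero M := ⟨hM0⟩
  haveI : Fact (Nat.Prime 3) := ⟨Nat.prime_three⟩
  have hM2 : Nat.Coprime 2 M := (Nat.Prime.coprime_iff_not_dvd Nat.prime_two).2 h2M
  set D := M * 3 * 2 * p * W.Δ.natAbs with hDdef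
  have hD : D ≠ 0 := mul_ne_zero (mul_ne_zero (mul_ne_zero (mul_ne_zero hM0 three_ne_zero)
    two_ne_zero) hp.out.ne_zero) (Int.natAbs_ne_zero.2 hΔ)
  have hMD3 : M * 3 * 2 ∣ D := ⟨p * W.Δ.natAbs, by rw [hDdef]; ring⟩
  have hMD : M * 2 ∣ D := ⟨3 * p * W.Δ.natAbs, by rw [hDdef]; ring⟩
  have h3D : 3 ∣ D := ⟨M * 2 * p * W.Δ.natAbs, by rw [hDdef]; ring⟩
  have hpD : p ∣ D := ⟨M * 3 * 2 * W.Δ.natAbs, by rw [hDdef]; ring⟩
  have hΔD : W.Δ.natAbs ∣ D := dvd_mul_left _ _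
  by_cases h3 : 3 ∣ M
  · exact rm_of_core hΔ hirr hp2 hM2 (fun h => hp.out.one_lt.ne' (Nat.dvd_one.1 h)) hc hD hMD
      hpD hΔD
      (fun A hA => (hin M hM2 h3 haux A hA).mono hMD)
      (fun A hA => occIn_three hA hM2 h3 hp.out.ne_zero hMD) hunr hmod
  · have hsN : ¬ 3 ∣ M * 2 := by
      intro h
      rcases (Nat.Prime.dvd_mul Nat.prime_three).1 h with h | h
      · exact h3 h
      · omega
    have hM32 : Nat.Coprime 2 (M * 3) := Nat.Coprime.mul_right hM2 (by norm_num)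
    have hp4 : ¬ p ∣ 1 * (3 + 1) := by
      intro h
      have h1 : p ∣ 2 ^ 2 := by rwa [one_mul] at h
      exact hp2 ((Nat.prime_dvd_prime_iff_eq hp.out Nat.prime_two).1
        (hp.out.dvd_of_dvd_pow h1))
    refine rm_of_core hΔ hirr hp2 hM2 hp4 hc hD hMD hpD hΔD
      (fun A hA => N2Core.push (M := M) (r := 2) (s := 3) hA hM2 hM32 hsN hp.out.ne_zero h3D
        ((hin (M * 3) hM32 (dvd_mul_left _ _) (fun h => ?_) A hA).mono hMD3))
      (fun A hA => occIn_nthree hA hM2 h3 hp.out hp2 hMD3) hunr hmod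
    obtain ⟨r, hr, h1, h2⟩ := haux h
    exact ⟨r, hr, h1, h2.mul_right 3⟩

end Curve

end Fermat.Agent.H09.M2
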