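import Fermat.Agent.H09.M2D
import Fermat.Agent.H27.M2d

/-!
# The geometric input of Mazur's principle at `2`, at the levels divisible by `3`
-/

set_option autoImplicit false
set_option linter.style.haveILetI false
set_option linter.unusedSectionVars false
set_option maxSynthPendingDepth 3

noncomputable section

attribute [-instance] HahnSeries.instModule HahnSeries.instSMul HahnSeries.instDistribMulAction
  HahnSeries.instSMulZeroClass

attribute [local instance 10000] Fermat.Agent.H29.instLS Fermat.Agent.H29.instIF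
  Fermat.Agent.H29.instIF2

namespace Fermat.Agent.H09.M2

open ModularCurve HahnSeries Fermat.Agent.Igusa AlgebraicCurve Fermat.Agent.FF Fermat.Agent.H11Q
  Fermat.Agent.Q Module IntermediateField Fermat.Agent.H11N Fermat.Agent.NN

local notation "kk" => IsLocalRing.ResidueField
local notation "Qb" => AlgebraicClosure ℚ

attribute [local instance] H12.isAlgClosed_kk

section General

variable {K F F' : Type*} [Field K] [Field F] [Field F'] [Algebra K F] [Algebra K F']

/-- the ramification indices of an extension of degree `n` over an algebraically closed field -/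
theorem dvd_mul_ord [HasPrincipalDivisors K F'] (φ : F →ₐ[K] F')
    (hφ : φ.toRingHom.IsIntegral)
    (hFI : FundamentalIdentityAlong K φ hφ) {n : ℕ} (h2 : finrankAlong K φ = n)
    (hdeg : ∀ w : Place K F', w.deg = 1) {m : ℤ} {u : F}
    (v : Place K F) (hvdeg : v.deg = 1) (h : ∀ w : Place K F', m ∣ w.ord (φ u)) :
    m ∣ n * v.ord u := by
  letI := algebraAlong φ
  haveI := isScalarTower_along φ
  haveI := isIntegral_along φ hφ
  haveI : FundamentalIdentity K F F' := hFI
  have h1 := FundamentalIdentity.sum_ramificationIndex_mul_deg (K := K) (F := F) (F' := F') v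
  have h3 : (Module.finrank F F' : ℤ) = n := by exact_mod_cast h2
  rw [h3, hvdeg] at h1
  have h4 : (n : ℤ) * v.ord u = ∑ w ∈ v.fiber F', w.ord (algebraMap F F' u) := by
    have h5 : (n : ℤ) * v.ord u = (∑ w ∈ v.fiber F', (w.ramificationIndex F : ℤ) * (w.deg : ℤ)) *
        v.ord u := by rw [h1]; push_cast; ring
    rw [h5, Finset.sum_mul]
    refine Finset.sum_congr rfl fun w hw => ?_
    rw [w.ord_restrict, (Place.mem_fiber).1 hw, hdeg w]
    push_cast
    ring
  rw [h4]
  exact Finset.dvd_sum fun w _ => h w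

end General

section Deg3

variable {k : Type*} [Field k] {M : ℕ} [NeZero M]

theorem finrank_three (h3 : 3 ∣ M) (hM : ((M * 3 : ℕ) : k) ≠ 0) :
    finrankAlong k (Q.incl k M 3) = 3 := by
  have hM' : (M : k) ≠ 0 := by
    intro h0; apply hM; push_cast; rw [h0, zero_mul]
  apply Igusa.finrankAlong_inclusion
  have h1 := IntermediateField.relrank_mul_relrank
    (full_degeneracyC_le k (one_dvd M)) (full_degeneracyC_le k (dvd_mul_right M 3))
  rw [relrank_full M hM', relrank_full (M * 3) hM,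
    dedekindPsi_mul_prime Nat.prime_three (NeZero.ne M), if_pos h3, Nat.cast_mul] at h1
  have h3 : (dedekindPsi M : Cardinal) ≠ 0 := by
    exact_mod_cast (dedekindPsi_pos (NeZero.ne M)).ne'
  rw [← Nat.cast_mul] at h1
  rcases lt_or_ge ((modularFunctionFieldFullC k M).relrank (modularFunctionFieldFullC k (M * 3)))
    Cardinal.aleph0 with h5 | h5
  · obtain ⟨n, hn⟩ := Cardinal.lt_aleph0.1 h5
    rw [hn, ← Nat.cast_mul, Nat.cast_inj] at h1
    rw [hn, Nat.eq_of_mul_eq_mul_left (dedekindPsi_pos (NeZero.ne M)) h1]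
  · have h6 := h5.trans (Cardinal.le_mul_left h3)
    rw [h1] at h6
    exact absurd h6 (not_le.2 Cardinal.natCast_lt_aleph0)

end Deg3

variable {M : ℕ} [NeZero M] {A : ValuationSubring Qb} {m : ℕ}

/-- the divisibility of the orders of the reductions, for the functions with the same valuation
on the two components -/
def OrdTwo (A : ValuationSubring Qb) (M : ℕ) [NeZero M] (hM : Nat.Coprime 2 M) (m c : ℕ) : Prop :=
  ∀ (x : JZero (M * 2)) (f : modularFunctionFieldBar (M * 2)), H05.Kum m x f → IFix A f →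
    ∀ (φ : Fin 2 → modularFunctionFieldFullC (kk A) M) (n : ℤ),
      (∀ j, HasVal (alData M 2 hM) A (modularFunctionFieldFullC (kk A) M) j f n (φ j)) →
      ∀ (j : Fin 2) (v : Place (kk A) (modularFunctionFieldFullC (kk A) M)),
        (m : ℤ) ∣ c * v.ord (φ j)

/-- the pull-back of the orders to level `3 M` -/
theorem dvd_ord_up (hrM : Nat.Coprime 2 M) (h3 : 3 ∣ M) (hA : A.LiesOverPrime 2) (hm : 0 < m)
    {x : JZero (M * 2)} {f : modularFunctionFieldBar (M * 2)} (hf : H05.Kum m x f)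
    (hI : IFix A f) {φ : Fin 2 → modularFunctionFieldFullC (kk A) M} {n : ℤ}
    (hval : ∀ j, HasVal (alData M 2 hrM) A (modularFunctionFieldFullC (kk A) M) j f n (φ j))
    (j : Fin 2) (w : Place (kk A) (modularFunctionFieldFullC (kk A) (M * 3))) :
    (m : ℤ) ∣ w.ord (Q.incl (kk A) M 3 (φ j)) := by
  have hrM' : Nat.Coprime 2 (M * 3) := Nat.Coprime.mul_right hrM (by norm_num)
  have h9 : 9 ∣ M * 3 := by
    obtain ⟨c, rfl⟩ := h3
    exact ⟨c, by ring⟩
  have hdvd : M * 2 ∣ M * 3 * 2 := ⟨3, by ring⟩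
  obtain ⟨T, hT⟩ := N9.node_two hrM' h9 hA
  have hkum := kum_pullN (N := M * 2) (N' := M * 3 * 2) (ℓ := 3) (by ring) hdvd hf
  have key := hT hm (f := incN hdvd f) hkum.ne_zero
    (ratS_of_ifix hrM' hA (ifix_incN hdvd hI)) hkum.dvd (n := fun _ => n)
    (φ := fun j => Q.incl (kk A) M 3 (φ j))
    (fun j => hasVal_incN hrM hrM' (dvd_mul_right M 3) hdvd (Q.coe_incl (kk A) M 3 (φ j)) (hval j)) w
  simp only [sub_self, zero_mul, sub_zero, add_zero] at key
  rcases fin2_cases j with rfl | rfl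
  · exact key.1
  · exact key.2

theorem ordTwo_three (hrM : Nat.Coprime 2 M) (h3 : 3 ∣ M) (hA : A.LiesOverPrime 2) (hm : 0 < m) :
    OrdTwo A M hrM m 3 := by
  intro x f hf hI φ n hval j v
  have hrM' : Nat.Coprime 2 (M * 3) := Nat.Coprime.mul_right hrM (by norm_num)
  have hMk : ((M * 3 : ℕ) : kk A) ≠ 0 := Q.natCast_residue_ne_zero Nat.prime_two hA hrM'
  have hMk' : (M : kk A) ≠ 0 := Q.natCast_residue_ne_zero Nat.prime_two hA hrM
  haveI : SepFF (kk A) (modularFunctionFieldFullC (kk A) (M * 3)) := sepFF_full hMk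
  haveI : SepFF (kk A) (modularFunctionFieldFullC (kk A) M) := sepFF_full hMk'
  haveI : HasPrincipalDivisors (kk A) (modularFunctionFieldFullC (kk A) (M * 3)) :=
    SepFF.hasPrincipalDivisors
  exact dvd_mul_ord (Q.incl (kk A) M 3) (H12.integral_alphaC (kk A) M 3)
    (H12.fi_alphaC hMk) (finrank_three h3 hMk) (fun w => SepFF.deg_eq_one w) v
    (SepFF.deg_eq_one v) (fun w => dvd_ord_up hrM h3 hA hm hf hI hval j w)

/-- **(N2)** at `2` -/
theorem n2core_of_ordTwo (hrM : Nat.Coprime 2 M) (h3 : 3 ∣ M) (hA : A.LiesOverPrime 2)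
    (hm : m ≠ 0) {c : ℕ} (hord : OrdTwo A M hrM m c) : N2Core A M 2 hrM m 1 c (M * 2) := by
  intro x hx hI l hl
  haveI : Fact (l : ℕ).Prime := ⟨l.2⟩
  have hlN : ¬ (l : ℕ) ∣ M * 2 := hl
  have hrQ : ((2 : ℕ) : Qb) ≠ 0 := by norm_num
  obtain ⟨f, hf, hfI⟩ := exists_kumI hm hx hI
  obtain ⟨lp⟩ := H11Q.hasPacks Nat.prime_two hA M hrM (Or.inr h3)
  have hrat := ratS_of_ifix hrM hA hfI
  choose n φ hval using fun j => exists_hasVal (inertData hrM hA) (redHyp hrM hA) lp
    (g := f) hf.ne_zero hrat j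
  have hK : H05.Kum m (heckeOperatorBar (M * 2) l x - ((l : ℕ) + 1) • x)
      (nmF l f * (f⁻¹) ^ ((l : ℕ) + 1)) := by
    have h1 := (kum_hecke (l := (l : ℕ)) hf).mul (kum_nsmul hf.inv ((l : ℕ) + 1))
    rw [smul_neg, ← sub_eq_add_neg] at h1
    exact h1
  set F : modularFunctionFieldBar (M * 2) := nmF l f * (f⁻¹) ^ ((l : ℕ) + 1) with hF
  have hFI : IFix A F := (hfI.nmF).mul (hfI.inv.pow _)
  have hFval : ∀ j, HasVal (alData M 2 hrM) A (modularFunctionFieldFullC (kk A) M) j F 0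
      (nmC (kk A) M l (φ j) * ((φ j)⁻¹) ^ ((l : ℕ) + 1)) := by
    intro j
    have h1 := (hasVal_nmF hA hrM hlN (hval j)).mul hrQ (((hval j).inv).pow hrQ ((l : ℕ) + 1))
    have h3 : (((l : ℕ) : ℤ) + 1) * n j + (((l : ℕ) + 1 : ℕ) : ℤ) * (-n j) = 0 := by
      push_cast; ring
    rw [h3] at h1
    exact h1
  refine ⟨fun j => nmC (kk A) M l (φ j) * ((φ j)⁻¹) ^ ((l : ℕ) + 1), ?_, ?_, fun j v =>
    hord _ F hK hFI _ 0 hFval j v⟩
  · rw [one_smul]
    refine ⟨(hFval 0).1, F, ((2 : ℕ) : Qb) ^ (-(0 : ℤ)), hK, zpow_ne_zero _ hrQ, ?_⟩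
    rw [← zsmul_eq_C, ← al_e0 hrM]
    exact (hFval 0).2
  · rw [one_smul]
    refine ⟨(hFval 1).1, wBar M 2 hrM F, ((2 : ℕ) : Qb) ^ (-(0 : ℤ)), ?_, zpow_ne_zero _ hrQ, ?_⟩
    · exact hK.smul (wS M 2 hrM)
    · rw [← zsmul_eq_C, ← al_e1 hrM]
      exact (hFval 1).2

/-- **Mazur's principle at `2`, `p ≥ 5`.** -/
theorem mz2_five {W : WeierstrassCurve ℤ} {p : ℕ} [hp : Fact p.Prime] (hΔ : W.Δ ≠ 0)
    (hirr : W.ModRepIsIrreducible p) (hp2 : p ≠ 2) (hp3 : p ≠ 3) : H18O.Mz2 W p :=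
  mz2_of hΔ hirr hp2 (c := 3)
    (fun h => hp3 ((Nat.prime_dvd_prime_iff_eq hp.out Nat.prime_three).1 h))
    fun _ _ hM h3 _ _ hA => n2core_of_ordTwo hM h3 hA hp.out.ne_zero
      (ordTwo_three hM h3 hA hp.out.pos)

end Fermat.Agent.H09.M2
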