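import Fermat.Agent.H09.M2E
import Fermat.Agent.H05.ALJac

/-!
# The pull-back of the orders to level `3 M` along the second degeneracy map
-/

set_option autoImplicit false
set_option linter.style.haveILetI false
set_option linter.unusedSectionVars false
set_option maxSynthPendingDepth 3

noncomputable section

attribute [-instance] HahnSeries.instModule HahnSeries.instSMul HahnSeries.instDistribMulAction
  HahnSeries.instSMulZeroClass

attribute [local instance 10000] Fermat.Agent.H29.instLS Fermat.Agent.H29.instIF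
  Fermat.Agent.H29.instIF2

namespace Fermat.Agent.H09.M2

open ModularCurve HahnSeries Fermat.Agent.Igusa AlgebraicCurve Fermat.Agent.FF Fermat.Agent.H11Q
  Fermat.Agent.Q Module IntermediateField Fermat.Agent.H11N Fermat.Agent.NN

local notation "kk" => IsLocalRing.ResidueField
local notation "Qb" => AlgebraicClosure ℚ

attribute [local instance] H12.isAlgClosed_kk

section QE

variable {M r s : ℕ} [NeZero M] [hr : Fact r.Prime] [hs : Fact s.Prime] {A : ValuationSubring Qb}
  {m : ℕ}


theorem qExpand_smul (c : Qb) (x : LaurentSeries Qb) :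
    qExpand Qb s (c • x) = c • qExpand Qb s x := by
  rw [zsmul_eq_C, zsmul_eq_C, map_mul]
  congr 1
  have h1 : (HahnSeries.C c : LaurentSeries Qb) = HahnSeries.single 0 c := rfl
  rw [h1, qExpand_single, mul_zero]

theorem e_qe (hrM : Nat.Coprime r M) (hrM' : Nat.Coprime r (M * s)) (h : M * r * s ∣ M * s * r)
    (j : Fin 2) (f : modularFunctionFieldBar (M * r)) :
    (alData (M * s) r hrM').e j (H05.qe Qb s h f) = qExpand Qb s ((alData M r hrM).e j f) := by
  haveI : NeZero r := ⟨hr.out.ne_zero⟩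
  rcases fin2_cases j with rfl | rfl
  · rw [al_e0, al_e0]
    rfl
  · rw [al_e1, al_e1]
    have h1 := congrArg (fun z : modularFunctionFieldBar (M * s * r) => (z : LaurentSeries Qb))
      (H05.wBar_qe (M := M) (r := r) (ℓ := s) hrM hrM' h f)
    exact h1

theorem hasVal_qe (hrM : Nat.Coprime r M) (hrM' : Nat.Coprime r (M * s))
    (h : M * r * s ∣ M * s * r) {j : Fin 2} {f : modularFunctionFieldBar (M * r)} {n : ℤ}
    {φ : modularFunctionFieldFullC (kk A) M}
    (hv : HasVal (alData M r hrM) A (modularFunctionFieldFullC (kk A) M) j f n φ) :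
    HasVal (alData (M * s) r hrM') A (modularFunctionFieldFullC (kk A) (M * s)) j
      (H05.qe Qb s h f) n (H12.betaC (kk A) M s φ) := by
  refine ⟨fun h0 => hv.1 ?_, ?_⟩
  · exact (map_eq_zero_iff _ (H12.betaC (kk A) M s).toRingHom.injective).mp h0
  · rw [e_qe hrM hrM' h, H12.coe_betaC, ← qExpand_smul]
    exact hv.2.qExpand s

theorem ifix_qe {N N' : ℕ} [NeZero N] [NeZero N'] (h : N * s ∣ N')
    {f : modularFunctionFieldBar N} (hf : IFix A f) : IFix A (H05.qe Qb s h f) := by
  intro σ hσ
  have h1 := hf σ hσ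
  apply Subtype.ext
  have h2 := congrArg (fun z : modularFunctionFieldBar N => qExpand Qb s (z : LaurentSeries Qb)) h1
  change coeffMap (σ : Qb →+* Qb) (qExpand Qb s (f : LaurentSeries Qb)) =
    qExpand Qb s (f : LaurentSeries Qb)
  rw [H05.coeffMap_qExpand_comm]
  exact h2

theorem kum_qe {N N' : ℕ} [NeZero N] [NeZero N'] (h : N * s ∣ N')
    {x : JZero N} {f : modularFunctionFieldBar N} (hf : H05.Kum m x f) :
    ∃ y : JZero N', H05.Kum m y (H05.qe Qb s h f) :=
  ⟨_, kum_pullHom (H05.qe Qb s h) (H05.qe_isIntegral Qb s h)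
    (H05.fundamentalIdentityAlong_of _ _ (H05.finiteAlong_qe Qb s h)) hf⟩

end QE

variable {M : ℕ} [NeZero M] {A : ValuationSubring Qb} {m : ℕ}

/-- the pull-back of the orders to level `3 M`, second degeneracy map -/
theorem dvd_ord_up_beta (hrM : Nat.Coprime 2 M) (h3 : 3 ∣ M) (hA : A.LiesOverPrime 2) (hm : 0 < m)
    {x : JZero (M * 2)} {f : modularFunctionFieldBar (M * 2)} (hf : H05.Kum m x f)
    (hI : IFix A f) {φ : Fin 2 → modularFunctionFieldFullC (kk A) M} {n : ℤ}
    (hval : ∀ j, HasVal (alData M 2 hrM) A (modularFunctionFieldFullC (kk A) M) j f n (φ j))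
    (j : Fin 2) (w : Place (kk A) (modularFunctionFieldFullC (kk A) (M * 3))) :
    (m : ℤ) ∣ w.ord (H12.betaC (kk A) M 3 (φ j)) := by
  have hrM' : Nat.Coprime 2 (M * 3) := Nat.Coprime.mul_right hrM (by norm_num)
  have h9 : 9 ∣ M * 3 := by
    obtain ⟨c, rfl⟩ := h3
    exact ⟨c, by ring⟩
  have hdvd : M * 2 * 3 ∣ M * 3 * 2 := ⟨1, by ring⟩
  obtain ⟨T, hT⟩ := N9.node_two hrM' h9 hA
  obtain ⟨y, hkum⟩ := kum_qe (s := 3) (N := M * 2) (N' := M * 3 * 2) hdvd hf
  have key := hT hm (f := H05.qe Qb 3 hdvd f) hkum.ne_zero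
    (ratS_of_ifix hrM' hA (ifix_qe hdvd hI)) hkum.dvd (n := fun _ => n)
    (φ := fun j => H12.betaC (kk A) M 3 (φ j))
    (fun j => hasVal_qe (s := 3) hrM hrM' hdvd (hval j)) w
  simp only [sub_self, zero_mul, sub_zero, add_zero] at key
  rcases fin2_cases j with rfl | rfl
  · exact key.1
  · exact key.2

end Fermat.Agent.H09.M2
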