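import Fermat.Agent.H09.M2G

/-!
# The orders at the non-elliptic places, `p = 3`, levels without prime `≡ 2` modulo `3`
-/

set_option autoImplicit false
set_option linter.style.haveILetI false
set_option linter.unusedSectionVars false
set_option maxSynthPendingDepth 3

noncomputable section

attribute [-instance] HahnSeries.instModule HahnSeries.instSMul HahnSeries.instDistribMulAction
  HahnSeries.instSMulZeroClass

attribute [local instance 10000] Fermat.Agent.H29.instLS Fermat.Agent.H29.instIF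
  Fermat.Agent.H29.instIF2

namespace Fermat.Agent.H09.M2

open ModularCurve HahnSeries Fermat.Agent.Igusa AlgebraicCurve Fermat.Agent.FF Fermat.Agent.H11Q
  Fermat.Agent.Q Module IntermediateField Fermat.Agent.H11N Fermat.Agent.NN Fermat.Agent.N9

local notation "kk" => IsLocalRing.ResidueField
local notation "Qb" => AlgebraicClosure ℚ

attribute [local instance] H12.isAlgClosed_kk

section Deg

/-- the degree of a divisor with divisible coefficients -/
theorem dvd_degree {K F : Type*} [Field K] [Field F] [Algebra K F] {m : ℤ} {D : Divisor K F}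
    (h : ∀ v, m ∣ D v) : m ∣ Divisor.degree D := by
  classical
  have h1 : Divisor.degree D = ∑ v ∈ D.support, D v * (v.deg : ℤ) := by
    conv_lhs => rw [← Finsupp.sum_single D]
    rw [Finsupp.sum, map_sum]
    refine Finset.sum_congr rfl fun v _ => ?_
    rw [Divisor.degree_single]
  rw [h1]
  exact Finset.dvd_sum fun v _ => (h v).mul_right _

/-- the index of a level all of whose primes are `1` modulo `3` -/
theorem not_three_dvd_psi {n : ℕ} (hn : n ≠ 0) (h : ∀ s : ℕ, s.Prime → s ∣ n → s % 3 = 1) :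
    ¬ 3 ∣ dedekindPsi n := by
  revert hn h
  refine induction_on_primes (motive := fun n => n ≠ 0 → (∀ s : ℕ, s.Prime → s ∣ n → s % 3 = 1) →
    ¬ 3 ∣ dedekindPsi n) ?_ ?_ ?_ n
  · exact fun h => absurd rfl h
  · intro _ _
    rw [dedekindPsi_one]
    norm_num
  · intro p b hp ih hn h
    have hb : b ≠ 0 := fun h0 => hn (by rw [h0, mul_zero])
    have h1 := h p hp (dvd_mul_right _ _)
    rw [mul_comm p b, dedekindPsi_mul_prime hp hb]
    intro h3
    rcases (Nat.Prime.dvd_mul Nat.prime_three).1 h3 with h3 | h3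
    · exact ih hb (fun s hs hsb => h s hs (hsb.mul_left p)) h3
    · split_ifs at h3 <;> omega

end Deg

variable {M : ℕ} [NeZero M] {A : ValuationSubring Qb} {m : ℕ}

/-- **Theorem N1 at `2`**, with the degree of the divisor -/
theorem node_two_deg (hrM : Nat.Coprime 2 M) (h9 : 9 ∣ M) (hA : A.LiesOverPrime 2) :
    ∃ T : Divisor (kk A) (modularFunctionFieldFullC (kk A) M), NodeRel (r := 2) hrM A T ∧
      12 * Divisor.degree T = dedekindPsi M := by
  have hMk : (M : kk A) ≠ 0 := Q.natCast_residue_ne_zero Nat.prime_two hA hrM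
  have h3M : 3 ∣ M := (by norm_num : 3 ∣ 9).trans h9
  have hrM' : ¬ 2 ∣ M := (Nat.Prime.coprime_iff_not_dvd Nat.prime_two).1 hrM
  haveI : SepFF (kk A) (modularFunctionFieldFullC (kk A) M) := sepFF_full hMk
  haveI := SepFF.hasPrincipalDivisors (k := kk A) (κ := modularFunctionFieldFullC (kk A) M)
  obtain ⟨P, hP⟩ := exists_placeInf (kk A) M
  obtain ⟨C, hC⟩ := exists_charts9 (M := M) hrM h3M rfl hA
  obtain ⟨lp, hO⟩ := exists_levelPack_reg Nat.prime_two hA hMk C hC P hP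
  obtain ⟨Z, hZ1, hZ2⟩ := exists_zdat_mod9 hrM h9 rfl hA
  obtain ⟨T, hT⟩ := Z.exists_T hP
  have hZ1' : Z.tb = ⟨H9.tq (kk A), tq_mem_full9 (kk A) h9 hMk⟩ := Subtype.ext hZ1
  have hdeg := degree_T9 h9 hMk Z.S T (fun v => by
    rw [hT, hZ1']
    rfl)
  have h7 : 12 * Divisor.degree T = dedekindPsi M := by
    rw [hdeg, hZ2, Nat.cast_one, one_mul]
  refine ⟨T, ?_, h7⟩
  have hS : (genusFF Qb (modularFunctionFieldBar (M * 2)) : ℤ) + 1 ≤
      2 * lp.g' + Divisor.degree T := by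
    have h1 := genusFormula_rel9 (NeZero.ne M) Nat.prime_two hrM' h9
    have h3 := genusHyp (M * 2)
    have h4 := genusHyp M
    have h5 : (lp.g' : ℚ) = genusFormula M := by rw [lp.g'_eq, ← h4]
    have h6 : (12 : ℚ) * (Divisor.degree T : ℤ) = (((2 : ℕ) : ℚ) - 1) * dedekindPsi M := by
      have h7' : 12 * Divisor.degree T = (((2 : ℕ) : ℤ) - 1) * dedekindPsi M := by
        rw [h7]
        push_cast
        ring
      exact_mod_cast h7'
    have h8 : ((genusFF Qb (modularFunctionFieldBar (M * 2)) : ℤ) : ℚ) + 1 ≤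
        2 * ((lp.g' : ℤ) : ℚ) + ((Divisor.degree T : ℤ) : ℚ) := by
      push_cast
      push_cast at h1 h6
      rw [h3, h5]
      linarith
    exact_mod_cast h8
  intro m hm f hf0 hf hdvd n φ hval v
  exact node_triv (inertData hrM hA) (redHyp hrM hA) lp Z P hP hO T hT hS hm hf0 hf hdvd hval v

section Kap

variable (hrM : Nat.Coprime 2 M) (h3 : 3 ∣ M) (h9 : ¬ 9 ∣ M)
  (hno : ∀ s : ℕ, s.Prime → s % 3 = 2 → ¬ s ∣ M) (hA : A.LiesOverPrime 2)
  {x : JZero (M * 2)} {f : modularFunctionFieldBar (M * 2)} (hf : H05.Kum 3 x f) (hI : IFix A f)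
  {φ : Fin 2 → modularFunctionFieldFullC (kk A) M} {n : Fin 2 → ℤ}
  (hval : ∀ j, HasVal (alData M 2 hrM) A (modularFunctionFieldFullC (kk A) M) j f (n j) (φ j))

include h3 h9 hno in
theorem not_three_dvd_deg {F : Type*} [Field F] [Algebra (kk A) F] {T : Divisor (kk A) F}
    (hT : 12 * Divisor.degree T = dedekindPsi (M * 3)) : ¬ (3 : ℤ) ∣ Divisor.degree T := by
  obtain ⟨M1, hM1⟩ := h3
  have hM0 : M1 ≠ 0 := fun h => NeZero.ne M (by rw [hM1, h, mul_zero])
  have h3M : ¬ 3 ∣ M1 := fun ⟨c, hc⟩ => h9 ⟨c, by rw [hM1, hc]; ring⟩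
  have h1 : dedekindPsi (M * 3) = 12 * dedekindPsi M1 := by
    rw [hM1, mul_comm 3 M1, dedekindPsi_mul_prime Nat.prime_three (mul_ne_zero hM0 three_ne_zero),
      if_pos (dvd_mul_left _ _), dedekindPsi_mul_prime Nat.prime_three hM0, if_neg h3M]
    ring
  rw [h1] at hT
  push_cast at hT
  have h2 : Divisor.degree T = dedekindPsi M1 := by linarith
  rw [h2]
  intro h4
  refine not_three_dvd_psi hM0 (fun s hs hsM => ?_) (by exact_mod_cast h4)
  have h5 := hno s hs
  have h6 : ¬ s % 3 = 2 := fun h => h5 h (hM1 ▸ hsM.mul_left 3)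
  have h7 : ¬ s % 3 = 0 := fun h => h3M (by
    have : 3 ∣ s := Nat.dvd_of_mod_eq_zero h
    exact this.trans hsM)
  omega

include h3 h9 hno hA hf hI hval in
/-- the difference of the valuations is divisible by `3` -/
theorem dvd_kappa : (3 : ℤ) ∣ n 1 - n 0 := by
  have hrM' : Nat.Coprime 2 (M * 3) := Nat.Coprime.mul_right hrM (by norm_num)
  have h9' : 9 ∣ M * 3 := by
    obtain ⟨c, rfl⟩ := h3
    exact ⟨c, by ring⟩
  have hMk : ((M * 3 : ℕ) : kk A) ≠ 0 := Q.natCast_residue_ne_zero Nat.prime_two hA hrM'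
  haveI : SepFF (kk A) (modularFunctionFieldFullC (kk A) (M * 3)) := sepFF_full hMk
  haveI := SepFF.hasPrincipalDivisors (k := kk A) (κ := modularFunctionFieldFullC (kk A) (M * 3))
  have hdvd : M * 2 ∣ M * 3 * 2 := ⟨3, by ring⟩
  obtain ⟨T, hT, hTd⟩ := node_two_deg hrM' h9' hA
  have hkum := kum_pullN (N := M * 2) (N' := M * 3 * 2) (ℓ := 3) (by ring) hdvd hf
  have key := hT (m := 3) (by norm_num) (f := incN hdvd f) hkum.ne_zero
    (ratS_of_ifix hrM' hA (ifix_incN hdvd hI)) hkum.dvd (n := n)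
    (φ := fun j => Q.incl (kk A) M 3 (φ j))
    (fun j => hasVal_incN hrM hrM' (dvd_mul_right M 3) hdvd (Q.coe_incl (kk A) M 3 (φ j)) (hval j))
  have hφ : Q.incl (kk A) M 3 (φ 0) ≠ 0 := by
    intro h
    exact (hval 0).1 ((map_eq_zero_iff _ (Q.incl (kk A) M 3).toRingHom.injective).mp h)
  obtain ⟨D, hD, hD0⟩ := HasPrincipalDivisors.exists_divisor (K := kk A) _ hφ
  have h1 : (3 : ℤ) ∣ Divisor.degree (D - (n 1 - n 0) • T) := by
    refine dvd_degree fun v => ?_
    have := (key v).1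
    rw [Finsupp.sub_apply, Finsupp.smul_apply, hD, smul_eq_mul]
    exact_mod_cast this
  rw [map_sub, map_zsmul, hD0, zero_sub, dvd_neg, smul_eq_mul] at h1
  rcases (Int.prime_three).dvd_or_dvd h1 with h | h
  · exact h
  · exact absurd h (not_three_dvd_deg (A := A) h3 h9 hno hTd)

include h3 h9 hno hA hf hI hval in
theorem dvd_ord_up' (j : Fin 2)
    (w : Place (kk A) (modularFunctionFieldFullC (kk A) (M * 3))) :
    (3 : ℤ) ∣ w.ord (Q.incl (kk A) M 3 (φ j)) := by
  have hk := dvd_kappa hrM h3 h9 hno hA hf hI hval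
  have hrM' : Nat.Coprime 2 (M * 3) := Nat.Coprime.mul_right hrM (by norm_num)
  have h9' : 9 ∣ M * 3 := by
    obtain ⟨c, rfl⟩ := h3
    exact ⟨c, by ring⟩
  have hdvd : M * 2 ∣ M * 3 * 2 := ⟨3, by ring⟩
  obtain ⟨T, hT⟩ := N9.node_two hrM' h9' hA
  have hkum := kum_pullN (N := M * 2) (N' := M * 3 * 2) (ℓ := 3) (by ring) hdvd hf
  have key := hT (m := 3) (by norm_num) (f := incN hdvd f) hkum.ne_zero
    (ratS_of_ifix hrM' hA (ifix_incN hdvd hI)) hkum.dvd (n := n)
    (φ := fun j => Q.incl (kk A) M 3 (φ j))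
    (fun j => hasVal_incN hrM hrM' (dvd_mul_right M 3) hdvd (Q.coe_incl (kk A) M 3 (φ j)) (hval j)) w
  have h1 : (3 : ℤ) ∣ (n 1 - n 0) * T w := hk.mul_right _
  have k1 : (3 : ℤ) ∣ w.ord (Q.incl (kk A) M 3 (φ 0)) - (n 1 - n 0) * T w := by
    exact_mod_cast key.1
  have k2 : (3 : ℤ) ∣ w.ord (Q.incl (kk A) M 3 (φ 1)) + (n 1 - n 0) * T w := by
    exact_mod_cast key.2
  rcases fin2_cases j with rfl | rfl
  · exact (dvd_sub_left h1).1 k1
  · exact (dvd_add_left h1).1 k2

include h3 h9 hno hA hf hI hval in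
theorem dvd_ord_up_beta' (j : Fin 2)
    (w : Place (kk A) (modularFunctionFieldFullC (kk A) (M * 3))) :
    (3 : ℤ) ∣ w.ord (H12.betaC (kk A) M 3 (φ j)) := by
  have hk := dvd_kappa hrM h3 h9 hno hA hf hI hval
  haveI : Fact (Nat.Prime 3) := ⟨Nat.prime_three⟩
  have hrM' : Nat.Coprime 2 (M * 3) := Nat.Coprime.mul_right hrM (by norm_num)
  have h9' : 9 ∣ M * 3 := by
    obtain ⟨c, rfl⟩ := h3
    exact ⟨c, by ring⟩
  have hdvd : M * 2 * 3 ∣ M * 3 * 2 := ⟨1, by ring⟩
  obtain ⟨T, hT⟩ := N9.node_two hrM' h9' hA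
  obtain ⟨y, hkum⟩ := kum_qe (s := 3) (N := M * 2) (N' := M * 3 * 2) hdvd hf
  have key := hT (m := 3) (by norm_num) (f := H05.qe Qb 3 hdvd f) hkum.ne_zero
    (ratS_of_ifix hrM' hA (ifix_qe hdvd hI)) hkum.dvd (n := n)
    (φ := fun j => H12.betaC (kk A) M 3 (φ j))
    (fun j => hasVal_qe (s := 3) hrM hrM' hdvd (hval j)) w
  have h1 : (3 : ℤ) ∣ (n 1 - n 0) * T w := hk.mul_right _
  have k1 : (3 : ℤ) ∣ w.ord (H12.betaC (kk A) M 3 (φ 0)) - (n 1 - n 0) * T w := by
    exact_mod_cast key.1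
  have k2 : (3 : ℤ) ∣ w.ord (H12.betaC (kk A) M 3 (φ 1)) + (n 1 - n 0) * T w := by
    exact_mod_cast key.2
  rcases fin2_cases j with rfl | rfl
  · exact (dvd_sub_left h1).1 k1
  · exact (dvd_add_left h1).1 k2

include h3 h9 hno hA hf hI hval in
/-- **the orders of the reductions at the non-elliptic places are divisible by `3`** -/
theorem ord_nonelliptic (v : Place (kk A) (modularFunctionFieldFullC (kk A) M))
    (hv : 0 < v.ord (⟨jqModC (kk A), jqModC_mem_full (kk A) M⟩ :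
        modularFunctionFieldFullC (kk A) M) →
      (3 : ℤ) ∣ v.ord (⟨jqModC (kk A), jqModC_mem_full (kk A) M⟩ :
        modularFunctionFieldFullC (kk A) M)) (j : Fin 2) : (3 : ℤ) ∣ v.ord (φ j) := by
  have hrM' : Nat.Coprime 2 (M * 3) := Nat.Coprime.mul_right hrM (by norm_num)
  have hMk : ((M * 3 : ℕ) : kk A) ≠ 0 := Q.natCast_residue_ne_zero Nat.prime_two hA hrM'
  have hMk' : (M : kk A) ≠ 0 := Q.natCast_residue_ne_zero Nat.prime_two hA hrM
  have hk3 : (3 : kk A) ≠ 0 := by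
    have h1 : ((3 : ℕ) : kk A) ≠ 0 :=
      Q.natCast_residue_ne_zero Nat.prime_two hA (by norm_num)
    exact_mod_cast h1
  haveI : SepFF (kk A) (modularFunctionFieldFullC (kk A) M) := sepFF_full hMk'
  by_cases hv3 : 0 < v.ord (H22.M2.f3M (kk A) M h3 hk3)
  · obtain ⟨w, hw⟩ := H22.M2.exists_unram_beta Nat.prime_two hA h3 h9 hMk hk3
      (fun v => SepFF.deg_eq_one v) v hv3
    rw [← hw]
    exact dvd_ord_up_beta' hrM h3 h9 hno hA hf hI hval j w
  · obtain ⟨w, hw⟩ := H22.M2.exists_unram_alpha h3 h9 hMk hk3 v (SepFF.deg_eq_one v)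
      (not_lt.1 hv3) hv
    rw [← hw]
    exact dvd_ord_up' hrM h3 h9 hno hA hf hI hval j w

end Kap

end Fermat.Agent.H09.M2
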