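import Mathlib
import Fermat.Agent.H09.MH4
import Fermat.Agent.H22.ModeTp2
import Fermat.Agent.H25.NOrd
import Fermat.Agent.H26.TowB
import Fermat.Agent.H26.Tower

/-!
# The output of the towers in the hard case
-/

set_option autoImplicit false
set_option linter.unusedSectionVars false
set_option linter.style.haveILetI false

noncomputable section

namespace Fermat.Agent.H09.MH

open Fermat.Agent.TC Fermat.Agent.TW Fermat.Agent.CC Fermat.Agent.H25.GE Fermat.Agent.H25.TR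
open Fermat.Agent.H25 Fermat.Agent.H25.PR Fermat.Agent.H25.PT Fermat.Agent.H12.LL
open Fermat.Agent.H25.SB Fermat.Agent.H25.GD Fermat.Agent.TFin Fermat.Agent.H22 Fermat.Agent.Ell
open Fermat.Agent.H04 (DN M2)
open Fermat.Agent.H25.St (UQ StT OrdD)
open Fermat.Agent.H27.MH
open IsLocalRing Matrix CongruenceSubgroup

section URel

variable {O K : Type} [CommRing O] [IsDomain O] [IsDiscreteValuationRing O]
    [IsAdicComplete (maximalIdeal O) O] [Field K] [Algebra O K] {p r : ℕ}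
    [Finite (ResidueField O)] [CharZero O] [hp : Fact p.Prime] [IsAlgClosed K] [FaithfulSMul O K]
    {F : TWBase O K p r} [CharP (ResidueField O) p] {pp : Nat.Primes}

/-- the quadratic relation at the levels prime to `p` -/
theorem uRel (X : CmpT F) (hp2 : p ≠ 2) (hpp : (pp : ℕ) = p) (hpN : ¬ p ∣ X.N) (hpD : p ∣ F.D₀)
    {psi : GQ → ℤ} (ho : OrdD F.D (plv pp pp.2) psi) {Φ σ₀ : GQ}
    (hΦ : (plv pp pp.2).IsFrobeniusAt Φ p) (hσ₀ : σ₀ ∈ (plv pp pp.2).inertiaSubgroupIn ℚ)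
    {u : Oˣ} (hu : (u : O) = F.D.chi σ₀ - 1) (n : ℕ) : URel X u Φ σ₀ n := by
  intro t z hz
  have hA : (plv pp pp.2).LiesOverPrime p := hpp ▸ plv_over pp pp.2
  refine NO.relation_pt X.B.hpO F.Ge F.hchi F.hc (X.toCmp.hin 1 n) (F.hbar n) hp2 t
    (X.not_dvd_lvl n t hp.out hpN hpD) hA ho (St.exists_inertia_ne (O := O) hp.out hp2 hA F.hchi)
    hΦ hσ₀ ⟨u, hu⟩ (α := aX X u Φ σ₀ n) ?_ hz
  change algebraMap O (X.toCmp.cd 1 n).B (F.D.chi σ₀ - 1) *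
    (algebraMap O (X.toCmp.cd 1 n).B ((u⁻¹ : Oˣ) : O) *
      zC (B := (X.toCmp.cd 1 n).B) ((X.toCmp.cd 1 n).C (F.hbar n)) Φ σ₀) = _
  rw [← hu, ← mul_assoc, ← map_mul, Units.mul_inv, map_one, one_mul]
  rfl

end URel

section Main

variable {W : WeierstrassCurve ℤ} {p : ℕ} [hp : Fact p.Prime]

/-- **The output of the towers in the hard case.** -/
theorem finOut_modeH' (hΔ : W.Δ ≠ 0) (hss : W.IsSemistableModel) (hp2 : p ≠ 2)
    (hirr : W.ModRepIsIrreducible p) (hGW : GWad p) (G : Geo p) {N : ℕ} (hN : MinLevel W p N)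
    (hpΔ : (p : ℤ) ∣ W.Δ) (hS : ¬ ModeS W p) (hnew : NewP W p 2) : FinOut W := by
  classical
  obtain ⟨O, i1, i2, i3, i4, i5, i6, i7, i8, K, i9, i10, i11, i12, i13, hpO, I, hIS, hID, hSelM⟩ :=
    exists_setup hΔ hss hirr hp2 hGW G
  haveI := charP_res p O
  obtain ⟨Tw⟩ := MinLevel.exists_tow I K hpO hIS hID hN
  have hSg : ∀ q : Nat.Primes, q ∉ I.S → (q : ℕ) ≠ p ∧ W.IsGoodPrimeFor q := by
    intro q hq
    rw [hIS, mem_bigS hΔ hp.out, not_or] at hq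
    exact hq
  obtain ⟨ϖ, hϖ⟩ := (IsPrincipalIdealRing.principal (maximalIdeal O)).principal
  have hϖ' : maximalIdeal O = Ideal.span {ϖ} := hϖ
  have hϖ0 : ϖ ≠ 0 := by
    rintro rfl
    rw [Ideal.span_singleton_eq_bot.mpr rfl] at hϖ'
    exact IsDiscreteValuationRing.not_isField O
      ((IsLocalRing.isField_iff_maximalIdeal_eq).mpr hϖ')
  have hnsq : ∀ {N : ℕ}, Squarefree N → ∀ q : ℕ, q.Prime → ¬ q * q ∣ N :=
    fun hN q hq h => hq.not_isUnit (hN q h)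
  -- the levels
  let pp : Nat.Primes := ⟨p, hp.out⟩
  have hpN : ¬ p ∣ N := fun h => hS (hN.mode.mp h)
  have hpX : ∀ j, ¬ p ∣ (Tw.X j).N := fun j h => hpN ((Tw.pN j).mp h)
  set L : ℕ := (Tw.X (Fin.last Tw.m)).N with hL
  have hLsq : Squarefree (L * p) := by
    rw [Nat.squarefree_mul_iff]
    exact ⟨((Nat.Prime.coprime_iff_not_dvd hp.out).mpr (hpX _)).symm, Tw.sq _,
      hp.out.squarefree⟩
  have hL0 : L * p ≠ 0 := hLsq.ne_zero
  have hLdisc : ∀ q : ℕ, q.Prime → q ∣ L * p → (q : ℤ) ∣ W.Δ := by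
    intro q hq h
    rcases (Nat.Prime.dvd_mul hq).mp h with h | h
    · exact Tw.disc _ q hq h
    · rw [(Nat.prime_dvd_prime_iff_eq hq hp.out).mp h]
      exact hpΔ
  have hell : Ell p (L * p) := by
    rcases hN.two with h | ⟨h, -⟩
    · by_cases hp3 : p = 3
      · exact Fermat.Agent.H24R.ell_of_even ((h.trans (Tw.dvd _)).mul_right p)
      · exact Or.inl hp3
    · exact Or.inl h
  obtain ⟨X', hX'⟩ := I.exists_cmpT K hpO hL0 hell
    (by rw [hID]; exact squarefree_dvd hLsq fun q hq h => (Int.natCast_dvd.mp (hLdisc q hq h)).mul_left _)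
    (H18R.isResiduallyModular_mono hΔ hirr (Tw.rm _) (dvd_mul_right _ _) hL0)
    (fun q hq => by
      rw [hIS, mem_bigS hΔ hp.out]
      rcases (Nat.Prime.dvd_mul q.2).mp hq with h | h
      · exact Or.inr (hLdisc q q.2 h)
      · exact Or.inl ((Nat.prime_dvd_prime_iff_eq q.2 hp.out).mp h))
  have hX'sq : Squarefree X'.N := by rw [hX']; exact hLsq
  have hstepp : RStep (Tw.X (Fin.last Tw.m)) X' pp := I.rstep (q := pp) hX' (hpX _)
  -- signs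
  have hT : FrD (I.F K).D p Tw.tv :=
    RDW_FrD hΔ hirr hp2 Tw.tv (fun t => (Tw.tv_ne t).symm) Tw.tv_unr
  have hε : ∀ t, ∃ ε : O, ε ^ 2 = 1 ∧
      tW W p O (frv (Tw.tv t) (Tw.tv t).2) = ε * (((Tw.tv t : ℕ) : O) + 1) := by
    intro t
    obtain ⟨ε, h1, h2⟩ := tW_frob_mult (O := O) hΔ hirr (Tw.tv t).2 (Tw.tv_ne t) (Tw.tv_dvd t)
      (hss _ (Tw.tv t).2 (Tw.tv_dvd t)) (plv_over _ (Tw.tv t).2) (frv_spec _ (Tw.tv t).2)
    refine ⟨ε, ?_, h2⟩
    rcases h1 with rfl | rfl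
    · ring
    · ring
  choose ε hε1 hε2 using hε
  have htr : ∀ t, ((RDW hΔ hirr hp2 O).rbar (frv (Tw.tv t) (Tw.tv t).2)).trace =
      (RDW hΔ hirr hp2 O).res (ε t * (((Tw.tv t : ℕ) : O) + 1)) := by
    intro t
    rw [RD.trace_rbar, RDW_tbar, ← hε2, RDW_res]
    rfl
  have hD₀ : ∀ t, (Tw.tv t : ℕ) ∣ I.D₀ := fun t => I.hΔD₀ _ (Tw.tv t).2 (Tw.tv_dvd t)
  -- the data at `p`
  obtain ⟨psi, σ₀, Q, Q', ho, hst, hB, hσ₀, ⟨u, hu⟩⟩ := exists_pdata (O := O) hΔ hirr hp2 hpΔ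
    (hss p hp.out hpΔ) (pp := pp) rfl
  let Φ : GQ := frv pp pp.2
  have hΦ : (plv pp pp.2).IsFrobeniusAt Φ p := frv_spec pp pp.2
  have hdec : Φ ∈ (plv pp pp.2).decompositionSubgroup ℚ := hΦ.mem_decompositionSubgroup
  have hrel : ∀ n, URel (Tw.X (Fin.last Tw.m)) u Φ σ₀ n := fun n =>
    uRel (pp := pp) (Tw.X (Fin.last Tw.m)) hp2 rfl (hpX _) I.hpD₀ ho hΦ hσ₀ hu n
  obtain ⟨hy, tp, e, hTp, hye⟩ := exists_tpH (I.EW K hSg) Tw.X X' hϖ' hϖ0 (pp := pp) rfl hstepp ho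
    hdec hσ₀ hu hrel
  have hSm : ∀ n, (I.F K).S n = I.S ∪ Finset.univ.image
      (fun j => (⟨((I.F K).c n).q j, ((I.F K).c n).prime j⟩ : Nat.Primes)) := fun n => rfl
  have hm : ∀ n, SelM (I.F K).D p pp I.S (unrT W p) I.r
      (fun j => ⟨((I.F K).c n).q j, ((I.F K).c n).prime j⟩) := fun n => by
    rw [hIS]
    exact hSelM n
  have hinj : Function.Injective Tw.tv := fun a b h => Tw.e.injective (Subtype.ext h)
  have htv : ∀ q, q ∈ unrT W p ↔ ∃ t, Tw.tv t = q := fun q =>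
    ⟨fun h => ⟨Tw.e.symm ⟨q, h⟩, by rw [Tow.tv, Equiv.apply_symm_apply]⟩,
      fun ⟨t, ht⟩ => ht ▸ Tw.tv_mem t⟩
  have hqD : ∀ q ∈ I.S, q ∉ unrT W p → q ≠ pp → (q : ℕ) ∣ I.D₀ := by
    intro q hq _ hqp
    rw [hIS, mem_bigS hΔ hp.out] at hq
    rcases hq with h | h
    · exact absurd (Subtype.ext h) hqp
    · exact I.hΔD₀ q q.2 h
  obtain ⟨y, hy'⟩ := liftH (I.EW K hSg) Tw.X X' hϖ' hϖ0 hT ε hε1 htr (fun n j => (I.hc n).le j)
    Tw.j₀ (fun t h => I.rstep (Tw.step t h).1 (Tw.step t h).2) (fun t h => rin _ (Tw.tv_ne t))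
    hD₀ (fun t => hnsq (Tw.sq _) _ (Tw.tv t).2)
    (fun ℓ hℓ h => by
      rcases (Nat.Prime.dvd_mul hℓ).mp (Nat.mem_primeFactors.mp h).2.1 with h | h
      · exact h
      · rw [(Nat.prime_dvd_prime_iff_eq hℓ hp.out).mp h]; exact I.hpD₀)
    (fun n t ht x => by
      obtain ⟨h1, h2⟩ := Tw.hst hnew hN.sq t ht
      refine t_frob_of_sq ((Tw.X Tw.j₀).toCmp.cd 1 n) ((I.F K).hbar n) x (Tw.tv t).2 (hε1 t) ?_
        (htr t) ?_
      · exact hin_sq (Tw.X Tw.j₀).B.hpO I.Ge (RDW_isCyc hΔ hirr hp2) (RDW_hc hΔ hirr hp2)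
          ((Tw.X Tw.j₀).toCmp.hin 1 n) x (Tw.tv t).2 (Tw.tv_ne t) (h2 n x)
          ((Tw.X Tw.j₀).not_sq_dvd_lvl n x (Tw.tv t).2 (hnsq (Tw.sq _) _ (Tw.tv t).2) (hD₀ t))
          (plv_over _ (Tw.tv t).2) (frv_spec _ (Tw.tv t).2)
      · intro h0
        apply h1
        rw [← CharP.cast_eq_zero_iff (ResidueField O) p]
        have h3 : (RDW hΔ hirr hp2 O).res (ε t) ^ 2 = 1 := by
          rw [← map_pow, hε1, map_one]
        have h4 : (RDW hΔ hirr hp2 O).res (2 * (ε t * (((Tw.tv t : ℕ) : O) + 1))) =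
            (RDW hΔ hirr hp2 O).res (ε t) * ((2 * ((Tw.tv t : ℕ) + 1) : ℕ) : ResidueField O) := by
          simp only [map_mul, map_add, map_one, map_ofNat, map_natCast, Nat.cast_mul,
            Nat.cast_add, Nat.cast_one, Nat.cast_ofNat]
          ring
        rw [h4] at h0
        rcases mul_eq_zero.mp h0 with h5 | h5
        · rw [h5] at h3
          norm_num at h3
        · exact h5)
    (pp := pp) rfl hstepp tp _ e hy hTp hye
    (hSelI_of (I.EW K hSg) Tw.X X' (pp := pp) rfl I.hpD₀ hSm hm hinj htv hpX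
      (fun q hq hqT hqp => ⟨hqD q hq hqT hqp, fun j => hnsq (Tw.sq j) q q.2⟩) hB hΦ hσ₀
      ⟨u, hu⟩ (u⁻¹).isUnit _ (fun n => rfl))
    ()
    (hSels_of' (I.EW K hSg) Tw.X X' hϖ' hϖ0 hstepp hp2 rfl I.hpD₀ hSm hm hinj htv ho
      (hnsq hX'sq p hp.out) () (fun n x => hst)
      (fun q hq hqT hqp => ⟨hqD q hq hqT hqp, hnsq hX'sq q q.2⟩)
      (fun n q hq hqT hqp x τ hτ => tW_inertia (O := O) hΔ hirr q.2
        (fun h => hqp (Subtype.ext h)) (hss _ q.2) (plv_over q q.2) hτ))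
    (AlgHom.id O O) (tW W p O)
    (fun g => ((I.EW K hSg).H₀ ()).ev_C (I.F K).hbar₀ g ())
    (fun t => tW_inertia hΔ hirr (Tw.tv t).2 (Tw.tv_ne t) (hss _ (Tw.tv t).2)
      (plv_over _ (Tw.tv t).2) (tmv_spec p _ (Tw.tv t) (Tw.tv t).2).2.1) hε2
  exact finOut_of_point I X' hX'sq y hy'

end Main

end Fermat.Agent.H09.MH
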