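import Mathlib

/-!
# PROGRAM Z, Z6: algebra (quadratic relations, Boston-Lenstra-Ribet)
-/

set_option autoImplicit false

namespace Fermat.Agent.H09.Z6

/-- trace of powers as a polynomial in trace and determinant -/
def pw {R : Type*} [CommRing R] (x d : R) : ℕ → R
  | 0 => 2
  | 1 => x
  | (n + 2) => x * pw x d (n + 1) - d * pw x d n

theorem pw_zero {R : Type*} [CommRing R] (x d : R) : pw x d 0 = 2 := rfl
theorem pw_one {R : Type*} [CommRing R] (x d : R) : pw x d 1 = x := rfl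
theorem pw_add_two {R : Type*} [CommRing R] (x d : R) (n : ℕ) :
    pw x d (n + 2) = x * pw x d (n + 1) - d * pw x d n := rfl

theorem map_pw {R R' : Type*} [CommRing R] [CommRing R'] (f : R →+* R') (x d : R) :
    ∀ n : ℕ, f (pw x d n) = pw (f x) (f d) n
  | 0 => map_ofNat f 2
  | 1 => rfl
  | (n + 2) => by
    rw [pw_add_two, pw_add_two, map_sub, map_mul, map_mul, map_pw f x d (n + 1), map_pw f x d n]

theorem cast_pw {R : Type*} [CommRing R] (x d : ℤ) (n : ℕ) :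
    ((pw x d n : ℤ) : R) = pw (x : R) (d : R) n := by
  have := map_pw (Int.castRingHom R) x d n
  simpa using this

section Ring

variable {E : Type*} [Ring E]

/-- powers of an element with a quadratic relation -/
theorem pow_rel {f : E} {a l : ℤ} (h : f * f - (a : E) * f + (l : E) = 0) (k : ℕ) :
    f ^ k * f ^ k - ((pw a l k : ℤ) : E) * f ^ k + ((l ^ k : ℤ) : E) = 0 := by
  set g : E := (a : E) - f with hg
  have hcomm : Commute f g := by
    rw [hg]
    exact (Int.commute_cast f a).sub_right (Commute.refl f)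
  have hfg : f * g = (l : E) := by
    have h1 : f * g = (a : E) * f - f * f := by
      rw [hg, mul_sub, (Int.cast_commute a f).eq]
    rw [h1]
    have h2 := h
    rw [sub_add_eq_add_sub, sub_eq_zero] at h2
    rw [← h2]; abel
  have hsum : ∀ k : ℕ, f ^ k + g ^ k = ((pw a l k : ℤ) : E) ∧
      f ^ (k + 1) + g ^ (k + 1) = ((pw a l (k + 1) : ℤ) : E) := by
    intro k
    induction k with
    | zero =>
      refine ⟨?_, ?_⟩
      · rw [pow_zero, pow_zero, pw_zero]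
        norm_num
      · rw [zero_add, pow_one, pow_one, pw_one, hg]; abel
    | succ k ih =>
      refine ⟨ih.2, ?_⟩
      have h1 : f ^ (k + 1 + 1) + g ^ (k + 1 + 1) =
          (f + g) * (f ^ (k + 1) + g ^ (k + 1)) - (f * g) * (f ^ k + g ^ k) := by
        have e1 : (f * g) * f ^ k = g * f ^ (k + 1) := by
          rw [hcomm.eq, mul_assoc, ← pow_succ']
        have e2 : (f * g) * g ^ k = f * g ^ (k + 1) := by
          rw [mul_assoc, ← pow_succ']
        rw [mul_add (f * g), e1, e2, add_mul, mul_add, mul_add, ← pow_succ', ← pow_succ']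
        abel
      have h2 : f + g = (a : E) := by rw [hg]; abel
      rw [h1, h2, hfg, ih.1, ih.2, pw_add_two]
      push_cast
      rfl
  have h3 : f ^ k * g ^ k = ((l ^ k : ℤ) : E) := by
    rw [← hcomm.mul_pow, hfg]
    push_cast
    rfl
  have h4 : g ^ k = ((pw a l k : ℤ) : E) - f ^ k := by
    rw [← (hsum k).1]; abel
  rw [h4, mul_sub, ← (Int.cast_commute (pw a l k) (f ^ k)).eq] at h3
  rw [← h3]; abel

end Ring

section Mat

variable {R : Type*} [CommRing R]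

theorem mat_ch (x : Matrix (Fin 2) (Fin 2) R) : x * x - x.trace • x + x.det • 1 = 0 := by
  ext i j
  fin_cases i <;> fin_cases j <;>
  simp [Matrix.mul_apply, Fin.sum_univ_two, Matrix.trace_fin_two, Matrix.det_fin_two] <;> ring

theorem trace_pow (x : Matrix (Fin 2) (Fin 2) R) : ∀ k : ℕ, (x ^ k).trace = pw x.trace x.det k
  | 0 => by rw [pow_zero, pw_zero, Matrix.trace_one, Fintype.card_fin]; norm_num
  | 1 => by rw [pow_one, pw_one]
  | (k + 2) => by
    have h1 : x ^ (k + 2) = x.trace • x ^ (k + 1) - x.det • x ^ k := by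
      have h2 := congrArg (fun y => y * x ^ k) (mat_ch x)
      simp only [add_mul, sub_mul, zero_mul, smul_mul_assoc, one_mul] at h2
      rw [mul_assoc, ← pow_succ', ← pow_succ'] at h2
      rw [sub_add_eq_add_sub, sub_eq_zero] at h2
      rw [← h2]; abel
    rw [h1, Matrix.trace_sub, Matrix.trace_smul, Matrix.trace_smul, trace_pow x (k + 1),
      trace_pow x k, pw_add_two]
    rfl

end Mat

section Rel

variable {G W : Type*} [Group G] [AddCommGroup W] [DistribMulAction G W]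

/-- the quadratic relations -/
def QR {m : ℕ} (ρ : G →* Matrix (Fin 2) (Fin 2) (ZMod m)) (X : AddSubgroup W) : Prop :=
  ∀ σ : G, ∀ t d : ℤ, (t : ZMod m) = (ρ σ).trace → (d : ZMod m) = (ρ σ).det →
    ∀ x ∈ X, σ • σ • x - t • σ • x + d • x = 0

theorem zsmul_congr {m : ℕ} {x : W} (hx : m • x = 0) {a b : ℤ} (h : (a : ZMod m) = b) :
    a • x = b • x := by
  rw [ZMod.intCast_eq_intCast_iff_dvd_sub] at h
  obtain ⟨c, hc⟩ := h
  have h1 : b = a + m * c := by linarith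
  rw [h1, add_smul, mul_comm, mul_smul, natCast_zsmul, hx, smul_zero, add_zero]

/-- the action on a stable subgroup, as an endomorphism -/
def actEnd (X : AddSubgroup W) (g : G) (hg : ∀ x ∈ X, g • x ∈ X) : Module.End ℤ X :=
  AddMonoidHom.toIntLinearMap
    { toFun := fun x => ⟨g • (x : W), hg x x.2⟩
      map_zero' := Subtype.ext (smul_zero g)
      map_add' := fun x y => Subtype.ext (smul_add g (x : W) y) }

theorem coe_actEnd {X : AddSubgroup W} {g : G} (hg : ∀ x ∈ X, g • x ∈ X) (x : X) :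
    ((actEnd X g hg x : X) : W) = g • (x : W) := rfl

theorem coe_actEnd_pow {X : AddSubgroup W} {g : G} (hg : ∀ x ∈ X, g • x ∈ X) (k : ℕ) (x : X) :
    (((actEnd X g hg ^ k : Module.End ℤ X) x : X) : W) = g ^ k • (x : W) := by
  induction k with
  | zero => rw [pow_zero, pow_zero, one_smul]; rfl
  | succ k ih =>
    rw [pow_succ', Module.End.mul_apply, coe_actEnd, ih, pow_succ', mul_smul]

/-- the relation for the powers of an element -/
theorem rel_pow {X : AddSubgroup W} {g : G} (hg : ∀ x ∈ X, g • x ∈ X) {a l : ℤ}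
    (h : ∀ x ∈ X, g • g • x - a • g • x + l • x = 0) (k : ℕ) :
    ∀ x ∈ X, g ^ k • g ^ k • x - pw a l k • g ^ k • x + (l ^ k) • x = 0 := by
  intro x hx
  have h1 : actEnd X g hg * actEnd X g hg - ((a : ℤ) : Module.End ℤ X) * actEnd X g hg +
      ((l : ℤ) : Module.End ℤ X) = 0 := by
    ext y
    have h2 := h y y.2
    rw [LinearMap.add_apply, LinearMap.sub_apply, Module.End.mul_apply, Module.End.mul_apply,
      Module.End.intCast_apply, Module.End.intCast_apply]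
    simpa [coe_actEnd] using h2
  have h3 := congrArg (fun f : Module.End ℤ X => ((f ⟨x, hx⟩ : X) : W)) (pow_rel h1 k)
  simp only [LinearMap.add_apply, LinearMap.sub_apply, Module.End.mul_apply,
    Module.End.intCast_apply, LinearMap.zero_apply, AddSubgroup.coe_add, AddSubgroup.coe_sub,
    AddSubgroup.coe_zsmul, coe_actEnd_pow, ZeroMemClass.coe_zero] at h3
  exact h3

/-- relations for all elements approximated by powers of elements with a relation -/
theorem qr_of_approx {m : ℕ} {ρ : G →* Matrix (Fin 2) (Fin 2) (ZMod m)} {X : AddSubgroup W}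
    (hm : ∀ x ∈ X, m • x = 0) (hX : ∀ (g : G), ∀ x ∈ X, g • x ∈ X)
    (h : ∀ σ : G, ∃ (φ : G) (k : ℕ) (u : G) (a l : ℤ), σ = φ ^ k * u ∧ (∀ x ∈ X, u • x = x) ∧
      ρ u = 1 ∧ (a : ZMod m) = (ρ φ).trace ∧ (l : ZMod m) = (ρ φ).det ∧
      ∀ x ∈ X, φ • φ • x - a • φ • x + l • x = 0) : QR ρ X := by
  intro σ t d ht hd x hx
  obtain ⟨φ, k, u, a, l, rfl, hu, hρu, ha, hl, hrel⟩ := h σ
  rw [map_mul, hρu, mul_one, map_pow] at ht hd
  rw [trace_pow, ← ha, ← hl, ← cast_pw] at ht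
  rw [Matrix.det_pow, ← hl, ← Int.cast_pow] at hd
  have h1 : ∀ y ∈ X, (φ ^ k * u) • y = φ ^ k • y := fun y hy => by rw [mul_smul, hu y hy]
  have h2 := rel_pow (hX φ) hrel k x hx
  rw [h1 x hx, h1 _ (hX _ x hx), zsmul_congr (hm _ (hX _ x hx)) ht, zsmul_congr (hm _ hx) hd]
  exact h2

variable {m : ℕ} {ρ : G →* Matrix (Fin 2) (Fin 2) (ZMod m)} {X : AddSubgroup W}

theorem exists_int (z : ZMod m) : ∃ a : ℤ, (a : ZMod m) = z := ZMod.intCast_surjective z

/-- the relation with the inverse -/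
theorem QR.inv (h : QR ρ X) (hX : ∀ (g : G), ∀ x ∈ X, g • x ∈ X) (σ : G) {t d : ℤ}
    (ht : (t : ZMod m) = (ρ σ).trace) (hd : (d : ZMod m) = (ρ σ).det) {x : W} (hx : x ∈ X) :
    σ • x - t • x + d • σ⁻¹ • x = 0 := by
  have h1 := h σ t d ht hd (σ⁻¹ • x) (hX _ _ hx)
  rwa [smul_inv_smul] at h1

/-- elements of the kernel: the basic identity -/
theorem QR.kerIdentity (h : QR ρ X) (hX : ∀ (g : G), ∀ x ∈ X, g • x ∈ X) {n₀ : G}
    (hn : ρ n₀ = 1) (σ : G) {d : ℤ} (hd : (d : ZMod m) = (ρ σ).det) {x : W} (hx : x ∈ X) :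
    n₀ • σ • x - σ • x = d • σ⁻¹ • (n₀ • x - x) := by
  obtain ⟨t, ht⟩ := exists_int (ρ σ).trace
  have h1 := h.inv hX σ ht hd hx
  have hρ : ρ (n₀ * σ) = ρ σ := by rw [map_mul, hn, one_mul]
  have h2 := h.inv hX (n₀ * σ) (ht.trans (by rw [hρ])) (hd.trans (by rw [hρ])) hx
  rw [mul_smul, mul_inv_rev, mul_smul] at h2
  have h3 := h.inv hX n₀ (t := 2) (d := 1)
    (by rw [hn, Matrix.trace_one, Fintype.card_fin]; norm_num) (by rw [hn, Matrix.det_one]; norm_num)
    hx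
  rw [one_smul] at h3
  have h4 : n₀⁻¹ • x = x - (n₀ • x - x) := by
    have : n₀⁻¹ • x = (2 : ℤ) • x - n₀ • x := by
      rw [sub_add_eq_add_sub, sub_eq_zero] at h3
      rw [← h3]; abel
    rw [this, two_zsmul]; abel
  rw [h4, smul_sub σ⁻¹ x, smul_sub d] at h2
  have h5 : n₀ • σ • x - σ • x - d • σ⁻¹ • (n₀ • x - x) =
      (n₀ • σ • x - t • x + (d • σ⁻¹ • x - d • σ⁻¹ • (n₀ • x - x))) -
      (σ • x - t • x + d • σ⁻¹ • x) := by abel
  rw [← sub_eq_zero, h5, h1, h2, sub_zero]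

/-- commutators kill the image of `n₀ - 1` -/
theorem QR.comm (h : QR ρ X) (hX : ∀ (g : G), ∀ x ∈ X, g • x ∈ X) (hm : ∀ x ∈ X, m • x = 0)
    {n₀ : G} (hn : ρ n₀ = 1) (g k : G) {x : W} (hx : x ∈ X) :
    g • k • (n₀ • x - x) = k • g • (n₀ • x - x) := by
  -- use inverses
  obtain ⟨a, ha⟩ := exists_int (ρ g⁻¹).det
  obtain ⟨b, hb⟩ := exists_int (ρ k⁻¹).det
  obtain ⟨a', ha'⟩ := exists_int (ρ g).det
  obtain ⟨b', hb'⟩ := exists_int (ρ k).det
  set y := n₀ • x - x with hy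
  have hyX : y ∈ X := sub_mem (hX _ _ hx) hx
  have h1 : n₀ • (g⁻¹ * k⁻¹) • x - (g⁻¹ * k⁻¹) • x = (a * b) • (g⁻¹ * k⁻¹)⁻¹ • y :=
    h.kerIdentity hX hn (g⁻¹ * k⁻¹) (by rw [map_mul, Matrix.det_mul, Int.cast_mul, ha, hb]) hx
  have h2 : n₀ • g⁻¹ • (k⁻¹ • x) - g⁻¹ • (k⁻¹ • x) = a • g⁻¹⁻¹ • (n₀ • (k⁻¹ • x) - k⁻¹ • x) :=
    h.kerIdentity hX hn g⁻¹ ha (hX _ _ hx)
  have h3 : n₀ • k⁻¹ • x - k⁻¹ • x = b • k⁻¹⁻¹ • y := h.kerIdentity hX hn k⁻¹ hb hx
  rw [h3, inv_inv, inv_inv, ← mul_smul g⁻¹, h1] at h2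
  rw [mul_inv_rev, inv_inv, inv_inv, mul_smul] at h2
  have h4 : g • (b • k • y) = b • g • k • y := by
    exact map_zsmul (DistribSMul.toAddMonoidHom W g) b (k • y)
  rw [h4, smul_smul] at h2
  -- h2 : (a * b) • k • g • y = (a * b) • g • k • y
  have hinv : ((a' * b' * (a * b) : ℤ) : ZMod m) = ((1 : ℤ) : ZMod m) := by
    push_cast
    rw [ha, hb, ha', hb']
    have e1 : (ρ g).det * (ρ g⁻¹).det = 1 := by
      rw [← Matrix.det_mul, ← map_mul, mul_inv_cancel, map_one, Matrix.det_one]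
    have e2 : (ρ k).det * (ρ k⁻¹).det = 1 := by
      rw [← Matrix.det_mul, ← map_mul, mul_inv_cancel, map_one, Matrix.det_one]
    calc (ρ g).det * (ρ k).det * ((ρ g⁻¹).det * (ρ k⁻¹).det) =
        ((ρ g).det * (ρ g⁻¹).det) * ((ρ k).det * (ρ k⁻¹).det) := by ring
      _ = 1 := by rw [e1, e2, mul_one]
  have h5 := congrArg (fun z => (a' * b') • z) h2
  simp only [smul_smul] at h5
  rw [zsmul_congr (hm _ (hX _ _ hyX)) hinv, zsmul_congr (hm _ (hX _ _ hyX)) hinv,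
    one_smul, one_smul] at h5
  rw [← mul_smul, ← mul_smul]
  exact h5.symm

end Rel

section NC

/-- `GL₂(𝔽₂)` : a nontrivial element of trace zero times an element of trace one has trace zero -/
theorem trace_mul_eq_zero : ∀ c τ : Matrix (Fin 2) (Fin 2) (ZMod 2), c.det = 1 → τ.det = 1 →
    c ≠ 1 → c.trace = 0 → τ.trace = 1 → (c * τ).trace = 0 := by
  decide

variable {G W : Type*} [Group G] [AddCommGroup W] [DistribMulAction G W]

theorem zsmul_even {x : W} (hx : (2 : ℕ) • x = 0) {a : ℤ} (ha : (a : ZMod 2) = 0) : a • x = 0 := by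
  have := zsmul_congr hx (a := a) (b := 0) (by rw [ha]; norm_num)
  rwa [zero_smul] at this

theorem zsmul_odd {x : W} (hx : (2 : ℕ) • x = 0) {a : ℤ} (ha : (a : ZMod 2) = 1) : a • x = x := by
  have := zsmul_congr hx (a := a) (b := 1) (by rw [ha]; norm_num)
  rwa [one_smul] at this

theorem neg_eq_of_two {x : W} (hx : (2 : ℕ) • x = 0) : -x = x := by
  rw [two_nsmul] at hx
  exact (eq_neg_of_add_eq_zero_left hx).symm

/-- **Noncommutativity**: on the `2`-torsion a transposition and a three-cycle do not commute. -/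
theorem eq_zero_of_comm {X : AddSubgroup W} (hX : ∀ (g : G), ∀ x ∈ X, g • x ∈ X)
    {r₀ : G →* Matrix (Fin 2) (Fin 2) (ZMod 2)} (h2 : ∀ x ∈ X, 2 • x = 0) (hqr : QR r₀ X)
    {c τ : G} (hdet : ∀ g, (r₀ g).det = 1) (hc1 : r₀ c ≠ 1) (hc : (r₀ c).trace = 0)
    (hτ : (r₀ τ).trace = 1) {y : W} (hy : y ∈ X) (hcomm : τ • c • τ • y = c • τ • τ • y) :
    y = 0 := by
  have hsq : ∀ σ : G, (r₀ σ).trace = 0 → ∀ z ∈ X, σ • σ • z = z := by
    intro σ hσ z hz
    have h1 := hqr σ 0 1 (by rw [hσ]; norm_num) (by rw [hdet]; norm_num) z hz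
    rw [zero_smul, sub_zero, one_smul] at h1
    rw [eq_neg_of_add_eq_zero_left h1, neg_eq_of_two (h2 z hz)]
  have h3 : τ • τ • y + τ • y + y = 0 := by
    have h1 := hqr τ 1 1 (by rw [hτ]; norm_num) (by rw [hdet]; norm_num) y hy
    rw [one_smul, one_smul, sub_eq_add_neg, neg_eq_of_two (h2 _ (hX _ _ hy))] at h1
    exact h1
  have h4 : (c * τ) • (c * τ) • y = y := by
    apply hsq _ _ y hy
    rw [map_mul]
    exact trace_mul_eq_zero _ _ (hdet c) (hdet τ) hc1 hc hτ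
  rw [mul_smul, mul_smul, hcomm, hsq c hc _ (hX _ _ (hX _ _ hy))] at h4
  rw [h4] at h3
  have h5 : τ • y + (2 : ℕ) • y = 0 := by
    rw [two_nsmul]
    rw [← h3]; abel
  rw [h2 y hy, add_zero] at h5
  have h6 := congrArg (fun z => τ⁻¹ • z) h5
  simpa using h6

end NC

section Main

variable {G W : Type*} [Group G] [AddCommGroup W] [DistribMulAction G W]

/-- the multiples of an element which are killed by two -/
theorem exists_two_torsion {x : W} {n : ℕ} (hx : 2 ^ n • x = 0) (h0 : x ≠ 0) :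
    ∃ j, 2 ^ j • x ≠ 0 ∧ 2 • 2 ^ j • x = 0 := by
  classical
  have hex : ∃ j, 2 ^ j • x = 0 := ⟨n, hx⟩
  have hj := Nat.find_spec hex
  have hj0 : Nat.find hex ≠ 0 := by
    intro h
    rw [h, pow_zero, one_smul] at hj
    exact h0 hj
  obtain ⟨j, hj'⟩ := Nat.exists_eq_succ_of_ne_zero hj0
  refine ⟨j, Nat.find_min hex (by omega), ?_⟩
  rw [hj', Nat.succ_eq_add_one, pow_succ', mul_smul] at hj
  exact hj

/-- reduction of the relations to the `2`-torsion -/
theorem QR.two {n : ℕ} (hn : n ≠ 0) {ρ : G →* Matrix (Fin 2) (Fin 2) (ZMod (2 ^ n))}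
    {X : AddSubgroup W} (h : QR ρ X) {r₀ : G →* Matrix (Fin 2) (Fin 2) (ZMod 2)}
    (hr : ∀ g, r₀ g = (ρ g).map (ZMod.castHom (dvd_pow_self 2 hn) (ZMod 2))) {Y : AddSubgroup W}
    (hY : Y ≤ X) (h2 : ∀ y ∈ Y, 2 • y = 0) (hYs : ∀ (g : G), ∀ x ∈ Y, g • x ∈ Y) : QR r₀ Y := by
  intro σ t d ht hd y hy
  obtain ⟨t', ht'⟩ := exists_int (ρ σ).trace
  obtain ⟨d', hd'⟩ := exists_int (ρ σ).det
  have h1 := h σ t' d' ht' hd' y (hY hy)
  have e1 : (t : ZMod 2) = (t' : ZMod 2) := by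
    rw [ht, hr]
    have := congrArg (ZMod.castHom (dvd_pow_self 2 hn) (ZMod 2)) ht'
    rw [map_intCast] at this
    rw [this, Matrix.trace_fin_two, Matrix.trace_fin_two, map_add]
    rfl
  have e2 : (d : ZMod 2) = (d' : ZMod 2) := by
    rw [hd, hr]
    have := congrArg (ZMod.castHom (dvd_pow_self 2 hn) (ZMod 2)) hd'
    rw [map_intCast] at this
    rw [this, RingHom.map_det]
    rfl
  rw [zsmul_congr (h2 _ (hYs σ y hy)) e1, zsmul_congr (h2 y hy) e2]
  exact h1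

/-- **Boston-Lenstra-Ribet**: the kernel of `ρ` acts trivially. -/
theorem smul_eq_of_ker {n : ℕ} (hn : n ≠ 0) {ρ : G →* Matrix (Fin 2) (Fin 2) (ZMod (2 ^ n))}
    {X : AddSubgroup W} (hX : ∀ (g : G), ∀ x ∈ X, g • x ∈ X) (hm : ∀ x ∈ X, 2 ^ n • x = 0)
    (h : QR ρ X) {r₀ : G →* Matrix (Fin 2) (Fin 2) (ZMod 2)}
    (hr : ∀ g, r₀ g = (ρ g).map (ZMod.castHom (dvd_pow_self 2 hn) (ZMod 2)))
    {c τ : G} (hdet : ∀ g, (r₀ g).det = 1) (hc1 : r₀ c ≠ 1) (hc : (r₀ c).trace = 0)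
    (hτ : (r₀ τ).trace = 1) {n₀ : G} (hn₀ : ρ n₀ = 1) {x : W} (hx : x ∈ X) : n₀ • x = x := by
  by_contra hne
  have h0 : n₀ • x - x ≠ 0 := sub_ne_zero.mpr hne
  obtain ⟨j, hj1, hj2⟩ := exists_two_torsion (hm _ (sub_mem (hX _ _ hx) hx)) h0
  apply hj1
  let Y : AddSubgroup W := X ⊓ (DistribSMul.toAddMonoidHom W (2 : ℕ)).ker
  have hY2 : ∀ y ∈ Y, 2 • y = 0 := fun y hy => hy.2
  have hYs : ∀ (g : G), ∀ y ∈ Y, g • y ∈ Y := by
    intro g y hy
    refine ⟨hX g y hy.1, ?_⟩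
    change (2 : ℕ) • g • y = 0
    have := map_nsmul (DistribSMul.toAddMonoidHom W g) 2 y
    change g • (2 : ℕ) • y = (2 : ℕ) • g • y at this
    rw [← this, hY2 y hy, smul_zero]
  have hqr : QR r₀ Y := h.two hn hr inf_le_left hY2 hYs
  have hyY : 2 ^ j • (n₀ • x - x) ∈ Y :=
    ⟨AddSubgroup.nsmul_mem X (sub_mem (hX _ _ hx) hx) _, hj2⟩
  refine eq_zero_of_comm hYs hY2 hqr hdet hc1 hc hτ hyY ?_
  have hns : ∀ (g : G) (z : W), g • 2 ^ j • z = 2 ^ j • g • z := fun g z =>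
    map_nsmul (DistribSMul.toAddMonoidHom W g) (2 ^ j) z
  rw [hns, hns, hns, hns, hns]
  congr 1
  have h5 := h.comm hX hm hn₀ τ (c * τ) hx
  rwa [mul_smul, mul_smul] at h5

end Main

end Fermat.Agent.H09.Z6
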