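import Fermat.Agent.H09.Z6A
import Fermat.Agent.Ell.ZComp
import Fermat.Agent.H11N.Lift
import Fermat.Agent.H25.Density
import Fermat.Agent.H05.Geom

/-!
# PROGRAM Z, Z6: the eigen-subgroups of `J₀(N)[2ⁿ]` and their quadratic relations
-/

set_option autoImplicit false
set_option linter.unusedSectionVars false
set_option linter.style.haveILetI false

noncomputable section

namespace Fermat.Agent.H09.Z6

open ModularCurve AlgebraicCurve
open Fermat.Agent.H08 Fermat.Agent.EGal Fermat.Agent.Ell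

local notation "Qb" => AlgebraicClosure ℚ

/-- the `n`-torsion of `J₀(N)` is defined over a number field -/
theorem exists_field_torsion (N : ℕ) [NeZero N] {m : ℕ} (hm : m ≠ 0) :
    ∃ L : IntermediateField ℚ Qb, FiniteDimensional ℚ L ∧
      ∀ σ : Qb ≃ₐ[ℚ] Qb, (∀ x ∈ L, σ x = x) → ∀ x : JZero N, m • x = 0 → σ • x = x := by
  classical
  have hfin := H11N.finite_torsion_J N hm
  choose U hU hU' using fun x : JZero N => H12.exists_open_pic0 (modularFunctionFieldFull N) x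
  let s := hfin.toFinset
  have hV : IsOpen ((⨅ x ∈ s, U x : Subgroup (Qb ≃ₐ[ℚ] Qb)) : Set (Qb ≃ₐ[ℚ] Qb)) := by
    rw [Subgroup.coe_iInf]
    simp only [Subgroup.coe_iInf]
    exact isOpen_biInter_finset fun x _ => hU x
  have h1 : ((⨅ x ∈ s, U x : Subgroup (Qb ≃ₐ[ℚ] Qb)) : Set (Qb ≃ₐ[ℚ] Qb)) ∈
      nhds (1 : Qb ≃ₐ[ℚ] Qb) := hV.mem_nhds (one_mem _)
  rw [krullTopology_mem_nhds_one_iff] at h1
  obtain ⟨L, hL, hLU⟩ := h1
  refine ⟨L, hL, fun σ hσ x hx => ?_⟩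
  have h2 : σ ∈ L.fixingSubgroup := by
    rw [IntermediateField.mem_fixingSubgroup_iff]
    exact hσ
  have h3 := hLU h2
  have h4 : σ ∈ U x := by
    have h5 : x ∈ s := hfin.mem_toFinset.mpr hx
    have h6 : (⨅ x ∈ s, U x : Subgroup (Qb ≃ₐ[ℚ] Qb)) ≤ U x := iInf₂_le x h5
    exact h6 h3
  exact hU' x σ h4

/-- the eigen-subgroup -/
def WS (N n D : ℕ) [NeZero N] (a : ℕ → ℤ) : AddSubgroup (JZero N) where
  carrier := {x | 2 ^ n • x = 0 ∧
    ∀ l : Nat.Primes, ¬ (l : ℕ) ∣ D → heckeOperatorBar N l x = a l • x}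
  zero_mem' := ⟨smul_zero _, fun l _ => by rw [map_zero, smul_zero]⟩
  add_mem' := by
    rintro x y ⟨h1, h2⟩ ⟨h3, h4⟩
    refine ⟨by rw [nsmul_add, h1, h3, add_zero], fun l hl => ?_⟩
    rw [map_add, h2 l hl, h4 l hl, zsmul_add]
  neg_mem' := by
    rintro x ⟨h1, h2⟩
    refine ⟨by rw [neg_nsmul, h1, neg_zero], fun l hl => ?_⟩
    rw [map_neg, h2 l hl, zsmul_neg]

variable {N n D : ℕ} [NeZero N] {a : ℕ → ℤ}

theorem mem_WS {x : JZero N} : x ∈ WS N n D a ↔ 2 ^ n • x = 0 ∧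
    ∀ l : Nat.Primes, ¬ (l : ℕ) ∣ D → heckeOperatorBar N l x = a l • x := Iff.rfl

theorem smul_mem_WS (σ : GQ) {x : JZero N} (hx : x ∈ WS N n D a) : σ • x ∈ WS N n D a := by
  refine ⟨?_, fun l hl => ?_⟩
  · have h1 := map_nsmul (DistribSMul.toAddMonoidHom (JZero N) σ) (2 ^ n) x
    rw [hx.1, map_zero] at h1
    exact h1.symm
  · rw [H05.heckeOperatorBar_smul, hx.2 l hl]
    exact map_zsmul (DistribSMul.toAddMonoidHom (JZero N) σ) (a l) x

variable {W : WeierstrassCurve ℤ}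

/-- the representation on `E[2ⁿ]` -/
abbrev rhoN (b : Module.Basis (Fin 2) ℤ_[2] (TT (WQ W) 2)) (n : ℕ) :
    GQ →* Matrix (Fin 2) (Fin 2) (ZMod (2 ^ n)) := rhoP (PadicInt.toZModPow n) b

theorem rhoN_eq_one {b : Module.Basis (Fin 2) ℤ_[2] (TT (WQ W) 2)} {n : ℕ} {u : GQ}
    (hu : ∀ P : Pts (WQ W), 2 ^ n • P = 0 → u • P = P) : rhoN b n u = 1 := by
  have hf : PadicInt.toZModPow n ((2 : ℤ_[2]) ^ n) = 0 := by
    rw [map_pow, map_ofNat]
    exact_mod_cast ZMod.natCast_self (2 ^ n)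
  rw [rhoN, rhoP_congr hf (g := u) (h := 1) (fun P hP => by rw [hu P hP, one_smul]), map_one]

/-- **The quadratic relations.** -/
theorem qr_WS (hΔ : W.Δ ≠ 0) (hirr : W.ModRepIsIrreducible 2)
    (b : Module.Basis (Fin 2) ℤ_[2] (TT (WQ W) 2)) (h2 : 2 ∣ N) (hD0 : D ≠ 0) (hND : N ∣ D)
    (hbad : ∀ q : ℕ, q.Prime → ¬ W.IsGoodPrimeFor q → q ∣ D)
    (ha : ∀ l : ℕ, l.Prime → ¬ l ∣ D → a l = W.apOfModel l) :
    QR (rhoN b n) (WS N n D a) := by
  have hell := isElliptic_WQ hΔ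
  have h2n : (2 : ℕ) ^ n ≠ 0 := pow_ne_zero _ two_ne_zero
  apply qr_of_approx
  · exact fun x hx => hx.1
  · exact fun g x hx => smul_mem_WS g hx
  intro σ
  obtain ⟨L₁, hL₁, hJ⟩ := exists_field_torsion N h2n
  obtain ⟨L₂, hL₂, hE⟩ := exists_level_field (E := WQ W) (2 ^ n) h2n
  obtain ⟨l, hl, hlT, A, hA, φ, hφ, -, k, -, hσφ⟩ :=
    Fermat.Agent.H25.exists_frobenius (L₁ ⊔ L₂) D.primeFactors σ
  have hlD : ¬ l ∣ D := fun h => hlT (Nat.mem_primeFactors.mpr ⟨hl, h, hD0⟩)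
  have hlgood : W.IsGoodPrimeFor l := by
    by_contra h
    exact hlD (hbad l hl h)
  have hlN : ¬ l ∣ N := fun h => hlD (h.trans hND)
  have hl2 : l ≠ 2 := fun h => hlN (h ▸ h2)
  have hu : ∀ x ∈ L₁ ⊔ L₂, ((φ ^ k)⁻¹ * σ) x = x := by
    intro x hx
    rw [AlgEquiv.mul_apply, hσφ x hx, ← AlgEquiv.mul_apply, inv_mul_cancel, AlgEquiv.one_apply]
  refine ⟨φ, k, (φ ^ k)⁻¹ * σ, W.apOfModel l, l, by group, ?_, ?_, ?_, ?_, ?_⟩
  · exact fun x hx => hJ _ (fun y hy => hu y (le_sup_left (a := L₁) hy)) x hx.1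
  · apply rhoN_eq_one
    intro P hP
    have h3 := hE ((φ ^ k)⁻¹ * σ) 1
      (fun y hy => by rw [hu y (le_sup_right (a := L₁) hy), AlgEquiv.one_apply]) P hP
    rwa [one_smul] at h3
  · rw [trace_rhoP, trace_frob (isModel_WQ W) (exists_nonscalar_of_irr hΔ hirr) hl hlgood hl2 hA hφ,
      map_intCast]
  · rw [det_rhoP, det_frob (isModel_WQ W) (exists_nonscalar_of_irr hΔ hirr) hl hl2 hA hφ,
      map_natCast, Int.cast_natCast]
  · intro x hx
    have h3 := H05.esHyp 2 Nat.prime_two N n l hl ⟨hlN, Or.inl ⟨h2, hl2⟩⟩ hl2 A hA φ hφ x hx.1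
    have h4 := (smul_mem_WS φ hx).2 ⟨l, hl⟩ hlD
    rw [h4] at h3
    change _ - a l • φ • x + _ = _ at h3
    rw [ha l hl hlD] at h3
    rw [natCast_zsmul]
    exact h3

end Fermat.Agent.H09.Z6
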