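import Fermat.Agent.H09.Z6B
import Fermat.Agent.H11Q.Packs

/-!
# PROGRAM Z, Z6: the lowering step
-/

set_option autoImplicit false
set_option linter.unusedSectionVars false
set_option linter.style.haveILetI false

noncomputable section

namespace Fermat.Agent.H09.Z6

open ModularCurve AlgebraicCurve
open Fermat.Agent.H08 Fermat.Agent.EGal Fermat.Agent.Ell Fermat.Agent.Q Fermat.Agent.H11N

local notation "Qb" => AlgebraicClosure ℚ

/-! ### residual facts -/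

theorem eq_toZMod (f : ℤ_[2] →+* ZMod 2) : f = PadicInt.toZMod := by
  ext x
  have h1 : x - ((PadicInt.toZMod x).val : ℤ_[2]) ∈ IsLocalRing.maximalIdeal ℤ_[2] := by
    rw [← PadicInt.ker_toZMod, RingHom.mem_ker, map_sub, map_natCast, ZMod.natCast_zmod_val,
      sub_self]
  rw [PadicInt.maximalIdeal_eq_span_p, Ideal.mem_span_singleton] at h1
  obtain ⟨y, hy⟩ := h1
  have h2 : x = ((PadicInt.toZMod x).val : ℤ_[2]) + (2 : ℕ) * y := by
    rw [← hy]; ring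
  have h3 : f x = ((PadicInt.toZMod x).val : ZMod 2) := by
    rw [h2, map_add, map_mul, map_natCast, map_natCast, ZMod.natCast_self, zero_mul, add_zero]
    rw [← h2]
  rw [h3, ZMod.natCast_zmod_val]

variable {W : WeierstrassCurve ℤ}

theorem rho0_eq_map (b : Module.Basis (Fin 2) ℤ_[2] (TT (WQ W) 2)) {n : ℕ} (hn : n ≠ 0) (g : GQ) :
    rho0 b g = (rhoN b n g).map (ZMod.castHom (dvd_pow_self 2 hn) (ZMod 2)) := by
  have h1 := eq_toZMod ((ZMod.castHom (dvd_pow_self 2 hn) (ZMod 2)).comp (PadicInt.toZModPow n))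
  ext i j
  rw [rho0_apply, Matrix.map_apply, Matrix.map_apply, ← h1]
  rfl

theorem det_rho0 (b : Module.Basis (Fin 2) ℤ_[2] (TT (WQ W) 2)) (g : GQ) : (rho0 b g).det = 1 := by
  have h1 : (rho0 b g).det * (rho0 b g⁻¹).det = 1 := by
    rw [← Matrix.det_mul, ← map_mul, mul_inv_cancel, map_one, Matrix.det_one]
  have h2 : ∀ x y : ZMod 2, x * y = 1 → x = 1 := by decide
  exact h2 _ _ h1

theorem sq_of_trace_zero : ∀ x : Matrix (Fin 2) (Fin 2) (ZMod 2), x.det = 1 → x.trace = 0 →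
    x * x = 1 := by decide

theorem trace_zero_of_sq : ∀ x : Matrix (Fin 2) (Fin 2) (ZMod 2), x * x = 1 → x.trace = 0 := by
  decide

theorem trace_pow_zero {x : Matrix (Fin 2) (Fin 2) (ZMod 2)} (h1 : x.det = 1) (h2 : x.trace = 0)
    (k : ℕ) : (x ^ k).trace = 0 := by
  apply trace_zero_of_sq
  have h3 := sq_of_trace_zero x h1 h2
  rw [← pow_two, ← pow_mul, mul_comm, pow_mul, pow_two, h3, one_pow]

/-- there are primes with odd `a_l` -/
theorem exists_odd_prime (hΔ : W.Δ ≠ 0) (hirr : W.ModRepIsIrreducible 2)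
    (b : Module.Basis (Fin 2) ℤ_[2] (TT (WQ W) 2)) {D : ℕ} (hD0 : D ≠ 0) (h2D : 2 ∣ D)
    (hbad : ∀ q : ℕ, q.Prime → ¬ W.IsGoodPrimeFor q → q ∣ D) {τ : GQ}
    (hτ : (rho0 b τ).trace = 1) : ∃ l : ℕ, l.Prime ∧ ¬ l ∣ D ∧ (W.apOfModel l : ZMod 2) = 1 := by
  have hell := isElliptic_WQ hΔ
  obtain ⟨L₂, hL₂, hE⟩ := exists_level_field (E := WQ W) 2 two_ne_zero
  obtain ⟨l, hl, hlT, A, hA, φ, hφ, -, k, -, hσφ⟩ :=
    Fermat.Agent.H25.exists_frobenius L₂ D.primeFactors τ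
  have hlD : ¬ l ∣ D := fun h => hlT (Nat.mem_primeFactors.mpr ⟨hl, h, hD0⟩)
  have hlgood : W.IsGoodPrimeFor l := by
    by_contra h
    exact hlD (hbad l hl h)
  have hl2 : l ≠ 2 := fun h => hlD (h ▸ h2D)
  refine ⟨l, hl, hlD, ?_⟩
  have htr : (rho0 b φ).trace = (W.apOfModel l : ZMod 2) := by
    rw [rho0_eq_map b one_ne_zero, Matrix.trace_fin_two, Matrix.map_apply, Matrix.map_apply,
      ← map_add, ← Matrix.trace_fin_two, trace_rhoP,
      trace_frob (isModel_WQ W) (exists_nonscalar_of_irr hΔ hirr) hl hlgood hl2 hA hφ, map_intCast,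
      map_intCast]
  rw [← htr]
  have h01 : ∀ x : ZMod 2, x ≠ 0 → x = 1 := by decide
  apply h01
  intro h0
  have h3 : rho0 b (τ * (φ ^ k)⁻¹) = 1 := by
    rw [rho0_eq_one_iff]
    intro P hP
    have h5 : τ • ((φ ^ k)⁻¹ • P) = φ ^ k • ((φ ^ k)⁻¹ • P) := by
      apply hE τ (φ ^ k) (fun x hx => hσφ x hx)
      have := map_nsmul (DistribSMul.toAddMonoidHom (Pts (WQ W)) ((φ ^ k)⁻¹ : GQ)) 2 P
      rw [hP, _root_.map_zero] at this
      exact this.symm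
    rw [mul_smul, h5, smul_inv_smul]
  have h4 : rho0 b τ = (rho0 b φ) ^ k := by
    have : τ = (τ * (φ ^ k)⁻¹) * φ ^ k := by group
    rw [this, map_mul, h3, one_mul, map_pow]
  rw [h4, trace_pow_zero (det_rho0 b φ) h0] at hτ
  exact zero_ne_one hτ

/-! ### the step -/

variable {M r : ℕ} [NeZero M] [hr : Fact r.Prime] {n D : ℕ} {a : ℕ → ℤ}

theorem wS_mem_WS (hrM : Nat.Coprime r M) (hrD : r ∣ D) {x : JZero (M * r)}
    (hx : x ∈ WS (M * r) n D a) : wS M r hrM • x ∈ WS (M * r) n D a := by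
  refine ⟨?_, fun l hl => ?_⟩
  · rw [nsmul_wS, hx.1]
    exact map_zero (DistribSMul.toAddMonoidHom (JZero (M * r)) (wS M r hrM))
  haveI : NeZero (l : ℕ) := ⟨l.2.ne_zero⟩
  have hlr : Nat.Coprime r l := by
    rw [Nat.coprime_primes hr.out l.2]
    intro h
    exact hl (h ▸ hrD)
  rw [heckeOperatorBar_apply, H05.heckeOperatorAlong_wS hrM hlr, ← heckeOperatorBar_apply,
    hx.2 l hl]
  exact map_zsmul (DistribSMul.toAddMonoidHom (JZero (M * r)) (wS M r hrM)) (a l) x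

/-- the geometric input `(N2B)` -/
def N2B (A : ValuationSubring Qb) (M r m : ℕ) [NeZero M] [Fact r.Prime] (hrM : Nat.Coprime r M)
    (C : H28.TwoCharts (H28.modRed M A)) : Prop :=
  ∀ x : JZero (M * r), m • x = 0 → (∀ σ ∈ A.inertiaSubgroupIn ℚ, σ • x = x) →
    ∀ l : Nat.Primes, ¬ (l : ℕ) ∣ M * r → ∃ y₀ y₁ : JZero M,
      Occ C m r (2 • (heckeOperatorBar (M * r) l x - ((l : ℕ) + 1) • x)) y₀ ∧
      Occ C m r (wS M r hrM • 2 • (heckeOperatorBar (M * r) l x - ((l : ℕ) + 1) • x)) y₁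

theorem nsmul_galois' {N : ℕ} [NeZero N] (σ : GQ) (k : ℕ) (x : JZero N) :
    k • σ • x = σ • k • x :=
  (map_nsmul (DistribSMul.toAddMonoidHom (JZero N) σ) k x).symm

theorem zsmul_galois' {N : ℕ} [NeZero N] (σ : GQ) (k : ℤ) (x : JZero N) :
    k • σ • x = σ • k • x :=
  (map_zsmul (DistribSMul.toAddMonoidHom (JZero N) σ) k x).symm

/-- inertia acts trivially on the eigen-subgroups -/
theorem inertia_smul_WS {N : ℕ} [NeZero N] (hΔ : W.Δ ≠ 0) (hirr : W.ModRepIsIrreducible 2)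
    (b : Module.Basis (Fin 2) ℤ_[2] (TT (WQ W) 2)) (h2 : 2 ∣ N) (hD0 : D ≠ 0) (hND : N ∣ D)
    (hbad : ∀ q : ℕ, q.Prime → ¬ W.IsGoodPrimeFor q → q ∣ D)
    (ha : ∀ l : ℕ, l.Prime → ¬ l ∣ D → a l = W.apOfModel l) (hn : n ≠ 0)
    {c τ : GQ} (hc1 : rho0 b c ≠ 1) (hc : (rho0 b c).trace = 0) (hτ : (rho0 b τ).trace = 1)
    (hgood : W.IsGoodPrimeFor r) (hr2 : r ≠ 2) {A : ValuationSubring Qb}
    (hA : A.LiesOverPrime r) {σ : GQ} (hσ : σ ∈ A.inertiaSubgroupIn ℚ) {x : JZero N}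
    (hx : x ∈ WS N n D a) : σ • x = x := by
  have hqr := qr_WS (n := n) hΔ hirr b h2 hD0 hND hbad ha
  refine smul_eq_of_ker hn (fun g x hx => smul_mem_WS g hx) (fun x hx => hx.1) hqr
    (rho0_eq_map b hn) (det_rho0 b) hc1 hc hτ ?_ hx
  apply rhoN_eq_one
  intro P hP
  have hrm : ¬ r ∣ 2 ^ n := fun h =>
    hr2 ((Nat.prime_dvd_prime_iff_eq hr.out Nat.prime_two).mp (hr.out.dvd_of_dvd_pow h))
  exact smul_eq_of_good hr.out hgood hA hσ hrm hP

/-- an odd multiple of a point killed by a power of two -/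
theorem mem_of_odd_zsmul {J : Type*} [AddCommGroup J] (T : AddSubgroup J) {x : J} {u : ℤ}
    (hu : Odd u) {k : ℕ} (hx : 2 ^ k • x = 0) (h : u • x ∈ T) : x ∈ T := by
  have hcop : IsCoprime u ((2 : ℤ) ^ k) := by
    apply IsCoprime.pow_right
    exact (Int.isCoprime_iff_gcd_eq_one.mpr (by
      rw [Int.gcd_comm]
      exact Int.isCoprime_iff_gcd_eq_one.mp (Int.isCoprime_two_left.mpr hu)))
  obtain ⟨s, t, hst⟩ := hcop
  have h1 : x = s • u • x + t • ((2 : ℤ) ^ k) • x := by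
    rw [smul_smul, smul_smul, ← add_smul, hst, one_smul]
  have h2 : ((2 : ℤ) ^ k) • x = 0 := by
    rw [← hx, ← natCast_zsmul]; push_cast; rfl
  rw [h1, h2, smul_zero, add_zero]
  exact T.zsmul_mem h s

/-- the statement `P(N, e)` -/
def Has (N D : ℕ) [NeZero N] (a : ℕ → ℤ) (e : ℕ) : Prop :=
  ∃ n, ∃ x ∈ WS N n D a, 2 ^ e • x ≠ 0

/-- **The lowering step.** -/
theorem step (hΔ : W.Δ ≠ 0) (hirr : W.ModRepIsIrreducible 2)
    (b : Module.Basis (Fin 2) ℤ_[2] (TT (WQ W) 2)) (h2 : 2 ∣ M) (hrM : ¬ r ∣ M)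
    (hD0 : D ≠ 0) (hND : M * r ∣ D)
    (hbad : ∀ q : ℕ, q.Prime → ¬ W.IsGoodPrimeFor q → q ∣ D)
    (ha : ∀ l : ℕ, l.Prime → ¬ l ∣ D → a l = W.apOfModel l)
    {τ : GQ} (hτ : (rho0 b τ).trace = 1) (hgood : W.IsGoodPrimeFor r) (hr2 : r ≠ 2)
    {A : ValuationSubring Qb} (hA : A.LiesOverPrime r) {φ : GQ} (hφ : A.IsFrobeniusAt φ r)
    (hφ1 : rho0 b φ ≠ 1) (hφ0 : (rho0 b φ).trace = 0)
    (hyp : ¬ r ∣ M ∧ ((2 ∣ M ∧ r ≠ 2) ∨ (3 ∣ M ∧ r ≠ 3)))
    (hN2 : ∀ n : ℕ, N2B A M r (2 ^ n) ((Nat.Prime.coprime_iff_not_dvd hr.out).2 hrM)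
      (H28.charts hr.out hA hyp))
    {e : ℕ} (h : Has (M * r) D a (e + 1)) : Has M D a e := by
  classical
  set hcop := (Nat.Prime.coprime_iff_not_dvd hr.out).2 hrM with hcopdef
  have hrD : r ∣ D := (dvd_mul_left r M).trans hND
  have h2D : 2 ∣ D := (h2.trans (dvd_mul_right M r)).trans hND
  have h2N : 2 ∣ M * r := h2.trans (dvd_mul_right M r)
  obtain ⟨n, x, hx, hxe⟩ := h
  have hn : n ≠ 0 := by
    rintro rfl
    have h1 := hx.1
    rw [pow_zero, one_smul] at h1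
    apply hxe
    rw [h1]
    exact nsmul_zero _
  have hqr := qr_WS (n := n) hΔ hirr b h2N hD0 hND hbad ha
  by_contra hcon
  have hcon' : ∀ n', ∀ y ∈ WS M n' D a, 2 ^ e • y = 0 := by
    intro n' y hy
    by_contra h1
    exact hcon ⟨n', y, hy, h1⟩
  have hrm : ¬ r ∣ 2 ^ n := fun h =>
    hr2 ((Nat.prime_dvd_prime_iff_eq hr.out Nat.prime_two).mp (hr.out.dvd_of_dvd_pow h))
  have hm0 : (2 : ℕ) ^ n ≠ 0 := pow_ne_zero _ two_ne_zero
  obtain ⟨l, hl, hlD, hal⟩ := exists_odd_prime hΔ hirr b hD0 h2D hbad hτ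
  have hl2 : l ≠ 2 := fun h => hlD (h ▸ h2D)
  have hlodd : Odd (l : ℤ) := by
    rw [Int.odd_coe_nat]
    exact hl.odd_of_ne_two hl2
  -- everything of the form `2 ^ (e + 1) • y` is toric
  have hT : ∀ y ∈ WS (M * r) n D a, 2 ^ (e + 1) • y ∈ TSub A M r (2 ^ n) hcop := by
    intro y hy
    obtain ⟨y₀, y₁, h0, h1⟩ := hN2 n y hy.1 (fun σ hσ => inertia_smul_WS (r := r) hΔ hirr b h2N hD0
      hND hbad ha hn hφ1 hφ0 hτ hgood hr2 hA hσ hy) ⟨l, hl⟩ (fun h => hlD (h.trans hND))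
    set z := 2 • (heckeOperatorBar (M * r) ⟨l, hl⟩ y - (((⟨l, hl⟩ : Nat.Primes) : ℕ) + 1) • y)
      with hz
    have hzW : z ∈ WS (M * r) n D a := by
      have h3 := hy.2 ⟨l, hl⟩ hlD
      rw [hz, h3]
      exact AddSubgroup.nsmul_mem _ (sub_mem (AddSubgroup.zsmul_mem _ hy _)
        (AddSubgroup.nsmul_mem _ hy _)) _
    have hwz : wS M r hcop • z ∈ WS (M * r) n D a := wS_mem_WS hcop hrD hzW
    have key : ∀ (z' : JZero (M * r)) (y' : JZero M), z' ∈ WS (M * r) n D a →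
        Occ (H28.charts hr.out hA hyp) (2 ^ n) r z' y' → 2 ^ e • z' ∈ KInf A M r (2 ^ n) := by
      intro z' y' hz' hocc
      obtain ⟨y'', hocc', ⟨n', hn'⟩, hy''⟩ := hocc.exists_eigen hA hyp Nat.prime_two hr2.symm
        (D := D) a hND (fun l hl => hz'.2 l hl)
      exact hocc'.nsmul_mem_KInf hm0 (hcon' n' y'' ⟨hn', hy''⟩)
    have hzT : 2 ^ e • z ∈ TSub A M r (2 ^ n) hcop := by
      rw [mem_TSub]
      refine ⟨key z y₀ hzW h0, ?_⟩
      rw [← nsmul_wS]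
      exact key _ y₁ hwz h1
    have hze : 2 ^ e • z = ((a l - (l + 1) : ℤ)) • 2 ^ (e + 1) • y := by
      have h3 := hy.2 ⟨l, hl⟩ hlD
      rw [hz, h3]
      change 2 ^ e • 2 • (a l • y - (l + 1) • y) = _
      have e0 : (l + 1) • y = ((l : ℤ) + 1) • y := by
        rw [← natCast_zsmul]
        push_cast
        rfl
      have e1 : a l • y - (l + 1) • y = (a l - (l + 1) : ℤ) • y := by
        rw [e0, sub_eq_add_neg]
        exact (sub_zsmul y _ _).symm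
      rw [e1, ← natCast_zsmul, ← natCast_zsmul, ← natCast_zsmul, smul_smul, smul_smul, smul_smul]
      congr 1
      push_cast
      ring
    rw [hze] at hzT
    refine mem_of_odd_zsmul _ ?_ (k := n) ?_ hzT
    · have h4 : Odd (a l) := by
        rw [ha l hl hlD]
        have h5 : ((W.apOfModel l : ℤ) : ZMod 2) = 1 := hal
        rw [← Int.not_even_iff_odd, ← ZMod.intCast_eq_zero_iff_even]
        rw [h5]
        exact one_ne_zero
      exact h4.sub_even (by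
        have := hlodd.add_odd odd_one
        exact this)
    · rw [smul_comm, hy.1]
      exact nsmul_zero _
  -- the Frobenius element acts as `- r w` on these
  have hF : ∀ y ∈ WS (M * r) n D a, φ • ((2 ^ (e + 1) : ℕ) • y) =
      -(r • (wS M r hcop • ((2 ^ (e + 1) : ℕ) • y))) := by
    intro y hy
    obtain ⟨lp⟩ := H11Q.hasPacks hr.out hA M hcop (Or.inl h2)
    have h3 := hT _ (wS_mem_WS hcop hrD hy)
    rw [nsmul_wS] at h3
    have h4 := frobenius_smul_w_of_mem_TSub hcop hA lp hrm h3 hφ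
    rwa [wS_wS] at h4
  have hcommF : ∀ y ∈ WS (M * r) n D a, τ • (φ • ((2 ^ (e + 1) : ℕ) • y)) =
      φ • (τ • ((2 ^ (e + 1) : ℕ) • y)) := by
    intro y hy
    rw [hF y hy, ← nsmul_galois' τ, hF _ (smul_mem_WS τ hy)]
    have e1 : ∀ z : JZero (M * r), τ • (-(r • z)) = -(r • (τ • z)) := fun z => by
      rw [nsmul_galois']
      exact map_neg (DistribSMul.toAddMonoidHom (JZero (M * r)) τ) (r • z)
    rw [e1, galois_wS, ← nsmul_galois' τ]
  -- conclusion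
  obtain ⟨j, hj1, hj2⟩ := exists_two_torsion (n := n) (x := (2 ^ (e + 1) : ℕ) • x) (by
    rw [smul_comm, hx.1]
    exact nsmul_zero _) hxe
  apply hj1
  let Y : AddSubgroup (JZero (M * r)) :=
    WS (M * r) n D a ⊓ (DistribSMul.toAddMonoidHom (JZero (M * r)) (2 : ℕ)).ker
  have hY2 : ∀ y ∈ Y, 2 • y = 0 := fun y hy => hy.2
  have hYs : ∀ (g : GQ), ∀ y ∈ Y, g • y ∈ Y := by
    intro g y hy
    refine ⟨smul_mem_WS g hy.1, ?_⟩
    change (2 : ℕ) • g • y = 0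
    rw [nsmul_galois', hY2 y hy]
    exact map_zero (DistribSMul.toAddMonoidHom (JZero (M * r)) g)
  have hqr' : QR (rho0 b) Y := hqr.two hn (rho0_eq_map b hn) inf_le_left hY2 hYs
  have hyY : 2 ^ j • (2 ^ (e + 1) : ℕ) • x ∈ Y :=
    ⟨AddSubgroup.nsmul_mem _ (AddSubgroup.nsmul_mem _ hx _) _, hj2⟩
  refine eq_zero_of_comm hYs hY2 hqr' (det_rho0 b) hφ1 hφ0 hτ hyY ?_
  have e2 : τ • ((2 ^ j : ℕ) • ((2 ^ (e + 1) : ℕ) • x)) =
      (2 ^ (e + 1) : ℕ) • (τ • ((2 ^ j : ℕ) • x)) := by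
    rw [smul_comm (2 ^ j : ℕ) (2 ^ (e + 1) : ℕ) x, ← nsmul_galois']
  rw [e2]
  exact hcommF _ (smul_mem_WS τ (AddSubgroup.nsmul_mem _ hx _))

end Fermat.Agent.H09.Z6
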