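import Fermat.Agent.H09.Z6C
import Fermat.Agent.NN.N2
import Fermat.Agent.H11N.EigSub
import Fermat.Agent.H11N.Eigen
import Fermat.Agent.H11N.Tors
import Fermat.Agent.ZF.Field

/-!
# PROGRAM Z, Z6: iteration over the auxiliary primes, and the end of the argument
-/

set_option autoImplicit false
set_option linter.unusedSectionVars false
set_option linter.style.haveILetI false

noncomputable section

namespace Fermat.Agent.H09.Z6

open ModularCurve AlgebraicCurve CongruenceSubgroup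
open Fermat.Agent.H08 Fermat.Agent.EGal Fermat.Agent.Ell Fermat.Agent.Q Fermat.Agent.H11N
open Fermat.Agent.ZF

local notation "Qb" => AlgebraicClosure ℚ

variable {W : WeierstrassCurve ℤ}

/-! ### the auxiliary primes -/

/-- the determinant of an abstract complex conjugation -/
theorem det_conj (hell : (WQ W).IsElliptic) {c : GQ} (hc : c * c = 1)
    (hmov : ∃ P : Pts (WQ W), 2 • P = 0 ∧ c • P ≠ P) :
    LinearMap.det (rr (WQ W) 2 c) = -1 := by
  obtain ⟨v, hv, hcv, hspan⟩ := exists_conj_basis hell hc hmov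
  have hsq : rr (WQ W) 2 c * rr (WQ W) 2 c = 1 := by rw [← map_mul, hc, map_one]
  have hd : LinearMap.det (rr (WQ W) 2 c) * LinearMap.det (rr (WQ W) 2 c) = 1 := by
    rw [← map_mul, hsq, map_one]
  rcases mul_self_eq_one_iff.mp hd with h1 | h1
  · exfalso
    have hch := end_ch (tateBasis (WQ W) 2) (rr (WQ W) 2 c)
    rw [hsq, h1, one_smul] at hch
    set t := LinearMap.trace ℤ_[2] (TT (WQ W) 2) (rr (WQ W) 2 c) with ht
    have h2 := LinearMap.congr_fun hch v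
    have h3 : (2 + t) • v = 0 := by
      rw [LinearMap.add_apply, LinearMap.sub_apply, LinearMap.smul_apply, hcv] at h2
      change v - t • (-v) + v = 0 at h2
      rw [← h2]
      module
    have hv0 : v ≠ 0 := by
      rintro rfl
      exact hv (_root_.map_zero _)
    have hfree : Module.Free ℤ_[2] (TT (WQ W) 2) := Module.Free.of_basis (tateBasis (WQ W) 2)
    have htf : Module.IsTorsionFree ℤ_[2] (TT (WQ W) 2) := inferInstance
    have ht2 : t = -2 := by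
      have := (smul_eq_zero.mp h3).resolve_right hv0
      linear_combination this
    obtain ⟨P, hP, hcP⟩ := hmov
    apply hcP
    obtain ⟨w, hw⟩ := TateMod.exists_lift (pts_div (WQ W) 2) (n := 1) (x := P)
      (by rw [pow_one]; exact hP)
    have h4 := LinearMap.congr_fun hch w
    rw [LinearMap.add_apply, LinearMap.sub_apply, LinearMap.smul_apply, ht2] at h4
    change w - (-2 : ℤ_[2]) • rr (WQ W) 2 c w + w = 0 at h4
    have h5 : (2 : ℤ_[2]) • (rr (WQ W) 2 c w + w) = 0 := by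
      rw [← h4]
      module
    have h6 : rr (WQ W) 2 c w + w = 0 :=
      ((smul_eq_zero (R := ℤ_[2]) (M := TT (WQ W) 2)).mp h5).resolve_left two_ne_zero
    have h7 : c • w.1 1 + w.1 1 = 0 := congrArg (fun x : TT (WQ W) 2 => x.1 1) h6
    rw [hw] at h7
    rw [two_smul] at hP
    rw [eq_neg_of_add_eq_zero_left h7]
    exact (eq_neg_of_add_eq_zero_left hP).symm
  · exact h1

theorem cty_dvd (h : ZCurve W) {m q : ℕ} (hq : q.Prime) (hC : CTy W m q) : 2 ^ m ∣ q + 1 := by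
  have hell := isElliptic_WQ h.neg.ne
  obtain ⟨hgood, A, hA, φ, hφ, c, hc, hmov, hφc⟩ := hC
  have hq2 : q ≠ 2 := by
    rintro rfl
    exact hgood h.two
  have h1 : rhoN (tateBasis (WQ W) 2) m φ = rhoN (tateBasis (WQ W) 2) m c := by
    apply rhoP_congr _ hφc
    rw [map_pow, map_ofNat]
    exact_mod_cast ZMod.natCast_self (2 ^ m)
  have h2 := congrArg Matrix.det h1
  rw [det_rhoP, det_rhoP, det_conj hell hc hmov,
    det_frob (isModel_WQ W) (exists_nonscalar_of_irr h.neg.ne h.irr) hq hq2 hA hφ, map_natCast,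
    _root_.map_neg, map_one] at h2
  rw [← ZMod.natCast_eq_zero_iff, Nat.cast_add, h2]
  push_cast
  ring

theorem cty_ne_two (h : ZCurve W) {m q : ℕ} (hC : CTy W m q) : q ≠ 2 := by
  rintro rfl
  exact hC.1 h.two

theorem cty_not_dvd (h : ZCurve W) {m q : ℕ} (hq : q.Prime) (hC : CTy W m q) : ¬ q ∣ NW W := by
  rw [dvd_NW_iff h.neg.ne hq]
  exact hC.1

/-- the residual behaviour of the Frobenius elements of the auxiliary primes -/
theorem cfrob_rho0 [(WQ W).IsElliptic] (b : Module.Basis (Fin 2) ℤ_[2] (TT (WQ W) 2)) {m : ℕ} (hm : m ≠ 0) {φ : GQ}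
    (h : CFrob W m φ) : rho0 b φ ≠ 1 ∧ (rho0 b φ).trace = 0 := by
  obtain ⟨c, hc, ⟨P, hP, hcP⟩, hφc⟩ := h
  have h1 : rho0 b φ = rho0 b c := by
    rw [rho0_eq_map b one_ne_zero φ, rho0_eq_map b one_ne_zero c]
    congr 1
    apply rhoP_congr
    · rw [map_pow, map_ofNat]
      exact_mod_cast ZMod.natCast_self (2 ^ 1)
    · intro P hP
      apply hφc
      obtain ⟨k, rfl⟩ := Nat.exists_eq_succ_of_ne_zero hm
      rw [pow_one] at hP
      rw [pow_succ, mul_smul, hP]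
      exact nsmul_zero _
  rw [h1]
  refine ⟨fun h2 => hcP ((rho0_eq_one_iff b c).mp h2 P hP), ?_⟩
  apply trace_zero_of_sq
  rw [← map_mul, hc, map_one]

/-! ### iteration -/

theorem n2b_holds {M r : ℕ} [NeZero M] [hr : Fact r.Prime] {A : ValuationSubring Qb}
    (hrM : Nat.Coprime r M) (h2 : 2 ∣ M) (hr2 : r ≠ 2) (hA : A.LiesOverPrime r)
    (C : H28.TwoCharts (H28.modRed M A)) (n : ℕ) : N2B A M r (2 ^ n) hrM C := by
  intro x hx hI l hl
  haveI : Fact (l : ℕ).Prime := ⟨l.2⟩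
  obtain ⟨⟨y₀, h0⟩, ⟨y₁, h1⟩⟩ := NN.n2B hrM h2 hr2 hA C (pow_ne_zero n two_ne_zero) hx hI hl
  exact ⟨y₀, y₁, h0, h1⟩

theorem Has.congr {N N' D : ℕ} [NeZero N] [NeZero N'] (hN : N = N') {a : ℕ → ℤ} {e : ℕ}
    (h : Has N D a e) : Has N' D a e := by
  subst hN
  exact h

/-- the step at an auxiliary prime -/
theorem step_cty (h : ZCurve W) {M D : ℕ} [NeZero M] {r : ℕ} [hr : Fact r.Prime] {m : ℕ}
    (hm : m ≠ 0) (hC : CTy W m r) (h2 : 2 ∣ M) (hrM : ¬ r ∣ M) (hD0 : D ≠ 0) (hND : M * r ∣ D)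
    (hbad : NW W ∣ D) {e : ℕ} (hH : Has (M * r) D (fun l => W.apOfModel l) (e + 1)) :
    Has M D (fun l => W.apOfModel l) e := by
  have hell := isElliptic_WQ h.neg.ne
  have hr2 := cty_ne_two h hC
  obtain ⟨hgood, A, hA, φ, hφ, hφC⟩ := hC
  obtain ⟨Y, b, hY⟩ := exists_GDat h one_ne_zero ∅ (by simp)
  have hτ : (rho0 b (Y.σ * Y.τ)).trace = 1 := by
    rw [map_mul, ← hY.ρ0, ← hY.ρ0, Y.hσ, Y.hτ]
    decide
  obtain ⟨hφ1, hφ0⟩ := cfrob_rho0 b hm hφC
  have hyp : ¬ r ∣ M ∧ ((2 ∣ M ∧ r ≠ 2) ∨ (3 ∣ M ∧ r ≠ 3)) := ⟨hrM, Or.inl ⟨h2, hr2⟩⟩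
  exact step h.neg.ne h.irr b h2 hrM hD0 hND
    (fun q hq hqb => ((dvd_NW_iff h.neg.ne hq).mpr (not_not.mp hqb)).trans hbad)
    (fun _ _ _ => rfl) hτ hgood hr2 hA hφ hφ1 hφ0 hyp
    (fun n => n2b_holds ((Nat.Prime.coprime_iff_not_dvd hr.out).2 hrM) h2 hr2 hA _ n) hH

/-- removing all the auxiliary primes -/
theorem has_of_has (h : ZCurve W) {m : ℕ} (hm : m ≠ 0) {D : ℕ} (hD0 : D ≠ 0) [NeZero (NW W)]
    (Q : Finset Nat.Primes) : ∀ (_ : ∀ q ∈ Q, CTy W m (q : ℕ)) (N : ℕ) [NeZero N]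
    (_ : N = NW W * ∏ q ∈ Q, (q : ℕ)) (_ : N ∣ D) (e : ℕ)
    (_ : Has N D (fun l => W.apOfModel l) (e + Q.card)),
    Has (NW W) D (fun l => W.apOfModel l) e := by
  classical
  induction Q using Finset.induction_on with
  | empty =>
    intro _ N _ hN _ e hH
    rw [Finset.prod_empty, mul_one] at hN
    rw [Finset.card_empty, add_zero] at hH
    exact hH.congr hN
  | insert r Q hr ih =>
    intro hC N _ hN hND e hH
    haveI : Fact (r : ℕ).Prime := ⟨r.2⟩
    have hM0 : NW W * ∏ q ∈ Q, (q : ℕ) ≠ 0 :=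
      mul_ne_zero (NW_ne_zero W) (Finset.prod_ne_zero_iff.mpr fun q _ => q.2.ne_zero)
    haveI : NeZero (NW W * ∏ q ∈ Q, (q : ℕ)) := ⟨hM0⟩
    have hN' : N = (NW W * ∏ q ∈ Q, (q : ℕ)) * r := by
      rw [hN, Finset.prod_insert hr]; ring
    refine ih (fun q hq => hC q (Finset.mem_insert_of_mem hq)) _ rfl
      ((Dvd.intro _ hN'.symm).trans hND) e ?_
    have hC' := hC r (Finset.mem_insert_self r Q)
    refine step_cty h hm hC' ((two_dvd_NW h).trans (dvd_mul_right _ _)) ?_ hD0 (hN' ▸ hND)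
      ((Dvd.intro _ hN.symm).trans hND) ?_
    · intro hd
      rcases (Nat.Prime.dvd_mul r.2).mp hd with h1 | h1
      · exact cty_not_dvd h r.2 hC' h1
      · obtain ⟨q, hq, hrq⟩ := (Nat.Prime.prime r.2).exists_mem_finset_dvd h1
        have := (Nat.prime_dvd_prime_iff_eq r.2 q.2).mp hrq
        exact hr (by rwa [show r = q from Subtype.ext this])
    · rw [Finset.card_insert_of_notMem hr, ← add_assoc] at hH
      exact hH.congr hN'

/-! ### the end of the argument -/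

theorem exists_bound_away {N : ℕ} {t : HeckeAlg} (ht : t ∈ heckeAway N) :
    ∃ B : ℕ, ∀ D : ℕ, (∀ q : ℕ, q.Prime → q ∣ D → q ∣ N ∨ B < q) → t ∈ heckeAway D := by
  induction ht using Algebra.adjoin_induction with
  | mem y hy =>
    obtain ⟨l, hl, rfl⟩ := hy
    refine ⟨l, fun D hD => heckeGen_mem_away fun hlD => ?_⟩
    rcases hD l l.2 hlD with h1 | h1
    · exact hl h1
    · exact lt_irrefl _ h1
  | algebraMap c => exact ⟨0, fun D _ => Subalgebra.algebraMap_mem _ c⟩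
  | add y z _ _ hy hz =>
    obtain ⟨B₁, h1⟩ := hy
    obtain ⟨B₂, h2⟩ := hz
    exact ⟨max B₁ B₂, fun D hD => add_mem
      (h1 D fun q hq hqD => (hD q hq hqD).imp_right fun h => (le_max_left _ _).trans_lt h)
      (h2 D fun q hq hqD => (hD q hq hqD).imp_right fun h => (le_max_right _ _).trans_lt h)⟩
  | mul y z _ _ hy hz =>
    obtain ⟨B₁, h1⟩ := hy
    obtain ⟨B₂, h2⟩ := hz
    exact ⟨max B₁ B₂, fun D hD => mul_mem
      (h1 D fun q hq hqD => (hD q hq hqD).imp_right fun h => (le_max_left _ _).trans_lt h)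
      (h2 D fun q hq hqD => (hD q hq hqD).imp_right fun h => (le_max_right _ _).trans_lt h)⟩

theorem two_pow_dvd_of_smul {J : Type*} [AddCommGroup J] {x : J} {n k : ℕ} (hn : 2 ^ n • x = 0)
    (hk : 2 ^ k • x ≠ 0) {z : ℤ} (hz : z • x = 0) : (2 : ℤ) ^ k ∣ z := by
  have h1 : addOrderOf x ∣ 2 ^ n := addOrderOf_dvd_of_nsmul_eq_zero hn
  obtain ⟨j, -, hj⟩ := (Nat.dvd_prime_pow Nat.prime_two).mp h1
  have h2 : k < j := by
    by_contra hle
    apply hk
    have h3 : addOrderOf x ∣ 2 ^ k := by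
      rw [hj]
      exact pow_dvd_pow 2 (not_lt.mp hle)
    exact addOrderOf_dvd_iff_nsmul_eq_zero.mp h3
  have h3 : ((addOrderOf x : ℕ) : ℤ) ∣ z := addOrderOf_dvd_iff_zsmul_eq_zero.mpr hz
  rw [hj] at h3
  refine (pow_dvd_pow 2 h2.le).trans ?_
  exact_mod_cast h3

theorem Has.mono {N D : ℕ} [NeZero N] {a : ℕ → ℤ} {e e' : ℕ} (he : e' ≤ e) (h : Has N D a e) :
    Has N D a e' := by
  obtain ⟨n, x, hx, hne⟩ := h
  refine ⟨n, x, hx, fun h0 => hne ?_⟩
  obtain ⟨k, rfl⟩ := Nat.exists_eq_add_of_le he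
  rw [add_comm, pow_add, mul_smul, h0]
  exact nsmul_zero _

/-- the infinite family of congruences -/
def Fam (W : WeierstrassCurve ℤ) (B : ℕ) : Prop :=
  ∀ s : ℕ, ∃ m, s ≤ m ∧ ∃ Q : Finset Nat.Primes, Q.card ≤ B ∧ (∀ q ∈ Q, CTy W m (q : ℕ)) ∧
    ∃ (N : ℕ) (_ : NeZero N), N = NW W * ∏ q ∈ Q, (q : ℕ) ∧
      Has N N (fun l => W.apOfModel l) s

theorem evalAt_eq_zero (h : ZCurve W) {B : ℕ} (hF : Fam W B) [NeZero (NW W)] {t : HeckeAlg}
    (ht : t ∈ heckeAway (NW W)) (h0 : CuspForm.heckeEvalForms (NW W) 2 t = 0) :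
    evalAt (fun l => W.apOfModel l) t = 0 := by
  obtain ⟨Bt, hBt⟩ := exists_bound_away ht
  have key : ∀ k : ℕ, (2 : ℤ) ^ k ∣ evalAt (fun l => W.apOfModel l) t := by
    intro k
    obtain ⟨m, hm, Q, hQB, hC, N, hN0, hN, hH⟩ := hF (k + B + Bt + 2)
    have hm0 : m ≠ 0 := by omega
    obtain ⟨n, x, hx, hxk⟩ := has_of_has h hm0 (NeZero.ne N) Q hC N hN dvd_rfl k
      (hH.mono (by omega))
    have htN : t ∈ heckeAway N := by
      apply hBt
      intro q hq hqN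
      rw [hN] at hqN
      rcases (Nat.Prime.dvd_mul hq).mp hqN with h1 | h1
      · exact Or.inl h1
      · right
        obtain ⟨r, hr, hqr⟩ := (Nat.Prime.prime hq).exists_mem_finset_dvd h1
        have h2 := (Nat.prime_dvd_prime_iff_eq hq r.2).mp hqr
        have h3 := Nat.le_of_dvd (Nat.succ_pos _) (cty_dvd h r.2 (hC r hr))
        have h4 : m < 2 ^ m := Nat.lt_two_pow_self
        omega
    have h1 := heckeJ_torsion h0 (pow_ne_zero n two_ne_zero) hx.1
    rw [heckeJ_eq_evalAt htN hx.2] at h1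
    exact two_pow_dvd_of_smul hx.1 hxk h1
  by_contra hne
  have h1 := key (evalAt (fun l => W.apOfModel l) t).natAbs
  have h2 := Int.natAbs_dvd_natAbs.mpr h1
  rw [Int.natAbs_pow] at h2
  have h3 := Nat.le_of_dvd (Int.natAbs_pos.mpr hne) h2
  have h4 := Nat.lt_two_pow_self (n := (evalAt (fun l => W.apOfModel l) t).natAbs)
  change 2 ^ _ ≤ _ at h3
  omega

theorem modular_of_fam (h : ZCurve W) {B : ℕ} (hF : Fam W B) :
    ∃ N : ℕ, 0 < N ∧ (∀ q : ℕ, q.Prime → q ∣ N → (q : ℤ) ∣ W.Δ) ∧ Squarefree N ∧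
      W.IsModularModelOfLevel N := by
  haveI : NeZero (NW W) := ⟨NW_ne_zero W⟩
  refine ⟨NW W, Nat.pos_of_ne_zero (NW_ne_zero W),
    fun q hq hqN => (dvd_NW_iff h.neg.ne hq).mp hqN, NW_squarefree W, ?_⟩
  obtain ⟨g, hg, hgq⟩ := exists_eigenform_of_relations_zero (M := NW W) (D := NW W)
    (fun l => W.apOfModel l) (fun t ht h0 => evalAt_eq_zero h hF ht h0) dvd_rfl
  exact ⟨g, hg, fun p hp _ hpN => hgq p hp hpN⟩

end Fermat.Agent.H09.Z6
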